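/-
(T3-B) for S58 (helper10): the coefficient embedding `iota` into a complete `lam`-adic DVR, for ANY
prime `lam`, with NO Schur/Hensel argument.

`g` a normalised eigenform of level `M`.  There is a finite DVR extension `𝒪` of `ℤ_[lam]` (complete,
finite residue field, characteristic `0`, `lam ∈ 𝔪`) and an INJECTIVE ring homomorphism
`iota₁ : (eigenChar hg ∅).range →+* 𝒪` from the ring generated by ALL Hecke eigenvalues of `g`
(`T_ℓ`, `ℓ ∤ M`, and `U_q`, `q ∣ M`).  Consequently, for every finite `S ⊇ {q ∣ M}`, the eigencharacter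
`chig := eigenChar hg S` of the Hecke algebra away from `S` (which satisfies the frozen hypothesis
`hchig` of S35/S36 by `eigenChar_T`) has an injective `iota : chig.range →+* 𝒪`, and `iota` maps an
eigenvalue `a_ℓ(g) = n ∈ ℤ` to `(n : 𝒪)`.  So S35/S36 can be applied with `O' := 𝒪` for every `S`
simultaneously (same `𝒪`, compatible `iota`'s).
-/
import Mathlib
import Fermat.Agent.S35.H10_EigenAll

set_option autoImplicit false

noncomputable section

namespace Fermat.Agent.EC.H10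

open CuspForm ModularFormClass CongruenceSubgroup IsLocalRing
open Fermat.Agent.S41.H85 Fermat.Agent.S35.H10

variable {M : ℕ} [NeZero M] {g : CuspForm (Gamma0 M) 2}

theorem finite_residueField_padicInt' (p : ℕ) [Fact p.Prime] : Finite (ResidueField ℤ_[p]) :=
  Finite.of_equiv (ZMod p) PadicInt.residueField.symm.toEquiv

/-- **(T3-B), master form.** -/
theorem exists_iota_padic (hg : g.IsNormalizedEigenform) (lam : ℕ) [Fact lam.Prime] :
    ∃ (𝒪 : Type) (_ : CommRing 𝒪) (_ : IsDomain 𝒪) (_ : IsDiscreteValuationRing 𝒪)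
      (_ : IsAdicComplete (maximalIdeal 𝒪) 𝒪) (_ : Finite (ResidueField 𝒪)) (_ : CharZero 𝒪),
      (lam : 𝒪) ∈ maximalIdeal 𝒪 ∧
      ∃ iota₁ : (eigenChar hg (∅ : Set ℕ)).range →+* 𝒪, Function.Injective iota₁ := by
  classical
  haveI : Finite (ResidueField ℤ_[lam]) := finite_residueField_padicInt' lam
  haveI : Module.Finite ℤ (eigenChar hg (∅ : Set ℕ)).range := finite_range_eigenChar hg
  have hj : Function.Injective (Int.castRingHom (eigenChar hg (∅ : Set ℕ)).range) := by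
    intro a b hab
    have h1 := congrArg (fun x : (eigenChar hg (∅ : Set ℕ)).range => (x : ℂ)) hab
    simpa using h1
  obtain ⟨𝒪, i1, i2, i3, i4, i5, i6, i7, i8, i9, hinj, iota₁, -⟩ :=
    exists_dvrExt_hom ℤ_[lam] (Int.castRingHom (eigenChar hg (∅ : Set ℕ)).range) hj
      (Int.castRingHom ℤ_[lam])
  have hint : ∀ x : (eigenChar hg (∅ : Set ℕ)).range, IsIntegral ℤ x :=
    fun x => Algebra.IsIntegral.isIntegral x
  refine ⟨𝒪, i1, i2, i3, i4, i5, i6, ?_, iota₁, injective_of_isIntegral_int hint iota₁⟩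
  have h0 : (lam : ℤ_[lam]) ∈ maximalIdeal ℤ_[lam] := by
    rw [mem_maximalIdeal, mem_nonunits_iff]
    exact PadicInt.p_nonunit
  have h1 : (algebraMap ℤ_[lam] 𝒪) (lam : ℤ_[lam]) ∈ maximalIdeal 𝒪 := by
    rw [mem_maximalIdeal, mem_nonunits_iff] at h0 ⊢
    intro hu
    exact h0 (isUnit_of_map_unit (algebraMap ℤ_[lam] 𝒪) _ hu)
  simpa using h1

theorem range_eigenChar_le (hg : g.IsNormalizedEigenform) (S : Set ℕ) :
    (eigenChar hg S).range ≤ (eigenChar hg (∅ : Set ℕ)).range := by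
  rintro _ ⟨t, rfl⟩
  exact ⟨inclS M S t, eigenChar_inclS hg S t⟩

/-- **(T3-B), consumer form**: one `𝒪` for all `S`; `iota_S` injective on `(eigenChar hg S).range`
and integer eigenvalues go to the corresponding integers. -/
theorem exists_iota_padic_all (hg : g.IsNormalizedEigenform) (lam : ℕ) [Fact lam.Prime] :
    ∃ (𝒪 : Type) (_ : CommRing 𝒪) (_ : IsDomain 𝒪) (_ : IsDiscreteValuationRing 𝒪)
      (_ : IsAdicComplete (maximalIdeal 𝒪) 𝒪) (_ : Finite (ResidueField 𝒪)) (_ : CharZero 𝒪),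
      (lam : 𝒪) ∈ maximalIdeal 𝒪 ∧
      ∃ iota : ∀ S : Set ℕ, (eigenChar hg S).range →+* 𝒪,
        (∀ S, Function.Injective (iota S)) ∧
        (∀ (S : Set ℕ) (ℓ : ℕ) (hℓ : ℓ.Prime) (hℓM : ¬ ℓ ∣ M) (hℓS : ℓ ∉ S) (n : ℤ),
          qCoeff g ℓ = (n : ℂ) →
          iota S ((eigenChar hg S).rangeRestrict (heckeAlgebra.T hℓ hℓM hℓS)) = (n : 𝒪)) ∧
        (∀ (S : Set ℕ) (x : (eigenChar hg S).range) (n : ℤ), (x : ℂ) = (n : ℂ) →
          iota S x = (n : 𝒪)) := by
  obtain ⟨𝒪, i1, i2, i3, i4, i5, i6, hlam, iota₁, hiota₁⟩ := exists_iota_padic hg lam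
  have hint : ∀ (S : Set ℕ) (x : (eigenChar hg S).range) (n : ℤ), (x : ℂ) = (n : ℂ) →
      (iota₁.comp (Subring.inclusion (range_eigenChar_le hg S))) x = (n : 𝒪) := by
    intro S x n hx
    have h1 : Subring.inclusion (range_eigenChar_le hg S) x
        = ((n : ℤ) : (eigenChar hg (∅ : Set ℕ)).range) := by
      apply Subtype.ext
      rw [Subring.coe_inclusion, hx]
      simp
    rw [RingHom.comp_apply, h1, map_intCast]
  refine ⟨𝒪, i1, i2, i3, i4, i5, i6, hlam,
    fun S => iota₁.comp (Subring.inclusion (range_eigenChar_le hg S)), ?_, ?_, hint⟩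
  · intro S
    exact hiota₁.comp (Subring.inclusion_injective _)
  · intro S ℓ hℓ hℓM hℓS n hn
    refine hint S _ n ?_
    have h4 : (((eigenChar hg S).rangeRestrict (heckeAlgebra.T hℓ hℓM hℓS) :
        (eigenChar hg S).range) : ℂ) = eigenChar hg S (heckeAlgebra.T hℓ hℓM hℓS) := rfl
    rw [h4, eigenChar_T hg hℓ hℓM hℓS, hn]

end Fermat.Agent.EC.H10
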