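import Mathlib
import Fermat.Prelude.Def_ModularForm_HeckeOperator
import Fermat.Prelude.Def_FLTPrelim_Modularity
import Fermat.Prelude.Thm_UpperHalfPlane_qCoeff_heckeT
import Fermat.Prelude.Thm_CongruenceSubgroup_one_mem_strictPeriods_Gamma0
import Fermat.Agent.S23.H85_DeltaN
import Fermat.Agent.S23.H2_Restrict

/-!
# (T3-D) part 1: the level raising maps `inclLevel` and `vq` on weight two cusp forms

* `inclLevel (h : M ∣ M') : CuspForm (Gamma0 M) 2 → CuspForm (Gamma0 M') 2` (same function);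
* `vq M q : CuspForm (Gamma0 M) 2 → CuspForm (Gamma0 (M * q)) 2`, `z ↦ f (q z)`;
* `qCoeff_inclLevel`, `qCoeff_vq`.
-/

set_option autoImplicit false

open UpperHalfPlane CongruenceSubgroup ModularForm Matrix Filter
open scoped MatrixGroups ModularForm Manifold Pointwise Real

namespace Fermat.Agent.EC.H13

noncomputable section

section Incl

lemma Gamma0_le_Gamma0_of_dvd {M M' : ℕ} (h : M ∣ M') : Gamma0 M' ≤ Gamma0 M := by
  intro γ hγ
  rw [Gamma0_mem] at hγ ⊢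
  have h1 : ((M' : ℕ) : ℤ) ∣ γ 1 0 := (ZMod.intCast_zmod_eq_zero_iff_dvd _ M').mp hγ
  exact (ZMod.intCast_zmod_eq_zero_iff_dvd _ M).mpr
    (dvd_trans (Int.natCast_dvd_natCast.mpr h) h1)

lemma Gamma0_map_le_of_dvd {M M' : ℕ} (h : M ∣ M') :
    (Gamma0 M').map (SpecialLinearGroup.mapGL ℝ) ≤ (Gamma0 M).map (SpecialLinearGroup.mapGL ℝ) :=
  Subgroup.map_mono (Gamma0_le_Gamma0_of_dvd h)

/-- (D1) A cusp form of level `M` viewed at a level `M'` divisible by `M`. -/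
def inclLevel {M M' : ℕ} (h : M ∣ M') (f : CuspForm (Gamma0 M) 2) : CuspForm (Gamma0 M') 2 :=
  Fermat.Agent.S23.H2.restrictCusp (Gamma0_map_le_of_dvd h) f

@[simp] lemma coe_inclLevel {M M' : ℕ} (h : M ∣ M') (f : CuspForm (Gamma0 M) 2) :
    (⇑(inclLevel h f) : ℍ → ℂ) = ⇑f := rfl

lemma inclLevel_apply {M M' : ℕ} (h : M ∣ M') (f : CuspForm (Gamma0 M) 2) (z : ℍ) :
    inclLevel h f z = f z := rfl

lemma qCoeff_inclLevel {M M' : ℕ} (h : M ∣ M') (f : CuspForm (Gamma0 M) 2) (n : ℕ) :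
    ModularFormClass.qCoeff (inclLevel h f) n = ModularFormClass.qCoeff f n := rfl

end Incl

section Vq

variable (M q : ℕ) [NeZero q]

lemma Gamma0_mul_le_conj :
    (Gamma0 (M * q)).map (SpecialLinearGroup.mapGL ℝ) ≤
      ConjAct.toConjAct (heckeDiagMatrix q)⁻¹ •
        ((Gamma0 M).map (SpecialLinearGroup.mapGL ℝ) : Subgroup (GL (Fin 2) ℝ)) := by
  rintro _ ⟨γ, hγ, rfl⟩
  rw [Subgroup.mem_pointwise_smul_iff_inv_smul_mem, ConjAct.toConjAct_inv, inv_inv,
    ConjAct.smul_def, ConjAct.ofConjAct_toConjAct]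
  have hγ' : ((γ 1 0 : ℤ) : ZMod (M * q)) = 0 := Gamma0_mem.mp hγ
  obtain ⟨c', hc⟩ : ((M * q : ℕ) : ℤ) ∣ γ 1 0 :=
    (ZMod.intCast_zmod_eq_zero_iff_dvd _ (M * q)).mp hγ'
  have hc' : γ 1 0 = (q : ℤ) * ((M : ℤ) * c') := by
    rw [hc]; push_cast; ring
  refine ⟨Fermat.Agent.S23.H85.conjMat q γ ((M : ℤ) * c') hc', ?_, ?_⟩
  · rw [SetLike.mem_coe, Gamma0_mem]
    simp [Fermat.Agent.S23.H85.conjMat]
  · rw [eq_mul_inv_iff_mul_eq]
    exact Fermat.Agent.S23.H85.conjMat_mul q γ _ hc'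

/-- `q * f(q z)` as a cusp form of level `Γ₀(M q)`: the translate of `f` by `diag(q,1)`. -/
def vqAux (f : CuspForm (Gamma0 M) 2) :
    CuspForm ((Gamma0 (M * q)).map (SpecialLinearGroup.mapGL ℝ)) 2 where
  toFun := (f : ℍ → ℂ) ∣[(2 : ℤ)] heckeDiagMatrix q
  slash_action_eq' γ hγ :=
    (CuspForm.translate f (heckeDiagMatrix q)).slash_action_eq' γ (Gamma0_mul_le_conj M q hγ)
  holo' := (CuspForm.translate f (heckeDiagMatrix q)).holo'
  zero_at_cusps' hc :=
    (CuspForm.translate f (heckeDiagMatrix q)).zero_at_cusps' (hc.mono (Gamma0_mul_le_conj M q))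

lemma vqAux_apply (f : CuspForm (Gamma0 M) 2) (z : ℍ) :
    vqAux M q f z = (q : ℂ) * f (heckeDiagMatrix q • z) := by
  change ((f : ℍ → ℂ) ∣[(2 : ℤ)] heckeDiagMatrix q) z = _
  rw [slash_heckeDiagMatrix_apply 2 (NeZero.ne q)]
  norm_num

/-- (D2) `z ↦ f (q z)` as a cusp form of weight `2` and level `Γ₀(M q)`. -/
def vq (f : CuspForm (Gamma0 M) 2) : CuspForm (Gamma0 (M * q)) 2 :=
  ((q : ℂ))⁻¹ • vqAux M q f

lemma vq_apply (f : CuspForm (Gamma0 M) 2) (z : ℍ) :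
    vq M q f z = f (heckeDiagMatrix q • z) := by
  have hq : (q : ℂ) ≠ 0 := Nat.cast_ne_zero.mpr (NeZero.ne q)
  change ((q : ℂ))⁻¹ • vqAux M q f z = _
  rw [vqAux_apply, smul_eq_mul, inv_mul_cancel_left₀ hq]

lemma coe_smul_heckeDiag (z : ℍ) : ((heckeDiagMatrix q • z : ℍ) : ℂ) = (q : ℂ) * z :=
  coe_heckeDiagMatrix_smul (NeZero.ne q) z

open P2MW.S_UpperHalfPlane_qCoeff_heckeT.M4cP1W2 in
/-- The `q`-expansion of `f(q z)`: the `n`-th coefficient is `a_{n/q}(f)` if `q ∣ n`, else `0`. -/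
theorem qCoeff_vq (f : CuspForm (Gamma0 M) 2) (n : ℕ) :
    ModularFormClass.qCoeff (vq M q f) n =
      if q ∣ n then ModularFormClass.qCoeff f (n / q) else 0 := by
  have hq : q ≠ 0 := NeZero.ne q
  have h1 := CongruenceSubgroup.one_mem_strictPeriods_Gamma0 M
  have hΓ := CongruenceSubgroup.one_mem_strictPeriods_Gamma0 (M * q)
  have hper : Function.Periodic ((f : ℍ → ℂ) ∘ ofComplex) 1 := by
    simpa using SlashInvariantFormClass.periodic_comp_ofComplex f h1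
  have hhol : MDiff (f : ℍ → ℂ) := ModularFormClass.holo _
  have : Fact (IsCusp OnePoint.infty
      ((Gamma0 M).map (SpecialLinearGroup.mapGL ℝ) : Subgroup (GL (Fin 2) ℝ))) :=
    ⟨Subgroup.isCusp_of_mem_strictPeriods one_pos h1⟩
  have hbdd : IsBoundedAtImInfty (f : ℍ → ℂ) := ModularFormClass.bdd_at_infty f
  have hsum : ∀ τ : ℍ, HasSum (fun m : ℕ =>
      (if q ∣ m then ModularFormClass.qCoeff f (m / q) else 0) •
        Function.Periodic.qParam 1 τ ^ m) (vq M q f τ) := by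
    intro τ
    have := hasSum_diag hq hper hhol hbdd 1 τ
    rw [vq_apply]
    simp only [sub_self, zpow_zero, one_mul] at this
    convert this using 2 with m
    · split_ifs <;> simp
  exact (qExpansion_coeff_unique' (ModularFormClass.holo (vq M q f)).continuous
    (ModularFormClass.analyticAt_cuspFunction_zero (vq M q f) one_pos hΓ) hsum n).symm

end Vq

end

end Fermat.Agent.EC.H13
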