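import Mathlib
import Fermat.Agent.EC.H13_StabiliseVq

/-!
# (T3-D) part 2: `q`-stabilisation of a normalised eigenform

For a normalised eigenform `g` of level `M` and a prime `q ∤ M`, the form
`g(z) - β g(q z)` with `α + β = a_q(g)`, `α β = q` is a normalised eigenform (in the weak sense of
the prelude `CuspForm.IsNormalizedEigenform`) of level `M q`, with the same prime coefficients
away from `q` and with `a_q = α`.

* `IsEigenSeq M a` : the four coefficient axioms for a sequence `a : ℕ → ℂ`;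
* `IsEigenSeq.stabilise` : pure coefficient algebra;
* `stabilise_prime`, `stabilise_prime_root` : one prime;
* `stabilise_finset`, `stabilise_level` : a finite set of primes.
-/

set_option autoImplicit false

open UpperHalfPlane CongruenceSubgroup ModularForm Matrix Filter
open scoped MatrixGroups ModularForm Manifold Pointwise Real

namespace Fermat.Agent.EC.H13

noncomputable section

section Algebra

/-- The four coefficient axioms of `CuspForm.IsNormalizedEigenform` for a bare sequence. -/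
structure IsEigenSeq (M : ℕ) (a : ℕ → ℂ) : Prop where
  one : a 1 = 1
  mul_of_coprime : ∀ m n : ℕ, m.Coprime n → a (m * n) = a m * a n
  prime_pow_of_not_dvd : ∀ p r : ℕ, p.Prime → ¬ p ∣ M →
    a (p ^ (r + 2)) = a p * a (p ^ (r + 1)) - p * a (p ^ r)
  prime_pow_of_dvd : ∀ p r : ℕ, p.Prime → p ∣ M →
    a (p ^ (r + 2)) = a p * a (p ^ (r + 1))

lemma isEigenSeq_iff {N : ℕ} (f : CuspForm (Gamma0 N) 2) :
    f.IsNormalizedEigenform ↔ IsEigenSeq N (fun n => ModularFormClass.qCoeff f n) :=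
  ⟨fun h => ⟨h.qCoeff_one, h.qCoeff_mul_of_coprime, h.qCoeff_prime_pow_of_not_dvd,
    h.qCoeff_prime_pow_of_dvd⟩,
   fun h => ⟨h.one, h.mul_of_coprime, h.prime_pow_of_not_dvd, h.prime_pow_of_dvd⟩⟩

/-- The stabilised sequence `b n = a n - β a (n / q)` (second term only if `q ∣ n`). -/
def stabSeq (a : ℕ → ℂ) (q : ℕ) (β : ℂ) (n : ℕ) : ℂ :=
  a n - β * (if q ∣ n then a (n / q) else 0)

variable {M : ℕ} {a : ℕ → ℂ} {q : ℕ} {α β : ℂ}

lemma stabSeq_of_not_dvd {n : ℕ} (h : ¬ q ∣ n) : stabSeq a q β n = a n := by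
  simp [stabSeq, h]

lemma IsEigenSeq.pow_sub (ha : IsEigenSeq M a) (hq : q.Prime) (hqM : ¬ q ∣ M)
    (hsum : α + β = a q) (hprod : α * β = q) (k : ℕ) :
    a (q ^ (k + 1)) - β * a (q ^ k) = α ^ (k + 1) := by
  induction k with
  | zero =>
    simp only [zero_add, pow_one, pow_zero, ha.one, mul_one]
    rw [← hsum]; ring
  | succ k ih =>
    rw [ha.prime_pow_of_not_dvd q k hq hqM, ← hsum, ← hprod, pow_succ α (k + 1), ← ih]
    ring

lemma IsEigenSeq.stabSeq_pow_mul (ha : IsEigenSeq M a) (hq : q.Prime) (hqM : ¬ q ∣ M)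
    (hsum : α + β = a q) (hprod : α * β = q) (k : ℕ) {n₀ : ℕ} (hn₀ : ¬ q ∣ n₀) :
    stabSeq a q β (q ^ k * n₀) = α ^ k * a n₀ := by
  have hcop : ∀ j : ℕ, (q ^ j).Coprime n₀ := fun j =>
    Nat.Coprime.pow_left j ((Nat.Prime.coprime_iff_not_dvd hq).mpr hn₀)
  cases k with
  | zero => simp [stabSeq_of_not_dvd hn₀]
  | succ k =>
    have hdvd : q ∣ q ^ (k + 1) * n₀ := Dvd.dvd.mul_right (dvd_pow_self q (Nat.succ_ne_zero k)) n₀
    have hdiv : q ^ (k + 1) * n₀ / q = q ^ k * n₀ := by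
      rw [pow_succ, mul_assoc, mul_comm q n₀, ← mul_assoc]
      exact Nat.mul_div_cancel _ hq.pos
    rw [stabSeq, if_pos hdvd, hdiv, ha.mul_of_coprime _ _ (hcop (k + 1)),
      ha.mul_of_coprime _ _ (hcop k), ← ha.pow_sub hq hqM hsum hprod k]
    ring

/-- The coefficient algebra of `q`-stabilisation. -/
theorem IsEigenSeq.stabilise (ha : IsEigenSeq M a) (hq : q.Prime) (hqM : ¬ q ∣ M)
    (hsum : α + β = a q) (hprod : α * β = q) : IsEigenSeq (M * q) (stabSeq a q β) := by
  have key := fun (k : ℕ) {n₀ : ℕ} (hn₀ : ¬ q ∣ n₀) =>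
    ha.stabSeq_pow_mul hq hqM hsum hprod k hn₀
  have hq1 : ¬ q ∣ 1 := hq.one_lt.ne' ∘ Nat.dvd_one.mp
  have hone : stabSeq a q β 1 = 1 := by
    rw [stabSeq_of_not_dvd hq1, ha.one]
  have hqpow : ∀ j : ℕ, stabSeq a q β (q ^ j) = α ^ j := fun j => by
    have := key j hq1
    rwa [mul_one, ha.one, mul_one] at this
  have hppow : ∀ p : ℕ, p.Prime → p ≠ q → ∀ j : ℕ, stabSeq a q β (p ^ j) = a (p ^ j) :=
    fun p hp hpq j => stabSeq_of_not_dvd fun h =>
      hpq ((Nat.prime_dvd_prime_iff_eq hq hp).mp (hq.dvd_of_dvd_pow h)).symm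
  refine ⟨hone, ?_, ?_, ?_⟩
  · intro m n hmn
    rcases eq_or_ne m 0 with rfl | hm
    · obtain rfl : n = 1 := by simpa using hmn
      rw [mul_one, hone, mul_one]
    rcases eq_or_ne n 0 with rfl | hn
    · obtain rfl : m = 1 := by simpa using hmn
      rw [one_mul, hone, one_mul]
    obtain ⟨i, m₀, hm₀, rfl⟩ := Nat.exists_eq_pow_mul_and_not_dvd hm q hq.ne_one
    obtain ⟨j, n₀, hn₀, rfl⟩ := Nat.exists_eq_pow_mul_and_not_dvd hn q hq.ne_one
    have hcop : m₀.Coprime n₀ :=
      Nat.Coprime.coprime_dvd_left (Dvd.intro_left _ rfl)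
        (Nat.Coprime.coprime_dvd_right (Dvd.intro_left _ rfl) hmn)
    have hmn₀ : ¬ q ∣ m₀ * n₀ := fun h => (hq.dvd_mul.mp h).elim hm₀ hn₀
    have e : q ^ i * m₀ * (q ^ j * n₀) = q ^ (i + j) * (m₀ * n₀) := by ring
    rw [e, key (i + j) hmn₀, key i hm₀, key j hn₀, ha.mul_of_coprime _ _ hcop]
    ring
  · intro p r hp hpMq
    have hpq : p ≠ q := fun h => hpMq (h ▸ Dvd.intro_left M rfl)
    have hpM : ¬ p ∣ M := fun h => hpMq (Dvd.dvd.mul_right h q)
    rw [hppow p hp hpq, hppow p hp hpq, hppow p hp hpq, ← pow_one p, hppow p hp hpq, pow_one]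
    exact ha.prime_pow_of_not_dvd p r hp hpM
  · intro p r hp hpMq
    rcases (hp.dvd_mul.mp hpMq) with hpM | hpq'
    · have hpq : p ≠ q := fun h => hqM (h ▸ hpM)
      rw [hppow p hp hpq, hppow p hp hpq, ← pow_one p, hppow p hp hpq, pow_one]
      exact ha.prime_pow_of_dvd p r hp hpM
    · obtain rfl : p = q := (Nat.prime_dvd_prime_iff_eq hp hq).mp hpq'
      have h1 := hqpow 1
      rw [pow_one] at h1
      rw [hqpow, hqpow, h1]
      ring

end Algebra

section Forms

variable {M : ℕ}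

/-- `g(z) - β g(q z)` as a cusp form of level `M q`. -/
def stabForm (q : ℕ) [NeZero q] (β : ℂ) (g : CuspForm (Gamma0 M) 2) : CuspForm (Gamma0 (M * q)) 2 :=
  inclLevel (Dvd.intro q rfl) g - β • vq M q g

lemma qCoeff_stabForm (q : ℕ) [NeZero q] (β : ℂ) (g : CuspForm (Gamma0 M) 2) (n : ℕ) :
    ModularFormClass.qCoeff (stabForm q β g) n =
      stabSeq (fun n => ModularFormClass.qCoeff g n) q β n := by
  have hΓ := CongruenceSubgroup.one_mem_strictPeriods_Gamma0 (M * q)
  have h1 : ModularFormClass.qCoeff (stabForm q β g) n =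
      (qExpansion 1 (⇑(inclLevel (Dvd.intro q rfl) g : CuspForm (Gamma0 (M * q)) 2) -
        β • ⇑(vq M q g))).coeff n := rfl
  rw [h1]
  have h2 := ModularForm.qExpansion_sub (h := 1) one_pos hΓ
    (inclLevel (Dvd.intro q rfl) g : CuspForm (Gamma0 (M * q)) 2) (β • vq M q g)
  have h3 := ModularForm.qExpansion_smul (h := 1) one_pos hΓ β (vq M q g)
  have h4 : (⇑(β • vq M q g) : ℍ → ℂ) = β • ⇑(vq M q g) := rfl
  rw [h4] at h2
  rw [h2, h3, map_sub, PowerSeries.coeff_smul, smul_eq_mul]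
  have h5 := qCoeff_vq M q g n
  have h6 := qCoeff_inclLevel (M' := M * q) (Dvd.intro q rfl) g n
  unfold ModularFormClass.qCoeff at h5 h6
  rw [h5, h6]
  rfl

/-- (D3) `q`-stabilisation of a normalised eigenform at a prime `q` not dividing the level,
with the new `q`-th coefficient a root of `X² - a_q X + q`. -/
theorem stabilise_prime_root {g : CuspForm (Gamma0 M) 2} (hg : g.IsNormalizedEigenform)
    {q : ℕ} (hq : q.Prime) (hqM : ¬ q ∣ M) :
    ∃ f' : CuspForm (Gamma0 (M * q)) 2, f'.IsNormalizedEigenform ∧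
      (∀ n : ℕ, ¬ q ∣ n → ModularFormClass.qCoeff f' n = ModularFormClass.qCoeff g n) ∧
      (ModularFormClass.qCoeff f' q) ^ 2 -
        ModularFormClass.qCoeff g q * ModularFormClass.qCoeff f' q + q = 0 := by
  have : NeZero q := ⟨hq.ne_zero⟩
  set a : ℕ → ℂ := fun n => ModularFormClass.qCoeff g n with ha_def
  have ha : IsEigenSeq M a := (isEigenSeq_iff g).mp hg
  obtain ⟨s, hs⟩ : ∃ s : ℂ, (a q) ^ 2 - 4 * q = s * s := IsAlgClosed.exists_eq_mul_self _
  set α : ℂ := (a q + s) / 2 with hα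
  set β : ℂ := (a q - s) / 2 with hβ
  have hsum : α + β = a q := by rw [hα, hβ]; ring
  have hprod : α * β = q := by
    have : α * β = ((a q) ^ 2 - s * s) / 4 := by rw [hα, hβ]; ring
    rw [this, ← hs]; ring
  have hb := ha.stabilise hq hqM hsum hprod
  have hco : ∀ n, ModularFormClass.qCoeff (stabForm q β g) n = stabSeq a q β n :=
    fun n => qCoeff_stabForm q β g n
  refine ⟨stabForm q β g, (isEigenSeq_iff _).mpr ?_, ?_, ?_⟩
  · convert hb using 1
    funext n
    exact hco n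
  · intro n hn
    rw [hco, stabSeq_of_not_dvd hn]
  · have hq1 : ¬ q ∣ 1 := hq.one_lt.ne' ∘ Nat.dvd_one.mp
    have h1 := ha.stabSeq_pow_mul hq hqM hsum hprod 1 hq1
    rw [pow_one, mul_one, pow_one, ha.one, mul_one] at h1
    rw [hco, h1]
    change α ^ 2 - a q * α + q = 0
    rw [← hsum, ← hprod]; ring

/-- (D3) `q`-stabilisation of a normalised eigenform at a prime `q` not dividing the level. -/
theorem stabilise_prime {g : CuspForm (Gamma0 M) 2} (hg : g.IsNormalizedEigenform)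
    {q : ℕ} (hq : q.Prime) (hqM : ¬ q ∣ M) :
    ∃ f' : CuspForm (Gamma0 (M * q)) 2, f'.IsNormalizedEigenform ∧
      ∀ l : ℕ, l.Prime → l ≠ q → ModularFormClass.qCoeff f' l = ModularFormClass.qCoeff g l := by
  obtain ⟨f', hf', h, -⟩ := stabilise_prime_root hg hq hqM
  exact ⟨f', hf', fun l hl hlq => h l fun hql =>
    hlq ((Nat.prime_dvd_prime_iff_eq hq hl).mp hql).symm⟩

/-- (D4) Stabilisation at a finite set of primes not dividing the level, with the level given up
to a propositional equality (to avoid transports at the call site). -/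
theorem stabilise_level {g : CuspForm (Gamma0 M) 2} (hg : g.IsNormalizedEigenform)
    (s : Finset ℕ) (hs : ∀ q ∈ s, q.Prime ∧ ¬ q ∣ M) :
    ∀ N : ℕ, N = M * ∏ q ∈ s, q →
      ∃ f' : CuspForm (Gamma0 N) 2, f'.IsNormalizedEigenform ∧
        ∀ n : ℕ, (∀ q ∈ s, ¬ q ∣ n) →
          ModularFormClass.qCoeff f' n = ModularFormClass.qCoeff g n := by
  classical
  induction s using Finset.induction_on with
  | empty =>
    intro N hN
    obtain rfl : N = M := by simpa using hN
    exact ⟨g, hg, fun _ _ => rfl⟩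
  | insert q s hqs ih =>
    intro N hN
    have hs' : ∀ q ∈ s, q.Prime ∧ ¬ q ∣ M := fun p hp => hs p (Finset.mem_insert_of_mem hp)
    obtain ⟨hq, hqM⟩ := hs q (Finset.mem_insert_self q s)
    obtain ⟨f₀, hf₀, h₀⟩ := ih hs' (M * ∏ p ∈ s, p) rfl
    have hqN₀ : ¬ q ∣ M * ∏ p ∈ s, p := by
      intro h
      rcases hq.dvd_mul.mp h with h | h
      · exact hqM h
      · obtain ⟨p, hp, hqp⟩ := (Prime.dvd_finsetProd_iff hq.prime _).mp h
        have : q = p := (Nat.prime_dvd_prime_iff_eq hq (hs' p hp).1).mp hqp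
        exact hqs (this ▸ hp)
    obtain rfl : N = (M * ∏ p ∈ s, p) * q := by
      rw [hN, Finset.prod_insert hqs]; ring
    obtain ⟨f', hf', h', -⟩ := stabilise_prime_root hf₀ hq hqN₀
    refine ⟨f', hf', fun n hn => ?_⟩
    rw [h' n (hn q (Finset.mem_insert_self q s)),
      h₀ n fun p hp => hn p (Finset.mem_insert_of_mem hp)]

/-- (D4) Stabilisation at a finite set of primes not dividing the level. -/
theorem stabilise_finset {g : CuspForm (Gamma0 M) 2} (hg : g.IsNormalizedEigenform)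
    (s : Finset ℕ) (hs : ∀ q ∈ s, q.Prime ∧ ¬ q ∣ M) :
    ∃ f' : CuspForm (Gamma0 (M * ∏ q ∈ s, q)) 2, f'.IsNormalizedEigenform ∧
      ∀ l : ℕ, l.Prime → l ∉ s →
        ModularFormClass.qCoeff f' l = ModularFormClass.qCoeff g l := by
  obtain ⟨f', hf', h⟩ := stabilise_level hg s hs _ rfl
  refine ⟨f', hf', fun l hl hls => h l fun q hqs hql => ?_⟩
  have : q = l := (Nat.prime_dvd_prime_iff_eq (hs q hqs).1 hl).mp hql
  exact hls (this ▸ hqs)

end Forms

end

end Fermat.Agent.EC.H13
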