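/-
helper28 — S58 row (T3): **the interface file of the chain `S35 + S36 + (EC) ⟹ S58`.**

* `ECInputs W` : the five facts about the torsion Galois modules `M_m := (W_ℚ)(ℚ̄)[m]`
  (prelude action `instDistribMulActionTorsionBy`) of an integral Weierstrass curve `W` that the
  chain uses.  No Tate module, no rank, no determinant, no Weil pairing: only operator
  identities on the finite groups `M_m`.
* `IsAttachedAway W ρ T0` : `ρ` has the Frobenius characteristic polynomials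
  `X² − a_ℓ(W) X + ℓ` at all primes `ℓ ∉ T0`.
* `SpecA`, `SpecC3a`, `SpecC3b`, `SpecC3c`, `SpecD`, `SpecF`, `SpecS35` : the statements of the
  rows of `S58 CHAIN v1`, as `Prop`s, so that each row is proved as `theorem _ : H28.SpecX` in
  its own file and the assembly `H28_T3Assembly` is checked against exactly these shapes.
-/
import Mathlib
import Fermat.Prelude.Def_FLTPrelim_Modularity
import Fermat.Prelude.Def_FLTPrelim_ModularRep
import Fermat.Prelude.Def_FLTPrelim_GaloisRep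
import Fermat.Prelude.Def_FLTPrelim_Ramification
import Fermat.Prelude.Def_EllipticCurve_FrobeniusTrace
import Fermat.Prelude.Def_CuspForm_Newforms
import Fermat.Prelude.Def_GaloisRep_Adic
import Fermat.Prelude.Def_GaloisRep_LocalConditions
import Fermat.Prelude.Def_WeierstrassCurve_ConductorLevel

set_option autoImplicit false

noncomputable section

namespace Fermat.Agent.EC.H28

open WeierstrassCurve WeierstrassCurve.Affine WeierstrassCurve.Affine.Point Polynomial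

local notation "Qbar" => AlgebraicClosure ℚ
local notation "GQ" => (AlgebraicClosure ℚ ≃ₐ[ℚ] AlgebraicClosure ℚ)

/-- The rational curve attached to an integral Weierstrass model. -/
abbrev EQ (W : WeierstrassCurve ℤ) : WeierstrassCurve ℚ := W.map (Int.castRingHom ℚ)

/-- The points of `W_ℚ` over `ℚ̄`. -/
abbrev Pts (W : WeierstrassCurve ℤ) : Type := ((EQ W : Affine ℚ)⁄Qbar).Point

/-- The `m`-torsion module `(W_ℚ)(ℚ̄)[m]` with the prelude Galois action. -/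
abbrev Tors (W : WeierstrassCurve ℤ) (m : ℕ) : Type :=
  Submodule.torsionBy ℤ (Pts W) m

/-- **The (EC) interface of the (T3) chain.** -/
structure ECInputs (W : WeierstrassCurve ℤ) : Prop where
  /-- (E1) `M_{λⁿ}` is a faithful `ℤ/λⁿ`-module. -/
  faithful : ∀ lam : ℕ, lam.Prime → ∀ (n : ℕ) (z : ℤ),
    (∀ P : Tors W (lam ^ n), z • P = 0) → ((lam ^ n : ℕ) : ℤ) ∣ z
  /-- (E2) the action on `M_m` factors through a finite level. -/
  finiteLevel : ∀ m : ℕ, 0 < m → ∃ L : IntermediateField ℚ Qbar, FiniteDimensional ℚ L ∧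
    ∀ σ : GQ, (∀ x ∈ L, σ x = x) → ∀ P : Tors W m, σ • P = P
  /-- (E3) Hasse–Weil operator identity at a good prime `ℓ ∤ m`, `m` odd. -/
  hw : ∀ l : ℕ, l.Prime → ¬ (l : ℤ) ∣ W.Δ → ∀ m : ℕ, Odd m → ¬ l ∣ m →
    ∀ A : ValuationSubring Qbar, A.LiesOverPrime l → ∀ φ : GQ, A.IsFrobeniusAt φ l →
      ∀ P : Tors W m, φ • φ • P - W.apOfModel l • φ • P + (l : ℤ) • P = 0
  /-- (E4) inertia at a good prime `q ∤ m` acts trivially on `M_m`, `m` odd. -/
  inertiaGood : ∀ q : ℕ, q.Prime → ¬ (q : ℤ) ∣ W.Δ → ∀ m : ℕ, Odd m → ¬ q ∣ m →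
    ∀ A : ValuationSubring Qbar, A.LiesOverPrime q → ∀ σ ∈ A.inertiaSubgroupIn ℚ,
      ∀ P : Tors W m, σ • P = P
  /-- (E5') at a multiplicative prime `q ∤ m` (`m` odd) some point of exact order `m` is fixed
  by the inertia group. -/
  inertiaMult : ∀ q : ℕ, q.Prime → (q : ℤ) ∣ W.Δ → ¬ (q : ℤ) ∣ W.c₄ → ∀ m : ℕ, Odd m → ¬ q ∣ m →
    ∀ A : ValuationSubring Qbar, A.LiesOverPrime q →
      ∃ P : Pts W, addOrderOf P = m ∧ ∀ σ ∈ A.inertiaSubgroupIn ℚ, σ • P = P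

/-- `ρ` has the Frobenius characteristic polynomials of `W` at all primes outside `T0`. -/
def IsAttachedAway (W : WeierstrassCurve ℤ) {O : Type} [CommRing O] [IsLocalRing O]
    (ρ : GaloisRepAdic O) (T0 : Finset ℕ) : Prop :=
  ∀ l : ℕ, l.Prime → l ∉ T0 → ∀ A : ValuationSubring Qbar, A.LiesOverPrime l →
    ∀ φ : GQ, A.IsFrobeniusAt φ l →
      LinearMap.charpoly (ρ.ρ φ) = X ^ 2 - C ((W.apOfModel l : ℤ) : O) * X + C ((l : ℕ) : O)

/-- **Row (A)**: a normalised eigenform has a newform (prelude sense) of some level `N0 ∣ N`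
with the same eigenvalues at all primes not dividing `N`. -/
def SpecA : Prop :=
  ∀ (N : ℕ) (_ : N ≠ 0) (f : CuspForm (CongruenceSubgroup.Gamma0 N) 2),
    f.IsNormalizedEigenform →
    ∃ (N0 : ℕ) (_ : N0 ∣ N) (g : CuspForm (CongruenceSubgroup.Gamma0 N0) 2), g.IsNewform ∧
      ∀ l : ℕ, l.Prime → ¬ l ∣ N → ModularFormClass.qCoeff g l = ModularFormClass.qCoeff f l

/-- **Row (C3a)**: a representation with the Frobenius charpolys of a curve `W` is unipotent on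
inertia at every prime `q ≠ λ` where `W` is semistable. -/
def SpecC3a : Prop :=
  ∀ (W : WeierstrassCurve ℤ) (_ : W.Δ ≠ 0) (_ : ECInputs W)
    (O : Type) [CommRing O] [IsDomain O] [IsDiscreteValuationRing O] [CharZero O]
    (lam : ℕ) (_ : lam.Prime) (_ : lam ≠ 2) (_ : (lam : O) ∈ IsLocalRing.maximalIdeal O)
    (ρ : GaloisRepAdic O) (T0 : Finset ℕ) (_ : lam ∈ T0)
    (_ : ∀ l : ℕ, l.Prime → (l : ℤ) ∣ W.Δ → l ∈ T0) (_ : IsAttachedAway W ρ T0)
    (q : ℕ) (_ : q.Prime) (_ : q ≠ lam) (_ : (q : ℤ) ∣ W.Δ → ¬ (q : ℤ) ∣ W.c₄),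
    ρ.IsUnipotentOnInertiaAt q

/-- **Row (C3b)**: at a good prime `q ≠ λ` of `W` the Frobenius charpoly of such a
representation is not `(X ∓ 1)(X ∓ q)`. -/
def SpecC3b : Prop :=
  ∀ (W : WeierstrassCurve ℤ) (_ : W.Δ ≠ 0) (_ : ECInputs W)
    (O : Type) [CommRing O] [IsDomain O] [IsDiscreteValuationRing O] [CharZero O]
    (lam : ℕ) (_ : lam.Prime) (_ : lam ≠ 2) (_ : (lam : O) ∈ IsLocalRing.maximalIdeal O)
    (ρ : GaloisRepAdic O) (T0 : Finset ℕ) (_ : lam ∈ T0)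
    (_ : ∀ l : ℕ, l.Prime → (l : ℤ) ∣ W.Δ → l ∈ T0) (_ : IsAttachedAway W ρ T0)
    (q : ℕ) (_ : q.Prime) (_ : q ≠ lam) (_ : ¬ (q : ℤ) ∣ W.Δ)
    (A : ValuationSubring Qbar) (_ : A.LiesOverPrime q) (σ : GQ) (_ : A.IsFrobeniusAt σ q),
    ¬ (LinearMap.charpoly (ρ.ρ σ) = X ^ 2 - C ((q : O) + 1) * X + C ((q : O)) ∨
       LinearMap.charpoly (ρ.ρ σ) = X ^ 2 + C ((q : O) + 1) * X + C ((q : O)))

/-- **Row (C3c)**: at a good prime `l ≠ λ` of `W` the trace of Frobenius of such a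
representation is `a_l(W)`. -/
def SpecC3c : Prop :=
  ∀ (W : WeierstrassCurve ℤ) (_ : W.Δ ≠ 0) (_ : ECInputs W)
    (O : Type) [CommRing O] [IsDomain O] [IsDiscreteValuationRing O] [CharZero O]
    (lam : ℕ) (_ : lam.Prime) (_ : lam ≠ 2) (_ : (lam : O) ∈ IsLocalRing.maximalIdeal O)
    (ρ : GaloisRepAdic O) (T0 : Finset ℕ) (_ : lam ∈ T0)
    (_ : ∀ l : ℕ, l.Prime → (l : ℤ) ∣ W.Δ → l ∈ T0) (_ : IsAttachedAway W ρ T0)
    (l : ℕ) (_ : l.Prime) (_ : l ≠ lam) (_ : ¬ (l : ℤ) ∣ W.Δ)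
    (A : ValuationSubring Qbar) (_ : A.LiesOverPrime l) (σ : GQ) (_ : A.IsFrobeniusAt σ l)
    (α : O) (_ : LinearMap.charpoly (ρ.ρ σ) = X ^ 2 - C α * X + C ((l : ℕ) : O)),
    α = ((W.apOfModel l : ℤ) : O)

/-- **Row (T3-D)**: stabilisation of a normalised eigenform at a finite set of primes not
dividing the level. -/
def SpecD : Prop :=
  ∀ (M : ℕ) (_ : M ≠ 0) (g : CuspForm (CongruenceSubgroup.Gamma0 M) 2),
    g.IsNormalizedEigenform → ∀ s : Finset ℕ, (∀ q ∈ s, q.Prime ∧ ¬ q ∣ M) →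
    ∃ f' : CuspForm (CongruenceSubgroup.Gamma0 (M * ∏ q ∈ s, q)) 2, f'.IsNormalizedEigenform ∧
      ∀ l : ℕ, l.Prime → l ∉ s → ModularFormClass.qCoeff f' l = ModularFormClass.qCoeff g l

/-- **Row (T3-F)**: level bookkeeping.  A squarefree `N0` all of whose prime factors divide `Δ`
times the product of the remaining prime factors of `Δ` is the conductor level `rad Δ`. -/
def SpecF : Prop :=
  ∀ (W : WeierstrassCurve ℤ) (_ : W.Δ ≠ 0) (N0 : ℕ) (_ : Squarefree N0)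
    (_ : ∀ q : ℕ, q.Prime → q ∣ N0 → (q : ℤ) ∣ W.Δ),
    ∃ s : Finset ℕ, (∀ q ∈ s, q.Prime ∧ ¬ q ∣ N0 ∧ (q : ℤ) ∣ W.Δ) ∧
      N0 * ∏ q ∈ s, q = W.conductorLevel

/-- **Row (S35-seam)**: `S35` at `O' = ℤ_[λ]` for a newform with integer eigenvalues outside
`S`. -/
def SpecS35 : Prop :=
  ∀ (M : ℕ) [NeZero M] (g : CuspForm (CongruenceSubgroup.Gamma0 M) 2), g.IsNewform →
    ∀ (lam : ℕ) [Fact lam.Prime] (S : Finset ℕ), lam ∈ S → (∀ q : ℕ, q.Prime → q ∣ M → q ∈ S) →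
    ∀ a : ℕ → ℤ, (∀ ℓ : ℕ, ℓ.Prime → ¬ ℓ ∣ M → ℓ ∉ S →
      ModularFormClass.qCoeff g ℓ = (a ℓ : ℂ)) →
    ∃ (O'' : Type) (_ : CommRing O'') (_ : IsDomain O'') (_ : IsDiscreteValuationRing O'')
      (_ : CharZero O''),
      (lam : O'') ∈ IsLocalRing.maximalIdeal O'' ∧
      ∃ ρ : GaloisRepAdic O'',
        (∀ ℓ : ℕ, ℓ.Prime → ¬ ℓ ∣ M → ℓ ∉ S →
          ∀ A : ValuationSubring Qbar, A.LiesOverPrime ℓ →
            ∀ σ : GQ, A.IsFrobeniusAt σ ℓ →
              LinearMap.charpoly (ρ.ρ σ) =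
                X ^ 2 - C ((a ℓ : ℤ) : O'') * X + C ((ℓ : O''))) ∧
        (∀ q : ℕ, q.Prime → q ≠ lam → q ∣ M → ¬ q ^ 2 ∣ M →
          ∀ A : ValuationSubring Qbar, A.LiesOverPrime q →
            ∀ σ : GQ, A.IsFrobeniusAt σ q →
              LinearMap.charpoly (ρ.ρ σ) = X ^ 2 - C ((q : O'') + 1) * X + C ((q : O'')) ∨
              LinearMap.charpoly (ρ.ρ σ) = X ^ 2 + C ((q : O'') + 1) * X + C ((q : O'')))

end Fermat.Agent.EC.H28
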