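import Mathlib
import Fermat.Agent.EC.H13_Stabilise
import Fermat.Agent.EC.H28_T3Interface

/-!
# (T3-D) twin: `specD : H28.SpecD` from `H13.stabilise_finset`

Independent second proof of the row (T3-D) of the S58 chain (file of record:
`EC/H74_Degen.specD`).
-/

set_option autoImplicit false

namespace Fermat.Agent.EC.H13

theorem specD : Fermat.Agent.EC.H28.SpecD :=
  fun _ _ _ hg s hs => stabilise_finset hg s hs

end Fermat.Agent.EC.H13
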