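import Mathlib

/-!
# Heights of points of the projective line over `k(X)` (EC library, brick 1)

Polynomial-level lemmas behind the exact parallelogram law for the degree of the `x`-coordinate
on an elliptic curve over a function field (Manin's elementary approach to Hasse's theorem).

* `Prim3 a b c`: no prime of `k[X]` divides all of `a b c`.
* `prim3_sym2`: Gauss' lemma for the symmetric square: if `u₁ ⊥ v₁`, `u₂ ⊥ v₂` then
  `(u₁u₂, u₁v₂+u₂v₁, v₁v₂)` is primitive.
* `mdeg3_sym2`: the maximal degree of that triple is the sum of the maximal degrees of the pairs.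
-/

set_option autoImplicit false

namespace Fermat.Agent.EC.H14

open Polynomial

variable {k : Type*} [Field k]

/-- maximal degree of a pair -/
def mdeg2 (u v : k[X]) : ℕ := max u.natDegree v.natDegree

/-- maximal degree of a triple -/
def mdeg3 (a b c : k[X]) : ℕ := max (max a.natDegree b.natDegree) c.natDegree

/-- a triple of polynomials without common prime divisor -/
def Prim3 (a b c : k[X]) : Prop := ∀ p : k[X], Prime p → ¬ (p ∣ a ∧ p ∣ b ∧ p ∣ c)

lemma not_prime_dvd_of_isCoprime {u v p : k[X]} (h : IsCoprime u v) (hp : Prime p)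
    (hu : p ∣ u) (hv : p ∣ v) : False :=
  hp.not_isUnit (h.isUnit_of_dvd' hu hv)

/-- **Gauss' lemma** for the symmetric square of the projective line. -/
theorem prim3_sym2 {u₁ v₁ u₂ v₂ : k[X]} (h₁ : IsCoprime u₁ v₁) (h₂ : IsCoprime u₂ v₂) :
    Prim3 (u₁ * u₂) (u₁ * v₂ + u₂ * v₁) (v₁ * v₂) := by
  rintro p hp ⟨ha, hb, hc⟩
  rcases hp.dvd_or_dvd ha with hu | hu
  · -- p ∣ u₁, so p ∤ v₁, so p ∣ v₂, so p ∤ u₂
    rcases hp.dvd_or_dvd hc with hv | hv
    · exact not_prime_dvd_of_isCoprime h₁ hp hu hv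
    · have h3 : p ∣ u₂ * v₁ := by
        have : p ∣ u₁ * v₂ := Dvd.dvd.mul_right hu _
        exact (dvd_add_right this).mp hb
      rcases hp.dvd_or_dvd h3 with h4 | h4
      · exact not_prime_dvd_of_isCoprime h₂ hp h4 hv
      · exact not_prime_dvd_of_isCoprime h₁ hp hu h4
  · rcases hp.dvd_or_dvd hc with hv | hv
    · have h3 : p ∣ u₁ * v₂ := by
        have : p ∣ u₂ * v₁ := Dvd.dvd.mul_right hu _
        exact (dvd_add_left this).mp hb
      rcases hp.dvd_or_dvd h3 with h4 | h4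
      · exact not_prime_dvd_of_isCoprime h₁ hp h4 hv
      · exact not_prime_dvd_of_isCoprime h₂ hp hu h4
    · exact not_prime_dvd_of_isCoprime h₂ hp hu hv

lemma natDegree_le_mdeg2_left (u v : k[X]) : u.natDegree ≤ mdeg2 u v := le_max_left _ _
lemma natDegree_le_mdeg2_right (u v : k[X]) : v.natDegree ≤ mdeg2 u v := le_max_right _ _

/-- the pair of top coefficients of a nonzero pair does not vanish -/
lemma coeff_mdeg2_ne_zero {u v : k[X]} (h : ¬ (u = 0 ∧ v = 0)) :
    ¬ (u.coeff (mdeg2 u v) = 0 ∧ v.coeff (mdeg2 u v) = 0) := by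
  rintro ⟨hu, hv⟩
  rcases le_total u.natDegree v.natDegree with hle | hle
  · have : mdeg2 u v = v.natDegree := max_eq_right hle
    rw [this] at hu hv
    have hv0 : v = 0 := leadingCoeff_eq_zero.mp hv
    have hu0 : u = 0 := by
      have : u.natDegree = 0 := by
        have := hle; rw [hv0, natDegree_zero] at this; omega
      rw [hv0, natDegree_zero] at hu
      rw [eq_C_of_natDegree_eq_zero this, hu, C_0]
    exact h ⟨hu0, hv0⟩
  · have : mdeg2 u v = u.natDegree := max_eq_left hle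
    rw [this] at hu hv
    have hu0 : u = 0 := leadingCoeff_eq_zero.mp hu
    have hv0 : v = 0 := by
      have : v.natDegree = 0 := by
        have := hle; rw [hu0, natDegree_zero] at this; omega
      rw [hu0, natDegree_zero] at hv
      rw [eq_C_of_natDegree_eq_zero this, hv, C_0]
    exact h ⟨hu0, hv0⟩

/-- **Gauss' lemma at infinity** for the symmetric square. -/
theorem mdeg3_sym2 {u₁ v₁ u₂ v₂ : k[X]} (h₁ : ¬ (u₁ = 0 ∧ v₁ = 0)) (h₂ : ¬ (u₂ = 0 ∧ v₂ = 0)) :
    mdeg3 (u₁ * u₂) (u₁ * v₂ + u₂ * v₁) (v₁ * v₂) = mdeg2 u₁ v₁ + mdeg2 u₂ v₂ := by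
  set m₁ := mdeg2 u₁ v₁ with hm₁
  set m₂ := mdeg2 u₂ v₂ with hm₂
  have hu₁ : u₁.natDegree ≤ m₁ := natDegree_le_mdeg2_left _ _
  have hv₁ : v₁.natDegree ≤ m₁ := natDegree_le_mdeg2_right _ _
  have hu₂ : u₂.natDegree ≤ m₂ := natDegree_le_mdeg2_left _ _
  have hv₂ : v₂.natDegree ≤ m₂ := natDegree_le_mdeg2_right _ _
  have d1 : (u₁ * u₂).natDegree ≤ m₁ + m₂ := natDegree_mul_le.trans (add_le_add hu₁ hu₂)
  have d3 : (v₁ * v₂).natDegree ≤ m₁ + m₂ := natDegree_mul_le.trans (add_le_add hv₁ hv₂)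
  have d2a : (u₁ * v₂).natDegree ≤ m₁ + m₂ := natDegree_mul_le.trans (add_le_add hu₁ hv₂)
  have d2b : (u₂ * v₁).natDegree ≤ m₁ + m₂ := by
    refine natDegree_mul_le.trans ?_
    rw [add_comm]; exact add_le_add hv₁ hu₂
  have d2 : (u₁ * v₂ + u₂ * v₁).natDegree ≤ m₁ + m₂ :=
    (natDegree_add_le _ _).trans (max_le d2a d2b)
  apply le_antisymm
  · exact max_le (max_le d1 d2) d3
  · -- one of the three top coefficients is nonzero
    by_contra hlt
    push Not at hlt
    have e1 : (u₁ * u₂).coeff (m₁ + m₂) = 0 :=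
      coeff_eq_zero_of_natDegree_lt (lt_of_le_of_lt ((le_max_left _ _).trans (le_max_left _ _)) hlt)
    have e2 : (u₁ * v₂ + u₂ * v₁).coeff (m₁ + m₂) = 0 :=
      coeff_eq_zero_of_natDegree_lt
        (lt_of_le_of_lt ((le_max_right _ _).trans (le_max_left _ _)) hlt)
    have e3 : (v₁ * v₂).coeff (m₁ + m₂) = 0 :=
      coeff_eq_zero_of_natDegree_lt (lt_of_le_of_lt (le_max_right _ _) hlt)
    rw [coeff_mul_add_eq_of_natDegree_le hu₁ hu₂] at e1
    rw [coeff_mul_add_eq_of_natDegree_le hv₁ hv₂] at e3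
    rw [coeff_add, coeff_mul_add_eq_of_natDegree_le hu₁ hv₂, add_comm m₁ m₂,
      coeff_mul_add_eq_of_natDegree_le hu₂ hv₁] at e2
    have n₁ := coeff_mdeg2_ne_zero h₁
    have n₂ := coeff_mdeg2_ne_zero h₂
    rw [← hm₁] at n₁
    rw [← hm₂] at n₂
    rcases mul_eq_zero.mp e1 with a | a
    · -- top coeff of u₁ vanishes
      have b1 : v₁.coeff m₁ ≠ 0 := fun h => n₁ ⟨a, h⟩
      have b2 : v₂.coeff m₂ = 0 := (mul_eq_zero.mp e3).resolve_left b1
      have b3 : u₂.coeff m₂ ≠ 0 := fun h => n₂ ⟨h, b2⟩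
      rw [a, zero_mul, zero_add] at e2
      exact (mul_ne_zero b3 b1) e2
    · have b1 : v₂.coeff m₂ ≠ 0 := fun h => n₂ ⟨a, h⟩
      have b2 : v₁.coeff m₁ = 0 := (mul_eq_zero.mp e3).resolve_right b1
      have b3 : u₁.coeff m₁ ≠ 0 := fun h => n₁ ⟨h, b2⟩
      rw [a, zero_mul, add_zero] at e2
      exact (mul_ne_zero b3 b1) e2

/-! ### The addition-and-subtraction forms -/

section Forms

variable {R : Type*} [CommRing R] (W : WeierstrassCurve R)

/-- first component of the addition-and-subtraction map (`x(P+Q) x(P-Q)` numerator) -/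
def T0 (s t u : R) : R := s ^ 2 - W.b₄ * s * u - W.b₆ * t * u - W.b₈ * u ^ 2
/-- second component (`x(P+Q) + x(P-Q)` numerator) -/
def T1 (s t u : R) : R := 2 * t * s + W.b₂ * s * u + W.b₄ * t * u + W.b₆ * u ^ 2
/-- third component (common denominator `(x(P) - x(Q))^2`) -/
def T2 (s t u : R) : R := t ^ 2 - 4 * s * u

lemma eval_addSubMap_zero (s t u : R) :
    (MvPolynomial.eval ![s, t, u]) (W.addSubMap 0) = T0 W s t u := by
  simp [WeierstrassCurve.addSubMap, T0]

lemma eval_addSubMap_one (s t u : R) :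
    (MvPolynomial.eval ![s, t, u]) (W.addSubMap 1) = T1 W s t u := by
  simp [WeierstrassCurve.addSubMap, T1]

lemma eval_addSubMap_two (s t u : R) :
    (MvPolynomial.eval ![s, t, u]) (W.addSubMap 2) = T2 s t u := by
  simp [WeierstrassCurve.addSubMap, T2]

/-- the Nullstellensatz certificate of Mathlib's `addSubMapCoeff_condition`, as a divisibility -/
lemma dvd_pow_four [W.IsElliptic] (s t u p : R) (h0 : p ∣ T0 W s t u) (h1 : p ∣ T1 W s t u)
    (h2 : p ∣ T2 s t u) : p ∣ s ^ 4 ∧ p ∣ t ^ 4 ∧ p ∣ u ^ 4 := by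
  have key : ∀ i : Fin 3, p ∣ (![s, t, u] i) ^ 4 := by
    intro i
    rw [← WeierstrassCurve.addSubMapCoeff_condition W ![s, t, u] i, Fin.sum_univ_three,
      eval_addSubMap_zero, eval_addSubMap_one, eval_addSubMap_two]
    exact dvd_add (dvd_add (Dvd.dvd.mul_left h0 _) (Dvd.dvd.mul_left h1 _))
      (Dvd.dvd.mul_left h2 _)
  exact ⟨by simpa using key 0, by simpa using key 1, by simpa using key 2⟩

lemma T_ne_zero [W.IsElliptic] [IsReduced R] (s t u : R) (h : ¬ (s = 0 ∧ t = 0 ∧ u = 0)) :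
    ¬ (T0 W s t u = 0 ∧ T1 W s t u = 0 ∧ T2 s t u = 0) := by
  rintro ⟨h0, h1, h2⟩
  have := dvd_pow_four W s t u 0 (by simp [h0]) (by simp [h1]) (by simp [h2])
  simp only [zero_dvd_iff] at this
  exact h ⟨(pow_eq_zero_iff (n := 4) (by norm_num)).mp this.1,
    (pow_eq_zero_iff (n := 4) (by norm_num)).mp this.2.1,
    (pow_eq_zero_iff (n := 4) (by norm_num)).mp this.2.2⟩

end Forms

section PolyForms

variable (W : WeierstrassCurve k)

lemma two_eq_C : (2 : k[X]) = C 2 := (C_ofNat 2).symm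
lemma four_eq_C : (4 : k[X]) = C 4 := (C_ofNat 4).symm

lemma coeff_T0 {s t u : k[X]} {H : ℕ} (hs : s.natDegree ≤ H) (ht : t.natDegree ≤ H)
    (hu : u.natDegree ≤ H) :
    (T0 (W.map C) s t u).coeff (H + H) = T0 W (s.coeff H) (t.coeff H) (u.coeff H) := by
  simp only [T0, WeierstrassCurve.map_b₄, WeierstrassCurve.map_b₆, WeierstrassCurve.map_b₈,
    coeff_sub, sq, mul_assoc, coeff_C_mul,
    coeff_mul_add_eq_of_natDegree_le hs hs, coeff_mul_add_eq_of_natDegree_le hs hu,
    coeff_mul_add_eq_of_natDegree_le ht hu, coeff_mul_add_eq_of_natDegree_le hu hu]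

lemma coeff_T1 {s t u : k[X]} {H : ℕ} (hs : s.natDegree ≤ H) (ht : t.natDegree ≤ H)
    (hu : u.natDegree ≤ H) :
    (T1 (W.map C) s t u).coeff (H + H) = T1 W (s.coeff H) (t.coeff H) (u.coeff H) := by
  simp only [T1, two_eq_C, WeierstrassCurve.map_b₂, WeierstrassCurve.map_b₄,
    WeierstrassCurve.map_b₆, coeff_add, sq, mul_assoc, coeff_C_mul,
    coeff_mul_add_eq_of_natDegree_le ht hs, coeff_mul_add_eq_of_natDegree_le hs hu,
    coeff_mul_add_eq_of_natDegree_le ht hu, coeff_mul_add_eq_of_natDegree_le hu hu]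

lemma coeff_T2 {s t u : k[X]} {H : ℕ} (hs : s.natDegree ≤ H) (ht : t.natDegree ≤ H)
    (hu : u.natDegree ≤ H) :
    (T2 s t u).coeff (H + H) = T2 (s.coeff H) (t.coeff H) (u.coeff H) := by
  simp only [T2, four_eq_C, coeff_sub, sq, mul_assoc, coeff_C_mul,
    coeff_mul_add_eq_of_natDegree_le ht ht, coeff_mul_add_eq_of_natDegree_le hs hu]

lemma natDegree_T0_le {s t u : k[X]} {H : ℕ} (hs : s.natDegree ≤ H) (ht : t.natDegree ≤ H)
    (hu : u.natDegree ≤ H) : (T0 (W.map C) s t u).natDegree ≤ H + H := by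
  simp only [T0, WeierstrassCurve.map_b₄, WeierstrassCurve.map_b₆, WeierstrassCurve.map_b₈]
  compute_degree
  omega

lemma natDegree_T1_le {s t u : k[X]} {H : ℕ} (hs : s.natDegree ≤ H) (ht : t.natDegree ≤ H)
    (hu : u.natDegree ≤ H) : (T1 (W.map C) s t u).natDegree ≤ H + H := by
  simp only [T1, WeierstrassCurve.map_b₂, WeierstrassCurve.map_b₄, WeierstrassCurve.map_b₆]
  compute_degree
  omega

lemma natDegree_T2_le {s t u : k[X]} {H : ℕ} (hs : s.natDegree ≤ H) (ht : t.natDegree ≤ H)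
    (hu : u.natDegree ≤ H) : (T2 s t u).natDegree ≤ H + H := by
  simp only [T2]
  compute_degree
  omega

/-- the triple of top coefficients of a nonzero triple does not vanish -/
lemma coeff_mdeg3_ne_zero {s t u : k[X]} (h : ¬ (s = 0 ∧ t = 0 ∧ u = 0)) :
    ¬ (s.coeff (mdeg3 s t u) = 0 ∧ t.coeff (mdeg3 s t u) = 0 ∧ u.coeff (mdeg3 s t u) = 0) := by
  rintro ⟨hs, ht, hu⟩
  set H := mdeg3 s t u with hH
  have ls : s.natDegree ≤ H := (le_max_left _ _).trans (le_max_left _ _)
  have lt : t.natDegree ≤ H := (le_max_right _ _).trans (le_max_left _ _)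
  have lu : u.natDegree ≤ H := le_max_right _ _
  -- all three have degree < H unless H = 0
  have key : ∀ p : k[X], p.natDegree ≤ H → p.coeff H = 0 → p.natDegree < H ∨ p = 0 := by
    intro p hp hc
    rcases Nat.lt_or_ge p.natDegree H with h1 | h1
    · exact Or.inl h1
    · right
      have : p.natDegree = H := le_antisymm hp h1
      rw [← this] at hc
      exact leadingCoeff_eq_zero.mp hc
  have h0 : ∀ p : k[X], p.natDegree ≤ H → p.coeff H = 0 → p.natDegree < H ∨ (p = 0 ∧ H = 0) ∨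
      (p = 0 ∧ 0 < H) := by
    intro p hp hc
    rcases key p hp hc with h1 | h1
    · exact Or.inl h1
    · rcases Nat.eq_zero_or_pos H with h2 | h2
      · exact Or.inr (Or.inl ⟨h1, h2⟩)
      · exact Or.inr (Or.inr ⟨h1, h2⟩)
  have e : H = max (max s.natDegree t.natDegree) u.natDegree := hH
  rcases Nat.eq_zero_or_pos H with hz | hpos
  · -- all constants with vanishing constant coefficient
    have zs : s = 0 := by
      rcases key s ls hs with h1 | h1
      · omega
      · exact h1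
    have zt : t = 0 := by
      rcases key t lt ht with h1 | h1
      · omega
      · exact h1
    have zu : u = 0 := by
      rcases key u lu hu with h1 | h1
      · omega
      · exact h1
    exact h ⟨zs, zt, zu⟩
  · have zs : s.natDegree < H := by
      rcases key s ls hs with h1 | h1
      · exact h1
      · rw [h1, natDegree_zero]; exact hpos
    have zt : t.natDegree < H := by
      rcases key t lt ht with h1 | h1
      · exact h1
      · rw [h1, natDegree_zero]; exact hpos
    have zu : u.natDegree < H := by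
      rcases key u lu hu with h1 | h1
      · exact h1
      · rw [h1, natDegree_zero]; exact hpos
    omega

variable [W.IsElliptic]

/-- the addition-and-subtraction map preserves primitivity -/
theorem prim3_T {s t u : k[X]} (h : Prim3 s t u) :
    Prim3 (T0 (W.map C) s t u) (T1 (W.map C) s t u) (T2 s t u) := by
  rintro p hp ⟨h0, h1, h2⟩
  obtain ⟨a, b, c⟩ := dvd_pow_four (W.map C) s t u p h0 h1 h2
  exact h p hp ⟨hp.dvd_of_dvd_pow a, hp.dvd_of_dvd_pow b, hp.dvd_of_dvd_pow c⟩

/-- the addition-and-subtraction map doubles the maximal degree -/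
theorem mdeg3_T {s t u : k[X]} (h : ¬ (s = 0 ∧ t = 0 ∧ u = 0)) :
    mdeg3 (T0 (W.map C) s t u) (T1 (W.map C) s t u) (T2 s t u) = 2 * mdeg3 s t u := by
  set H := mdeg3 s t u with hH
  have ls : s.natDegree ≤ H := (le_max_left _ _).trans (le_max_left _ _)
  have lt : t.natDegree ≤ H := (le_max_right _ _).trans (le_max_left _ _)
  have lu : u.natDegree ≤ H := le_max_right _ _
  have d0 := natDegree_T0_le W ls lt lu
  have d1 := natDegree_T1_le W ls lt lu
  have d2 := natDegree_T2_le ls lt lu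
  rw [two_mul]
  apply le_antisymm
  · exact max_le (max_le d0 d1) d2
  · by_contra hlt
    push Not at hlt
    have e0 : (T0 (W.map C) s t u).coeff (H + H) = 0 :=
      coeff_eq_zero_of_natDegree_lt
        (lt_of_le_of_lt ((le_max_left _ _).trans (le_max_left _ _)) hlt)
    have e1 : (T1 (W.map C) s t u).coeff (H + H) = 0 :=
      coeff_eq_zero_of_natDegree_lt
        (lt_of_le_of_lt ((le_max_right _ _).trans (le_max_left _ _)) hlt)
    have e2 : (T2 s t u).coeff (H + H) = 0 :=
      coeff_eq_zero_of_natDegree_lt (lt_of_le_of_lt (le_max_right _ _) hlt)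
    rw [coeff_T0 W ls lt lu] at e0
    rw [coeff_T1 W ls lt lu] at e1
    rw [coeff_T2 ls lt lu] at e2
    have := coeff_mdeg3_ne_zero h
    rw [← hH] at this
    exact T_ne_zero W _ _ _ this ⟨e0, e1, e2⟩

end PolyForms

end Fermat.Agent.EC.H14
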