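import Mathlib
import Fermat.Agent.S05.H67_XF
import Fermat.Agent.EC.H14_RatHeight

/-!
# The addition-and-subtraction map on points (EC brick 3)

For points `P Q` of an elliptic curve `W` over a field, the symmetric square of the `x`-coordinates
of `P + Q`, `P - Q` is proportional to the image under `(T0, T1, T2)` of the symmetric square of
the `x`-coordinates of `P`, `Q` (all cases, including the point at infinity and `P = ± Q`).
This is the statement left as a TODO in `Mathlib.AlgebraicGeometry.EllipticCurve.Affine.AddSubMap`.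
-/

set_option autoImplicit false
set_option linter.unusedSimpArgs false

namespace Fermat.Agent.EC.H14

open WeierstrassCurve WeierstrassCurve.Affine
open Fermat.Agent.S05.H67

variable {F : Type*} [Field F] (W : WeierstrassCurve F)

/-- first projective coordinate of `x(P)` -/
def xa : W.toAffine.Point → F
  | .zero => 1
  | .some x _ _ => x

/-- second projective coordinate of `x(P)` -/
def xb : W.toAffine.Point → F
  | .zero => 0
  | .some _ _ _ => 1

@[simp] lemma xa_zero : xa W (0 : W.toAffine.Point) = 1 := rfl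
@[simp] lemma xb_zero : xb W (0 : W.toAffine.Point) = 0 := rfl
@[simp] lemma xa_some {x y : F} (h : W.toAffine.Nonsingular x y) : xa W (.some x y h) = x := rfl
@[simp] lemma xb_some {x y : F} (h : W.toAffine.Nonsingular x y) : xb W (.some x y h) = 1 := rfl

lemma xa_neg (P : W.toAffine.Point) : xa W (-P) = xa W P := by
  cases P <;> rfl

lemma xb_neg (P : W.toAffine.Point) : xb W (-P) = xb W P := by
  cases P <;> rfl

lemma xab_ne_zero (P : W.toAffine.Point) : ¬ (xa W P = 0 ∧ xb W P = 0) := by
  cases P <;> simp [xa, xb]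

lemma xa_eq_xCoord_of_ne_zero {P : W.toAffine.Point} (hP : P ≠ 0) : xa W P = xCoord W P := by
  cases P with
  | zero => exact absurd rfl hP
  | some x y h => rfl

lemma xb_of_ne_zero {P : W.toAffine.Point} (hP : P ≠ 0) : xb W P = 1 := by
  cases P with
  | zero => exact absurd rfl hP
  | some x y h => rfl

/-- the conclusion of the addition-and-subtraction law, as a predicate on four points -/
def AddSubRel (P Q R S : W.toAffine.Point) : Prop :=
  ∃ e : F, e ≠ 0 ∧
    xa W R * xa W S = e * T0 W (xa W P * xa W Q) (xa W P * xb W Q + xa W Q * xb W P)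
      (xb W P * xb W Q) ∧
    xa W R * xb W S + xa W S * xb W R =
      e * T1 W (xa W P * xa W Q) (xa W P * xb W Q + xa W Q * xb W P) (xb W P * xb W Q) ∧
    xb W R * xb W S = e * T2 (xa W P * xa W Q) (xa W P * xb W Q + xa W Q * xb W P)
      (xb W P * xb W Q)

lemma AddSubRel.swap {P Q R S : W.toAffine.Point} (h : AddSubRel W P Q R S) :
    AddSubRel W P Q S R := by
  obtain ⟨e, he, h0, h1, h2⟩ := h
  refine ⟨e, he, ?_, ?_, ?_⟩
  · rw [mul_comm, h0]
  · rw [add_comm, h1]
  · rw [mul_comm, h2]

variable [DecidableEq F] [W.IsElliptic]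

/-- doubling in projective form -/
lemma exists_dbl {x y : F} (h : W.toAffine.Nonsingular x y) :
    ∃ e : F, e ≠ 0 ∧ xa W (Point.some x y h + Point.some x y h) = e * dblNum W x ∧
      xb W (Point.some x y h + Point.some x y h) = e * dblDen W x := by
  by_cases hy : y = W.toAffine.negY x y
  · have h2 : Point.some x y h + Point.some x y h = 0 :=
      (some_add_self_eq_zero_iff W h).mpr hy
    have hd : dblDen W x = 0 := by
      rw [dblDen_eq W h.1, ← hy, sub_self]; simp
    have hn : dblNum W x ≠ 0 := by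
      intro hn
      have := T_ne_zero W (x * x) (x * 1 + x * 1) (1 * 1) (by simp)
      apply this
      refine ⟨?_, ?_, ?_⟩
      · rw [← hn]; simp only [T0, dblNum]; ring
      · rw [← hd]; simp only [T1, dblDen]; ring
      · simp only [T2]; ring
    refine ⟨(dblNum W x)⁻¹, inv_ne_zero hn, ?_, ?_⟩
    · rw [h2, xa_zero, inv_mul_cancel₀ hn]
    · rw [h2, xb_zero, hd, mul_zero]
  · have hd : dblDen W x ≠ 0 := by
      rw [dblDen_eq W h.1]
      exact pow_ne_zero _ (sub_ne_zero.mpr hy)
    have h2 : Point.some x y h + Point.some x y h ≠ 0 := fun h2 =>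
      hy ((some_add_self_eq_zero_iff W h).mp h2)
    have hx := xCoord_some_add_self W h hy
    refine ⟨(dblDen W x)⁻¹, inv_ne_zero hd, ?_, ?_⟩
    · rw [xa_eq_xCoord_of_ne_zero W h2, ← hx]
      field_simp
    · rw [xb_of_ne_zero W h2, inv_mul_cancel₀ hd]

/-- **The addition-and-subtraction law on points**, all cases. -/
theorem addSubRel (P Q : W.toAffine.Point) : AddSubRel W P Q (P + Q) (P - Q) := by
  rcases P with _ | ⟨x₁, y₁, h₁⟩
  · -- P = 0
    have e1 : (Point.zero : W.toAffine.Point) = 0 := rfl
    rw [e1, zero_add, zero_sub]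
    refine ⟨1, one_ne_zero, ?_, ?_, ?_⟩
    · simp only [xa_zero, xb_zero, xa_neg, T0]; ring
    · simp only [xa_zero, xb_zero, xa_neg, xb_neg, T1]; ring
    · simp only [xa_zero, xb_zero, xb_neg, T2]; ring
  rcases Q with _ | ⟨x₂, y₂, h₂⟩
  · have e1 : (Point.zero : W.toAffine.Point) = 0 := rfl
    rw [e1, add_zero, sub_zero]
    refine ⟨1, one_ne_zero, ?_, ?_, ?_⟩
    · simp only [xa_zero, xb_zero, xa_some, xb_some, T0]; ring
    · simp only [xa_zero, xb_zero, xa_some, xb_some, T1]; ring
    · simp only [xa_zero, xb_zero, xa_some, xb_some, T2]; ring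
  by_cases hx : x₁ = x₂
  · subst hx
    rcases Affine.Y_eq_of_X_eq h₁.1 h₂.1 rfl with hy | hy
    · -- Q = P
      subst hy
      obtain ⟨e, he, ha, hb⟩ := exists_dbl W h₁
      have hs : Point.some x₁ y₁ h₁ - Point.some x₁ y₁ h₂ = 0 := sub_self _
      rw [hs]
      refine ⟨e, he, ?_, ?_, ?_⟩
      · simp only [xa_zero, xb_zero, xa_some, xb_some, mul_one]
        rw [ha]; simp only [T0, dblNum]; ring
      · simp only [xa_zero, xb_zero, xa_some, xb_some, mul_zero, zero_add, one_mul]
        rw [hb]; simp only [T1, dblDen]; ring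
      · simp only [xa_zero, xb_zero, xa_some, xb_some, mul_zero]
        simp only [T2]; ring
    · -- Q = -P
      have hQ : Point.some x₁ y₂ h₂ = -Point.some x₁ y₁ h₁ := by
        rw [Point.neg_some]
        congr 1
        rw [hy, Affine.negY_negY]
      obtain ⟨e, he, ha, hb⟩ := exists_dbl W h₁
      rw [hQ, add_neg_cancel, sub_neg_eq_add]
      refine ⟨e, he, ?_, ?_, ?_⟩
      · simp only [xa_zero, xb_zero, xa_neg, xb_neg, xa_some, xb_some, one_mul, mul_one]
        rw [ha]; simp only [T0, dblNum]; ring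
      · simp only [xa_zero, xb_zero, xa_neg, xb_neg, xa_some, xb_some, one_mul, mul_one, mul_zero,
          add_zero]
        rw [hb]; simp only [T1, dblDen]; ring
      · simp only [xa_zero, xb_zero, xa_neg, xb_neg, xa_some, xb_some, zero_mul]
        simp only [T2]; ring
  · have hne := add_ne_zero_and_sub_ne_zero W (P := Point.some x₁ y₁ h₁) (Q := Point.some x₂ y₂ h₂)
      (Point.some_ne_zero h₁) (Point.some_ne_zero h₂) (by simpa using hx)
    have hp := xCoord_some_add_mul_sub W h₁ h₂ hx
    have hs := xCoord_some_add_add_sub W h₁ h₂ hx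
    have hd : (x₁ - x₂) ^ 2 ≠ 0 := pow_ne_zero _ (sub_ne_zero.mpr hx)
    refine ⟨((x₁ - x₂) ^ 2)⁻¹, inv_ne_zero hd, ?_, ?_, ?_⟩
    · rw [xa_eq_xCoord_of_ne_zero W hne.1, xa_eq_xCoord_of_ne_zero W hne.2]
      simp only [xa_some, xb_some]
      rw [eq_inv_mul_iff_mul_eq₀ hd, mul_comm, hp]
      simp only [T0, prodNum]; ring
    · rw [xa_eq_xCoord_of_ne_zero W hne.1, xa_eq_xCoord_of_ne_zero W hne.2,
        xb_of_ne_zero W hne.1, xb_of_ne_zero W hne.2]
      simp only [xa_some, xb_some]
      rw [eq_inv_mul_iff_mul_eq₀ hd, mul_comm, mul_one, mul_one, hs]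
      simp only [T1, sumNum]; ring
    · rw [xb_of_ne_zero W hne.1, xb_of_ne_zero W hne.2]
      simp only [xa_some, xb_some]
      rw [eq_inv_mul_iff_mul_eq₀ hd]
      simp only [T2]; ring

end Fermat.Agent.EC.H14
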