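import Mathlib
import Fermat.Agent.EC.H14_RatHeight

/-!
# Heights on the projective line over `k(X)`: the addition-and-subtraction law (EC brick 2)

`ht a b` is the height of the point `(a : b)` of the projective line over `RatFunc k`
(the degree of the rational function `a / b`, and `0` at infinity).  Main result `ht_addSub`:
if `(a₃ : b₃)`, `(a₄ : b₄)` have symmetric square proportional to the image of the symmetric
square of `(a₁ : b₁)`, `(a₂ : b₂)` under the addition-and-subtraction map of an elliptic curve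
over `k`, then `ht₃ + ht₄ = 2 (ht₁ + ht₂)`.
-/

set_option autoImplicit false

namespace Fermat.Agent.EC.H14

open Polynomial

variable {k : Type*} [Field k]

/-- proportional primitive triples have the same maximal degree -/
theorem mdeg3_eq_of_proportional {a b c a' b' c' : k[X]} (h : Prim3 a b c) (h' : Prim3 a' b' c')
    (e : RatFunc k) (he : e ≠ 0)
    (ha : algebraMap k[X] (RatFunc k) a' = e * algebraMap k[X] (RatFunc k) a)
    (hb : algebraMap k[X] (RatFunc k) b' = e * algebraMap k[X] (RatFunc k) b)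
    (hc : algebraMap k[X] (RatFunc k) c' = e * algebraMap k[X] (RatFunc k) c) :
    mdeg3 a' b' c' = mdeg3 a b c := by
  set n := e.num with hn
  set d := e.denom with hd
  have hd0 : d ≠ 0 := e.denom_ne_zero
  have hn0 : n ≠ 0 := by
    rw [hn]; exact RatFunc.num_ne_zero he
  have hcop : IsCoprime n d := e.isCoprime_num_denom
  have hinj : Function.Injective (algebraMap k[X] (RatFunc k)) :=
    IsFractionRing.injective k[X] (RatFunc k)
  have hdF : algebraMap k[X] (RatFunc k) d ≠ 0 := by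
    rw [Ne, map_eq_zero_iff _ hinj]; exact hd0
  have hee : e * algebraMap k[X] (RatFunc k) d = algebraMap k[X] (RatFunc k) n := by
    have := e.num_div_denom
    rw [← hn, ← hd] at this
    rw [← this]
    field_simp
  have key : ∀ {x x' : k[X]}, algebraMap k[X] (RatFunc k) x' = e * algebraMap k[X] (RatFunc k) x →
      d * x' = n * x := by
    intro x x' hx
    apply hinj
    rw [map_mul, map_mul, hx, ← hee]; ring
  have ka := key ha
  have kb := key hb
  have kc := key hc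
  -- `d` is a unit
  have ud : IsUnit d := by
    by_contra hnu
    obtain ⟨p, hp, hpd⟩ := WfDvdMonoid.exists_irreducible_factor hnu hd0
    have pp : Prime p := hp.prime
    have hpn : ¬ p ∣ n := fun hpn => not_prime_dvd_of_isCoprime hcop pp hpn hpd
    have f : ∀ {x x' : k[X]}, d * x' = n * x → p ∣ x := by
      intro x x' hx
      have : p ∣ n * x := by rw [← hx]; exact Dvd.dvd.mul_right hpd _
      exact (pp.dvd_or_dvd this).resolve_left hpn
    exact h p pp ⟨f ka, f kb, f kc⟩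
  have un : IsUnit n := by
    by_contra hnu
    obtain ⟨p, hp, hpn⟩ := WfDvdMonoid.exists_irreducible_factor hnu hn0
    have pp : Prime p := hp.prime
    have hpd : ¬ p ∣ d := fun hpd => not_prime_dvd_of_isCoprime hcop pp hpn hpd
    have f : ∀ {x x' : k[X]}, d * x' = n * x → p ∣ x' := by
      intro x x' hx
      have : p ∣ d * x' := by rw [hx]; exact Dvd.dvd.mul_right hpn _
      exact (pp.dvd_or_dvd this).resolve_left hpd
    exact h' p pp ⟨f ka, f kb, f kc⟩
  obtain ⟨δ, hδ, hδd⟩ := Polynomial.isUnit_iff.mp ud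
  obtain ⟨ν, hν, hνn⟩ := Polynomial.isUnit_iff.mp un
  have hδ0 : δ ≠ 0 := hδ.ne_zero
  have hν0 : ν ≠ 0 := hν.ne_zero
  have g : ∀ {x x' : k[X]}, d * x' = n * x → x'.natDegree = x.natDegree := by
    intro x x' hx
    rw [← hδd, ← hνn] at hx
    have := congrArg natDegree hx
    rwa [natDegree_C_mul hδ0, natDegree_C_mul hν0] at this
  simp only [mdeg3, g ka, g kb, g kc]

/-- the degree of a rational function -/
noncomputable def rdeg (f : RatFunc k) : ℕ := max f.num.natDegree f.denom.natDegree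

open scoped Classical in
/-- the height of the point `(a : b)` of the projective line over `k(X)` -/
noncomputable def ht (a b : RatFunc k) : ℕ := if b = 0 then 0 else rdeg (a / b)

lemma ht_zero_right (a : RatFunc k) : ht a 0 = 0 := by simp [ht]

lemma ht_one_right (a : RatFunc k) : ht a 1 = rdeg a := by simp [ht]

/-- primitive integral representative of a point of the projective line -/
theorem exists_rep {a b : RatFunc k} (h : ¬ (a = 0 ∧ b = 0)) :
    ∃ (u v : k[X]) (e : RatFunc k), IsCoprime u v ∧ e ≠ 0 ∧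
      a = e * algebraMap k[X] (RatFunc k) u ∧ b = e * algebraMap k[X] (RatFunc k) v ∧
      ht a b = mdeg2 u v := by
  by_cases hb : b = 0
  · have ha : a ≠ 0 := fun ha => h ⟨ha, hb⟩
    refine ⟨1, 0, a, isCoprime_one_left, ha, by simp, by simp [hb], ?_⟩
    simp [ht, hb, mdeg2]
  · set f := a / b with hf
    have hd0 : algebraMap k[X] (RatFunc k) f.denom ≠ 0 := by
      rw [Ne, map_eq_zero_iff _ (IsFractionRing.injective k[X] (RatFunc k))]
      exact f.denom_ne_zero
    refine ⟨f.num, f.denom, b / algebraMap k[X] (RatFunc k) f.denom, f.isCoprime_num_denom,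
      div_ne_zero hb hd0, ?_, ?_, ?_⟩
    · have := f.num_div_denom
      calc a = a / b * b := (div_mul_cancel₀ a hb).symm
        _ = algebraMap k[X] (RatFunc k) f.num / algebraMap k[X] (RatFunc k) f.denom * b := by
            rw [this]
        _ = b / algebraMap k[X] (RatFunc k) f.denom * algebraMap k[X] (RatFunc k) f.num := by
            ring
    · exact (div_mul_cancel₀ b hd0).symm
    · simp [ht, hb, rdeg, mdeg2, hf]

section Forms

variable {R S : Type*} [CommRing R] [CommRing S] (W : WeierstrassCurve R)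

lemma map_T0 (f : R →+* S) (s t u : R) : f (T0 W s t u) = T0 (W.map f) (f s) (f t) (f u) := by
  simp [T0]

lemma map_T1 (f : R →+* S) (s t u : R) : f (T1 W s t u) = T1 (W.map f) (f s) (f t) (f u) := by
  simp [T1, map_ofNat]

lemma map_T2 (f : R →+* S) (s t u : R) : f (T2 s t u) = T2 (f s) (f t) (f u) := by
  simp [T2, map_ofNat]

lemma T0_smul (c s t u : R) : T0 W (c * s) (c * t) (c * u) = c ^ 2 * T0 W s t u := by
  simp only [T0]; ring

lemma T1_smul (c s t u : R) : T1 W (c * s) (c * t) (c * u) = c ^ 2 * T1 W s t u := by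
  simp only [T1]; ring

lemma T2_smul (c s t u : R) : T2 (c * s) (c * t) (c * u) = c ^ 2 * T2 s t u := by
  simp only [T2]; ring

end Forms

/-- **The addition-and-subtraction law for heights.** -/
theorem ht_addSub (W : WeierstrassCurve k) [W.IsElliptic]
    {a₁ b₁ a₂ b₂ a₃ b₃ a₄ b₄ : RatFunc k}
    (h₁ : ¬ (a₁ = 0 ∧ b₁ = 0)) (h₂ : ¬ (a₂ = 0 ∧ b₂ = 0))
    (h₃ : ¬ (a₃ = 0 ∧ b₃ = 0)) (h₄ : ¬ (a₄ = 0 ∧ b₄ = 0))
    (e : RatFunc k) (he : e ≠ 0)
    (E0 : a₃ * a₄ = e * T0 (W.map (algebraMap k (RatFunc k)))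
      (a₁ * a₂) (a₁ * b₂ + a₂ * b₁) (b₁ * b₂))
    (E1 : a₃ * b₄ + a₄ * b₃ = e * T1 (W.map (algebraMap k (RatFunc k)))
      (a₁ * a₂) (a₁ * b₂ + a₂ * b₁) (b₁ * b₂))
    (E2 : b₃ * b₄ = e * T2 (a₁ * a₂) (a₁ * b₂ + a₂ * b₁) (b₁ * b₂)) :
    ht a₃ b₃ + ht a₄ b₄ = 2 * (ht a₁ b₁ + ht a₂ b₂) := by
  obtain ⟨u₁, v₁, e₁, c₁, he₁, ha₁, hb₁, hh₁⟩ := exists_rep h₁
  obtain ⟨u₂, v₂, e₂, c₂, he₂, ha₂, hb₂, hh₂⟩ := exists_rep h₂
  obtain ⟨u₃, v₃, e₃, c₃, he₃, ha₃, hb₃, hh₃⟩ := exists_rep h₃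
  obtain ⟨u₄, v₄, e₄, c₄, he₄, ha₄, hb₄, hh₄⟩ := exists_rep h₄
  set ι := algebraMap k[X] (RatFunc k) with hι
  have nz : ∀ {u v : k[X]}, IsCoprime u v → ¬ (u = 0 ∧ v = 0) := by
    rintro u v hc ⟨rfl, rfl⟩
    exact not_isUnit_zero (isCoprime_zero_left.mp hc)
  -- the polynomial triples
  set s := u₁ * u₂ with hs
  set t := u₁ * v₂ + u₂ * v₁ with ht'
  set u := v₁ * v₂ with hu
  have pS : Prim3 s t u := prim3_sym2 c₁ c₂
  have pS' : Prim3 (u₃ * u₄) (u₃ * v₄ + u₄ * v₃) (v₃ * v₄) := prim3_sym2 c₃ c₄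
  have dS : mdeg3 s t u = mdeg2 u₁ v₁ + mdeg2 u₂ v₂ := mdeg3_sym2 (nz c₁) (nz c₂)
  have dS' : mdeg3 (u₃ * u₄) (u₃ * v₄ + u₄ * v₃) (v₃ * v₄) = mdeg2 u₃ v₃ + mdeg2 u₄ v₄ :=
    mdeg3_sym2 (nz c₃) (nz c₄)
  have sne : ¬ (s = 0 ∧ t = 0 ∧ u = 0) := by
    rintro ⟨z1, z2, z3⟩
    have : mdeg3 s t u = 0 := by simp [mdeg3, z1, z2, z3]
    -- a zero triple is not primitive
    obtain ⟨p, hp⟩ : ∃ p : k[X], Prime p := ⟨X, prime_X⟩
    exact pS p hp ⟨by simp [z1], by simp [z2], by simp [z3]⟩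
  have pT := prim3_T W pS
  have dT := mdeg3_T W sne
  -- the scalar-tower identification of the curve over `k(X)`
  have hW : (W.map C).map ι = W.map (algebraMap k (RatFunc k)) := by
    rw [WeierstrassCurve.map_map]
    congr 1
  -- proportionality
  have e34 : e₃ * e₄ ≠ 0 := mul_ne_zero he₃ he₄
  have e12 : e₁ * e₂ ≠ 0 := mul_ne_zero he₁ he₂
  have hsF : a₁ * a₂ = (e₁ * e₂) * ι s := by rw [ha₁, ha₂, hs, map_mul]; ring
  have htF : a₁ * b₂ + a₂ * b₁ = (e₁ * e₂) * ι t := by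
    rw [ha₁, ha₂, hb₁, hb₂, ht', map_add, map_mul, map_mul]; ring
  have huF : b₁ * b₂ = (e₁ * e₂) * ι u := by rw [hb₁, hb₂, hu, map_mul]; ring
  rw [hsF, htF, huF, T0_smul, ← hW, ← map_T0] at E0
  rw [hsF, htF, huF, T1_smul, ← hW, ← map_T1] at E1
  rw [hsF, htF, huF, T2_smul, ← map_T2] at E2
  set ε := e * (e₁ * e₂) ^ 2 / (e₃ * e₄) with hε
  have hε0 : ε ≠ 0 := div_ne_zero (mul_ne_zero he (pow_ne_zero _ e12)) e34
  have P0 : ι (u₃ * u₄) = ε * ι (T0 (W.map C) s t u) := by
    rw [hε, map_mul]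
    rw [ha₃, ha₄] at E0
    field_simp
    linear_combination E0
  have P1 : ι (u₃ * v₄ + u₄ * v₃) = ε * ι (T1 (W.map C) s t u) := by
    rw [hε, map_add, map_mul, map_mul]
    rw [ha₃, ha₄, hb₃, hb₄] at E1
    field_simp
    linear_combination E1
  have P2 : ι (v₃ * v₄) = ε * ι (T2 s t u) := by
    rw [hε, map_mul]
    rw [hb₃, hb₄] at E2
    field_simp
    linear_combination E2
  have := mdeg3_eq_of_proportional pT pS' ε hε0 P0 P1 P2
  rw [hh₁, hh₂, hh₃, hh₄, ← dS', this, dT, dS]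

end Fermat.Agent.EC.H14
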