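import Mathlib
import Fermat.Agent.EC.H14_RatHeightMain
import Fermat.Agent.EC.H14_AddSubPoint

/-!
# The degree of the `x`-coordinate and the exact parallelogram law (EC brick 4)

`k` a field, `W` an elliptic curve over `k`, `K` a field together with an
embedding `j : k(X) → K` (think: `K` a function field over `k`) and `WK` the curve `W` over `K`
(hypothesis `hWK`).  A point `P` of `WK(K)` is
*rational* if its `x`-coordinate lies in `j(k(X))`; its degree `xdeg j P` is the degree of that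
rational function (and `0` for the point at infinity).  Main result:

`xdeg_add_add_xdeg_sub : xdeg (P + Q) + xdeg (P - Q) = 2 * (xdeg P + xdeg Q)`

whenever `P`, `Q`, `P + Q`, `P - Q` are rational.
-/

set_option autoImplicit false

namespace Fermat.Agent.EC.H14

open WeierstrassCurve WeierstrassCurve.Affine

variable {k : Type*} [Field k] (W : WeierstrassCurve k)
variable {K : Type*} [Field K] (j : RatFunc k →+* K) (WK : WeierstrassCurve K)

/-- the point has an `x`-coordinate in the image of `j` -/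
def IsRatPt (P : WK.toAffine.Point) : Prop :=
  ∃ f : RatFunc k, xa WK P = j f

lemma isRatPt_zero : IsRatPt j WK (0 : WK.toAffine.Point) :=
  ⟨1, by simp⟩

lemma isRatPt_neg {P : WK.toAffine.Point} (h : IsRatPt j WK P) :
    IsRatPt j WK (-P) := by
  obtain ⟨f, hf⟩ := h
  exact ⟨f, by rw [xa_neg, hf]⟩

open scoped Classical in
/-- the degree of the `x`-coordinate of a rational point -/
noncomputable def xdeg (P : WK.toAffine.Point) : ℕ :=
  if P = 0 then 0 else
    if h : ∃ f : RatFunc k, xa WK P = j f then rdeg h.choose else 0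

lemma xdeg_zero : xdeg j WK (0 : WK.toAffine.Point) = 0 := by
  simp [xdeg]

lemma xdeg_eq_of_ne_zero {P : WK.toAffine.Point} (hP : P ≠ 0) {f : RatFunc k}
    (hf : xa WK P = j f) : xdeg j WK P = rdeg f := by
  have h : ∃ f : RatFunc k, xa WK P = j f := ⟨f, hf⟩
  have : h.choose = f :=
    j.injective (h.choose_spec.symm.trans hf)
  simp [xdeg, hP, h, this]

/-- projective coordinates in `k(X)` of the `x`-coordinate of a rational point, with its height -/
lemma exists_ratRep {P : WK.toAffine.Point} (h : IsRatPt j WK P) :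
    ∃ a b : RatFunc k, ¬ (a = 0 ∧ b = 0) ∧ xa WK P = j a ∧
      xb WK P = j b ∧ xdeg j WK P = ht a b := by
  by_cases hP : P = 0
  · subst hP
    exact ⟨1, 0, by simp, by simp, by simp, by simp [xdeg_zero, ht_zero_right]⟩
  · obtain ⟨f, hf⟩ := h
    refine ⟨f, 1, by simp, hf, ?_, ?_⟩
    · rw [xb_of_ne_zero _ hP, map_one]
    · rw [xdeg_eq_of_ne_zero j WK hP hf, ht_one_right]

lemma xdeg_neg (P : WK.toAffine.Point) : xdeg j WK (-P) = xdeg j WK P := by
  by_cases hP : P = 0
  · subst hP; simp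
  · have hP' : -P ≠ 0 := by
      cases P with
      | zero => exact absurd rfl hP
      | some x y h => rw [Point.neg_some]; exact Point.some_ne_zero _
    by_cases h : IsRatPt j WK P
    · obtain ⟨f, hf⟩ := h
      rw [xdeg_eq_of_ne_zero j WK hP hf, xdeg_eq_of_ne_zero j WK hP' (by rw [xa_neg, hf])]
    · have h' : ¬ IsRatPt j WK (-P) := fun h' => h (by simpa using isRatPt_neg j WK h')
      have g : ¬ ∃ f : RatFunc k, xa WK P = j f := h
      have g' : ¬ ∃ f : RatFunc k, xa WK (-P) = j f := h'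
      simp [xdeg, hP, hP', g, g']

variable [DecidableEq K] [W.IsElliptic]

/-- **The exact parallelogram law** for the degree of the `x`-coordinate. -/
theorem xdeg_add_add_xdeg_sub
    (hWK : (W.map (algebraMap k (RatFunc k))).map j = WK) {P Q : WK.toAffine.Point}
    (hP : IsRatPt j WK P) (hQ : IsRatPt j WK Q) (hA : IsRatPt j WK (P + Q))
    (hS : IsRatPt j WK (P - Q)) :
    xdeg j WK (P + Q) + xdeg j WK (P - Q) = 2 * (xdeg j WK P + xdeg j WK Q) := by
  obtain ⟨a₁, b₁, n₁, ha₁, hb₁, d₁⟩ := exists_ratRep j WK hP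
  obtain ⟨a₂, b₂, n₂, ha₂, hb₂, d₂⟩ := exists_ratRep j WK hQ
  obtain ⟨a₃, b₃, n₃, ha₃, hb₃, d₃⟩ := exists_ratRep j WK hA
  obtain ⟨a₄, b₄, n₄, ha₄, hb₄, d₄⟩ := exists_ratRep j WK hS
  have : WK.IsElliptic := by rw [← hWK]; infer_instance
  obtain ⟨e, he, E0, E1, E2⟩ := addSubRel WK P Q
  simp only [ha₁, ha₂, ha₃, ha₄, hb₁, hb₂, hb₃, hb₄] at E0 E1 E2
  -- the curve over `k(X)`
  set WF := W.map (algebraMap k (RatFunc k)) with hWF
  have hW : WF.map j = WK := hWK
  set s := a₁ * a₂ with hs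
  set t := a₁ * b₂ + a₂ * b₁ with ht'
  set u := b₁ * b₂ with hu
  have js : j a₁ * j a₂ = j s := by rw [hs, map_mul]
  have jt : j a₁ * j b₂ + j a₂ * j b₁ = j t := by rw [ht', map_add, map_mul, map_mul]
  have ju : j b₁ * j b₂ = j u := by rw [hu, map_mul]
  rw [js, jt, ju] at E0 E1 E2
  have m0 : T0 WK (j s) (j t) (j u) = j (T0 WF s t u) := by
    rw [← hW]; exact (map_T0 WF j s t u).symm
  have m1 : T1 WK (j s) (j t) (j u) = j (T1 WF s t u) := by
    rw [← hW]; exact (map_T1 WF j s t u).symm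
  have m2 : T2 (j s) (j t) (j u) = j (T2 s t u) :=
    (map_T2 j s t u).symm
  rw [m0] at E0
  rw [m1] at E1
  rw [m2] at E2
  -- `e` lies in the image of `j`
  have stu : ¬ (s = 0 ∧ t = 0 ∧ u = 0) := by
    rintro ⟨z1, z2, z3⟩
    rcases mul_eq_zero.mp z1 with z | z
    · have hb : b₁ ≠ 0 := fun hb => n₁ ⟨z, hb⟩
      have hb2 : b₂ = 0 := (mul_eq_zero.mp z3).resolve_left hb
      have ha2 : a₂ ≠ 0 := fun ha => n₂ ⟨ha, hb2⟩
      rw [ht', z, zero_mul, zero_add] at z2
      exact (mul_ne_zero ha2 hb) z2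
    · have hb : b₂ ≠ 0 := fun hb => n₂ ⟨z, hb⟩
      have hb1 : b₁ = 0 := (mul_eq_zero.mp z3).resolve_right hb
      have ha1 : a₁ ≠ 0 := fun ha => n₁ ⟨ha, hb1⟩
      rw [ht', z, zero_mul, add_zero] at z2
      exact (mul_ne_zero ha1 hb) z2
  have hT := T_ne_zero WF s t u stu
  have hex : ∃ ε : RatFunc k, e = j ε := by
    by_cases h0 : T0 WF s t u = 0
    · by_cases h1 : T1 WF s t u = 0
      · have h2 : T2 s t u ≠ 0 := fun h2 => hT ⟨h0, h1, h2⟩
        refine ⟨b₃ * b₄ / T2 s t u, ?_⟩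
        rw [map_div₀, map_mul, E2]
        have : j (T2 s t u) ≠ 0 := (map_ne_zero _).mpr h2
        field_simp
      · refine ⟨(a₃ * b₄ + a₄ * b₃) / T1 WF s t u, ?_⟩
        rw [map_div₀, map_add, map_mul, map_mul, E1]
        have : j (T1 WF s t u) ≠ 0 := (map_ne_zero _).mpr h1
        field_simp
    · refine ⟨a₃ * a₄ / T0 WF s t u, ?_⟩
      rw [map_div₀, map_mul, E0]
      have : j (T0 WF s t u) ≠ 0 := (map_ne_zero _).mpr h0
      field_simp
  obtain ⟨ε, rfl⟩ := hex
  have hε : ε ≠ 0 := fun h => he (by rw [h, map_zero])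
  have hinj : Function.Injective (j : RatFunc k → K) := j.injective
  have F0 : a₃ * a₄ = ε * T0 WF s t u := hinj (by rw [map_mul, map_mul, E0])
  have F1 : a₃ * b₄ + a₄ * b₃ = ε * T1 WF s t u :=
    hinj (by rw [map_add, map_mul, map_mul, map_mul, E1])
  have F2 : b₃ * b₄ = ε * T2 s t u := hinj (by rw [map_mul, map_mul, E2])
  rw [d₁, d₂, d₃, d₄]
  exact ht_addSub W n₁ n₂ n₃ n₄ ε hε F0 F1 F2

end Fermat.Agent.EC.H14
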