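import Mathlib
import Fermat.Agent.EC.H14_PointDegree

/-!
# The function field of an elliptic curve and its generic point (EC brick 6)

`W₀` a Weierstrass curve over a field `k₀`, `k` a field extension of `k₀`, `K` the function field
of `W₀` over `k`.  We set up: the generic point `gP ∈ W₀(K)`, the embedding `jK : k(X) → K`,
the hyperelliptic involution `sigK : K → K`, and prove that the fixed field of `sigK` is `k(X)`.
-/

set_option autoImplicit false

namespace Fermat.Agent.EC.H14

open Polynomial WeierstrassCurve WeierstrassCurve.Affine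
open scoped Polynomial.Bivariate

variable {k₀ : Type*} [Field k₀] (W₀ : WeierstrassCurve k₀)
variable (k : Type*) [Field k] [Algebra k₀ k]

/-- the curve over `k` -/
noncomputable abbrev Wk : WeierstrassCurve k := W₀.map (algebraMap k₀ k)

/-- the coordinate ring over `k` -/
abbrev AA : Type _ := (Wk W₀ k).toAffine.CoordinateRing

/-- the function field over `k` -/
abbrev KK : Type _ := (Wk W₀ k).toAffine.FunctionField

/-- the coordinate function `x` in the coordinate ring -/
noncomputable def ax : AA W₀ k := CoordinateRing.mk (Wk W₀ k).toAffine (C X)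

/-- the coordinate function `y` in the coordinate ring -/
noncomputable def ay : AA W₀ k := CoordinateRing.mk (Wk W₀ k).toAffine Y

/-- the coordinate function `x` in the function field -/
noncomputable def gx : KK W₀ k := algebraMap (AA W₀ k) (KK W₀ k) (ax W₀ k)

/-- the coordinate function `y` in the function field -/
noncomputable def gy : KK W₀ k := algebraMap (AA W₀ k) (KK W₀ k) (ay W₀ k)

lemma mk_CC (a : k) :
    CoordinateRing.mk (Wk W₀ k).toAffine (C (C a)) = algebraMap k (AA W₀ k) a := rfl

lemma algebraMap_X_AA : algebraMap k[X] (AA W₀ k) X = ax W₀ k := rfl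

/-- the Weierstrass equation in the coordinate ring -/
lemma ay_sq : (ay W₀ k) ^ 2 + algebraMap k₀ (AA W₀ k) W₀.a₁ * ax W₀ k * ay W₀ k +
      algebraMap k₀ (AA W₀ k) W₀.a₃ * ay W₀ k
    = (ax W₀ k) ^ 3 + algebraMap k₀ (AA W₀ k) W₀.a₂ * (ax W₀ k) ^ 2 +
      algebraMap k₀ (AA W₀ k) W₀.a₄ * ax W₀ k + algebraMap k₀ (AA W₀ k) W₀.a₆ := by
  have h0 : CoordinateRing.mk (Wk W₀ k).toAffine (Wk W₀ k).toAffine.polynomial = 0 :=
    AdjoinRoot.mk_self
  simp only [Affine.polynomial, map_sub, map_add, map_mul, map_pow, mk_CC,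
    WeierstrassCurve.map_a₁, WeierstrassCurve.map_a₂, WeierstrassCurve.map_a₃,
    WeierstrassCurve.map_a₄, WeierstrassCurve.map_a₆, ← IsScalarTower.algebraMap_apply] at h0
  simp only [ax, ay]
  linear_combination h0

/-- the Weierstrass equation in the function field -/
lemma gy_sq : (gy W₀ k) ^ 2 + algebraMap k₀ (KK W₀ k) W₀.a₁ * gx W₀ k * gy W₀ k +
      algebraMap k₀ (KK W₀ k) W₀.a₃ * gy W₀ k
    = (gx W₀ k) ^ 3 + algebraMap k₀ (KK W₀ k) W₀.a₂ * (gx W₀ k) ^ 2 +
      algebraMap k₀ (KK W₀ k) W₀.a₄ * gx W₀ k + algebraMap k₀ (KK W₀ k) W₀.a₆ := by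
  have := congrArg (algebraMap (AA W₀ k) (KK W₀ k)) (ay_sq W₀ k)
  simp only [map_add, map_mul, map_pow, ← IsScalarTower.algebraMap_apply] at this
  exact this

lemma generic_equation :
    (W₀.baseChange (KK W₀ k)).toAffine.Equation (gx W₀ k) (gy W₀ k) := by
  rw [Affine.equation_iff]
  simp only [WeierstrassCurve.baseChange, WeierstrassCurve.map_a₁, WeierstrassCurve.map_a₂,
    WeierstrassCurve.map_a₃, WeierstrassCurve.map_a₄, WeierstrassCurve.map_a₆]
  exact gy_sq W₀ k

/-- base change preserves ellipticity (instance for the non-reducible `baseChange`) -/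
instance instIsEllipticBaseChange {R A : Type*} [CommRing R] [CommRing A] [Algebra R A]
    (W : WeierstrassCurve R) [W.IsElliptic] : (W.baseChange A).IsElliptic :=
  inferInstanceAs (W.map (algebraMap R A)).IsElliptic

section Elliptic

variable [W₀.IsElliptic]

lemma generic_nonsingular :
    (W₀.baseChange (KK W₀ k)).toAffine.Nonsingular (gx W₀ k) (gy W₀ k) :=
  (Affine.equation_iff_nonsingular).mp (generic_equation W₀ k)

/-- the generic point -/
noncomputable def gP : (W₀.baseChange (KK W₀ k)).toAffine.Point :=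
  .some (gx W₀ k) (gy W₀ k) (generic_nonsingular W₀ k)

end Elliptic

/-- the embedding of `k(X)` into the function field -/
noncomputable def jK : RatFunc k →+* KK W₀ k :=
  IsFractionRing.lift (g := algebraMap k[X] (KK W₀ k))
    (FaithfulSMul.algebraMap_injective k[X] (KK W₀ k))

lemma jK_algebraMap (p : k[X]) :
    jK W₀ k (algebraMap k[X] (RatFunc k) p) = algebraMap k[X] (KK W₀ k) p :=
  IsFractionRing.lift_algebraMap _ p

lemma jK_X : jK W₀ k RatFunc.X = gx W₀ k := by
  rw [← RatFunc.algebraMap_X, jK_algebraMap, IsScalarTower.algebraMap_apply k[X] (AA W₀ k),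
    algebraMap_X_AA, gx]

lemma jK_C (c : k) : jK W₀ k (algebraMap k (RatFunc k) c) = algebraMap k (KK W₀ k) c := by
  rw [IsScalarTower.algebraMap_apply k k[X] (RatFunc k), jK_algebraMap,
    ← IsScalarTower.algebraMap_apply]

lemma jK_comp_algebraMap :
    (jK W₀ k).comp (algebraMap k (RatFunc k)) = algebraMap k (KK W₀ k) :=
  RingHom.ext (jK_C W₀ k)

/-- the curve over `K` is the base change along `jK` of the curve over `k(X)` -/
lemma hWK : ((Wk W₀ k).map (algebraMap k (RatFunc k))).map (jK W₀ k) =
    W₀.baseChange (KK W₀ k) := by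
  rw [WeierstrassCurve.map_map, WeierstrassCurve.map_map, WeierstrassCurve.baseChange,
    jK_comp_algebraMap, IsScalarTower.algebraMap_eq k₀ k (KK W₀ k)]

end Fermat.Agent.EC.H14
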