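import Mathlib
import Fermat.Agent.EC.H14_FunctionField

/-!
# The hyperelliptic involution of the function field of an elliptic curve (EC brick 7)

`sigA`, `sigK`: the involution `y ↦ -y - a₁x - a₃` on the coordinate ring and the function field.
`z * sigA z` is the norm to `k[X]` (`mul_sigA`), and the fixed field of `sigK` is `k(X)`
(`exists_jK_of_sigK_fixed`).
-/

set_option autoImplicit false

open Polynomial WeierstrassCurve WeierstrassCurve.Affine
open scoped Polynomial.Bivariate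
namespace Fermat.Agent.EC.H14
variable {k₀ : Type*} [Field k₀] (W₀ : WeierstrassCurve k₀)
variable (k : Type*) [Field k] [Algebra k₀ k]

/-- the conjugate of `y` in the coordinate ring -/
noncomputable def ayc : AA W₀ k :=
  CoordinateRing.mk (Wk W₀ k).toAffine (Wk W₀ k).toAffine.negPolynomial

/-- the linear polynomial `g = a₁ X + a₃` -/
noncomputable def gpol : k[X] := C (algebraMap k₀ k W₀.a₁) * X + C (algebraMap k₀ k W₀.a₃)

lemma algebraMap_C_AA (a : k₀) :
    algebraMap k[X] (AA W₀ k) (C (algebraMap k₀ k a)) = algebraMap k₀ (AA W₀ k) a := by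
  rw [← Polynomial.algebraMap_eq, ← IsScalarTower.algebraMap_apply k k[X] (AA W₀ k),
    ← IsScalarTower.algebraMap_apply k₀ k (AA W₀ k)]

lemma algebraMap_gpol : algebraMap k[X] (AA W₀ k) (gpol W₀ k) =
    algebraMap k₀ (AA W₀ k) W₀.a₁ * ax W₀ k + algebraMap k₀ (AA W₀ k) W₀.a₃ := by
  simp only [gpol, map_add, map_mul, algebraMap_C_AA, algebraMap_X_AA]

lemma ayc_eq : ayc W₀ k = - ay W₀ k - algebraMap k[X] (AA W₀ k) (gpol W₀ k) := by
  rw [algebraMap_gpol]
  simp only [ayc, Affine.negPolynomial, map_sub, map_neg, map_add, map_mul, mk_CC,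
    WeierstrassCurve.map_a₁, WeierstrassCurve.map_a₃, ← IsScalarTower.algebraMap_apply]
  rfl

lemma aeval_ayc : aeval (ayc W₀ k) (Wk W₀ k).toAffine.polynomial = 0 := by
  have h := ay_sq W₀ k
  simp only [Affine.polynomial, map_sub, map_add, map_mul, map_pow, aeval_X, aeval_C,
    WeierstrassCurve.map_a₁, WeierstrassCurve.map_a₂, WeierstrassCurve.map_a₃,
    WeierstrassCurve.map_a₄, WeierstrassCurve.map_a₆, algebraMap_C_AA, algebraMap_X_AA, ayc_eq,
    algebraMap_gpol]
  linear_combination h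

/-- the hyperelliptic involution of the coordinate ring -/
noncomputable def sigA : AA W₀ k →ₐ[k[X]] AA W₀ k :=
  AdjoinRoot.liftAlgHom (Wk W₀ k).toAffine.polynomial (Algebra.ofId k[X] (AA W₀ k)) (ayc W₀ k) (by
    have := aeval_ayc W₀ k
    rwa [aeval_def] at this)

lemma sigA_ay : sigA W₀ k (ay W₀ k) = ayc W₀ k := by
  have : ay W₀ k = AdjoinRoot.root (Wk W₀ k).toAffine.polynomial := AdjoinRoot.mk_X
  rw [this]
  exact AdjoinRoot.liftAlgHom_root _ _ _ _

lemma sigA_ayc : sigA W₀ k (ayc W₀ k) = ay W₀ k := by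
  rw [ayc_eq, map_sub, map_neg, sigA_ay, AlgHom.commutes, ayc_eq]; ring

lemma sigA_sigA (z : AA W₀ k) : sigA W₀ k (sigA W₀ k z) = z := by
  obtain ⟨p, q, rfl⟩ := CoordinateRing.exists_smul_basis_eq z
  change sigA W₀ k (sigA W₀ k (p • (1 : AA W₀ k) + q • ay W₀ k)) = p • (1 : AA W₀ k) + q • ay W₀ k
  simp only [map_add, map_smul, map_one, sigA_ay, sigA_ayc]

lemma sigA_injective : Function.Injective (sigA W₀ k) :=
  Function.LeftInverse.injective (sigA_sigA W₀ k)

lemma sigA_smul_basis (p q : k[X]) :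
    sigA W₀ k (p • (1 : AA W₀ k) + q • ay W₀ k) =
      (p - q * gpol W₀ k) • (1 : AA W₀ k) + (-q) • ay W₀ k := by
  simp only [map_add, map_one, sigA_ay, ayc_eq, Algebra.smul_def, map_sub, map_mul,
    map_neg, AlgHom.commutes]
  ring

/-- `z * σ z` is the norm -/
lemma mul_sigA (z : AA W₀ k) :
    z * sigA W₀ k z = algebraMap k[X] (AA W₀ k) (Algebra.norm k[X] z) := by
  obtain ⟨p, q, rfl⟩ := CoordinateRing.exists_smul_basis_eq z
  have hn := CoordinateRing.coe_norm_smul_basis (W' := (Wk W₀ k).toAffine) p q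
  rw [← AdjoinRoot.algebraMap_eq] at hn
  rw [hn]
  change (p • (1 : AA W₀ k) + q • ay W₀ k) * sigA W₀ k (p • (1 : AA W₀ k) + q • ay W₀ k) = _
  rw [sigA_smul_basis]
  have e1 : ∀ p : k[X], CoordinateRing.mk (Wk W₀ k).toAffine (C p) =
      algebraMap k[X] (AA W₀ k) p := fun _ => rfl
  have e2 : CoordinateRing.mk (Wk W₀ k).toAffine Y = ay W₀ k := rfl
  have e3 : algebraMap k[X] (AA W₀ k) (gpol W₀ k) =
      algebraMap k[X] (AA W₀ k) (C (Wk W₀ k).toAffine.a₁) * algebraMap k[X] (AA W₀ k) X +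
        algebraMap k[X] (AA W₀ k) (C (Wk W₀ k).toAffine.a₃) := by
    simp only [gpol, map_add, map_mul, WeierstrassCurve.map_a₁, WeierstrassCurve.map_a₃]
  simp only [map_mul, map_add, map_sub, map_neg, Algebra.smul_def, mul_one, e1, e2, e3]
  ring

/-- the hyperelliptic involution of the function field, as a ring homomorphism -/
noncomputable def sigKr : KK W₀ k →+* KK W₀ k :=
  IsFractionRing.lift (g := (algebraMap (AA W₀ k) (KK W₀ k)).comp (sigA W₀ k).toRingHom)
    ((IsFractionRing.injective (AA W₀ k) (KK W₀ k)).comp (sigA_injective W₀ k))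

lemma sigKr_algebraMap (z : AA W₀ k) :
    sigKr W₀ k (algebraMap (AA W₀ k) (KK W₀ k) z) =
      algebraMap (AA W₀ k) (KK W₀ k) (sigA W₀ k z) :=
  IsFractionRing.lift_algebraMap _ z

/-- the hyperelliptic involution of the function field -/
noncomputable def sigK : KK W₀ k →ₐ[k] KK W₀ k :=
  { sigKr W₀ k with
    commutes' := fun c => by
      change sigKr W₀ k (algebraMap k (KK W₀ k) c) = algebraMap k (KK W₀ k) c
      rw [IsScalarTower.algebraMap_apply k (AA W₀ k) (KK W₀ k), sigKr_algebraMap,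
        IsScalarTower.algebraMap_apply k k[X] (AA W₀ k), AlgHom.commutes] }

lemma sigK_algebraMap (z : AA W₀ k) :
    sigK W₀ k (algebraMap (AA W₀ k) (KK W₀ k) z) =
      algebraMap (AA W₀ k) (KK W₀ k) (sigA W₀ k z) :=
  sigKr_algebraMap W₀ k z

lemma sigK_gx : sigK W₀ k (gx W₀ k) = gx W₀ k := by
  rw [gx, sigK_algebraMap, ← algebraMap_X_AA, AlgHom.commutes]

lemma sigK_gy : sigK W₀ k (gy W₀ k) =
    -gy W₀ k - (algebraMap k₀ (KK W₀ k) W₀.a₁ * gx W₀ k + algebraMap k₀ (KK W₀ k) W₀.a₃) := by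
  rw [gy, sigK_algebraMap, sigA_ay, ayc_eq, algebraMap_gpol]
  simp only [map_sub, map_neg, map_add, map_mul, ← IsScalarTower.algebraMap_apply, gx]

/-- an elliptic curve is not of the form `y² = f(x)` in characteristic two -/
lemma not_two_a₁_a₃ {F : Type*} [Field F] (W : WeierstrassCurve F) [W.IsElliptic] :
    ¬ ((2 : F) = 0 ∧ W.a₁ = 0 ∧ W.a₃ = 0) := by
  rintro ⟨h2, h1, h3⟩
  have h4 : (4 : F) = 0 := by
    have : (4 : F) = 2 * 2 := by norm_num
    rw [this, h2, mul_zero]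
  have hΔ : W.Δ = 0 := by
    simp only [WeierstrassCurve.Δ, WeierstrassCurve.b₂, WeierstrassCurve.b₄, WeierstrassCurve.b₆,
      WeierstrassCurve.b₈, h1, h3]
    linear_combination (-4 * W.a₂ ^ 2 * (4 * W.a₂ * W.a₆ - W.a₄ ^ 2) - 16 * W.a₄ ^ 3
      - 108 * W.a₆ ^ 2 + 72 * W.a₂ * W.a₄ * W.a₆) * h4
  exact W.isUnit_Δ.ne_zero hΔ

lemma gpol_eq_zero_iff : gpol W₀ k = 0 ↔ W₀.a₁ = 0 ∧ W₀.a₃ = 0 := by
  constructor
  · intro h
    have h1 := congrArg (fun p => p.coeff 1) h
    have h0 := congrArg (fun p => p.coeff 0) h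
    simp only [gpol, coeff_add, coeff_C_mul, coeff_X_one, mul_one, coeff_C_succ, add_zero,
      coeff_X_zero, mul_zero, coeff_C_zero, zero_add, coeff_zero] at h1 h0
    exact ⟨(map_eq_zero_iff _ (algebraMap k₀ k).injective).mp h1,
      (map_eq_zero_iff _ (algebraMap k₀ k).injective).mp h0⟩
  · rintro ⟨h1, h3⟩
    simp [gpol, h1, h3]

/-- **The fixed field of the hyperelliptic involution is `k(X)`.** -/
theorem exists_jK_of_sigK_fixed [W₀.IsElliptic] (z : KK W₀ k) (hz : sigK W₀ k z = z) :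
    ∃ f : RatFunc k, z = jK W₀ k f := by
  obtain ⟨α, β, hβ, rfl⟩ := IsFractionRing.div_surjective (A := AA W₀ k) z
  have hβ0 : β ≠ 0 := nonZeroDivisors.ne_zero hβ
  have hinj : Function.Injective (algebraMap (AA W₀ k) (KK W₀ k)) :=
    IsFractionRing.injective _ _
  have hσβ0 : sigA W₀ k β ≠ 0 := fun h => hβ0 (sigA_injective W₀ k (by rw [h, map_zero]))
  have haβ : algebraMap (AA W₀ k) (KK W₀ k) β ≠ 0 := fun h => hβ0 (hinj (by rw [h, map_zero]))
  have haσβ : algebraMap (AA W₀ k) (KK W₀ k) (sigA W₀ k β) ≠ 0 :=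
    fun h => hσβ0 (hinj (by rw [h, map_zero]))
  set n := Algebra.norm k[X] β with hn
  have hN : β * sigA W₀ k β = algebraMap k[X] (AA W₀ k) n := mul_sigA W₀ k β
  -- the element `γ = α σ(β)` is fixed by `σ`
  set γ := α * sigA W₀ k β with hγ
  have hfix : sigA W₀ k γ = γ := by
    rw [map_div₀, sigK_algebraMap, sigK_algebraMap, div_eq_div_iff haσβ haβ] at hz
    rw [hγ, map_mul, sigA_sigA]
    apply hinj
    rw [map_mul, map_mul, hz]
  obtain ⟨p', q', hpq⟩ := CoordinateRing.exists_smul_basis_eq γ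
  have hpq' : γ = p' • (1 : AA W₀ k) + q' • ay W₀ k := hpq.symm
  have hq : q' = 0 := by
    rw [hpq', sigA_smul_basis] at hfix
    have h0 : (-(q' * gpol W₀ k)) • (1 : AA W₀ k) + (-q' - q') • ay W₀ k = 0 := by
      have : (p' - q' * gpol W₀ k) • (1 : AA W₀ k) + (-q') • ay W₀ k -
          (p' • (1 : AA W₀ k) + q' • ay W₀ k) = 0 := sub_eq_zero.mpr hfix
      rw [← this]
      simp only [sub_smul, neg_smul]
      abel
    obtain ⟨e1, e2⟩ := CoordinateRing.smul_basis_eq_zero (W' := (Wk W₀ k).toAffine) h0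
    by_contra hq0
    have g0 : gpol W₀ k = 0 := by
      rcases mul_eq_zero.mp (neg_eq_zero.mp e1) with h | h
      · exact absurd h hq0
      · exact h
    have t0 : (2 : k) = 0 := by
      have : (2 : k[X]) * q' = 0 := by linear_combination -e2
      rcases mul_eq_zero.mp this with h | h
      · have := congrArg (fun p => p.coeff 0) h
        simpa using this
      · exact absurd h hq0
    have t0' : (2 : k₀) = 0 := by
      apply (algebraMap k₀ k).injective
      rw [map_ofNat, map_zero]; exact t0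
    obtain ⟨a1, a3⟩ := (gpol_eq_zero_iff W₀ k).mp g0
    exact not_two_a₁_a₃ W₀ ⟨t0', a1, a3⟩
  refine ⟨algebraMap k[X] (RatFunc k) p' / algebraMap k[X] (RatFunc k) n, ?_⟩
  rw [map_div₀, jK_algebraMap, jK_algebraMap]
  have e1 : algebraMap (AA W₀ k) (KK W₀ k) α * algebraMap (AA W₀ k) (KK W₀ k) (sigA W₀ k β) =
      algebraMap k[X] (KK W₀ k) p' := by
    rw [← map_mul, ← hγ, hpq', hq, zero_smul, add_zero, Algebra.smul_def, mul_one,
      ← IsScalarTower.algebraMap_apply]
  have e2 : algebraMap (AA W₀ k) (KK W₀ k) β * algebraMap (AA W₀ k) (KK W₀ k) (sigA W₀ k β) =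
      algebraMap k[X] (KK W₀ k) n := by
    rw [← map_mul, hN, ← IsScalarTower.algebraMap_apply]
  rw [← e1, ← e2, mul_div_mul_right _ _ haσβ]

end Fermat.Agent.EC.H14
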