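import Mathlib

/-!
# Integer-valued functions satisfying the parallelogram law (EC brick 5)

`A` an additive commutative group, `d : A → ℤ` with
`d (x + y) + d (x - y) = 2 * d x + 2 * d y`.  Then `d` is a quadratic form:
`pairing d x y := d (x + y) - d x - d y` is symmetric and biadditive, and
`d (m • x + n • y) = m ^ 2 * d x + m * n * pairing d x y + n ^ 2 * d y`.
-/

set_option autoImplicit false
set_option linter.unusedSectionVars false

namespace Fermat.Agent.EC.H14

variable {A : Type*} [AddCommGroup A]

/-- the parallelogram law -/
def IsParallelogram (d : A → ℤ) : Prop :=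
  ∀ x y : A, d (x + y) + d (x - y) = 2 * d x + 2 * d y

/-- the polar pairing of `d` -/
def pairing (d : A → ℤ) (x y : A) : ℤ := d (x + y) - d x - d y

namespace IsParallelogram

variable {d : A → ℤ} (h : IsParallelogram d)
include h

lemma map_zero : d 0 = 0 := by
  have := h 0 0
  simp only [add_zero, sub_zero] at this
  linarith

lemma map_neg (x : A) : d (-x) = d x := by
  have := h 0 x
  simp only [zero_add, zero_sub, h.map_zero] at this
  linarith

lemma map_sub_comm (x y : A) : d (x - y) = d (y - x) := by
  rw [← h.map_neg (x - y), neg_sub]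

/-- the difference form `d (x + y) - d (x - y)` is twice the pairing -/
lemma two_mul_pairing (x y : A) : 2 * pairing d x y = d (x + y) - d (x - y) := by
  have := h x y
  simp only [pairing]; linarith

lemma pairing_comm (x y : A) : pairing d x y = pairing d y x := by
  simp only [pairing, add_comm x y]; ring

lemma pairing_self (x : A) : pairing d x x = 2 * d x := by
  have := h x x
  simp only [sub_self, h.map_zero] at this
  simp only [pairing]; linarith

lemma pairing_zero_left (y : A) : pairing d 0 y = 0 := by
  simp [pairing, h.map_zero]

lemma pairing_neg_left (x y : A) : pairing d (-x) y = -pairing d x y := by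
  have e1 := h.two_mul_pairing (-x) y
  have e2 := h.two_mul_pairing x y
  have a1 : d (-x + y) = d (x - y) := by rw [← h.map_neg (x - y)]; congr 1; abel
  have a2 : d (-x - y) = d (x + y) := by rw [← h.map_neg (x + y)]; congr 1; abel
  rw [a1, a2] at e1
  linarith

lemma pairing_add_left (x₁ x₂ y : A) :
    pairing d (x₁ + x₂) y = pairing d x₁ y + pairing d x₂ y := by
  -- the key identity `B'(x₁+x₂,y) + B'(x₁-x₂,y) = 2 B'(x₁,y)` for `B' = 2 * pairing`
  have key : ∀ u v : A, pairing d (u + v) y + pairing d (u - v) y = 2 * pairing d u y := by
    intro u v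
    have p1 := h (u + y) v
    have p2 := h (u - y) v
    have t1 := h.two_mul_pairing (u + v) y
    have t2 := h.two_mul_pairing (u - v) y
    have t3 := h.two_mul_pairing u y
    have a1 : u + y + v = u + v + y := by abel
    have a2 : u + y - v = u - v + y := by abel
    have a3 : u - y + v = u + v - y := by abel
    have a4 : u - y - v = u - v - y := by abel
    rw [a1, a2] at p1
    rw [a3, a4] at p2
    linarith
  have k1 := key x₁ x₂
  have k2 := key x₂ x₁
  have e : x₂ - x₁ = -(x₁ - x₂) := by abel
  rw [add_comm x₂ x₁, e, h.pairing_neg_left] at k2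
  linarith

lemma pairing_add_right (x y₁ y₂ : A) :
    pairing d x (y₁ + y₂) = pairing d x y₁ + pairing d x y₂ := by
  rw [h.pairing_comm, h.pairing_add_left, h.pairing_comm y₁, h.pairing_comm y₂]

/-- the pairing as an additive map in the first variable -/
def pairingHom (y : A) : A →+ ℤ where
  toFun x := pairing d x y
  map_zero' := h.pairing_zero_left y
  map_add' x₁ x₂ := h.pairing_add_left x₁ x₂ y

lemma pairing_zsmul_left (m : ℤ) (x y : A) : pairing d (m • x) y = m * pairing d x y := by
  have := map_zsmul (h.pairingHom y) m x
  simpa [pairingHom] using this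

lemma pairing_zsmul_right (m : ℤ) (x y : A) : pairing d x (m • y) = m * pairing d x y := by
  rw [h.pairing_comm, h.pairing_zsmul_left, h.pairing_comm]

lemma map_add (x y : A) : d (x + y) = d x + d y + pairing d x y := by
  simp only [pairing]; ring

lemma map_zsmul (m : ℤ) (x : A) : d (m • x) = m ^ 2 * d x := by
  have h2 : 2 * d (m • x) = 2 * (m ^ 2 * d x) := by
    rw [← h.pairing_self, h.pairing_zsmul_left, h.pairing_zsmul_right, h.pairing_self]; ring
  linarith

/-- **the quadratic form identity** -/
theorem map_zsmul_add_zsmul (m n : ℤ) (x y : A) :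
    d (m • x + n • y) = m ^ 2 * d x + m * n * pairing d x y + n ^ 2 * d y := by
  rw [h.map_add, h.map_zsmul, h.map_zsmul, h.pairing_zsmul_left, h.pairing_zsmul_right]; ring

theorem map_sub (x y : A) : d (x - y) = d x + d y - pairing d x y := by
  have := h x y
  rw [h.map_add] at this
  linarith

/-- the three-term quadratic form identity -/
theorem map_three (a b c : ℤ) (x y z : A) :
    d (a • x + b • y + c • z) = a ^ 2 * d x + b ^ 2 * d y + c ^ 2 * d z +
      a * b * pairing d x y + a * c * pairing d x z + b * c * pairing d y z := by
  rw [h.map_add, h.map_zsmul_add_zsmul, h.map_zsmul, h.pairing_add_left, h.pairing_zsmul_left,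
    h.pairing_zsmul_left, h.pairing_zsmul_right, h.pairing_zsmul_right]
  ring

end IsParallelogram

end Fermat.Agent.EC.H14
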