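import Mathlib
import Fermat.Agent.EC.H14_RatHeightMain

/-!
# The degree of a rational function (EC brick 8)

`rdeg f = max (deg num) (deg denom)`: basic lemmas (`rdeg_div_of_isCoprime`, `rdeg_X`, `rdeg_pow`,
`rdeg_div_le_of_dvd`, `rdeg_eq_zero_iff`) and multiplicativity under composition
(`rdeg_substR`, from Mathlib's `RatFunc.finrank_eq_max_natDegree` and the tower law).
-/

set_option autoImplicit false
set_option linter.unusedSimpArgs false

open Polynomial IntermediateField

namespace Fermat.Agent.EC.H14

variable {k : Type*} [Field k]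


local notation "ι" => algebraMap k[X] (RatFunc k)

lemma iota_injective : Function.Injective (ι) := IsFractionRing.injective k[X] (RatFunc k)

/-- the degree of a quotient of coprime polynomials -/
theorem rdeg_div_of_isCoprime {u v : k[X]} (h : IsCoprime u v) (hv : v ≠ 0) :
    rdeg (ι u / ι v) = max u.natDegree v.natDegree := by
  set f := ι u / ι v with hf
  have hvF : ι v ≠ 0 := fun h0 => hv (iota_injective (by rw [h0, map_zero]))
  have hdF : ι f.denom ≠ 0 := fun h0 => f.denom_ne_zero (iota_injective (by rw [h0, map_zero]))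
  -- cross multiplication
  have hx : f.num * v = f.denom * u := by
    apply iota_injective
    have := f.num_div_denom
    rw [hf] at this ⊢
    rw [map_mul, map_mul]
    rw [div_eq_div_iff hdF hvF] at this
    rw [hf] at this
    linear_combination this
  have hc := f.isCoprime_num_denom
  have d1 : f.num ∣ u := by
    have : f.num ∣ f.denom * u := ⟨v, by rw [← hx]⟩
    exact hc.dvd_of_dvd_mul_left this
  have d2 : u ∣ f.num := by
    have : u ∣ f.num * v := ⟨f.denom, by rw [hx]; ring⟩
    exact h.dvd_of_dvd_mul_right this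
  have d3 : f.denom ∣ v := by
    have : f.denom ∣ f.num * v := ⟨u, by rw [hx]⟩
    exact hc.symm.dvd_of_dvd_mul_left this
  have d4 : v ∣ f.denom := by
    have : v ∣ f.denom * u := ⟨f.num, by rw [← hx]; ring⟩
    exact h.symm.dvd_of_dvd_mul_right this
  have e1 : f.num.natDegree = u.natDegree :=
    Polynomial.natDegree_eq_of_degree_eq (Polynomial.degree_eq_degree_of_associated (associated_of_dvd_dvd d1 d2))
  have e2 : f.denom.natDegree = v.natDegree :=
    Polynomial.natDegree_eq_of_degree_eq (Polynomial.degree_eq_degree_of_associated (associated_of_dvd_dvd d3 d4))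
  rw [rdeg, e1, e2]

lemma exists_coprime_rep (f : RatFunc k) :
    ∃ u v : k[X], IsCoprime u v ∧ v ≠ 0 ∧ f = ι u / ι v ∧ rdeg f = max u.natDegree v.natDegree :=
  ⟨f.num, f.denom, f.isCoprime_num_denom, f.denom_ne_zero, f.num_div_denom.symm, rfl⟩

lemma rdeg_X : rdeg (RatFunc.X : RatFunc k) = 1 := by
  have : (RatFunc.X : RatFunc k) = ι X / ι 1 := by rw [map_one, div_one, RatFunc.algebraMap_X]
  rw [this, rdeg_div_of_isCoprime isCoprime_one_right one_ne_zero]
  simp

lemma rdeg_algebraMap (p : k[X]) : rdeg (ι p) = p.natDegree := by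
  have : ι p = ι p / ι 1 := by rw [map_one, div_one]
  rw [this, rdeg_div_of_isCoprime isCoprime_one_right one_ne_zero]
  simp

lemma rdeg_C (c : k) : rdeg (algebraMap k (RatFunc k) c) = 0 := by
  rw [IsScalarTower.algebraMap_apply k k[X] (RatFunc k), rdeg_algebraMap]
  simp

lemma rdeg_pow (f : RatFunc k) (n : ℕ) : rdeg (f ^ n) = n * rdeg f := by
  obtain ⟨u, v, h, hv, rfl, hd⟩ := exists_coprime_rep f
  rw [hd, div_pow, ← map_pow, ← map_pow, rdeg_div_of_isCoprime h.pow (pow_ne_zero n hv),
    natDegree_pow, natDegree_pow, Nat.mul_max_mul_left]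

/-- a general upper bound -/
lemma rdeg_div_le {a b : k[X]} (hb : b ≠ 0) : rdeg (ι a / ι b) ≤ max a.natDegree b.natDegree := by
  by_cases ha : a = 0
  · subst ha
    simp [rdeg]
  · have h1 := RatFunc.num_div_dvd a hb
    have h2 := RatFunc.denom_div_dvd a b
    exact max_le_max (natDegree_le_of_dvd h1 ha) (natDegree_le_of_dvd h2 hb)

/-- upper bound after cancelling a common factor -/
lemma rdeg_div_le_of_dvd {a b h : k[X]} (hb : b ≠ 0) (ha : h ∣ a) (hb' : h ∣ b) :
    rdeg (ι a / ι b) + h.natDegree ≤ max a.natDegree b.natDegree := by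
  obtain ⟨a', rfl⟩ := ha
  obtain ⟨b', rfl⟩ := hb'
  have hh : h ≠ 0 := left_ne_zero_of_mul hb
  have hb0 : b' ≠ 0 := right_ne_zero_of_mul hb
  have hhF : ι h ≠ 0 := fun h0 => hh (iota_injective (by rw [h0, map_zero]))
  rw [map_mul, map_mul, mul_div_mul_left _ _ hhF]
  have := rdeg_div_le (a := a') hb0
  by_cases ha0 : a' = 0
  · subst ha0
    simp only [mul_zero, natDegree_zero, map_zero, zero_div] at this ⊢
    rw [natDegree_mul hh hb0]
    have : rdeg (0 : RatFunc k) = 0 := by simp [rdeg]
    omega
  · rw [natDegree_mul hh ha0, natDegree_mul hh hb0]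
    omega

lemma rdeg_eq_zero_iff (f : RatFunc k) : rdeg f = 0 ↔ ∃ c : k, f = algebraMap k (RatFunc k) c := by
  constructor
  · intro h
    have h1 : f.num.natDegree = 0 := by
      have := le_max_left f.num.natDegree f.denom.natDegree
      rw [rdeg] at h; omega
    have h2 : f.denom.natDegree = 0 := by
      have := le_max_right f.num.natDegree f.denom.natDegree
      rw [rdeg] at h; omega
    obtain ⟨a, ha⟩ : ∃ a, f.num = C a := ⟨_, eq_C_of_natDegree_eq_zero h1⟩
    obtain ⟨b, hb⟩ : ∃ b, f.denom = C b := ⟨_, eq_C_of_natDegree_eq_zero h2⟩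
    refine ⟨a / b, ?_⟩
    have e := f.num_div_denom
    rw [ha, hb] at e
    rw [← e, map_div₀, IsScalarTower.algebraMap_apply k k[X] (RatFunc k),
      IsScalarTower.algebraMap_apply k k[X] (RatFunc k)]
    rfl
  · rintro ⟨c, rfl⟩
    exact rdeg_C c



/-- substitution `X ↦ r` on rational functions, for transcendental `r` -/
noncomputable def substR (r : RatFunc k) (hr : Transcendental k r) : RatFunc k →ₐ[k] RatFunc k :=
  IsFractionRing.liftAlgHom (g := (aeval r : k[X] →ₐ[k] RatFunc k))
    (transcendental_iff_injective.mp hr)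

lemma substR_X (r : RatFunc k) (hr : Transcendental k r) : substR r hr RatFunc.X = r := by
  rw [substR, IsFractionRing.liftAlgHom_apply, ← RatFunc.algebraMap_X, IsFractionRing.lift_algebraMap]
  simp

lemma rdeg_eq_finrank (f : RatFunc k) : rdeg f = Module.finrank k⟮f⟯ (RatFunc k) :=
  (RatFunc.finrank_eq_max_natDegree f).symm

/-- **the degree of a composition of rational functions is multiplicative** -/
theorem rdeg_substR (r : RatFunc k) (hr : Transcendental k r) (s : RatFunc k) :
    rdeg (substR r hr s) = rdeg s * rdeg r := by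
  set φ := substR r hr with hφ
  have e1 : (k⟮s⟯).map φ = k⟮φ s⟯ := by
    rw [IntermediateField.adjoin_map]; simp
  have e2 : (⊤ : IntermediateField k (RatFunc k)).map φ = k⟮r⟯ := by
    rw [← RatFunc.adjoin_X, IntermediateField.adjoin_map]
    simp [hφ, substR_X]
  have h1 : k⟮φ s⟯ ≤ k⟮r⟯ := by
    rw [← e1, ← e2]
    exact IntermediateField.map_mono φ le_top
  have t := IntermediateField.relfinrank_mul_relfinrank h1 (le_top : k⟮r⟯ ≤ ⊤)
  rw [IntermediateField.relfinrank_top_right, IntermediateField.relfinrank_top_right,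
    ← e1, ← e2, IntermediateField.relfinrank_map_map, IntermediateField.relfinrank_top_right,
    e1, e2] at t
  rw [rdeg_eq_finrank, rdeg_eq_finrank, rdeg_eq_finrank, ← t]


end Fermat.Agent.EC.H14
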