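import Mathlib
import Fermat.Agent.EC.H14_Involution
import Fermat.Agent.EC.H14_RatDeg
import Fermat.Agent.EC.H14_Parallelogram

/-!
# Points over the function field (EC brick 9)

* `thetaK`: the substitution homomorphism `K → L` attached to a point of `W₀(L)` with
  transcendental `x`-coordinate; it sends the generic point to that point.
* `GP`: the subgroup of `W₀(K)` on which the hyperelliptic involution acts as `-1`; all its points
  have `x`-coordinate in `k(X)`, and the degree `dGP` of the `x`-coordinate satisfies the exact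
  parallelogram law on `GP`.
-/

set_option autoImplicit false
set_option linter.unusedSectionVars false

open Polynomial WeierstrassCurve WeierstrassCurve.Affine
open scoped Polynomial.Bivariate

namespace Fermat.Agent.EC.H14

section Theta

variable {k₀ : Type*} [Field k₀] (W₀ : WeierstrassCurve k₀)
variable (k : Type*) [Field k] [Algebra k₀ k]
variable {L : Type*} [Field L] [Algebra k₀ L] [Algebra k L] [IsScalarTower k₀ k L]

lemma eval₂_polynomial_of_equation {x y : L} (h : (W₀.baseChange L).toAffine.Equation x y) :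
    eval₂ ((aeval x : k[X] →ₐ[k] L) : k[X] →+* L) y (Wk W₀ k).toAffine.polynomial = 0 := by
  rw [Affine.equation_iff] at h
  simp only [WeierstrassCurve.baseChange, WeierstrassCurve.map_a₁, WeierstrassCurve.map_a₂,
    WeierstrassCurve.map_a₃, WeierstrassCurve.map_a₄, WeierstrassCurve.map_a₆] at h
  have hC : ∀ a : k₀, (aeval x : k[X] →ₐ[k] L) (C (algebraMap k₀ k a)) = algebraMap k₀ L a := by
    intro a
    rw [aeval_C, ← IsScalarTower.algebraMap_apply]
  simp only [Affine.polynomial, eval₂_sub, eval₂_add, eval₂_mul, eval₂_pow, eval₂_X, eval₂_C,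
    RingHom.coe_coe, map_add, map_mul, map_pow, aeval_X, hC,
    WeierstrassCurve.map_a₁, WeierstrassCurve.map_a₂,
    WeierstrassCurve.map_a₃, WeierstrassCurve.map_a₄, WeierstrassCurve.map_a₆]
  linear_combination h

/-- the substitution homomorphism on the coordinate ring attached to a point -/
noncomputable def thetaA {x y : L} (h : (W₀.baseChange L).toAffine.Equation x y) :
    AA W₀ k →ₐ[k] L :=
  AdjoinRoot.liftAlgHom (Wk W₀ k).toAffine.polynomial (aeval x : k[X] →ₐ[k] L) y
    (eval₂_polynomial_of_equation W₀ k h)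

lemma thetaA_ay {x y : L} (h : (W₀.baseChange L).toAffine.Equation x y) :
    thetaA W₀ k h (ay W₀ k) = y := by
  have : ay W₀ k = AdjoinRoot.root (Wk W₀ k).toAffine.polynomial := AdjoinRoot.mk_X
  rw [this]
  exact AdjoinRoot.liftAlgHom_root _ _ _ _

lemma thetaA_algebraMap {x y : L} (h : (W₀.baseChange L).toAffine.Equation x y) (p : k[X]) :
    thetaA W₀ k h (algebraMap k[X] (AA W₀ k) p) = aeval x p := by
  rw [AdjoinRoot.algebraMap_eq]
  exact AdjoinRoot.liftAlgHom_of _ _ _ _ _

lemma thetaA_ax {x y : L} (h : (W₀.baseChange L).toAffine.Equation x y) :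
    thetaA W₀ k h (ax W₀ k) = x := by
  rw [← algebraMap_X_AA, thetaA_algebraMap, aeval_X]

lemma thetaA_injective {x y : L} (h : (W₀.baseChange L).toAffine.Equation x y)
    (hx : Transcendental k x) : Function.Injective (thetaA W₀ k h) := by
  rw [injective_iff_map_eq_zero]
  intro z hz
  by_contra hz0
  have hσ : sigA W₀ k z ≠ 0 := fun h0 => hz0 (sigA_injective W₀ k (by rw [h0, map_zero]))
  have hn : Algebra.norm k[X] z ≠ 0 := by
    intro h0
    have := mul_sigA W₀ k z
    rw [h0, map_zero] at this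
    exact (mul_ne_zero hz0 hσ) this
  have : aeval x (Algebra.norm k[X] z) = 0 := by
    rw [← thetaA_algebraMap W₀ k h, ← mul_sigA, map_mul, hz, zero_mul]
  exact hn ((transcendental_iff.mp hx) _ this)

/-- the substitution homomorphism of the function field attached to a point with transcendental
`x`-coordinate -/
noncomputable def thetaK {x y : L} (h : (W₀.baseChange L).toAffine.Equation x y)
    (hx : Transcendental k x) : KK W₀ k →ₐ[k] L :=
  IsFractionRing.liftAlgHom (thetaA_injective W₀ k h hx)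

lemma thetaK_gx {x y : L} (h : (W₀.baseChange L).toAffine.Equation x y)
    (hx : Transcendental k x) : thetaK W₀ k h hx (gx W₀ k) = x := by
  rw [thetaK, IsFractionRing.liftAlgHom_apply, gx, IsFractionRing.lift_algebraMap]
  exact thetaA_ax W₀ k h

lemma thetaK_gy {x y : L} (h : (W₀.baseChange L).toAffine.Equation x y)
    (hx : Transcendental k x) : thetaK W₀ k h hx (gy W₀ k) = y := by
  rw [thetaK, IsFractionRing.liftAlgHom_apply, gy, IsFractionRing.lift_algebraMap]
  exact thetaA_ay W₀ k h


end Theta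

section Involution

variable {k₀ : Type*} [Field k₀] (W₀ : WeierstrassCurve k₀) [W₀.IsElliptic]
variable (k : Type*) [Field k] [Algebra k₀ k] [DecidableEq (KK W₀ k)]

/-- the group of points of `W₀` over the function field -/
abbrev PtK : Type _ := (W₀.baseChange (KK W₀ k)).toAffine.Point

/-- the action of the hyperelliptic involution on points -/
noncomputable def sigP : PtK W₀ k →+ PtK W₀ k := Point.map (W' := W₀) (sigK W₀ k)

lemma sigP_some {x y : KK W₀ k} (h : (W₀.baseChange (KK W₀ k)).toAffine.Nonsingular x y) :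
    ∃ h', sigP W₀ k (Point.some x y h) = Point.some (sigK W₀ k x) (sigK W₀ k y) h' :=
  ⟨_, Point.map_some (W' := W₀) (sigK W₀ k) h⟩

/-- the subgroup of points on which the involution acts as `-1` -/
noncomputable def GP : AddSubgroup (PtK W₀ k) := (sigP W₀ k + AddMonoidHom.id _).ker

lemma mem_GP_iff (P : PtK W₀ k) : P ∈ GP W₀ k ↔ sigP W₀ k P = -P := by
  simp only [GP, AddMonoidHom.mem_ker, AddMonoidHom.add_apply, AddMonoidHom.id_apply]
  exact add_eq_zero_iff_eq_neg

lemma gP_mem_GP : gP W₀ k ∈ GP W₀ k := by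
  rw [mem_GP_iff, gP]
  obtain ⟨h', e⟩ := sigP_some W₀ k (generic_nonsingular W₀ k)
  rw [e, Point.neg_some]
  congr 1
  · exact sigK_gx W₀ k
  · rw [sigK_gy, Affine.negY]
    simp only [WeierstrassCurve.baseChange, WeierstrassCurve.map_a₁, WeierstrassCurve.map_a₃]
    ring

lemma isRatPt_of_mem_GP {P : PtK W₀ k} (hP : P ∈ GP W₀ k) :
    IsRatPt (jK W₀ k) (W₀.baseChange (KK W₀ k)) P := by
  rw [mem_GP_iff] at hP
  cases P with
  | zero => exact isRatPt_zero _ _
  | some x y h =>
    obtain ⟨h', e⟩ := sigP_some W₀ k h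
    rw [e, Point.neg_some] at hP
    have hx : sigK W₀ k x = x := (Point.some.inj hP).1
    obtain ⟨f, hf⟩ := exists_jK_of_sigK_fixed W₀ k x hx
    exact ⟨f, hf⟩


end Involution

section Degree

variable {k₀ : Type*} [Field k₀] (W₀ : WeierstrassCurve k₀) [W₀.IsElliptic]
variable (k : Type*) [Field k] [Algebra k₀ k] [DecidableEq (KK W₀ k)]

/-- the degree of the `x`-coordinate on `GP` -/
noncomputable def dGP (P : GP W₀ k) : ℤ :=
  (xdeg (jK W₀ k) (W₀.baseChange (KK W₀ k)) P.1 : ℤ)

/-- **the exact parallelogram law on `GP`** -/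
theorem isParallelogram_dGP : IsParallelogram (dGP W₀ k) := by
  intro P Q
  have h := xdeg_add_add_xdeg_sub (Wk W₀ k) (jK W₀ k) (W₀.baseChange (KK W₀ k)) (hWK W₀ k)
    (isRatPt_of_mem_GP W₀ k P.2) (isRatPt_of_mem_GP W₀ k Q.2)
    (isRatPt_of_mem_GP W₀ k (P + Q).2) (isRatPt_of_mem_GP W₀ k (P - Q).2)
  have h' : xdeg (jK W₀ k) (W₀.baseChange (KK W₀ k)) (P + Q).1 +
      xdeg (jK W₀ k) (W₀.baseChange (KK W₀ k)) (P - Q).1 =
      2 * (xdeg (jK W₀ k) (W₀.baseChange (KK W₀ k)) P.1 +
        xdeg (jK W₀ k) (W₀.baseChange (KK W₀ k)) Q.1) := h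
  have := congrArg (Nat.cast : ℕ → ℤ) h'
  push_cast at this
  simp only [dGP]
  push_cast
  linarith

lemma dGP_nonneg (P : GP W₀ k) : 0 ≤ dGP W₀ k P := Int.natCast_nonneg _

end Degree

section Substitution

variable {k₀ : Type*} [Field k₀] (W₀ : WeierstrassCurve k₀) [W₀.IsElliptic]
variable (k : Type*) [Field k] [Algebra k₀ k] [DecidableEq (KK W₀ k)]

/-- `jK` as a `k`-algebra homomorphism -/
noncomputable def jKa : RatFunc k →ₐ[k] KK W₀ k :=
  IsFractionRing.liftAlgHom (g := IsScalarTower.toAlgHom k k[X] (KK W₀ k))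
    (FaithfulSMul.algebraMap_injective k[X] (KK W₀ k))

lemma jKa_apply (f : RatFunc k) : jKa W₀ k f = jK W₀ k f := rfl

lemma jK_injective : Function.Injective (jK W₀ k) := (jK W₀ k).injective

lemma transcendental_jK {r : RatFunc k} (hr : Transcendental k r) :
    Transcendental k (jK W₀ k r) := by
  intro h
  rw [← jKa_apply] at h
  exact hr ((isAlgebraic_algHom_iff (jKa W₀ k) (jK_injective W₀ k)).mp h)

lemma transcendental_of_rdeg_ne_zero {r : RatFunc k} (hr : rdeg r ≠ 0) : Transcendental k r := by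
  apply RatFunc.transcendental_of_ne_C
  rintro ⟨c, rfl⟩
  exact hr (rdeg_C c)

/-- substitution commutes with the embedding of `k(X)` -/
lemma thetaK_jK {x y : KK W₀ k} (h : (W₀.baseChange (KK W₀ k)).toAffine.Equation x y)
    (hx : Transcendental k x) {r : RatFunc k} (hr : Transcendental k r) (hxr : x = jK W₀ k r)
    (f : RatFunc k) : thetaK W₀ k h hx (jK W₀ k f) = jK W₀ k (substR r hr f) := by
  have key : ((thetaK W₀ k h hx : KK W₀ k →+* KK W₀ k).comp (jK W₀ k)) =
      (jK W₀ k).comp (substR r hr : RatFunc k →+* RatFunc k) := by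
    apply IsFractionRing.ringHom_ext (A := k[X])
    intro p
    simp only [RingHom.comp_apply, RingHom.coe_coe]
    rw [jK_algebraMap, IsScalarTower.algebraMap_apply k[X] (AA W₀ k) (KK W₀ k), thetaK,
      IsFractionRing.liftAlgHom_apply, IsFractionRing.lift_algebraMap]
    change thetaA W₀ k h (algebraMap k[X] (AA W₀ k) p) = _
    rw [thetaA_algebraMap, substR, IsFractionRing.liftAlgHom_apply,
      IsFractionRing.lift_algebraMap, hxr, ← jKa_apply, ← jKa_apply]
    exact Polynomial.aeval_algHom_apply (jKa W₀ k) r p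
  exact RingHom.congr_fun key f

/-- the map on points induced by a substitution -/
noncomputable def thetaP {x y : KK W₀ k}
    (h : (W₀.baseChange (KK W₀ k)).toAffine.Equation x y) (hx : Transcendental k x) :
    PtK W₀ k →+ PtK W₀ k :=
  Point.map (W' := W₀) (thetaK W₀ k h hx)

lemma thetaP_gP {x y : KK W₀ k} (h : (W₀.baseChange (KK W₀ k)).toAffine.Nonsingular x y)
    (hx : Transcendental k x) : thetaP W₀ k h.1 hx (gP W₀ k) = Point.some x y h := by
  rw [thetaP, gP, Point.map_some]
  congr 1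
  · exact thetaK_gx W₀ k h.1 hx
  · exact thetaK_gy W₀ k h.1 hx

lemma xa_map (f : KK W₀ k →ₐ[k] KK W₀ k) (S : PtK W₀ k) :
    xa (W₀.baseChange (KK W₀ k)) (Point.map (W' := W₀) f S) =
      f (xa (W₀.baseChange (KK W₀ k)) S) := by
  cases S with
  | zero => simp [show (Point.zero : PtK W₀ k) = 0 from rfl, Point.map_zero]
  | some x y h => rw [Point.map_some]; rfl

lemma map_eq_zero_iff' (f : KK W₀ k →ₐ[k] KK W₀ k) (S : PtK W₀ k) :
    Point.map (W' := W₀) f S = 0 ↔ S = 0 := by
  constructor
  · intro h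
    apply Point.map_injective (W' := W₀) f
    rw [h, map_zero]
  · rintro rfl; exact map_zero _

/-- **multiplicativity of the degree under substitution** -/
theorem xdeg_thetaP {x y : KK W₀ k}
    (h : (W₀.baseChange (KK W₀ k)).toAffine.Equation x y)
    (hx : Transcendental k x) {r : RatFunc k} (hr : Transcendental k r) (hxr : x = jK W₀ k r)
    {S : PtK W₀ k} (hS : IsRatPt (jK W₀ k) (W₀.baseChange (KK W₀ k)) S) :
    IsRatPt (jK W₀ k) (W₀.baseChange (KK W₀ k)) (thetaP W₀ k h hx S) ∧
    xdeg (jK W₀ k) (W₀.baseChange (KK W₀ k)) (thetaP W₀ k h hx S) =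
      xdeg (jK W₀ k) (W₀.baseChange (KK W₀ k)) S * rdeg r := by
  obtain ⟨s, hs⟩ := hS
  have hxa : xa (W₀.baseChange (KK W₀ k)) (thetaP W₀ k h hx S) = jK W₀ k (substR r hr s) := by
    rw [thetaP, xa_map, hs, thetaK_jK W₀ k h hx hr hxr]
  refine ⟨⟨_, hxa⟩, ?_⟩
  by_cases hS0 : S = 0
  · subst hS0
    rw [map_zero, xdeg_zero, zero_mul]
  · have h0 : thetaP W₀ k h hx S ≠ 0 := fun h0 => hS0 ((map_eq_zero_iff' W₀ k _ S).mp h0)
    rw [xdeg_eq_of_ne_zero _ _ h0 hxa, xdeg_eq_of_ne_zero _ _ hS0 hs, rdeg_substR]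

end Substitution

end Fermat.Agent.EC.H14
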