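import Mathlib
import Fermat.Agent.EC.H14_GenericPoints

/-!
# The Frobenius endomorphism on points (EC brick 10)

`k₀` a finite field with `q` elements, `W₀` an elliptic curve over `k₀`.  For every field `F` over
`k₀` the `q`-Frobenius acts on `W₀(F)` (`frobP`); it commutes with every map on points induced by
a homomorphism of fields.  On the group `GP` of points over the function field it multiplies the
degree by `q`.
-/

set_option autoImplicit false
set_option linter.unusedSectionVars false

open Polynomial WeierstrassCurve WeierstrassCurve.Affine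

namespace Fermat.Agent.EC.H14

section General

variable {k₀ : Type*} [Field k₀] [Fintype k₀] (W₀ : WeierstrassCurve k₀)

/-- the Frobenius endomorphism on the points over a field `F` over `k₀` -/
noncomputable def frobP (F : Type*) [Field F] [Algebra k₀ F] [DecidableEq F] :
    (W₀.baseChange F).toAffine.Point →+ (W₀.baseChange F).toAffine.Point :=
  Point.map (W' := W₀) (FiniteField.frobeniusAlgHom k₀ F)

lemma frobP_some {F : Type*} [Field F] [Algebra k₀ F] [DecidableEq F] {x y : F}
    (h : (W₀.baseChange F).toAffine.Nonsingular x y) :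
    ∃ h', frobP W₀ F (Point.some x y h) =
      Point.some (x ^ Fintype.card k₀) (y ^ Fintype.card k₀) h' :=
  ⟨_, Point.map_some (W' := W₀) (FiniteField.frobeniusAlgHom k₀ F) h⟩

lemma frobP_injective (F : Type*) [Field F] [Algebra k₀ F] [DecidableEq F] :
    Function.Injective (frobP W₀ F) :=
  Point.map_injective (W' := W₀) (FiniteField.frobeniusAlgHom k₀ F)

lemma frobP_eq_zero_iff {F : Type*} [Field F] [Algebra k₀ F] [DecidableEq F]
    (P : (W₀.baseChange F).toAffine.Point) : frobP W₀ F P = 0 ↔ P = 0 := by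
  constructor
  · intro h
    apply frobP_injective W₀ F
    rw [h, map_zero]
  · rintro rfl; exact map_zero _

/-- every map on points induced by a homomorphism of fields commutes with Frobenius -/
lemma map_frobP {S : Type*} [CommRing S] [Algebra k₀ S] {F K : Type*} [Field F] [Field K]
    [DecidableEq F] [DecidableEq K] [Algebra k₀ F] [Algebra S F] [IsScalarTower k₀ S F]
    [Algebra k₀ K] [Algebra S K] [IsScalarTower k₀ S K] (f : F →ₐ[S] K)
    (P : (W₀.baseChange F).toAffine.Point) :
    Point.map (W' := W₀) f (frobP W₀ F P) = frobP W₀ K (Point.map (W' := W₀) f P) := by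
  cases P with
  | zero => rfl
  | some x y h =>
    simp only [frobP, Point.map_some]
    congr 1 <;> simp [map_pow]

/-- the `x`-coordinate of the image of a point under a homomorphism of fields -/
lemma xa_pointMap {S : Type*} [CommRing S] [Algebra k₀ S] {F K : Type*} [Field F] [Field K]
    [DecidableEq F] [DecidableEq K] [Algebra k₀ F] [Algebra S F] [IsScalarTower k₀ S F]
    [Algebra k₀ K] [Algebra S K] [IsScalarTower k₀ S K] (f : F →ₐ[S] K)
    (P : (W₀.baseChange F).toAffine.Point) (hP : P ≠ 0) :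
    xa (W₀.baseChange K) (Point.map (W' := W₀) f P) = f (xa (W₀.baseChange F) P) := by
  cases P with
  | zero => exact absurd rfl hP
  | some x y h => rw [Point.map_some]; rfl

lemma xa_frobP {F : Type*} [Field F] [Algebra k₀ F] [DecidableEq F]
    (P : (W₀.baseChange F).toAffine.Point) :
    xa (W₀.baseChange F) (frobP W₀ F P) = (xa (W₀.baseChange F) P) ^ Fintype.card k₀ := by
  cases P with
  | zero => simp [show (Point.zero : (W₀.baseChange F).toAffine.Point) = 0 from rfl]
  | some x y h =>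
    obtain ⟨h', e⟩ := frobP_some W₀ h
    rw [e]; rfl

end General

section FunctionField

variable {k₀ : Type*} [Field k₀] [Fintype k₀] (W₀ : WeierstrassCurve k₀) [W₀.IsElliptic]
variable (k : Type*) [Field k] [Algebra k₀ k] [DecidableEq (KK W₀ k)]

lemma sigP_frobP (P : PtK W₀ k) :
    sigP W₀ k (frobP W₀ (KK W₀ k) P) = frobP W₀ (KK W₀ k) (sigP W₀ k P) :=
  map_frobP W₀ (sigK W₀ k) P

lemma thetaP_frobP {x y : KK W₀ k}
    (h : (W₀.baseChange (KK W₀ k)).toAffine.Equation x y) (hx : Transcendental k x)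
    (P : PtK W₀ k) :
    thetaP W₀ k h hx (frobP W₀ (KK W₀ k) P) = frobP W₀ (KK W₀ k) (thetaP W₀ k h hx P) :=
  map_frobP W₀ (thetaK W₀ k h hx) P

lemma frobP_mem_GP {P : PtK W₀ k} (hP : P ∈ GP W₀ k) : frobP W₀ (KK W₀ k) P ∈ GP W₀ k := by
  rw [mem_GP_iff] at hP ⊢
  rw [sigP_frobP, hP, map_neg]

/-- Frobenius on the group `GP` -/
noncomputable def frobGP : GP W₀ k →+ GP W₀ k :=
  ((frobP W₀ (KK W₀ k)).comp (GP W₀ k).subtype).codRestrict (GP W₀ k)
    (fun P => frobP_mem_GP W₀ k P.2)

lemma coe_frobGP (P : GP W₀ k) : (frobGP W₀ k P : PtK W₀ k) = frobP W₀ (KK W₀ k) P.1 := rfl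

/-- **Frobenius multiplies the degree by `q`** -/
theorem dGP_frobGP (P : GP W₀ k) :
    dGP W₀ k (frobGP W₀ k P) = (Fintype.card k₀ : ℤ) * dGP W₀ k P := by
  simp only [dGP, coe_frobGP]
  by_cases hP : P.1 = 0
  · rw [hP, map_zero, xdeg_zero]; simp
  · obtain ⟨f, hf⟩ := isRatPt_of_mem_GP W₀ k P.2
    have h0 : frobP W₀ (KK W₀ k) P.1 ≠ 0 := fun h0 => hP ((frobP_eq_zero_iff W₀ _).mp h0)
    have hxa : xa (W₀.baseChange (KK W₀ k)) (frobP W₀ (KK W₀ k) P.1) =
        jK W₀ k (f ^ Fintype.card k₀) := by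
      rw [xa_frobP, hf, map_pow]
    rw [xdeg_eq_of_ne_zero _ _ h0 hxa, xdeg_eq_of_ne_zero _ _ hP hf, rdeg_pow]
    push_cast; ring

/-- the generic point as an element of `GP` -/
noncomputable def e0 : GP W₀ k := ⟨gP W₀ k, gP_mem_GP W₀ k⟩

lemma gP_ne_zero : gP W₀ k ≠ 0 := Point.some_ne_zero _

lemma xa_gP : xa (W₀.baseChange (KK W₀ k)) (gP W₀ k) = jK W₀ k RatFunc.X := by
  rw [jK_X]; rfl

theorem dGP_e0 : dGP W₀ k (e0 W₀ k) = 1 := by
  simp only [dGP, e0]
  rw [xdeg_eq_of_ne_zero _ _ (gP_ne_zero W₀ k) (xa_gP W₀ k), rdeg_X]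
  rfl

end FunctionField

end Fermat.Agent.EC.H14
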