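import Mathlib
import Fermat.Agent.EC.H14_Frobenius

/-!
# The pole order at infinity on the coordinate ring, and evaluation at points (EC brick 11)

* `dinf z`: the degree of the norm of `z ∈ k[W]` (twice... the pole order at infinity): it is
  multiplicative and ultrametric, `dinf x = 2`, `dinf y = 3`.
* elements fixed by the hyperelliptic involution are polynomials in `x`.
* an element vanishing at the two distinct points above `a` is divisible by `x - a`.
-/

set_option autoImplicit false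
set_option linter.unusedSectionVars false

open Polynomial WeierstrassCurve WeierstrassCurve.Affine

namespace Fermat.Agent.EC.H14

variable {k₀ : Type*} [Field k₀] (W₀ : WeierstrassCurve k₀)
variable (k : Type*) [Field k] [Algebra k₀ k]

/-- the degree of the norm: the pole order at infinity -/
noncomputable def dinf (z : AA W₀ k) : WithBot ℕ := (Algebra.norm k[X] z).degree

lemma dinf_smul_basis (p q : k[X]) :
    dinf W₀ k (p • (1 : AA W₀ k) + q • ay W₀ k) = max (2 • p.degree) (2 • q.degree + 3) :=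
  CoordinateRing.degree_norm_smul_basis p q

lemma dinf_mul (z w : AA W₀ k) : dinf W₀ k (z * w) = dinf W₀ k z + dinf W₀ k w := by
  simp only [dinf, map_mul, degree_mul]

lemma dinf_pow (z : AA W₀ k) (n : ℕ) : dinf W₀ k (z ^ n) = n • dinf W₀ k z := by
  simp only [dinf, map_pow, degree_pow]

lemma dinf_add_le (z w : AA W₀ k) :
    dinf W₀ k (z + w) ≤ max (dinf W₀ k z) (dinf W₀ k w) := by
  obtain ⟨p, q, rfl⟩ := CoordinateRing.exists_smul_basis_eq z
  obtain ⟨p', q', rfl⟩ := CoordinateRing.exists_smul_basis_eq w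
  change dinf W₀ k ((p • (1 : AA W₀ k) + q • ay W₀ k) + (p' • (1 : AA W₀ k) + q' • ay W₀ k)) ≤
    max (dinf W₀ k (p • (1 : AA W₀ k) + q • ay W₀ k))
      (dinf W₀ k (p' • (1 : AA W₀ k) + q' • ay W₀ k))
  have e : (p • (1 : AA W₀ k) + q • ay W₀ k) + (p' • (1 : AA W₀ k) + q' • ay W₀ k) =
      (p + p') • (1 : AA W₀ k) + (q + q') • ay W₀ k := by
    rw [add_smul, add_smul]; abel
  rw [e, dinf_smul_basis, dinf_smul_basis, dinf_smul_basis]
  apply max_le
  · rcases le_total p.degree p'.degree with h | h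
    · have : (p + p').degree ≤ p'.degree := (degree_add_le _ _).trans (max_le h le_rfl)
      exact le_max_of_le_right (le_max_of_le_left (nsmul_le_nsmul_right this 2))
    · have : (p + p').degree ≤ p.degree := (degree_add_le _ _).trans (max_le le_rfl h)
      exact le_max_of_le_left (le_max_of_le_left (nsmul_le_nsmul_right this 2))
  · rcases le_total q.degree q'.degree with h | h
    · have : (q + q').degree ≤ q'.degree := (degree_add_le _ _).trans (max_le h le_rfl)
      exact le_max_of_le_right (le_max_of_le_right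
        (add_le_add (nsmul_le_nsmul_right this 2) le_rfl))
    · have : (q + q').degree ≤ q.degree := (degree_add_le _ _).trans (max_le le_rfl h)
      exact le_max_of_le_left (le_max_of_le_right
        (add_le_add (nsmul_le_nsmul_right this 2) le_rfl))

lemma dinf_algebraMap (p : k[X]) : dinf W₀ k (algebraMap k[X] (AA W₀ k) p) = 2 • p.degree := by
  have e : algebraMap k[X] (AA W₀ k) p = p • (1 : AA W₀ k) + (0 : k[X]) • ay W₀ k := by
    rw [zero_smul, add_zero, Algebra.smul_def, mul_one]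
  rw [e, dinf_smul_basis]
  simp

lemma dinf_neg (z : AA W₀ k) : dinf W₀ k (-z) = dinf W₀ k z := by
  have : -z = algebraMap k[X] (AA W₀ k) (-1) * z := by simp
  rw [this, dinf_mul, dinf_algebraMap]
  simp

lemma dinf_ay : dinf W₀ k (ay W₀ k) = 3 := by
  have e : ay W₀ k = (0 : k[X]) • (1 : AA W₀ k) + (1 : k[X]) • ay W₀ k := by
    rw [zero_smul, zero_add, one_smul]
  rw [e, dinf_smul_basis]
  simp

lemma dinf_ax : dinf W₀ k (ax W₀ k) = 2 := by
  rw [← algebraMap_X_AA, dinf_algebraMap, degree_X]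
  rfl

/-- the bound `dinf z ≤ m` with `m` a natural number -/
def DLE (z : AA W₀ k) (m : ℕ) : Prop := dinf W₀ k z ≤ (m : WithBot ℕ)

variable {W₀ k}

lemma DLE.mono {z : AA W₀ k} {m n : ℕ} (h : DLE W₀ k z m) (hmn : m ≤ n) : DLE W₀ k z n :=
  le_trans h (WithBot.coe_le_coe.mpr hmn)

lemma DLE.add {z w : AA W₀ k} {m n l : ℕ} (hz : DLE W₀ k z m) (hw : DLE W₀ k w n)
    (hm : m ≤ l) (hn : n ≤ l) : DLE W₀ k (z + w) l :=
  (dinf_add_le W₀ k z w).trans (max_le (hz.mono hm) (hw.mono hn))

lemma DLE.neg {z : AA W₀ k} {m : ℕ} (hz : DLE W₀ k z m) : DLE W₀ k (-z) m := by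
  unfold DLE; rw [dinf_neg]; exact hz

lemma DLE.sub {z w : AA W₀ k} {m n l : ℕ} (hz : DLE W₀ k z m) (hw : DLE W₀ k w n)
    (hm : m ≤ l) (hn : n ≤ l) : DLE W₀ k (z - w) l := by
  rw [sub_eq_add_neg]; exact hz.add hw.neg hm hn

lemma DLE.mul {z w : AA W₀ k} {m n : ℕ} (hz : DLE W₀ k z m) (hw : DLE W₀ k w n) :
    DLE W₀ k (z * w) (m + n) := by
  unfold DLE; rw [dinf_mul]; push_cast; exact add_le_add hz hw

lemma DLE.pow {z : AA W₀ k} {m : ℕ} (hz : DLE W₀ k z m) (n : ℕ) : DLE W₀ k (z ^ n) (n * m) := by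
  unfold DLE; rw [dinf_pow]
  have := nsmul_le_nsmul_right hz n
  refine this.trans (le_of_eq ?_)
  rw [nsmul_eq_mul]; push_cast; rfl

variable (W₀ k)

lemma DLE_ax : DLE W₀ k (ax W₀ k) 2 := le_of_eq (dinf_ax W₀ k)

lemma DLE_ay : DLE W₀ k (ay W₀ k) 3 := le_of_eq (dinf_ay W₀ k)

lemma DLE_const (c : k) : DLE W₀ k (algebraMap k (AA W₀ k) c) 0 := by
  unfold DLE
  rw [IsScalarTower.algebraMap_apply k k[X] (AA W₀ k), dinf_algebraMap]
  have : (algebraMap k k[X] c).degree ≤ 0 := degree_C_le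
  calc 2 • (algebraMap k k[X] c).degree ≤ 2 • (0 : WithBot ℕ) := nsmul_le_nsmul_right this 2
    _ = ((0 : ℕ) : WithBot ℕ) := by simp

lemma DLE_const₀ (c : k₀) : DLE W₀ k (algebraMap k₀ (AA W₀ k) c) 0 := by
  rw [IsScalarTower.algebraMap_apply k₀ k (AA W₀ k)]
  exact DLE_const W₀ k _

/-- a polynomial whose image has `dinf ≤ 2 m` has degree at most `m` -/
lemma natDegree_le_of_DLE {p : k[X]} {m : ℕ}
    (h : DLE W₀ k (algebraMap k[X] (AA W₀ k) p) (2 * m)) : p.natDegree ≤ m := by
  unfold DLE at h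
  rw [dinf_algebraMap] at h
  by_cases hp : p = 0
  · subst hp; simp
  · rw [degree_eq_natDegree hp, nsmul_eq_mul] at h
    have : 2 * p.natDegree ≤ 2 * m := by exact_mod_cast h
    omega

/-! ### elements fixed by the involution -/

/-- an element of the coordinate ring fixed by the hyperelliptic involution is a polynomial in
`x` -/
theorem exists_poly_of_sigA_fixed [W₀.IsElliptic] (z : AA W₀ k) (hz : sigA W₀ k z = z) :
    ∃ p : k[X], z = algebraMap k[X] (AA W₀ k) p := by
  obtain ⟨p', q', hpq⟩ := CoordinateRing.exists_smul_basis_eq z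
  have hpq' : z = p' • (1 : AA W₀ k) + q' • ay W₀ k := hpq.symm
  have hq : q' = 0 := by
    rw [hpq', sigA_smul_basis] at hz
    have h0 : (-(q' * gpol W₀ k)) • (1 : AA W₀ k) + (-q' - q') • ay W₀ k = 0 := by
      have : (p' - q' * gpol W₀ k) • (1 : AA W₀ k) + (-q') • ay W₀ k -
          (p' • (1 : AA W₀ k) + q' • ay W₀ k) = 0 := sub_eq_zero.mpr hz
      rw [← this]
      simp only [sub_smul, neg_smul]
      abel
    obtain ⟨e1, e2⟩ := CoordinateRing.smul_basis_eq_zero (W' := (Wk W₀ k).toAffine) h0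
    by_contra hq0
    have g0 : gpol W₀ k = 0 := by
      rcases mul_eq_zero.mp (neg_eq_zero.mp e1) with h | h
      · exact absurd h hq0
      · exact h
    have t0 : (2 : k) = 0 := by
      have : (2 : k[X]) * q' = 0 := by linear_combination -e2
      rcases mul_eq_zero.mp this with h | h
      · have := congrArg (fun p => p.coeff 0) h
        simpa using this
      · exact absurd h hq0
    have t0' : (2 : k₀) = 0 := by
      apply (algebraMap k₀ k).injective
      rw [map_ofNat, map_zero]; exact t0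
    obtain ⟨a1, a3⟩ := (gpol_eq_zero_iff W₀ k).mp g0
    exact not_two_a₁_a₃ W₀ ⟨t0', a1, a3⟩
  refine ⟨p', ?_⟩
  rw [hpq', hq, zero_smul, add_zero, Algebra.smul_def, mul_one]

/-! ### evaluation at points with coordinates in `k` -/

lemma thetaA_smul_basis {a b : k} (h : (W₀.baseChange k).toAffine.Equation a b) (p q : k[X]) :
    thetaA W₀ k h (p • (1 : AA W₀ k) + q • ay W₀ k) = p.eval a + q.eval a * b := by
  rw [map_add, Algebra.smul_def, Algebra.smul_def, mul_one, map_mul, thetaA_algebraMap,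
    thetaA_algebraMap, thetaA_ay, coe_aeval_eq_eval]

lemma algebraMap_X_sub_C (a : k) :
    algebraMap k[X] (AA W₀ k) (X - C a) = ax W₀ k - algebraMap k (AA W₀ k) a := by
  rw [map_sub, algebraMap_X_AA, ← Polynomial.algebraMap_eq,
    ← IsScalarTower.algebraMap_apply k k[X] (AA W₀ k)]

/-- an element vanishing at two distinct points with the same `x`-coordinate `a` is divisible by
`x - a` -/
theorem dvd_of_thetaA_eq_zero {a b₁ b₂ : k} (h₁ : (W₀.baseChange k).toAffine.Equation a b₁)
    (h₂ : (W₀.baseChange k).toAffine.Equation a b₂) (hb : b₁ ≠ b₂) (z : AA W₀ k)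
    (hz₁ : thetaA W₀ k h₁ z = 0) (hz₂ : thetaA W₀ k h₂ z = 0) :
    (ax W₀ k - algebraMap k (AA W₀ k) a) ∣ z := by
  obtain ⟨p, q, hpq⟩ := CoordinateRing.exists_smul_basis_eq z
  have hpq' : z = p • (1 : AA W₀ k) + q • ay W₀ k := hpq.symm
  rw [hpq', thetaA_smul_basis] at hz₁ hz₂
  have hq : q.eval a = 0 := by
    have : q.eval a * (b₁ - b₂) = 0 := by linear_combination hz₁ - hz₂
    rcases mul_eq_zero.mp this with h | h
    · exact h
    · exact absurd (sub_eq_zero.mp h) hb
  have hp : p.eval a = 0 := by rw [hq, zero_mul, add_zero] at hz₁; exact hz₁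
  obtain ⟨p', rfl⟩ := dvd_iff_isRoot.mpr hp
  obtain ⟨q', rfl⟩ := dvd_iff_isRoot.mpr hq
  refine ⟨p' • (1 : AA W₀ k) + q' • ay W₀ k, ?_⟩
  rw [hpq', ← algebraMap_X_sub_C]
  simp only [Algebra.smul_def, map_mul, mul_one]
  ring

end Fermat.Agent.EC.H14
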