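import Mathlib
import Fermat.Agent.EC.H14_Dinf

/-!
# The numerators of `x(u ± φ u)` (EC brick 12)

`u = (x, y)` the generic point, `φ u = (x^q, y^q)`.  For `Y₂ ∈ {y^q, -y^q - a₁x^q - a₃}` the
numerator `numA Y₂` of `x(u + (x^q, Y₂))` over the denominator `(x - x^q)²` is (the image of) a
polynomial in `x` of degree at most `2q + 1`; we compute its values at the points above `a ∈ k₀`.
-/

set_option autoImplicit false
set_option linter.unusedSectionVars false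

open Polynomial WeierstrassCurve WeierstrassCurve.Affine

namespace Fermat.Agent.EC.H14

variable {k₀ : Type*} [Field k₀] [Fintype k₀] (W₀ : WeierstrassCurve k₀)
variable (k : Type*) [Field k] [Algebra k₀ k]

local notation "qq" => Fintype.card k₀

/-- constants of `k₀` in the coordinate ring -/
noncomputable abbrev cA (c : k₀) : AA W₀ k := algebraMap k₀ (AA W₀ k) c

/-- Frobenius of the coordinate ring -/
noncomputable def FrA : AA W₀ k →ₐ[k₀] AA W₀ k := FiniteField.frobeniusAlgHom k₀ (AA W₀ k)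

lemma FrA_apply (z : AA W₀ k) : FrA W₀ k z = z ^ qq := rfl

/-- `x^q` -/
noncomputable def xq : AA W₀ k := (ax W₀ k) ^ qq

/-- `y^q` -/
noncomputable def yq : AA W₀ k := (ay W₀ k) ^ qq

/-- `a₁ x^q + a₃` -/
noncomputable def Gq : AA W₀ k := cA W₀ k W₀.a₁ * xq W₀ k + cA W₀ k W₀.a₃

/-- the `y`-coordinate of `-φ u` -/
noncomputable def yqc : AA W₀ k := - yq W₀ k - Gq W₀ k

/-- the Weierstrass equation for a second point `(x^q, Y₂)` -/
def WeierQ (Y₂ : AA W₀ k) : Prop :=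
  Y₂ ^ 2 + cA W₀ k W₀.a₁ * xq W₀ k * Y₂ + cA W₀ k W₀.a₃ * Y₂ =
    (xq W₀ k) ^ 3 + cA W₀ k W₀.a₂ * (xq W₀ k) ^ 2 + cA W₀ k W₀.a₄ * xq W₀ k + cA W₀ k W₀.a₆

lemma weierQ_yq : WeierQ W₀ k (yq W₀ k) := by
  have h := congrArg (FrA W₀ k) (ay_sq W₀ k)
  simp only [map_add, map_mul, map_pow, AlgHom.commutes] at h
  exact h

lemma weierQ_yqc : WeierQ W₀ k (yqc W₀ k) := by
  have h := weierQ_yq W₀ k
  unfold WeierQ at h ⊢
  simp only [yqc, Gq]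
  linear_combination h

/-- the numerator of `x((x, y) + (x^q, Y₂))` -/
noncomputable def numA (Y₂ : AA W₀ k) : AA W₀ k :=
  (ay W₀ k - Y₂) ^ 2 + cA W₀ k W₀.a₁ * (ay W₀ k - Y₂) * (ax W₀ k - xq W₀ k) -
    (cA W₀ k W₀.a₂ + ax W₀ k + xq W₀ k) * (ax W₀ k - xq W₀ k) ^ 2

/-- the reduced form of the numerator -/
noncomputable def EA (Y₂ : AA W₀ k) : AA W₀ k :=
  ax W₀ k * xq W₀ k * (ax W₀ k + xq W₀ k) +
    (cA W₀ k W₀.a₂ * ax W₀ k * xq W₀ k + cA W₀ k W₀.a₂ * ax W₀ k * xq W₀ k) +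
    cA W₀ k W₀.a₄ * (ax W₀ k + xq W₀ k) + (cA W₀ k W₀.a₆ + cA W₀ k W₀.a₆) -
    cA W₀ k W₀.a₃ * (ay W₀ k + Y₂) - (ay W₀ k * Y₂ + ay W₀ k * Y₂) -
    cA W₀ k W₀.a₁ * (ay W₀ k * xq W₀ k + Y₂ * ax W₀ k)

lemma numA_eq_EA (Y₂ : AA W₀ k) (h₂ : WeierQ W₀ k Y₂) : numA W₀ k Y₂ = EA W₀ k Y₂ := by
  have h₁ := ay_sq W₀ k
  unfold WeierQ at h₂
  simp only [numA, EA]
  linear_combination h₁ + h₂

/-! ### invariance under the involution -/

lemma sigA_ax : sigA W₀ k (ax W₀ k) = ax W₀ k := by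
  rw [← algebraMap_X_AA, AlgHom.commutes]

lemma sigA_xq : sigA W₀ k (xq W₀ k) = xq W₀ k := by
  rw [xq, map_pow, sigA_ax]

lemma sigA_cA (c : k₀) : sigA W₀ k (cA W₀ k c) = cA W₀ k c := by
  rw [cA, ← algebraMap_C_AA, AlgHom.commutes]

lemma sigA_ay' : sigA W₀ k (ay W₀ k) =
    - ay W₀ k - (cA W₀ k W₀.a₁ * ax W₀ k + cA W₀ k W₀.a₃) := by
  rw [sigA_ay, ayc_eq, algebraMap_gpol]

lemma sigA_Gq : sigA W₀ k (Gq W₀ k) = Gq W₀ k := by
  simp only [Gq, map_add, map_mul, sigA_cA, sigA_xq]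

lemma sigA_yq : sigA W₀ k (yq W₀ k) = - yq W₀ k - Gq W₀ k := by
  rw [yq, map_pow, sigA_ay', ← FrA_apply]
  simp only [map_sub, map_neg, map_add, map_mul, AlgHom.commutes]
  rfl

lemma sigA_yqc : sigA W₀ k (yqc W₀ k) = - yqc W₀ k - Gq W₀ k := by
  simp only [yqc, map_sub, map_neg, sigA_yq, sigA_Gq]

lemma sigA_EA (Y₂ : AA W₀ k) (hY : sigA W₀ k Y₂ = - Y₂ - Gq W₀ k) :
    sigA W₀ k (EA W₀ k Y₂) = EA W₀ k Y₂ := by
  simp only [EA, map_add, map_sub, map_mul, sigA_ax, sigA_xq, sigA_cA, sigA_ay', hY, Gq]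
  ring

/-! ### the pole order at infinity -/

lemma card_pos' : 1 ≤ qq := Fintype.card_pos

lemma DLE_xq : DLE W₀ k (xq W₀ k) (2 * qq) := by
  have := (DLE_ax W₀ k).pow qq
  rw [mul_comm] at this
  exact this

lemma DLE_yq : DLE W₀ k (yq W₀ k) (3 * qq) := by
  have := (DLE_ay W₀ k).pow qq
  rw [mul_comm] at this
  exact this

lemma DLE_Gq : DLE W₀ k (Gq W₀ k) (2 * qq) :=
  ((DLE_const₀ W₀ k W₀.a₁).mul (DLE_xq W₀ k)).add (DLE_const₀ W₀ k W₀.a₃) (by omega) (by omega)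

lemma DLE_yqc : DLE W₀ k (yqc W₀ k) (3 * qq) :=
  (DLE_yq W₀ k).neg.sub (DLE_Gq W₀ k) le_rfl (by omega)

lemma DLE_EA (Y₂ : AA W₀ k) (hY : DLE W₀ k Y₂ (3 * qq)) :
    DLE W₀ k (EA W₀ k Y₂) (2 * (2 * qq + 1)) := by
  have hq : 1 ≤ qq := card_pos' (k₀ := k₀)
  have hx := DLE_ax W₀ k
  have hy := DLE_ay W₀ k
  have hX := DLE_xq W₀ k
  have c := DLE_const₀ W₀ k
  have t1 : DLE W₀ k (ax W₀ k * xq W₀ k * (ax W₀ k + xq W₀ k)) (2 * (2 * qq + 1)) :=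
    ((hx.mul hX).mul (hx.add hX (l := 2 * qq) (by omega) le_rfl)).mono (by omega)
  have t2 : DLE W₀ k (cA W₀ k W₀.a₂ * ax W₀ k * xq W₀ k) (2 * (2 * qq + 1)) :=
    (((c W₀.a₂).mul hx).mul hX).mono (by omega)
  have t3 : DLE W₀ k (cA W₀ k W₀.a₄ * (ax W₀ k + xq W₀ k)) (2 * (2 * qq + 1)) :=
    ((c W₀.a₄).mul (hx.add hX (l := 2 * qq) (by omega) le_rfl)).mono (by omega)
  have t4 : DLE W₀ k (cA W₀ k W₀.a₆) (2 * (2 * qq + 1)) := (c W₀.a₆).mono (by omega)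
  have t5 : DLE W₀ k (cA W₀ k W₀.a₃ * (ay W₀ k + Y₂)) (2 * (2 * qq + 1)) :=
    ((c W₀.a₃).mul (hy.add hY (l := 3 * qq) (by omega) le_rfl)).mono (by omega)
  have t6 : DLE W₀ k (ay W₀ k * Y₂) (2 * (2 * qq + 1)) := (hy.mul hY).mono (by omega)
  have t7 : DLE W₀ k (cA W₀ k W₀.a₁ * (ay W₀ k * xq W₀ k + Y₂ * ax W₀ k)) (2 * (2 * qq + 1)) :=
    ((c W₀.a₁).mul ((hy.mul hX).add (hY.mul hx) (l := 3 * qq + 2) (by omega) le_rfl)).mono
      (by omega)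
  unfold EA
  exact (((((t1.add (t2.add t2 le_rfl le_rfl) le_rfl le_rfl).add t3 le_rfl le_rfl).add
    (t4.add t4 le_rfl le_rfl) le_rfl le_rfl).sub t5 le_rfl le_rfl).sub
    (t6.add t6 le_rfl le_rfl) le_rfl le_rfl).sub t7 le_rfl le_rfl

/-- **the numerator is a polynomial in `x` of degree at most `2q + 1`** -/
theorem exists_numPoly [W₀.IsElliptic] (Y₂ : AA W₀ k) (h₂ : WeierQ W₀ k Y₂)
    (hσ : sigA W₀ k Y₂ = - Y₂ - Gq W₀ k) (hd : DLE W₀ k Y₂ (3 * qq)) :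
    ∃ p : k[X], algebraMap k[X] (AA W₀ k) p = numA W₀ k Y₂ ∧ p.natDegree ≤ 2 * qq + 1 := by
  obtain ⟨p, hp⟩ := exists_poly_of_sigA_fixed W₀ k (EA W₀ k Y₂) (sigA_EA W₀ k Y₂ hσ)
  refine ⟨p, by rw [numA_eq_EA W₀ k Y₂ h₂, hp], ?_⟩
  apply natDegree_le_of_DLE W₀ k
  rw [← hp]
  exact DLE_EA W₀ k Y₂ hd

variable [W₀.IsElliptic]

/-- the numerator polynomial of `x(u + φ u)` -/
noncomputable def pplus : k[X] :=
  (exists_numPoly W₀ k (yq W₀ k) (weierQ_yq W₀ k) (sigA_yq W₀ k) (DLE_yq W₀ k)).choose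

/-- the numerator polynomial of `x(u - φ u)` -/
noncomputable def pminus : k[X] :=
  (exists_numPoly W₀ k (yqc W₀ k) (weierQ_yqc W₀ k) (sigA_yqc W₀ k) (DLE_yqc W₀ k)).choose

lemma algebraMap_pplus : algebraMap k[X] (AA W₀ k) (pplus W₀ k) = numA W₀ k (yq W₀ k) :=
  (exists_numPoly W₀ k (yq W₀ k) (weierQ_yq W₀ k) (sigA_yq W₀ k) (DLE_yq W₀ k)).choose_spec.1

lemma natDegree_pplus : (pplus W₀ k).natDegree ≤ 2 * qq + 1 :=
  (exists_numPoly W₀ k (yq W₀ k) (weierQ_yq W₀ k) (sigA_yq W₀ k) (DLE_yq W₀ k)).choose_spec.2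

lemma algebraMap_pminus : algebraMap k[X] (AA W₀ k) (pminus W₀ k) = numA W₀ k (yqc W₀ k) :=
  (exists_numPoly W₀ k (yqc W₀ k) (weierQ_yqc W₀ k) (sigA_yqc W₀ k)
    (DLE_yqc W₀ k)).choose_spec.1

lemma natDegree_pminus : (pminus W₀ k).natDegree ≤ 2 * qq + 1 :=
  (exists_numPoly W₀ k (yqc W₀ k) (weierQ_yqc W₀ k) (sigA_yqc W₀ k)
    (DLE_yqc W₀ k)).choose_spec.2

/-! ### values at the points above `a ∈ k₀` -/

section Eval

variable {α : k₀} {b : k}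
  (h : (W₀.baseChange k).toAffine.Equation (algebraMap k₀ k α) b)

lemma thetaA_cA (c : k₀) : thetaA W₀ k h (cA W₀ k c) = algebraMap k₀ k c := by
  rw [cA, IsScalarTower.algebraMap_apply k₀ k (AA W₀ k), AlgHom.commutes]
  rfl

lemma thetaA_xq : thetaA W₀ k h (xq W₀ k) = algebraMap k₀ k α := by
  rw [xq, map_pow, thetaA_ax, ← map_pow, FiniteField.pow_card]

lemma thetaA_yq : thetaA W₀ k h (yq W₀ k) = b ^ qq := by
  rw [yq, map_pow, thetaA_ay]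

lemma thetaA_numA (Y₂ : AA W₀ k) :
    thetaA W₀ k h (numA W₀ k Y₂) = (b - thetaA W₀ k h Y₂) ^ 2 := by
  simp only [numA, map_sub, map_add, map_mul, map_pow, thetaA_ax, thetaA_xq, thetaA_ay]
  ring

include h in
lemma eval_pplus : (pplus W₀ k).eval (algebraMap k₀ k α) = (b - b ^ qq) ^ 2 := by
  have := congrArg (thetaA W₀ k h) (algebraMap_pplus W₀ k)
  rw [thetaA_algebraMap, thetaA_numA, thetaA_yq, coe_aeval_eq_eval] at this
  exact this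

include h in
lemma eval_pminus : (pminus W₀ k).eval (algebraMap k₀ k α) =
    (b + b ^ qq + (algebraMap k₀ k W₀.a₁ * algebraMap k₀ k α + algebraMap k₀ k W₀.a₃)) ^ 2 := by
  have := congrArg (thetaA W₀ k h) (algebraMap_pminus W₀ k)
  rw [thetaA_algebraMap, thetaA_numA, coe_aeval_eq_eval] at this
  rw [this]
  simp only [yqc, Gq, map_sub, map_neg, map_add, map_mul, thetaA_yq, thetaA_xq, thetaA_cA]
  ring

end Eval

/-! ### divisibility by `(x - a)²` -/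

/-- divisibility in the coordinate ring between polynomials descends to `k[X]` -/
lemma dvd_of_algebraMap_dvd {d p : k[X]}
    (h : algebraMap k[X] (AA W₀ k) d ∣ algebraMap k[X] (AA W₀ k) p) : d ∣ p := by
  obtain ⟨w, hw⟩ := h
  obtain ⟨r, s, hrs⟩ := CoordinateRing.exists_smul_basis_eq w
  have hrs' : w = r • (1 : AA W₀ k) + s • ay W₀ k := hrs.symm
  have h0 : (p - d * r) • (1 : AA W₀ k) + (-(d * s)) • ay W₀ k = 0 := by
    simp only [Algebra.smul_def, map_sub, map_mul, map_neg, mul_one]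
    rw [hw, hrs']
    simp only [Algebra.smul_def, mul_one]
    ring
  obtain ⟨e1, -⟩ := CoordinateRing.smul_basis_eq_zero (W' := (Wk W₀ k).toAffine) h0
  exact ⟨r, sub_eq_zero.mp e1⟩

lemma X_sub_C_dvd_frob (α : k₀) :
    (X - C (algebraMap k₀ k α)) ∣ (X ^ qq - X : k[X]) := by
  rw [dvd_iff_isRoot, IsRoot.def, eval_sub, eval_pow, eval_X, ← map_pow, FiniteField.pow_card,
    sub_self]

lemma algebraMap_frobPoly :
    algebraMap k[X] (AA W₀ k) (X ^ qq - X) = xq W₀ k - ax W₀ k := by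
  rw [map_sub, map_pow, algebraMap_X_AA, xq]

/-- if `x - a` divides `y - Y₂` then `(x - a)²` divides the numerator polynomial -/
theorem sq_dvd_of_dvd (α : k₀) (Y₂ : AA W₀ k) {p : k[X]}
    (hp : algebraMap k[X] (AA W₀ k) p = numA W₀ k Y₂)
    (hdvd : (ax W₀ k - algebraMap k (AA W₀ k) (algebraMap k₀ k α)) ∣ (ay W₀ k - Y₂)) :
    (X - C (algebraMap k₀ k α)) ^ 2 ∣ p := by
  apply dvd_of_algebraMap_dvd W₀ k
  rw [hp, map_pow, algebraMap_X_sub_C]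
  obtain ⟨u, hu⟩ := hdvd
  obtain ⟨v, hv⟩ := X_sub_C_dvd_frob (k := k) α
  have hv' : ax W₀ k - xq W₀ k =
      (ax W₀ k - algebraMap k (AA W₀ k) (algebraMap k₀ k α)) *
        (- algebraMap k[X] (AA W₀ k) v) := by
    have := congrArg (algebraMap k[X] (AA W₀ k)) hv
    rw [algebraMap_frobPoly, map_mul, algebraMap_X_sub_C] at this
    linear_combination -this
  refine ⟨u ^ 2 + cA W₀ k W₀.a₁ * u * (- algebraMap k[X] (AA W₀ k) v) -
    (cA W₀ k W₀.a₂ + ax W₀ k + xq W₀ k) * (- algebraMap k[X] (AA W₀ k) v) ^ 2, ?_⟩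
  rw [numA, hu, hv']
  ring

end Fermat.Agent.EC.H14
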