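import Mathlib
import Fermat.Agent.EC.H14_FrobNum

/-!
# The points `u ± φ u` over the function field (EC brick 13)

The `x`-coordinates of `u + φ u` and `u - φ u` are `p₊ / (X - X^q)²` and `p₋ / (X - X^q)²`; any
common divisor of numerator and denominator lowers the degree.
-/

set_option autoImplicit false
set_option linter.unusedSectionVars false

open Polynomial WeierstrassCurve WeierstrassCurve.Affine

namespace Fermat.Agent.EC.H14

variable {k₀ : Type*} [Field k₀] [Fintype k₀] (W₀ : WeierstrassCurve k₀) [W₀.IsElliptic]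
variable (k : Type*) [Field k] [Algebra k₀ k] [DecidableEq (KK W₀ k)]

local notation "qq" => Fintype.card k₀

local notation "ι" => algebraMap k[X] (RatFunc k)

/-- the polynomial `X - X^q` -/
noncomputable def dpol : k[X] := X - X ^ qq

lemma dpol_ne_zero : dpol (k₀ := k₀) k ≠ 0 := by
  intro h
  have := FiniteField.X_pow_card_sub_X_ne_zero k (Fintype.one_lt_card (α := k₀))
  apply this
  unfold dpol at h
  linear_combination -h

lemma natDegree_dpol : (dpol (k₀ := k₀) k).natDegree = qq := by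
  have := FiniteField.X_pow_card_sub_X_natDegree_eq k (Fintype.one_lt_card (α := k₀))
  rw [← this, ← natDegree_neg]
  congr 1
  unfold dpol; ring

lemma algebraMap_dpol : algebraMap k[X] (KK W₀ k) (dpol (k₀ := k₀) k) =
    gx W₀ k - (gx W₀ k) ^ qq := by
  unfold dpol
  rw [map_sub, map_pow, IsScalarTower.algebraMap_apply k[X] (AA W₀ k) (KK W₀ k),
    algebraMap_X_AA]
  rfl

lemma gx_ne_gx_pow : gx W₀ k ≠ (gx W₀ k) ^ qq := by
  intro h
  have h0 : algebraMap k[X] (KK W₀ k) (dpol (k₀ := k₀) k) = 0 := by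
    rw [algebraMap_dpol, sub_eq_zero]; exact h
  exact dpol_ne_zero k
    ((map_eq_zero_iff _ (FaithfulSMul.algebraMap_injective k[X] (KK W₀ k))).mp h0)

lemma algebraMap_cA (c : k₀) :
    algebraMap (AA W₀ k) (KK W₀ k) (cA W₀ k c) = algebraMap k₀ (KK W₀ k) c := by
  rw [cA, ← IsScalarTower.algebraMap_apply]

lemma algebraMap_xq : algebraMap (AA W₀ k) (KK W₀ k) (xq W₀ k) = (gx W₀ k) ^ qq := by
  rw [xq, map_pow]; rfl

lemma algebraMap_yq : algebraMap (AA W₀ k) (KK W₀ k) (yq W₀ k) = (gy W₀ k) ^ qq := by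
  rw [yq, map_pow]; rfl

/-- the `x`-coordinate of the sum of the generic point and a point `(x^q, Y₂)` -/
theorem xa_gP_add {Y₂ : AA W₀ k} {p : k[X]}
    (hp : algebraMap k[X] (AA W₀ k) p = numA W₀ k Y₂) {x₂ y₂ : KK W₀ k}
    (hns : (W₀.baseChange (KK W₀ k)).toAffine.Nonsingular x₂ y₂)
    (hx₂ : x₂ = (gx W₀ k) ^ qq) (hy₂ : y₂ = algebraMap (AA W₀ k) (KK W₀ k) Y₂) :
    gP W₀ k + Point.some x₂ y₂ hns ≠ 0 ∧
    xa (W₀.baseChange (KK W₀ k)) (gP W₀ k + Point.some x₂ y₂ hns) =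
      jK W₀ k (ι p / ι ((dpol (k₀ := k₀) k) ^ 2)) := by
  subst hx₂ hy₂
  have hne := gx_ne_gx_pow W₀ k
  have hd : gx W₀ k - (gx W₀ k) ^ qq ≠ 0 := sub_ne_zero.mpr hne
  rw [gP, Point.add_of_X_ne hne]
  refine ⟨Point.some_ne_zero _, ?_⟩
  rw [xa_some, slope_of_X_ne hne, map_div₀, jK_algebraMap, jK_algebraMap, map_pow,
    algebraMap_dpol, IsScalarTower.algebraMap_apply k[X] (AA W₀ k) (KK W₀ k), hp]
  simp only [numA, Affine.addX, map_sub, map_add, map_mul, map_pow, algebraMap_cA, algebraMap_xq,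
    WeierstrassCurve.baseChange, WeierstrassCurve.map_a₁, WeierstrassCurve.map_a₂]
  have e1 : algebraMap (AA W₀ k) (KK W₀ k) (ay W₀ k) = gy W₀ k := rfl
  have e2 : algebraMap (AA W₀ k) (KK W₀ k) (ax W₀ k) = gx W₀ k := rfl
  rw [e1, e2]
  field_simp
  ring

/-- `φ u` as a point -/
lemma frobP_gP_eq : ∃ h', frobP W₀ (KK W₀ k) (gP W₀ k) =
    Point.some ((gx W₀ k) ^ qq) ((gy W₀ k) ^ qq) h' :=
  frobP_some W₀ (generic_nonsingular W₀ k)

theorem xa_add_frob :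
    gP W₀ k + frobP W₀ (KK W₀ k) (gP W₀ k) ≠ 0 ∧
    xa (W₀.baseChange (KK W₀ k)) (gP W₀ k + frobP W₀ (KK W₀ k) (gP W₀ k)) =
      jK W₀ k (ι (pplus W₀ k) / ι ((dpol (k₀ := k₀) k) ^ 2)) := by
  obtain ⟨h', e⟩ := frobP_gP_eq W₀ k
  rw [e]
  exact xa_gP_add W₀ k (algebraMap_pplus W₀ k) h' rfl (algebraMap_yq W₀ k).symm

theorem xa_sub_frob :
    gP W₀ k - frobP W₀ (KK W₀ k) (gP W₀ k) ≠ 0 ∧
    xa (W₀.baseChange (KK W₀ k)) (gP W₀ k - frobP W₀ (KK W₀ k) (gP W₀ k)) =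
      jK W₀ k (ι (pminus W₀ k) / ι ((dpol (k₀ := k₀) k) ^ 2)) := by
  obtain ⟨h', e⟩ := frobP_gP_eq W₀ k
  rw [e, sub_eq_add_neg, Point.neg_some]
  refine xa_gP_add W₀ k (algebraMap_pminus W₀ k) _ rfl ?_
  simp only [Affine.negY, yqc, Gq, map_sub, map_neg, map_add, map_mul, algebraMap_cA,
    algebraMap_xq, algebraMap_yq, WeierstrassCurve.baseChange, WeierstrassCurve.map_a₁,
    WeierstrassCurve.map_a₃]
  ring

/-- `φ u` as an element of `GP` -/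
noncomputable def e1 : GP W₀ k := frobGP W₀ k (e0 W₀ k)

lemma natDegree_dpol_sq : ((dpol (k₀ := k₀) k) ^ 2).natDegree = 2 * qq := by
  rw [natDegree_pow, natDegree_dpol]

/-- a common divisor of `p₊` and `(X - X^q)²` lowers the degree of `u + φ u` -/
theorem dGP_add_le {m : k[X]} (h1 : m ∣ pplus W₀ k) (h2 : m ∣ (dpol (k₀ := k₀) k) ^ 2) :
    dGP W₀ k (e0 W₀ k + e1 W₀ k) + m.natDegree ≤ 2 * qq + 1 := by
  obtain ⟨hne, hxa⟩ := xa_add_frob W₀ k
  have hd : dGP W₀ k (e0 W₀ k + e1 W₀ k) =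
      (rdeg (ι (pplus W₀ k) / ι ((dpol (k₀ := k₀) k) ^ 2)) : ℤ) := by
    simp only [dGP]
    have : ((e0 W₀ k + e1 W₀ k : GP W₀ k) : PtK W₀ k) =
        gP W₀ k + frobP W₀ (KK W₀ k) (gP W₀ k) := rfl
    rw [this, xdeg_eq_of_ne_zero _ _ hne hxa]
  have hb := rdeg_div_le_of_dvd (pow_ne_zero 2 (dpol_ne_zero (k₀ := k₀) k)) h1 h2
  rw [natDegree_dpol_sq] at hb
  have hp := natDegree_pplus W₀ k
  rw [hd]
  have : rdeg (ι (pplus W₀ k) / ι ((dpol (k₀ := k₀) k) ^ 2)) + m.natDegree ≤ 2 * qq + 1 :=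
    hb.trans (max_le hp (by omega))
  exact_mod_cast this

/-- a common divisor of `p₋` and `(X - X^q)²` lowers the degree of `u - φ u` -/
theorem dGP_sub_le {m : k[X]} (h1 : m ∣ pminus W₀ k) (h2 : m ∣ (dpol (k₀ := k₀) k) ^ 2) :
    dGP W₀ k (e0 W₀ k - e1 W₀ k) + m.natDegree ≤ 2 * qq + 1 := by
  obtain ⟨hne, hxa⟩ := xa_sub_frob W₀ k
  have hd : dGP W₀ k (e0 W₀ k - e1 W₀ k) =
      (rdeg (ι (pminus W₀ k) / ι ((dpol (k₀ := k₀) k) ^ 2)) : ℤ) := by
    simp only [dGP]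
    have : ((e0 W₀ k - e1 W₀ k : GP W₀ k) : PtK W₀ k) =
        gP W₀ k - frobP W₀ (KK W₀ k) (gP W₀ k) := rfl
    rw [this, xdeg_eq_of_ne_zero _ _ hne hxa]
  have hb := rdeg_div_le_of_dvd (pow_ne_zero 2 (dpol_ne_zero (k₀ := k₀) k)) h1 h2
  rw [natDegree_dpol_sq] at hb
  have hp := natDegree_pminus W₀ k
  rw [hd]
  have : rdeg (ι (pminus W₀ k) / ι ((dpol (k₀ := k₀) k) ^ 2)) + m.natDegree ≤ 2 * qq + 1 :=
    hb.trans (max_le hp (by omega))
  exact_mod_cast this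

end Fermat.Agent.EC.H14
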