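import Mathlib
import Fermat.Agent.EC.H14_FrobPts

/-!
# The degrees of `1 ± φ` (EC brick 14)

`k` algebraically closed.  For every `α ∈ k₀` the factor `X - α` divides `p₊` (resp. `p₋`) at
least `n_α` (resp. `2 - n_α`) times, where `n_α` is the number of `k₀`-rational points above `α`.
Together with the parallelogram law this gives
`d(u - φ u) = #W₀(k₀)` and `d(u + φ u) = 2q + 2 - #W₀(k₀)`.
-/

set_option autoImplicit false
set_option linter.unusedSectionVars false

open Polynomial WeierstrassCurve WeierstrassCurve.Affine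

namespace Fermat.Agent.EC.H14

section FixedPoints

variable {k₀ : Type*} [Field k₀] [Fintype k₀]
variable (k : Type*) [Field k] [Algebra k₀ k]

local notation "qq" => Fintype.card k₀

/-- the fixed points of the `q`-Frobenius are the elements of `k₀` -/
lemma exists_algebraMap_eq_of_pow_card_eq {z : k} (hz : z ^ qq = z) :
    ∃ β : k₀, algebraMap k₀ k β = z := by
  classical
  by_contra hne
  simp only [not_exists] at hne
  set p : k[X] := X ^ qq - X with hp
  have hp0 : p ≠ 0 := FiniteField.X_pow_card_sub_X_ne_zero k (Fintype.one_lt_card (α := k₀))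
  have hdeg : p.natDegree = qq :=
    FiniteField.X_pow_card_sub_X_natDegree_eq k (Fintype.one_lt_card (α := k₀))
  let T : Finset k := insert z (Finset.univ.image (algebraMap k₀ k))
  have hT : T.card = qq + 1 := by
    rw [Finset.card_insert_of_notMem, Finset.card_image_of_injective _ (algebraMap k₀ k).injective,
      Finset.card_univ]
    intro hmem
    obtain ⟨β, -, hβ⟩ := Finset.mem_image.mp hmem
    exact hne β hβ
  have hsub : T ⊆ p.roots.toFinset := by
    intro w hw
    rw [Multiset.mem_toFinset, mem_roots hp0, IsRoot.def, hp, eval_sub, eval_pow, eval_X,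
      sub_eq_zero]
    rcases Finset.mem_insert.mp hw with rfl | hw
    · exact hz
    · obtain ⟨β, -, rfl⟩ := Finset.mem_image.mp hw
      rw [← map_pow, FiniteField.pow_card]
  have := (Finset.card_le_card hsub).trans ((Multiset.toFinset_card_le _).trans (card_roots' p))
  omega

lemma pow_card_injective : Function.Injective (fun z : k => z ^ qq) :=
  (FiniteField.frobeniusAlgHom k₀ k).injective

end FixedPoints

section Count

variable {k₀ : Type*} [Field k₀] [Fintype k₀] (W₀ : WeierstrassCurve k₀) [W₀.IsElliptic]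

/-- the number of points is one plus the sum of the sizes of the fibres of `x` -/
theorem card_point_eq :
    Nat.card W₀.toAffine.Point =
      1 + ∑ α : k₀, Nat.card {β : k₀ // W₀.toAffine.Equation α β} := by
  have e1 : W₀.toAffine.Point ≃ Option {xy : k₀ × k₀ // W₀.toAffine.Equation xy.1 xy.2} :=
    W₀.toAffine.pointEquiv
  have e2 : {xy : k₀ × k₀ // W₀.toAffine.Equation xy.1 xy.2} ≃
      Σ α : k₀, {β : k₀ // W₀.toAffine.Equation α β} :=
    Equiv.subtypeProdEquivSigmaSubtype (fun α β => W₀.toAffine.Equation α β)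
  rw [Nat.card_congr e1, Finite.card_option, Nat.card_congr e2, Nat.card_sigma, add_comm]

end Count

section Fibre

variable {k₀ : Type*} [Field k₀] [Fintype k₀] (W₀ : WeierstrassCurve k₀) [W₀.IsElliptic]
variable (k : Type*) [Field k] [Algebra k₀ k]

local notation "qq" => Fintype.card k₀

/-- the coefficient `a₁ α + a₃` -/
def sF (α : k₀) : k₀ := W₀.a₁ * α + W₀.a₃

/-- the value `α³ + a₂ α² + a₄ α + a₆` -/
def tF (α : k₀) : k₀ := α ^ 3 + W₀.a₂ * α ^ 2 + W₀.a₄ * α + W₀.a₆

lemma equation_iff_fibre (α : k₀) (b : k) :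
    (W₀.baseChange k).toAffine.Equation (algebraMap k₀ k α) b ↔
      b ^ 2 + algebraMap k₀ k (sF W₀ α) * b = algebraMap k₀ k (tF W₀ α) := by
  rw [Affine.equation_iff]
  simp only [WeierstrassCurve.baseChange, WeierstrassCurve.map_a₁, WeierstrassCurve.map_a₂,
    WeierstrassCurve.map_a₃, WeierstrassCurve.map_a₄, WeierstrassCurve.map_a₆, sF, tF,
    map_add, map_mul, map_pow]
  constructor <;> intro h <;> linear_combination h

lemma equation_iff_fibre₀ (α β : k₀) :
    W₀.toAffine.Equation α β ↔ β ^ 2 + sF W₀ α * β = tF W₀ α := by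
  rw [Affine.equation_iff]
  simp only [sF, tF]
  constructor <;> intro h <;> linear_combination h

lemma equation_algebraMap_iff (α β : k₀) :
    (W₀.baseChange k).toAffine.Equation (algebraMap k₀ k α) (algebraMap k₀ k β) ↔
      W₀.toAffine.Equation α β := by
  rw [equation_iff_fibre, equation_iff_fibre₀, ← map_pow, ← map_mul, ← map_add]
  exact (algebraMap k₀ k).injective.eq_iff

/-- Frobenius preserves the fibre above a rational `α` -/
lemma equation_pow_card {α : k₀} {b : k}
    (h : (W₀.baseChange k).toAffine.Equation (algebraMap k₀ k α) b) :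
    (W₀.baseChange k).toAffine.Equation (algebraMap k₀ k α) (b ^ qq) := by
  rw [equation_iff_fibre] at h ⊢
  have := congrArg (FiniteField.frobeniusAlgHom k₀ k) h
  simp only [map_add, map_mul, map_pow, AlgHom.commutes] at this
  exact this

variable [IsAlgClosed k]

/-- the two roots of the fibre equation -/
lemma exists_fibre_roots (α : k₀) : ∃ b₁ b₂ : k,
    b₁ + b₂ = - algebraMap k₀ k (sF W₀ α) ∧
    ∀ b : k, (W₀.baseChange k).toAffine.Equation (algebraMap k₀ k α) b ↔ (b = b₁ ∨ b = b₂) := by
  set s := algebraMap k₀ k (sF W₀ α) with hs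
  set t := algebraMap k₀ k (tF W₀ α) with ht
  have hdeg : (C (1 : k) * X ^ 2 + C s * X + C (-t)).degree = 2 :=
    degree_quadratic one_ne_zero
  obtain ⟨b₁, hb₁⟩ := IsAlgClosed.exists_root (C (1 : k) * X ^ 2 + C s * X + C (-t))
    (by rw [hdeg]; decide)
  simp only [IsRoot.def, eval_add, eval_mul, eval_C, eval_pow, eval_X] at hb₁
  refine ⟨b₁, -s - b₁, by ring, fun b => ?_⟩
  rw [equation_iff_fibre]
  have key : b ^ 2 + s * b - t = (b - b₁) * (b - (-s - b₁)) := by linear_combination hb₁
  rw [← sub_eq_zero, key, mul_eq_zero, sub_eq_zero, sub_eq_zero]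

/-- **the exponents at `α`** -/
theorem exists_exponents (α : k₀) :
    ∃ n₁ n₂ : ℕ, n₁ + n₂ = 2 ∧ n₁ = Nat.card {β : k₀ // W₀.toAffine.Equation α β} ∧
      (X - C (algebraMap k₀ k α)) ^ n₁ ∣ pplus W₀ k ∧
      (X - C (algebraMap k₀ k α)) ^ n₂ ∣ pminus W₀ k := by
  obtain ⟨b₁, b₂, hsum, hroots⟩ := exists_fibre_roots W₀ k α
  have h₁ : (W₀.baseChange k).toAffine.Equation (algebraMap k₀ k α) b₁ :=
    (hroots b₁).mpr (Or.inl rfl)
  have h₂ : (W₀.baseChange k).toAffine.Equation (algebraMap k₀ k α) b₂ :=
    (hroots b₂).mpr (Or.inr rfl)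
  have hs' : algebraMap k₀ k W₀.a₁ * algebraMap k₀ k α + algebraMap k₀ k W₀.a₃ =
      algebraMap k₀ k (sF W₀ α) := by
    simp only [sF, map_add, map_mul]
  by_cases hb : b₁ = b₂
  · -- one double root
    subst hb
    have hfix : b₁ ^ qq = b₁ := by
      rcases (hroots _).mp (equation_pow_card W₀ k h₁) with h | h <;> exact h
    obtain ⟨β₁, hβ₁⟩ := exists_algebraMap_eq_of_pow_card_eq k hfix
    refine ⟨1, 1, rfl, ?_, ?_, ?_⟩
    · symm
      rw [Nat.card_eq_one_iff_unique]
      constructor
      · constructor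
        rintro ⟨β, hβ⟩ ⟨β', hβ'⟩
        rw [Subtype.mk.injEq]
        apply (algebraMap k₀ k).injective
        have e1 := (hroots _).mp ((equation_algebraMap_iff W₀ k α β).mpr hβ)
        have e2 := (hroots _).mp ((equation_algebraMap_iff W₀ k α β').mpr hβ')
        rcases e1 with e1 | e1 <;> rcases e2 with e2 | e2 <;> rw [e1, e2]
      · refine ⟨⟨β₁, ?_⟩⟩
        rw [← equation_algebraMap_iff W₀ k α β₁, hβ₁]
        exact h₁
    · rw [pow_one, dvd_iff_isRoot, IsRoot.def, eval_pplus W₀ k h₁, hfix, sub_self]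
      simp
    · rw [pow_one, dvd_iff_isRoot, IsRoot.def, eval_pminus W₀ k h₁, hfix, hs']
      have : b₁ + b₁ + algebraMap k₀ k (sF W₀ α) = 0 := by linear_combination hsum
      rw [this]
      simp
  · have hq₁ := (hroots _).mp (equation_pow_card W₀ k h₁)
    have hq₂ := (hroots _).mp (equation_pow_card W₀ k h₂)
    by_cases hfix : b₁ ^ qq = b₁
    · -- two rational points
      have hfix₂ : b₂ ^ qq = b₂ := by
        rcases hq₂ with h | h
        · exact absurd (pow_card_injective (k₀ := k₀) k (h.trans hfix.symm)) (Ne.symm hb)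
        · exact h
      obtain ⟨β₁, hβ₁⟩ := exists_algebraMap_eq_of_pow_card_eq k hfix
      obtain ⟨β₂, hβ₂⟩ := exists_algebraMap_eq_of_pow_card_eq k hfix₂
      have hE₁ : W₀.toAffine.Equation α β₁ := by
        rw [← equation_algebraMap_iff W₀ k α β₁, hβ₁]; exact h₁
      have hE₂ : W₀.toAffine.Equation α β₂ := by
        rw [← equation_algebraMap_iff W₀ k α β₂, hβ₂]; exact h₂
      refine ⟨2, 0, rfl, ?_, ?_, by simp⟩
      · symm
        rw [Nat.card_eq_two_iff]
        refine ⟨⟨β₁, hE₁⟩, ⟨β₂, hE₂⟩, ?_, ?_⟩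
        · intro h
          apply hb
          rw [← hβ₁, ← hβ₂, (Subtype.mk.injEq _ _ _ _ ▸ h : β₁ = β₂)]
        · ext ⟨β, hβ⟩
          simp only [Set.mem_insert_iff, Set.mem_singleton_iff, Set.mem_univ, iff_true,
            Subtype.mk.injEq]
          rcases (hroots _).mp ((equation_algebraMap_iff W₀ k α β).mpr hβ) with e | e
          · left; apply (algebraMap k₀ k).injective; rw [e, hβ₁]
          · right; apply (algebraMap k₀ k).injective; rw [e, hβ₂]
      · apply sq_dvd_of_dvd W₀ k α (yq W₀ k) (algebraMap_pplus W₀ k)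
        apply dvd_of_thetaA_eq_zero W₀ k h₁ h₂ hb
        · rw [map_sub, thetaA_ay, thetaA_yq, hfix, sub_self]
        · rw [map_sub, thetaA_ay, thetaA_yq, hfix₂, sub_self]
    · -- no rational point
      have hsw₁ : b₁ ^ qq = b₂ := hq₁.resolve_left hfix
      have hsw₂ : b₂ ^ qq = b₁ := by
        rcases hq₂ with h | h
        · exact h
        · exact absurd (pow_card_injective (k₀ := k₀) k (hsw₁.trans h.symm)) hb
      refine ⟨0, 2, rfl, ?_, by simp, ?_⟩
      · symm
        rw [Nat.card_eq_zero]
        left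
        constructor
        rintro ⟨β, hβ⟩
        have hβq : (algebraMap k₀ k β) ^ qq = algebraMap k₀ k β := by
          rw [← map_pow, FiniteField.pow_card]
        rcases (hroots _).mp ((equation_algebraMap_iff W₀ k α β).mpr hβ) with e | e
        · rw [e] at hβq; exact hfix hβq
        · rw [e, hsw₂] at hβq; exact hb hβq
      · apply sq_dvd_of_dvd W₀ k α (yqc W₀ k) (algebraMap_pminus W₀ k)
        apply dvd_of_thetaA_eq_zero W₀ k h₁ h₂ hb
        · simp only [yqc, Gq, map_sub, map_neg, map_add, map_mul, thetaA_ay, thetaA_yq,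
            thetaA_xq, thetaA_cA, hsw₁, hs']
          linear_combination hsum
        · simp only [yqc, Gq, map_sub, map_neg, map_add, map_mul, thetaA_ay, thetaA_yq,
            thetaA_xq, thetaA_cA, hsw₂, hs']
          linear_combination hsum

end Fibre

end Fermat.Agent.EC.H14
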