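import Mathlib
import Fermat.Agent.EC.H14_FrobCount

/-!
# `deg (1 - φ) = #W₀(k₀)` (EC brick 15)
-/

set_option autoImplicit false
set_option linter.unusedSectionVars false

open Polynomial WeierstrassCurve WeierstrassCurve.Affine Function

namespace Fermat.Agent.EC.H14

variable {k₀ : Type*} [Field k₀] [Fintype k₀] (W₀ : WeierstrassCurve k₀) [W₀.IsElliptic]
variable (k : Type*) [Field k] [Algebra k₀ k] [DecidableEq (KK W₀ k)]

local notation "qq" => Fintype.card k₀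

lemma X_sub_C_dvd_dpol (α : k₀) : (X - C (algebraMap k₀ k α)) ∣ dpol (k₀ := k₀) k := by
  have h := X_sub_C_dvd_frob (k := k) α
  have : dpol (k₀ := k₀) k = -(X ^ qq - X) := by unfold dpol; ring
  rw [this]
  exact (dvd_neg).mpr h

lemma pairwise_coprime_pow (n : k₀ → ℕ) :
    Pairwise (IsCoprime on fun α : k₀ => (X - C (algebraMap k₀ k α)) ^ n α) := by
  intro α β hαβ
  apply IsCoprime.pow
  apply isCoprime_X_sub_C_of_isUnit_sub
  rw [isUnit_iff_ne_zero, sub_ne_zero]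
  exact fun h => hαβ ((algebraMap k₀ k).injective h)

lemma natDegree_prod_pow (n : k₀ → ℕ) :
    (∏ α : k₀, (X - C (algebraMap k₀ k α)) ^ n α).natDegree = ∑ α : k₀, n α := by
  rw [natDegree_prod_of_monic]
  · apply Finset.sum_congr rfl
    intro α _
    rw [natDegree_pow, natDegree_X_sub_C, mul_one]
  · intro α _
    exact (monic_X_sub_C _).pow _

lemma prod_pow_dvd_dpol_sq (n : k₀ → ℕ) (hn : ∀ α, n α ≤ 2) :
    (∏ α : k₀, (X - C (algebraMap k₀ k α)) ^ n α) ∣ (dpol (k₀ := k₀) k) ^ 2 := by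
  apply Fintype.prod_dvd_of_coprime (pairwise_coprime_pow k n)
  intro α
  exact (pow_dvd_pow _ (hn α)).trans (pow_dvd_pow_of_dvd (X_sub_C_dvd_dpol k α) 2)

variable [IsAlgClosed k]

/-- **the degrees of `1 - φ` and `1 + φ`** -/
theorem dGP_sub_add_frob :
    dGP W₀ k (e0 W₀ k - e1 W₀ k) = (Nat.card W₀.toAffine.Point : ℤ) ∧
    dGP W₀ k (e0 W₀ k + e1 W₀ k) = 2 * (qq : ℤ) + 2 - (Nat.card W₀.toAffine.Point : ℤ) := by
  choose n₁ n₂ hsum hcard hdvd₁ hdvd₂ using exists_exponents W₀ k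
  have hn₁ : ∀ α, n₁ α ≤ 2 := fun α => by have := hsum α; omega
  have hn₂ : ∀ α, n₂ α ≤ 2 := fun α => by have := hsum α; omega
  have hm₁ : (∏ α : k₀, (X - C (algebraMap k₀ k α)) ^ n₁ α) ∣ pplus W₀ k :=
    Fintype.prod_dvd_of_coprime (pairwise_coprime_pow k n₁) hdvd₁
  have hm₂ : (∏ α : k₀, (X - C (algebraMap k₀ k α)) ^ n₂ α) ∣ pminus W₀ k :=
    Fintype.prod_dvd_of_coprime (pairwise_coprime_pow k n₂) hdvd₂
  have b₁ := dGP_add_le W₀ k hm₁ (prod_pow_dvd_dpol_sq k n₁ hn₁)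
  have b₂ := dGP_sub_le W₀ k hm₂ (prod_pow_dvd_dpol_sq k n₂ hn₂)
  rw [natDegree_prod_pow] at b₁ b₂
  have hpar := isParallelogram_dGP W₀ k (e0 W₀ k) (e1 W₀ k)
  rw [dGP_e0, e1, dGP_frobGP, dGP_e0] at hpar
  have hN : (Nat.card W₀.toAffine.Point : ℤ) = 1 + ((∑ α : k₀, n₁ α : ℕ) : ℤ) := by
    rw [card_point_eq W₀]
    push_cast
    congr 1
    apply Finset.sum_congr rfl
    intro α _
    rw [hcard α]
  have hS : ((∑ α : k₀, n₁ α : ℕ) : ℤ) + ((∑ α : k₀, n₂ α : ℕ) : ℤ) = 2 * (qq : ℤ) := by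
    rw [← Nat.cast_add, ← Finset.sum_add_distrib]
    have : ∑ α : k₀, (n₁ α + n₂ α) = ∑ _α : k₀, 2 := Finset.sum_congr rfl (fun α _ => hsum α)
    rw [this, Finset.sum_const, Finset.card_univ, smul_eq_mul, Nat.cast_mul]
    push_cast
    ring
  rw [← e1] at hpar
  constructor <;> linarith

end Fermat.Agent.EC.H14
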