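import Mathlib
import Fermat.Agent.EC.H14_FrobDeg

/-!
# Constant points and the translation trick (EC brick 16)

`k` algebraically closed.  A point of `W₀(K)` with `x`-coordinate algebraic over `k` is constant,
i.e. comes from `W₀(k)`.  If an integral combination `ψ = φ² - a φ + b` of powers of Frobenius
sends the generic point to a constant point, then `ψ = 0` on `W₀(k)`.
-/

set_option autoImplicit false
set_option linter.unusedSectionVars false

open Polynomial WeierstrassCurve WeierstrassCurve.Affine

namespace Fermat.Agent.EC.H14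

section Psi

variable {k₀ : Type*} [Field k₀] [Fintype k₀] (W₀ : WeierstrassCurve k₀)

/-- the operator `φ² - a φ + b` on the points over a field `F` -/
noncomputable def psiP (F : Type*) [Field F] [Algebra k₀ F] [DecidableEq F] (a b : ℤ) :
    (W₀.baseChange F).toAffine.Point →+ (W₀.baseChange F).toAffine.Point :=
  (frobP W₀ F).comp (frobP W₀ F) - a • frobP W₀ F + b • AddMonoidHom.id _

lemma psiP_apply {F : Type*} [Field F] [Algebra k₀ F] [DecidableEq F] (a b : ℤ)
    (P : (W₀.baseChange F).toAffine.Point) :
    psiP W₀ F a b P = frobP W₀ F (frobP W₀ F P) - a • frobP W₀ F P + b • P := rfl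

/-- every map on points induced by a homomorphism of fields commutes with `ψ` -/
lemma map_psiP {S : Type*} [CommRing S] [Algebra k₀ S] {F K : Type*} [Field F] [Field K]
    [DecidableEq F] [DecidableEq K] [Algebra k₀ F] [Algebra S F] [IsScalarTower k₀ S F]
    [Algebra k₀ K] [Algebra S K] [IsScalarTower k₀ S K] (f : F →ₐ[S] K) (a b : ℤ)
    (P : (W₀.baseChange F).toAffine.Point) :
    Point.map (W' := W₀) f (psiP W₀ F a b P) = psiP W₀ K a b (Point.map (W' := W₀) f P) := by
  rw [psiP_apply, psiP_apply, map_add, map_sub, map_zsmul, map_zsmul, map_frobP, map_frobP]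

end Psi

section Const

variable {k₀ : Type*} [Field k₀] (W₀ : WeierstrassCurve k₀) [W₀.IsElliptic]
variable (k : Type*) [Field k] [Algebra k₀ k] [DecidableEq k] [DecidableEq (KK W₀ k)]

/-- the points over `k` -/
abbrev Ptk : Type _ := (W₀.baseChange k).toAffine.Point

/-- the constant points of `W₀(K)` -/
noncomputable def constP : Ptk W₀ k →+ PtK W₀ k :=
  Point.map (W' := W₀) (Algebra.ofId k (KK W₀ k))

lemma constP_injective : Function.Injective (constP W₀ k) :=
  Point.map_injective (W' := W₀) (Algebra.ofId k (KK W₀ k))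

lemma exists_algebraMap_eq_of_isIntegral {F L : Type*} [Field F] [IsAlgClosed F] [Field L]
    [Algebra F L] {x : L} (hx : IsIntegral F x) : ∃ c : F, algebraMap F L c = x :=
  minpoly.mem_range_of_degree_eq_one (A := F) (x := x)
    (IsAlgClosed.degree_eq_one_of_irreducible F (minpoly.irreducible hx))

/-- a point with algebraic `x`-coordinate is constant -/
theorem mem_range_constP_of_isAlgebraic [IsAlgClosed k] {x y : KK W₀ k}
    (h : (W₀.baseChange (KK W₀ k)).toAffine.Nonsingular x y) (hx : IsAlgebraic k x) :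
    Point.some x y h ∈ (constP W₀ k).range := by
  obtain ⟨c, rfl⟩ := exists_algebraMap_eq_of_isIntegral hx.isIntegral
  have hy : IsIntegral k y := by
    have heq := h.1
    rw [Affine.equation_iff] at heq
    simp only [WeierstrassCurve.baseChange, WeierstrassCurve.map_a₁, WeierstrassCurve.map_a₂,
      WeierstrassCurve.map_a₃, WeierstrassCurve.map_a₄, WeierstrassCurve.map_a₆] at heq
    refine ⟨X ^ 2 + C (algebraMap k₀ k W₀.a₁ * c + algebraMap k₀ k W₀.a₃) * X -
      C (c ^ 3 + algebraMap k₀ k W₀.a₂ * c ^ 2 + algebraMap k₀ k W₀.a₄ * c +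
        algebraMap k₀ k W₀.a₆), ?_, ?_⟩
    · have hd : (C (algebraMap k₀ k W₀.a₁ * c + algebraMap k₀ k W₀.a₃) * X -
          C (c ^ 3 + algebraMap k₀ k W₀.a₂ * c ^ 2 + algebraMap k₀ k W₀.a₄ * c +
            algebraMap k₀ k W₀.a₆) : k[X]).degree < 2 := by
        refine lt_of_le_of_lt (degree_sub_le _ _) (max_lt ?_ ?_)
        · exact lt_of_le_of_lt (degree_C_mul_X_le _) (by decide)
        · exact lt_of_le_of_lt degree_C_le (by decide)
      have := monic_X_pow_add (n := 2) hd
      rwa [add_sub_assoc]
    · simp only [eval₂_sub, eval₂_add, eval₂_mul, eval₂_pow, eval₂_X, eval₂_C, map_add, map_mul,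
        map_pow, ← IsScalarTower.algebraMap_apply]
      linear_combination heq
  obtain ⟨c', rfl⟩ := exists_algebraMap_eq_of_isIntegral hy
  have h' : (W₀.baseChange k).toAffine.Nonsingular c c' :=
    (baseChange_nonsingular (W := W₀) (f := Algebra.ofId k (KK W₀ k))
      (Algebra.ofId k (KK W₀ k)).injective c c').mp h
  exact ⟨Point.some c c' h', rfl⟩

/-- the generic point is not constant -/
lemma gP_notMem_range_constP : gP W₀ k ∉ (constP W₀ k).range := by
  rintro ⟨P, hP⟩
  cases P with
  | zero =>
    rw [show (Point.zero : Ptk W₀ k) = 0 from rfl, map_zero] at hP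
    exact Point.some_ne_zero (generic_nonsingular W₀ k) hP.symm
  | some c c' h =>
    rw [constP, Point.map_some, gP] at hP
    have hx : algebraMap k (KK W₀ k) c = gx W₀ k := (Point.some.inj hP).1
    have htr : Transcendental k (gx W₀ k) := by
      rw [← jK_X]
      exact transcendental_jK W₀ k (RatFunc.transcendental_X (K := k))
    exact htr (hx ▸ isAlgebraic_algebraMap c)

/-- substitutions fix the constant points -/
lemma thetaP_constP {x y : KK W₀ k} (h : (W₀.baseChange (KK W₀ k)).toAffine.Equation x y)
    (hx : Transcendental k x) (P : Ptk W₀ k) :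
    thetaP W₀ k h hx (constP W₀ k P) = constP W₀ k P :=
  Point.map_baseChange (W' := W₀) (thetaK W₀ k h hx) P

end Const

section Translation

variable {k₀ : Type*} [Field k₀] [Fintype k₀] (W₀ : WeierstrassCurve k₀) [W₀.IsElliptic]
variable (k : Type*) [Field k] [Algebra k₀ k] [DecidableEq k] [DecidableEq (KK W₀ k)]
  [IsAlgClosed k]

/-- **the translation trick**: if `ψ` sends the generic point to a constant point then `ψ = 0` on
`W₀(k)` -/
theorem psiP_eq_zero_of_const (a b : ℤ)
    (hT : psiP W₀ (KK W₀ k) a b (gP W₀ k) ∈ (constP W₀ k).range) (P₀ : Ptk W₀ k) :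
    psiP W₀ k a b P₀ = 0 := by
  obtain ⟨T₀, hT₀⟩ := hT
  -- the translated generic point
  have hQ : gP W₀ k + constP W₀ k P₀ ∉ (constP W₀ k).range := by
    intro hmem
    apply gP_notMem_range_constP W₀ k
    have := (constP W₀ k).range.sub_mem hmem ⟨P₀, rfl⟩
    rwa [add_sub_cancel_right] at this
  rcases hQ' : gP W₀ k + constP W₀ k P₀ with _ | ⟨x, y, h⟩
  · exact absurd (hQ' ▸ (constP W₀ k).range.zero_mem) hQ
  · have hx : Transcendental k x := by
      intro halg
      apply hQ
      rw [hQ']
      exact mem_range_constP_of_isAlgebraic W₀ k h halg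
    have e1 : thetaP W₀ k h.1 hx (gP W₀ k) = gP W₀ k + constP W₀ k P₀ := by
      rw [thetaP_gP W₀ k h hx, hQ']
    have e2 : thetaP W₀ k h.1 hx (psiP W₀ (KK W₀ k) a b (gP W₀ k)) =
        psiP W₀ (KK W₀ k) a b (gP W₀ k) + constP W₀ k (psiP W₀ k a b P₀) := by
      rw [thetaP, map_psiP, ← thetaP, e1, map_add, constP, ← map_psiP]
    rw [← hT₀, thetaP_constP] at e2
    have e3 : constP W₀ k (psiP W₀ k a b P₀) = 0 := by
      have := e2.symm
      rwa [add_eq_left] at this
    apply constP_injective W₀ k
    rw [e3, map_zero]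

end Translation

end Fermat.Agent.EC.H14
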