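import Mathlib
import Fermat.Agent.EC.H14_ConstPts

/-!
# The Hasse–Weil relation `φ² - a φ + q = 0` (EC brick 17)

`k₀` a finite field with `q` elements, `W₀` an elliptic curve over `k₀`, `a = q + 1 - #W₀(k₀)`.
Then `φ² - a φ + q = 0` on `W₀(L)` for every field `L` over `k₀`, where `φ` is the `q`-Frobenius.
-/

set_option autoImplicit false
set_option linter.unusedSectionVars false

open Polynomial WeierstrassCurve WeierstrassCurve.Affine

namespace Fermat.Agent.EC.H14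

section Closed

variable {k₀ : Type*} [Field k₀] [Fintype k₀] (W₀ : WeierstrassCurve k₀) [W₀.IsElliptic]
variable (k : Type*) [Field k] [Algebra k₀ k] [DecidableEq (KK W₀ k)]

local notation "qq" => Fintype.card k₀

local notation "ι" => algebraMap k[X] (RatFunc k)

/-- the trace of Frobenius `a = q + 1 - #W₀(k₀)` -/
noncomputable def aFrob : ℤ := (Fintype.card k₀ : ℤ) + 1 - (Nat.card W₀.toAffine.Point : ℤ)

/-- `φ² u` as an element of `GP` -/
noncomputable def e2 : GP W₀ k := frobGP W₀ k (e1 W₀ k)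

lemma dGP_e1 : dGP W₀ k (e1 W₀ k) = (qq : ℤ) := by
  rw [e1, dGP_frobGP, dGP_e0, mul_one]

lemma dGP_e2 : dGP W₀ k (e2 W₀ k) = (qq : ℤ) ^ 2 := by
  rw [e2, dGP_frobGP, dGP_e1]; ring

lemma pairing_frobGP (x y : GP W₀ k) :
    pairing (dGP W₀ k) (frobGP W₀ k x) (frobGP W₀ k y) = (qq : ℤ) * pairing (dGP W₀ k) x y := by
  simp only [pairing, ← map_add, dGP_frobGP]
  ring

variable [IsAlgClosed k]

lemma pairing_e0_e1 : pairing (dGP W₀ k) (e0 W₀ k) (e1 W₀ k) = aFrob W₀ := by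
  simp only [pairing, (dGP_sub_add_frob W₀ k).2, dGP_e0, dGP_e1, aFrob]
  ring

lemma pairing_e1_e2 : pairing (dGP W₀ k) (e1 W₀ k) (e2 W₀ k) = (qq : ℤ) * aFrob W₀ := by
  rw [e2, e1, pairing_frobGP, ← e1, pairing_e0_e1]

lemma card_point_pos : 1 ≤ Nat.card W₀.toAffine.Point := by
  rw [card_point_eq W₀]; omega

/-- the degree of `(1 - φ)² u` is `N²` -/
theorem dGP_one_neg_two_one :
    dGP W₀ k ((1 : ℤ) • e0 W₀ k + (-2 : ℤ) • e1 W₀ k + (1 : ℤ) • e2 W₀ k) =
      (Nat.card W₀.toAffine.Point : ℤ) ^ 2 := by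
  obtain ⟨hne, hxa⟩ := xa_sub_frob W₀ k
  set r : RatFunc k := ι (pminus W₀ k) / ι ((dpol (k₀ := k₀) k) ^ 2) with hr
  have hd := (dGP_sub_add_frob W₀ k).1
  have hcoe : ((e0 W₀ k - e1 W₀ k : GP W₀ k) : PtK W₀ k) =
      gP W₀ k - frobP W₀ (KK W₀ k) (gP W₀ k) := rfl
  have hdeg : (rdeg r : ℤ) = (Nat.card W₀.toAffine.Point : ℤ) := by
    rw [← hd]
    simp only [dGP]
    rw [hcoe, xdeg_eq_of_ne_zero _ _ hne hxa]
  have hN := card_point_pos W₀
  have hr0 : rdeg r ≠ 0 := by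
    intro h0
    rw [h0] at hdeg
    have : (Nat.card W₀.toAffine.Point : ℤ) = 0 := hdeg.symm
    omega
  have htr : Transcendental k r := transcendental_of_rdeg_ne_zero k hr0
  rcases hQ : gP W₀ k - frobP W₀ (KK W₀ k) (gP W₀ k) with _ | ⟨x, y, h⟩
  · exact absurd hQ hne
  · rw [hQ] at hxa
    have hxr : x = jK W₀ k r := hxa
    have hx : Transcendental k x := hxr ▸ transcendental_jK W₀ k htr
    have hrat : IsRatPt (jK W₀ k) (W₀.baseChange (KK W₀ k)) (Point.some x y h) := ⟨r, hxa⟩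
    obtain ⟨-, hmul⟩ := xdeg_thetaP W₀ k h.1 hx htr hxr hrat
    have hθ : thetaP W₀ k h.1 hx (Point.some x y h) =
        (((1 : ℤ) • e0 W₀ k + (-2 : ℤ) • e1 W₀ k + (1 : ℤ) • e2 W₀ k : GP W₀ k) :
          PtK W₀ k) := by
      have t1 : thetaP W₀ k h.1 hx (gP W₀ k) = Point.some x y h := thetaP_gP W₀ k h hx
      have t2 : thetaP W₀ k h.1 hx (frobP W₀ (KK W₀ k) (gP W₀ k)) =
          frobP W₀ (KK W₀ k) (Point.some x y h) := by rw [thetaP_frobP, t1]
      have t3 : thetaP W₀ k h.1 hx (Point.some x y h) =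
          Point.some x y h - frobP W₀ (KK W₀ k) (Point.some x y h) := by
        conv_lhs => rw [← hQ]
        rw [map_sub, t1, t2]
      rw [t3, ← hQ, map_sub]
      simp only [AddSubgroup.coe_add, AddSubgroup.coe_zsmul, e0, e1, e2, coe_frobGP]
      rw [neg_smul, one_smul, one_smul, two_smul]
      abel
    simp only [dGP]
    rw [← hθ, hmul, xdeg_eq_of_ne_zero _ _ (Point.some_ne_zero _) hxa]
    push_cast
    rw [hdeg]
    ring

lemma pairing_e0_e2 :
    pairing (dGP W₀ k) (e0 W₀ k) (e2 W₀ k) = (aFrob W₀) ^ 2 - 2 * (qq : ℤ) := by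
  have h := (isParallelogram_dGP W₀ k).map_three 1 (-2) 1 (e0 W₀ k) (e1 W₀ k) (e2 W₀ k)
  rw [dGP_one_neg_two_one, dGP_e0, dGP_e1, dGP_e2, pairing_e0_e1, pairing_e1_e2] at h
  have ha : (Nat.card W₀.toAffine.Point : ℤ) = (qq : ℤ) + 1 - aFrob W₀ := by
    simp only [aFrob]; ring
  rw [ha] at h
  linear_combination -h

/-- the point `(φ² - a φ + q) u` has degree zero -/
theorem dGP_psi :
    dGP W₀ k (((qq : ℕ) : ℤ) • e0 W₀ k + (-(aFrob W₀)) • e1 W₀ k + (1 : ℤ) • e2 W₀ k) = 0 := by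
  rw [(isParallelogram_dGP W₀ k).map_three, dGP_e0, dGP_e1, dGP_e2, pairing_e0_e1, pairing_e1_e2,
    pairing_e0_e2]
  ring

/-- `(φ² - a φ + q) u` is a constant point -/
theorem psiP_gP_mem_range [DecidableEq k] :
    psiP W₀ (KK W₀ k) (aFrob W₀) (qq : ℕ) (gP W₀ k) ∈ (constP W₀ k).range := by
  set T : GP W₀ k := ((qq : ℕ) : ℤ) • e0 W₀ k + (-(aFrob W₀)) • e1 W₀ k + (1 : ℤ) • e2 W₀ k
    with hT
  have hcoe : psiP W₀ (KK W₀ k) (aFrob W₀) (qq : ℕ) (gP W₀ k) = (T : PtK W₀ k) := by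
    rw [psiP_apply, hT]
    simp only [AddSubgroup.coe_add, AddSubgroup.coe_zsmul, e0, e1, e2, coe_frobGP]
    rw [neg_smul, one_smul]
    abel
  rw [hcoe]
  have hd : dGP W₀ k T = 0 := dGP_psi W₀ k
  rcases hTc : (T : PtK W₀ k) with _ | ⟨x, y, h⟩
  · exact (constP W₀ k).range.zero_mem
  · obtain ⟨f, hf⟩ := isRatPt_of_mem_GP W₀ k T.2
    rw [hTc] at hf
    have hne : (T : PtK W₀ k) ≠ 0 := by rw [hTc]; exact Point.some_ne_zero _
    simp only [dGP] at hd
    rw [hTc, xdeg_eq_of_ne_zero _ _ (Point.some_ne_zero _) hf] at hd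
    have hf0 : rdeg f = 0 := by exact_mod_cast hd
    obtain ⟨c, rfl⟩ := (rdeg_eq_zero_iff f).mp hf0
    have hx : x = algebraMap k (KK W₀ k) c := by
      have : x = jK W₀ k (algebraMap k (RatFunc k) c) := hf
      rw [this, jK_C]
    apply mem_range_constP_of_isAlgebraic W₀ k h
    rw [hx]
    exact isAlgebraic_algebraMap c

/-- **the Hasse–Weil relation over an algebraically closed field** -/
theorem hasse_weil_closed [DecidableEq k] (P : Ptk W₀ k) :
    frobP W₀ k (frobP W₀ k P) - (aFrob W₀) • frobP W₀ k P + ((qq : ℕ) : ℤ) • P = 0 := by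
  have := psiP_eq_zero_of_const W₀ k (aFrob W₀) (qq : ℕ) (psiP_gP_mem_range W₀ k) P
  rwa [psiP_apply] at this

end Closed

end Fermat.Agent.EC.H14
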