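import Mathlib
import Fermat.Agent.EC.H14_HasseWeil

/-!
# The Hasse–Weil relation over an arbitrary field, and the Hasse bound (EC brick 18)
-/

set_option autoImplicit false
set_option linter.unusedSectionVars false

open Polynomial WeierstrassCurve WeierstrassCurve.Affine

namespace Fermat.Agent.EC.H14

/-- **The Hasse–Weil relation** `φ² - a φ + q = 0` on `W(L)`, for every field `L` over the finite
field `k`, with `a = q + 1 - #W(k)` and `φ` the `q`-Frobenius. -/
theorem hasse_weil_op {k : Type*} [Field k] [Fintype k] (W : WeierstrassCurve k) (hΔ : W.Δ ≠ 0)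
    {L : Type*} [Field L] [Algebra k L] [DecidableEq L] (P : (W.baseChange L).toAffine.Point) :
    (Point.map (W' := W) (FiniteField.frobeniusAlgHom k L))
        ((Point.map (W' := W) (FiniteField.frobeniusAlgHom k L)) P) -
      ((Fintype.card k : ℤ) + 1 - (Nat.card W.toAffine.Point : ℤ)) •
        (Point.map (W' := W) (FiniteField.frobeniusAlgHom k L)) P +
      (Fintype.card k : ℤ) • P = 0 := by
  classical
  have : W.IsElliptic := ⟨isUnit_iff_ne_zero.mpr hΔ⟩
  change frobP W L (frobP W L P) - (aFrob W) • frobP W L P + (Fintype.card k : ℤ) • P = 0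
  let f : L →ₐ[k] AlgebraicClosure L := IsScalarTower.toAlgHom k L (AlgebraicClosure L)
  apply Point.map_injective (W' := W) f
  rw [map_zero, map_add, map_sub, map_zsmul, map_zsmul, map_frobP, map_frobP]
  exact hasse_weil_closed W (AlgebraicClosure L) (Point.map (W' := W) f P)

/-- **The Hasse bound** `a² ≤ 4 q`. -/
theorem hasse_bound {k : Type*} [Field k] [Fintype k] (W : WeierstrassCurve k) (hΔ : W.Δ ≠ 0) :
    ((Fintype.card k : ℤ) + 1 - (Nat.card W.toAffine.Point : ℤ)) ^ 2 ≤ 4 * (Fintype.card k : ℤ) := by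
  classical
  have : W.IsElliptic := ⟨isUnit_iff_ne_zero.mpr hΔ⟩
  have h := (isParallelogram_dGP W (AlgebraicClosure k)).map_zsmul_add_zsmul (-(aFrob W)) 2
    (e0 W (AlgebraicClosure k)) (e1 W (AlgebraicClosure k))
  have hnn := dGP_nonneg W (AlgebraicClosure k)
    ((-(aFrob W)) • e0 W (AlgebraicClosure k) + (2 : ℤ) • e1 W (AlgebraicClosure k))
  rw [h, dGP_e0, dGP_e1, pairing_e0_e1] at hnn
  change (aFrob W) ^ 2 ≤ _
  nlinarith [hnn]

end Fermat.Agent.EC.H14
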