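import Mathlib
import Fermat.Prelude.Def_FLTPrelim_Modularity
import Fermat.Agent.EC.H14_HasseWeilOp

/-!
# The Hasse–Weil relation for the reduction of an integral model (EC brick 19)

`W : WeierstrassCurve ℤ`, `l` a prime of good reduction: on `(W mod l)(L)`, `L` any field of
characteristic `l`, the `l`-Frobenius `φ` satisfies `φ² - a_l φ + l = 0` with `a_l = W.apOfModel l`.
-/

set_option autoImplicit false

open WeierstrassCurve WeierstrassCurve.Affine

namespace Fermat.Agent.EC.H14

lemma reductionMod_Δ_ne_zero (W : WeierstrassCurve ℤ) (l : ℕ) (hl : W.IsGoodPrimeFor l) :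
    (W.reductionMod l).Δ ≠ 0 := by
  unfold WeierstrassCurve.reductionMod
  rw [WeierstrassCurve.map_Δ]
  intro h
  apply hl
  have := (ZMod.intCast_zmod_eq_zero_iff_dvd W.Δ l).mp (by simpa using h)
  exact this

lemma apOfModel_eq (W : WeierstrassCurve ℤ) (l : ℕ) [Fact l.Prime] :
    W.apOfModel l = (Fintype.card (ZMod l) : ℤ) + 1 -
      (Nat.card (W.reductionMod l).toAffine.Point : ℤ) := by
  simp only [WeierstrassCurve.apOfModel, WeierstrassCurve.traceOfFrobenius, WeierstrassCurve.card,
    Nat.card_eq_fintype_card]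

/-- **Hasse–Weil for the reduction mod a good prime**, with the prelude's `apOfModel` -/
theorem hasse_weil_apOfModel (W : WeierstrassCurve ℤ) (l : ℕ) [Fact l.Prime]
    (hl : W.IsGoodPrimeFor l) {L : Type*} [Field L] [Algebra (ZMod l) L] [DecidableEq L]
    (P : ((W.reductionMod l).baseChange L).toAffine.Point) :
    (Point.map (W' := W.reductionMod l) (FiniteField.frobeniusAlgHom (ZMod l) L))
        ((Point.map (W' := W.reductionMod l) (FiniteField.frobeniusAlgHom (ZMod l) L)) P) -
      (W.apOfModel l) • (Point.map (W' := W.reductionMod l)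
        (FiniteField.frobeniusAlgHom (ZMod l) L)) P + (l : ℤ) • P = 0 := by
  have h := hasse_weil_op (W.reductionMod l) (reductionMod_Δ_ne_zero W l hl) P
  rw [← apOfModel_eq, ZMod.card] at h
  exact h

/-- the coordinates of the Frobenius image are the `l`-th powers -/
lemma frob_some_apOfModel (W : WeierstrassCurve ℤ) (l : ℕ) [Fact l.Prime]
    {L : Type*} [Field L] [Algebra (ZMod l) L] [DecidableEq L] {x y : L}
    (h : ((W.reductionMod l).baseChange L).toAffine.Nonsingular x y) :
    ∃ h', (Point.map (W' := W.reductionMod l) (FiniteField.frobeniusAlgHom (ZMod l) L))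
      (Point.some x y h) = Point.some (x ^ l) (y ^ l) h' := by
  obtain ⟨h', e⟩ := frobP_some (W.reductionMod l) h
  rw [ZMod.card] at h'
  refine ⟨h', ?_⟩
  rw [frobP] at e
  rw [e]
  congr 1 <;> rw [ZMod.card]

/-- the Hasse bound for the prelude's `apOfModel` -/
theorem apOfModel_sq_le (W : WeierstrassCurve ℤ) (l : ℕ) [Fact l.Prime]
    (hl : W.IsGoodPrimeFor l) : (W.apOfModel l) ^ 2 ≤ 4 * (l : ℤ) := by
  have h := hasse_bound (W.reductionMod l) (reductionMod_Δ_ne_zero W l hl)
  rw [← apOfModel_eq, ZMod.card] at h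
  exact h

end Fermat.Agent.EC.H14
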