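import Mathlib
import Fermat.Prelude.Def_FLTPrelim_Modularity
import Fermat.Agent.EC.H14_ApOfModel

/-!
# The Hasse–Weil relation for an abstract Frobenius map on points (EC brick 20)

Adapter forms: the curve over `L` is only assumed *equal* to the base change, and the Frobenius on
points is any map that fixes `0` and raises the coordinates to the `q`-th power.
-/

set_option autoImplicit false

open WeierstrassCurve WeierstrassCurve.Affine

namespace Fermat.Agent.EC.H14

/-- Hasse–Weil, abstract form with an `Algebra` instance. -/
theorem hasse_weil_abstract' {k : Type*} [Field k] [Fintype k] (W : WeierstrassCurve k)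
    (hΔ : W.Δ ≠ 0) {L : Type*} [Field L] [Algebra k L] [DecidableEq L]
    (frob : (W.baseChange L).toAffine.Point → (W.baseChange L).toAffine.Point)
    (hfrob0 : frob 0 = 0)
    (hfrob : ∀ (x y : L) (h : (W.baseChange L).toAffine.Nonsingular x y),
      ∃ h', frob (.some x y h) = .some (x ^ Fintype.card k) (y ^ Fintype.card k) h')
    (P : (W.baseChange L).toAffine.Point) :
    frob (frob P) - ((Fintype.card k : ℤ) + 1 - (Nat.card W.toAffine.Point : ℤ)) • frob P +
      (Fintype.card k : ℤ) • P = 0 := by
  have hfr : ∀ Q : (W.baseChange L).toAffine.Point,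
      frob Q = Point.map (W' := W) (FiniteField.frobeniusAlgHom k L) Q := by
    intro Q
    cases Q with
    | zero => exact hfrob0
    | some x y h =>
      obtain ⟨h', e⟩ := hfrob x y h
      rw [e, Point.map_some]
      rfl
  have h := hasse_weil_op W hΔ (L := L) P
  rw [← hfr, ← hfr] at h
  exact h

/-- **Hasse–Weil, abstract form.**  `W` an elliptic curve over the finite field `k`, `ι : k →+* L`
a field extension, `WL = W.map ι`, and `frob` any self-map of `WL(L)` fixing `0` and raising the
coordinates to the power `q = #k`.  Then `frob² - a frob + q = 0`. -/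
theorem hasse_weil_abstract {k : Type*} [Field k] [Fintype k] (W : WeierstrassCurve k)
    (hΔ : W.Δ ≠ 0) {L : Type*} [Field L] [DecidableEq L] (ι : k →+* L)
    (WL : WeierstrassCurve L) (hWL : WL = W.map ι)
    (frob : WL.toAffine.Point → WL.toAffine.Point) (hfrob0 : frob 0 = 0)
    (hfrob : ∀ (x y : L) (h : WL.toAffine.Nonsingular x y),
      ∃ h', frob (.some x y h) = .some (x ^ Fintype.card k) (y ^ Fintype.card k) h')
    (P : WL.toAffine.Point) :
    frob (frob P) - ((Fintype.card k : ℤ) + 1 - (Nat.card W.toAffine.Point : ℤ)) • frob P +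
      (Fintype.card k : ℤ) • P = 0 := by
  subst hWL
  let _ : Algebra k L := ι.toAlgebra
  exact hasse_weil_abstract' W hΔ (L := L) frob hfrob0 hfrob P

/-- **Hasse–Weil for the reduction of an integral model, abstract form.**  `W` over `ℤ`, `l` a
good prime, `L` a field of characteristic `l`, `WL = W.map (Int.castRingHom L)` and `frob` any
self-map of `WL(L)` fixing `0` and raising the coordinates to the `l`-th power.  Then
`frob² - a_l frob + l = 0` with `a_l = W.apOfModel l`. -/
theorem hasse_weil_int_abstract (W : WeierstrassCurve ℤ) (l : ℕ) [Fact l.Prime]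
    (hl : W.IsGoodPrimeFor l) {L : Type*} [Field L] [DecidableEq L] [CharP L l]
    (WL : WeierstrassCurve L) (hWL : WL = W.map (Int.castRingHom L))
    (frob : WL.toAffine.Point → WL.toAffine.Point) (hfrob0 : frob 0 = 0)
    (hfrob : ∀ (x y : L) (h : WL.toAffine.Nonsingular x y),
      ∃ h', frob (.some x y h) = .some (x ^ l) (y ^ l) h')
    (P : WL.toAffine.Point) :
    frob (frob P) - (W.apOfModel l) • frob P + (l : ℤ) • P = 0 := by
  have hW : WL = (W.reductionMod l).map (ZMod.castHom (dvd_refl l) L) := by
    rw [hWL, WeierstrassCurve.reductionMod, WeierstrassCurve.map_map]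
    congr 1
    exact RingHom.ext_int _ _
  have h := hasse_weil_abstract (W.reductionMod l) (reductionMod_Δ_ne_zero W l hl)
    (ZMod.castHom (dvd_refl l) L) WL hW frob hfrob0
    (by simpa only [ZMod.card] using hfrob) P
  rw [← apOfModel_eq, ZMod.card] at h
  exact h

end Fermat.Agent.EC.H14
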