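import Mathlib

/-!
# Lifting roots from the residue field of a valuation subring (EC brick 21)

`K` algebraically closed, `A` a valuation subring, `f ∈ A[X]` with unit leading coefficient.
Every root of the reduction of `f` in the residue field lifts to a root of `f` in `A`.
-/

set_option autoImplicit false

open Polynomial

namespace Fermat.Agent.EC.H14

variable {K : Type*} [Field K] [IsAlgClosed K] (A : ValuationSubring K)

omit [IsAlgClosed K] in
/-- roots in `K` of a polynomial over `A` with unit leading coefficient lie in `A` -/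
lemma exists_mem_of_isRoot_map (f : A[X]) (hlc : IsUnit f.leadingCoeff) {r : K}
    (hr : (f.map A.subtype).IsRoot r) : ∃ a : A, (a : K) = r ∧ f.IsRoot a := by
  have hint : IsIntegral A r := by
    obtain ⟨u, hu⟩ := hlc
    refine ⟨C (↑u⁻¹ : A) * f, ?_, ?_⟩
    · rw [Monic, leadingCoeff_mul, leadingCoeff_C, ← hu, Units.inv_mul]
    · rw [eval₂_mul, ← eval_map (p := f)]
      have : eval r (f.map (algebraMap A K)) = 0 := hr
      rw [this, mul_zero]
  obtain ⟨a, ha⟩ := IsIntegrallyClosed.isIntegral_iff.mp hint
  refine ⟨a, ha, ?_⟩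
  have ha' : (a : K) = r := ha
  rw [IsRoot.def] at hr ⊢
  rw [← ha'] at hr
  have h2 : (f.map A.subtype).eval (A.subtype a) = A.subtype (f.eval a) := eval_map_apply _ a
  have h3 : A.subtype (f.eval a) = 0 := by rw [← h2]; exact hr
  exact A.subtype_injective (by rw [h3, map_zero])

/-- **lifting roots**: every root of the reduction lifts to a root in `A` -/
theorem exists_root_lift (f : A[X]) (hlc : IsUnit f.leadingCoeff)
    (ξ : IsLocalRing.ResidueField A) (hξ : (f.map (IsLocalRing.residue A)).IsRoot ξ) :
    ∃ x : A, f.IsRoot x ∧ IsLocalRing.residue A x = ξ := by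
  classical
  by_contra hcon
  simp only [not_exists, not_and] at hcon
  obtain ⟨x₀, hx₀⟩ := IsLocalRing.residue_surjective ξ
  set g : K[X] := f.map A.subtype with hg
  have hspl : g.Splits := IsAlgClosed.splits g
  -- the submonoid of `K` of (images of) units of `A`
  let U : Submonoid K := (IsUnit.submonoid A).map (A.subtype : A →* K)
  have hU : ∀ z ∈ (g.roots.map fun r => (x₀ : K) - r), z ∈ U := by
    intro z hz
    obtain ⟨r, hr, rfl⟩ := Multiset.mem_map.mp hz
    obtain ⟨a, rfl, ha⟩ := exists_mem_of_isRoot_map A f hlc ((mem_roots'.mp hr).2)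
    have hne : IsLocalRing.residue A a ≠ ξ := hcon a ha
    have hunit : IsUnit (x₀ - a) := by
      rw [← IsLocalRing.residue_ne_zero_iff_isUnit, map_sub, hx₀, sub_ne_zero]
      exact fun h => hne h.symm
    exact ⟨x₀ - a, hunit, by simp⟩
  have hprod : (g.roots.map fun r => (x₀ : K) - r).prod ∈ U := U.multiset_prod_mem _ hU
  have hlcU : g.leadingCoeff ∈ U := by
    refine ⟨f.leadingCoeff, hlc, ?_⟩
    rw [hg, leadingCoeff_map_of_injective A.subtype_injective]
    rfl
  have heval : g.eval (x₀ : K) ∈ U := by
    rw [hspl.eval_eq_prod_roots]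
    exact U.mul_mem hlcU hprod
  obtain ⟨w, hw, hwe⟩ := heval
  have h2 : g.eval (A.subtype x₀) = A.subtype (f.eval x₀) := eval_map_apply _ x₀
  have hw' : w = f.eval x₀ := by
    apply A.subtype_injective
    rw [← h2]
    exact hwe
  have hunit : IsUnit (f.eval x₀) := hw' ▸ hw
  rw [← IsLocalRing.residue_ne_zero_iff_isUnit] at hunit
  apply hunit
  rw [← eval_map_apply, hx₀]
  exact hξ

/-- the variant for an integer polynomial -/
theorem exists_root_lift_int (f : ℤ[X]) (hlc : IsUnit ((f.leadingCoeff : ℤ) : A))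
    (ξ : IsLocalRing.ResidueField A)
    (hξ : (f.map (Int.castRingHom (IsLocalRing.ResidueField A))).IsRoot ξ) :
    ∃ x : A, (f.map (Int.castRingHom K)).IsRoot (x : K) ∧ IsLocalRing.residue A x = ξ := by
  have hne : ((f.leadingCoeff : ℤ) : A) ≠ 0 := hlc.ne_zero
  have hlc' : (f.map (Int.castRingHom A)).leadingCoeff = ((f.leadingCoeff : ℤ) : A) := by
    apply leadingCoeff_map_of_leadingCoeff_ne_zero
    exact hne
  have e1 : (f.map (Int.castRingHom A)).map (IsLocalRing.residue A) =
      f.map (Int.castRingHom (IsLocalRing.ResidueField A)) := by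
    rw [map_map]; congr 1
  have e2 : (f.map (Int.castRingHom A)).map A.subtype = f.map (Int.castRingHom K) := by
    rw [map_map]; congr 1
  obtain ⟨x, hx, hxξ⟩ := exists_root_lift A (f.map (Int.castRingHom A)) (hlc' ▸ hlc) ξ
    (by rw [e1]; exact hξ)
  refine ⟨x, ?_, hxξ⟩
  rw [← e2, IsRoot.def]
  have : ((f.map (Int.castRingHom A)).map A.subtype).eval (A.subtype x) =
      A.subtype ((f.map (Int.castRingHom A)).eval x) := eval_map_apply _ x
  change ((f.map (Int.castRingHom A)).map A.subtype).eval (A.subtype x) = 0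
  rw [this, hx, map_zero]

end Fermat.Agent.EC.H14
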