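import Mathlib
import Fermat.Prelude.Def_FLTPrelim_GaloisRep
import Fermat.Agent.S13.H46_StructExport

/-!
# (EC-a) `#E[n] ≥ n²`, divisibility of `E(K)`, `#E[p] = p²`, points of exact order `p^k`

`K` algebraically closed, `W : WeierstrassCurve K` with `Δ ≠ 0`.

Route (no division-polynomial identities, no invariant differential): helper84's projective
ladder `x(n • P) = A_n(x P) / B_n(x P)` (`S13.H84.rep_ladder`), `A_n` monic of degree `n²`,
`B_n` of degree `≤ n² - 1` with coefficient `n²` there (`S13.H46.hasTop_ladder`).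

* `A_n`, `B_n` have no common root (every `x₀ ∈ K` is the `x`-coordinate of a point).
* every root `x₁` of `A_n - x(Q) B_n` is `x(P)` for some `P` with `n • P = Q`: divisibility.
* the Wronskian `A_n' B_n - A_n B_n'` has coefficient `n²` in degree `2n² - 2`, so for all but
  finitely many `c` the polynomial `A_n - c B_n` has `n²` distinct roots; they inject into a coset
  of `E[n]`.  Hence `n² ≤ #E[n]`.
-/

set_option autoImplicit false
set_option linter.unusedSectionVars false

namespace Fermat.Agent.EC.H15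

open Polynomial WeierstrassCurve
open Fermat.Agent.S13 Fermat.Agent.S05

variable {K : Type*} [Field K] [DecidableEq K] (W : WeierstrassCurve K)

local notation "xC" => Fermat.Agent.S05.H67.xCoord W

/-- numerator polynomial of `x(n • P)` -/
noncomputable abbrev polyA (n : ℕ) : K[X] := (H46.polyLadder W n).1

/-- denominator polynomial of `x(n • P)` -/
noncomputable abbrev polyB (n : ℕ) : K[X] := (H46.polyLadder W n).2

/-- the ladder polynomials evaluated at `x(P)` represent `x(n • P)` projectively. -/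
theorem rep_poly {P : W.toAffine.Point} (hP : P ≠ 0) (n : ℕ) :
    H84.Rep W (n • P) ((polyA W n).eval (xC P), (polyB W n).eval (xC P)) := by
  have h := H84.rep_ladder (W := W) hP n
  rwa [← H46.eval_polyLadder W (xC P) n] at h

/-- `A_n` and `B_n` have no common root (over an algebraically closed field, `Δ ≠ 0`). -/
theorem not_common_root [IsAlgClosed K] (hΔ : W.Δ ≠ 0) (n : ℕ) (x₀ : K)
    (hA : (polyA W n).eval x₀ = 0) (hB : (polyB W n).eval x₀ = 0) : False := by
  obtain ⟨P, hP, hxP⟩ := H46.exists_point_of_xCoord W hΔ x₀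
  have h := rep_poly W hP n
  rw [hxP] at h
  rcases h with ⟨-, -, h1⟩ | ⟨-, h2, -⟩
  · exact h1 hA
  · exact h2 hB

/-- **Key lemma.** Every root `x₁` of `A_n - x(Q) B_n` is the `x`-coordinate of a point `P` with
`n • P = Q`. -/
theorem exists_nsmul_eq_of_root [IsAlgClosed K] (hΔ : W.Δ ≠ 0) (n : ℕ)
    {Q : W.toAffine.Point} (hQ : Q ≠ 0) (x₁ : K)
    (hroot : (polyA W n - C (xC Q) * polyB W n).eval x₁ = 0) :
    ∃ P : W.toAffine.Point, P ≠ 0 ∧ xC P = x₁ ∧ n • P = Q := by
  obtain ⟨P, hP, hxP⟩ := H46.exists_point_of_xCoord W hΔ x₁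
  have hAB : (polyA W n).eval x₁ = xC Q * (polyB W n).eval x₁ := by
    simp only [eval_sub, eval_mul, eval_C] at hroot
    linear_combination hroot
  have h := rep_poly W hP n
  rw [hxP] at h
  rcases h with ⟨-, h2, h1⟩ | ⟨hnP, h2, hx⟩
  · exfalso
    apply h1
    rw [hAB]
    simp only at h2
    rw [h2, mul_zero]
  · simp only at h2 hx
    have hxeq : xC (n • P) = xC Q := by
      have : xC (n • P) * (polyB W n).eval x₁ = xC Q * (polyB W n).eval x₁ := by
        rw [hx, hAB]
      exact mul_right_cancel₀ h2 this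
    rcases (H67.xCoord_eq_iff W hnP hQ).mp hxeq with h | h
    · exact ⟨P, hP, hxP, h⟩
    · refine ⟨-P, neg_ne_zero.mpr hP, by rw [H67.xCoord_neg, hxP], ?_⟩
      rw [smul_neg, h, neg_neg]

/-! ### degrees -/

theorem monic_polyA (n : ℕ) : (polyA W n).Monic := H46.monic_polyLadder_fst W n

theorem natDegree_polyA (n : ℕ) : (polyA W n).natDegree = n ^ 2 :=
  H46.natDegree_polyLadder_fst W n

theorem natDegree_polyB_lt (n : ℕ) (hn : 1 ≤ n) : (polyB W n).natDegree < n ^ 2 := by
  have h : (polyB W n).natDegree ≤ n ^ 2 - 1 := H46.natDegree_polyLadder_snd_le W n hn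
  have : 1 ≤ n ^ 2 := Nat.one_le_pow _ _ hn
  omega

/-- `f_c = A_n - c B_n` -/
noncomputable def polyF (n : ℕ) (c : K) : K[X] := polyA W n - C c * polyB W n

theorem natDegree_C_mul_polyB_lt (n : ℕ) (hn : 1 ≤ n) (c : K) :
    (C c * polyB W n).natDegree < (polyA W n).natDegree := by
  rw [natDegree_polyA]
  exact (natDegree_C_mul_le _ _).trans_lt (natDegree_polyB_lt W n hn)

theorem natDegree_polyF (n : ℕ) (hn : 1 ≤ n) (c : K) : (polyF W n c).natDegree = n ^ 2 := by
  rw [polyF, natDegree_sub_eq_left_of_natDegree_lt (natDegree_C_mul_polyB_lt W n hn c),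
    natDegree_polyA]

theorem polyF_ne_zero (n : ℕ) (hn : 1 ≤ n) (c : K) : polyF W n c ≠ 0 := by
  intro h
  have := natDegree_polyF W n hn c
  rw [h, natDegree_zero] at this
  have : 1 ≤ n ^ 2 := Nat.one_le_pow _ _ hn
  omega

/-- **Divisibility**: over an algebraically closed field, `E(K)` is `n`-divisible for every
`n ≥ 1` (any characteristic). -/
theorem exists_nsmul_eq [IsAlgClosed K] (hΔ : W.Δ ≠ 0) (n : ℕ) (hn : 1 ≤ n)
    (Q : W.toAffine.Point) : ∃ P : W.toAffine.Point, n • P = Q := by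
  by_cases hQ : Q = 0
  · exact ⟨0, by rw [hQ, smul_zero]⟩
  · have hdeg : (polyF W n (xC Q)).degree ≠ 0 := by
      intro h0
      have h1 := natDegree_polyF W n hn (xC Q)
      have h2 := natDegree_eq_of_degree_eq_some (n := 0) (by simpa using h0)
      have : 1 ≤ n ^ 2 := Nat.one_le_pow _ _ hn
      omega
    obtain ⟨x₁, hx₁⟩ := IsAlgClosed.exists_root (polyF W n (xC Q)) hdeg
    obtain ⟨P, -, -, hP⟩ := exists_nsmul_eq_of_root W hΔ n hQ x₁ hx₁
    exact ⟨P, hP⟩

/-! ### the Wronskian -/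

section Wronskian

variable {R : Type*} [CommRing R]

lemma hasTop_derivative {p : R[X]} {d : ℕ} {a : R} (hp : H46.HasTop p (d + 1) a) :
    H46.HasTop (derivative p) d (((d : R) + 1) * a) := by
  refine ⟨(natDegree_derivative_le p).trans ?_, ?_⟩
  · have := hp.1
    omega
  · rw [coeff_derivative, hp.2]
    ring

end Wronskian

/-- the Wronskian `A_n' B_n - A_n B_n'` -/
noncomputable def wronskian (n : ℕ) : K[X] :=
  derivative (polyA W n) * polyB W n - polyA W n * derivative (polyB W n)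

/-- the Wronskian has coefficient `n²` in degree `2 (n² - 1)` (for `n ≥ 2`). -/
theorem hasTop_wronskian (n : ℕ) (hn : 2 ≤ n) :
    H46.HasTop (wronskian W n) (2 * (n ^ 2 - 1)) ((n : K) ^ 2) := by
  obtain ⟨t, ht⟩ : ∃ t, n ^ 2 = t + 2 := ⟨n ^ 2 - 2, by
    have : 2 ^ 2 ≤ n ^ 2 := Nat.pow_le_pow_left hn 2
    omega⟩
  have hA : H46.HasTop (polyA W n) ((t + 1) + 1) 1 := by
    have := H46.hasTop_polyLadder_fst W n
    rwa [ht] at this
  have hB : H46.HasTop (polyB W n) (t + 1) ((n : K) ^ 2) := by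
    have := H46.hasTop_polyLadder_snd W n (by omega)
    rwa [ht] at this
  have hA' := hasTop_derivative hA
  have hB' := hasTop_derivative hB
  have h1 := hA'.mul hB
  have h2 := hA.mul hB'
  have e : 2 * (n ^ 2 - 1) = (t + 1) + (t + 1) := by omega
  rw [wronskian, e]
  refine (h1.sub (h2.congr (by omega) rfl)).congr rfl ?_
  push_cast
  ring

theorem wronskian_ne_zero (n : ℕ) (hn : 2 ≤ n) (hnK : (n : K) ≠ 0) : wronskian W n ≠ 0 :=
  (hasTop_wronskian W n hn).ne_zero (pow_ne_zero 2 hnK)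

/-- a multiple root of `f_c` is a root of the Wronskian. -/
theorem eval_wronskian_eq_zero (n : ℕ) (c x₁ : K) (h0 : (polyF W n c).eval x₁ = 0)
    (h1 : (derivative (polyF W n c)).eval x₁ = 0) : (wronskian W n).eval x₁ = 0 := by
  simp only [polyF, derivative_sub, derivative_mul, derivative_C, zero_mul, zero_add, eval_sub,
    eval_mul, eval_C] at h0 h1
  simp only [wronskian, eval_sub, eval_mul]
  linear_combination (polyB W n).eval x₁ * h1 - (derivative (polyB W n)).eval x₁ * h0

/-- **Generic separability**: for all but finitely many `c`, `f_c = A_n - c B_n` has only simple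
roots. -/
theorem exists_nodup_roots [IsAlgClosed K] (hΔ : W.Δ ≠ 0) (n : ℕ) (hn : 2 ≤ n)
    (hnK : (n : K) ≠ 0) : ∃ c : K, (polyF W n c).roots.Nodup := by
  classical
  set bad : Finset K := (wronskian W n).roots.toFinset.image
    (fun x => (polyA W n).eval x / (polyB W n).eval x) with hbad
  obtain ⟨c, hc⟩ := Infinite.exists_notMem_finset bad
  refine ⟨c, ?_⟩
  rw [Multiset.nodup_iff_count_le_one]
  intro x₁
  rw [count_roots]
  by_contra hle
  have hlt := not_le.mp hle
  have hF := polyF_ne_zero W n (by omega) c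
  obtain ⟨h0, h1⟩ := (one_lt_rootMultiplicity_iff_isRoot hF).mp hlt
  have hW := eval_wronskian_eq_zero W n c x₁ h0 h1
  have hB : (polyB W n).eval x₁ ≠ 0 := by
    intro hB
    apply not_common_root W hΔ n x₁ _ hB
    have : (polyF W n c).eval x₁ = 0 := h0
    simp only [polyF, eval_sub, eval_mul, eval_C, hB, mul_zero, sub_zero] at this
    exact this
  apply hc
  rw [hbad, Finset.mem_image]
  refine ⟨x₁, ?_, ?_⟩
  · rw [Multiset.mem_toFinset, mem_roots (wronskian_ne_zero W n hn hnK)]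
    exact hW
  · have : (polyF W n c).eval x₁ = 0 := h0
    simp only [polyF, eval_sub, eval_mul, eval_C] at this
    field_simp
    linear_combination this

/-! ### counting -/

/-- the `n`-torsion points, as a set -/
def torsSet (n : ℕ) : Set W.toAffine.Point := {P | n • P = 0}

theorem polyB_ne_zero (n : ℕ) (hn : 1 ≤ n) (hnK : (n : K) ≠ 0) : polyB W n ≠ 0 :=
  (H46.hasTop_polyLadder_snd W n hn).ne_zero (pow_ne_zero 2 hnK)

/-- `E[n]` is finite when `n` is invertible in `K`. -/
theorem finite_torsSet (n : ℕ) (hn : 1 ≤ n) (hnK : (n : K) ≠ 0) : (torsSet W n).Finite := by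
  have hfin := (H46.finite_setOf_eval_eq_zero W (polyB_ne_zero W n hn hnK)).1
  refine Set.Finite.subset (hfin.union (Set.finite_singleton 0)) ?_
  intro P hP
  by_cases hP0 : P = 0
  · right; exact hP0
  · left
    refine ⟨hP0, ?_⟩
    rcases rep_poly W hP0 n with ⟨-, h2, -⟩ | ⟨hnP, -, -⟩
    · exact h2
    · exact absurd hP hnP

/-- **Lower bound** `n² ≤ #E[n]` for `n` invertible in the algebraically closed field `K`. -/
theorem sq_le_ncard_torsSet [IsAlgClosed K] (hΔ : W.Δ ≠ 0) (n : ℕ) (hn : 1 ≤ n)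
    (hnK : (n : K) ≠ 0) : n ^ 2 ≤ (torsSet W n).ncard := by
  classical
  rcases Nat.lt_or_ge n 2 with h1 | h2
  · -- `n = 1`
    have : n = 1 := by omega
    subst this
    have h0 : (0 : W.toAffine.Point) ∈ torsSet W 1 := by simp [torsSet]
    have := (Set.ncard_pos (finite_torsSet W 1 le_rfl hnK)).mpr ⟨0, h0⟩
    rw [one_pow]
    exact this
  · obtain ⟨c, hc⟩ := exists_nodup_roots W hΔ n h2 hnK
    obtain ⟨Q, hQ, hxQ⟩ := H46.exists_point_of_xCoord W hΔ c
    -- the `n²` distinct roots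
    have hcard : (polyF W n c).roots.toFinset.card = n ^ 2 := by
      rw [Multiset.toFinset_card_of_nodup hc, IsAlgClosed.card_roots_eq_natDegree,
        natDegree_polyF W n hn c]
    -- choose a point above each root
    have hex : ∀ x₁ ∈ (polyF W n c).roots.toFinset,
        ∃ P : W.toAffine.Point, P ≠ 0 ∧ xC P = x₁ ∧ n • P = Q := by
      intro x₁ hx₁
      rw [Multiset.mem_toFinset, mem_roots (polyF_ne_zero W n hn c)] at hx₁
      have : (polyA W n - C (xC Q) * polyB W n).eval x₁ = 0 := by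
        rw [hxQ]; exact hx₁
      exact exists_nsmul_eq_of_root W hΔ n hQ x₁ this
    choose! g hg using hex
    -- a base point
    have hne : (polyF W n c).roots.toFinset.Nonempty := by
      rw [← Finset.card_pos, hcard]
      exact Nat.pos_of_ne_zero (by positivity)
    obtain ⟨x₀, hx₀⟩ := hne
    have hfin := finite_torsSet W n hn hnK
    rw [← hcard, Set.ncard_eq_toFinset_card _ hfin]
    refine Finset.card_le_card_of_injOn (fun x => g x - g x₀) ?_ ?_
    · intro x hx
      rw [Finset.mem_coe, Set.Finite.mem_toFinset]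
      show n • (g x - g x₀) = 0
      rw [smul_sub, (hg x hx).2.2, (hg x₀ hx₀).2.2, sub_self]
    · intro x hx y hy hxy
      have hxy' : g x = g y := by
        have := congrArg (fun z => z + g x₀) hxy
        simpa using this
      rw [← (hg x hx).2.1, ← (hg y hy).2.1, hxy']

/-! ### points of exact order `p^k` -/

/-- a nonzero `p`-torsion point exists (any prime `p` invertible in `K`, including `p = 2`). -/
theorem exists_ne_zero_torsion [IsAlgClosed K] (hΔ : W.Δ ≠ 0) {p : ℕ} (hp : p.Prime)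
    (hpK : (p : K) ≠ 0) : ∃ P : W.toAffine.Point, P ≠ 0 ∧ p • P = 0 := by
  classical
  have h1 := sq_le_ncard_torsSet W hΔ p hp.one_lt.le hpK
  have h2 : 1 < (torsSet W p).ncard := by
    have : 2 ^ 2 ≤ p ^ 2 := Nat.pow_le_pow_left hp.two_le 2
    omega
  obtain ⟨P, hP, hP0⟩ := Set.exists_ne_of_one_lt_ncard h2 0
  exact ⟨P, hP0, hP⟩

/-- **Faithfulness**: there is a point of exact order `p^k`, for every `k`. -/
theorem exists_addOrderOf_eq_prime_pow [IsAlgClosed K] (hΔ : W.Δ ≠ 0) {p : ℕ} (hp : p.Prime)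
    (hpK : (p : K) ≠ 0) (k : ℕ) : ∃ P : W.toAffine.Point, addOrderOf P = p ^ k := by
  have := Fact.mk hp
  induction k with
  | zero => exact ⟨0, by simp⟩
  | succ k ih =>
    rcases Nat.eq_zero_or_pos k with rfl | hk
    · obtain ⟨P, hP0, hP⟩ := exists_ne_zero_torsion W hΔ hp hpK
      exact ⟨P, by simpa using addOrderOf_eq_prime hP hP0⟩
    · obtain ⟨Pk, hPk⟩ := ih
      obtain ⟨P, hP⟩ := exists_nsmul_eq W hΔ p hp.one_lt.le Pk
      refine ⟨P, addOrderOf_eq_prime_pow ?_ ?_⟩
      · -- `p^k • P = p^(k-1) • Pk ≠ 0`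
        obtain ⟨j, rfl⟩ : ∃ j, k = j + 1 := ⟨k - 1, by omega⟩
        intro h0
        have h1 : p ^ j • Pk = 0 := by
          rw [← hP, ← mul_smul, ← pow_succ]; exact h0
        have h2 := addOrderOf_dvd_of_nsmul_eq_zero h1
        rw [hPk] at h2
        have := (Nat.pow_dvd_pow_iff_le_right hp.one_lt).mp h2
        omega
      · rw [pow_succ, mul_smul, hP, ← hPk]
        exact addOrderOf_nsmul_eq_zero Pk

/-! ### `#E[p] = p²` in the frozen `Submodule.torsionBy` form -/

theorem coe_torsionBy_eq_torsSet (n : ℕ) :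
    ((Submodule.torsionBy ℤ W.toAffine.Point (n : ℤ) : Set W.toAffine.Point)) = torsSet W n := by
  ext T
  exact H46.mem_torsionBy_iff_nsmul W n T

theorem natCard_torsionBy_eq_ncard (n : ℕ) :
    Nat.card (Submodule.torsionBy ℤ W.toAffine.Point (n : ℤ)) = (torsSet W n).ncard := by
  rw [← coe_torsionBy_eq_torsSet]; rfl

/-- **`#E[p] = p²`** for an odd prime `p` invertible in the algebraically closed field `K`. -/
theorem natCard_torsionBy_prime [IsAlgClosed K] (hΔ : W.Δ ≠ 0) {p : ℕ} (hp : p.Prime)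
    (hp2 : p ≠ 2) (hpK : (p : K) ≠ 0) :
    Nat.card (Submodule.torsionBy ℤ W.toAffine.Point (p : ℤ)) = p ^ 2 := by
  refine le_antisymm (H46.card_torsionBy_le W hp hp2 hpK).2 ?_
  rw [natCard_torsionBy_eq_ncard]
  exact sq_le_ncard_torsSet W hΔ p hp.one_lt.le hpK

/-! ### `#E[p^k] = p^(2k)` -/

theorem ncard_torsSet_prime [IsAlgClosed K] (hΔ : W.Δ ≠ 0) {p : ℕ} (hp : p.Prime)
    (hp2 : p ≠ 2) (hpK : (p : K) ≠ 0) : (torsSet W p).ncard = p ^ 2 := by
  rw [← natCard_torsionBy_eq_ncard]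
  exact natCard_torsionBy_prime W hΔ hp hp2 hpK

theorem ncard_torsSet_prime_pow_le [IsAlgClosed K] (hΔ : W.Δ ≠ 0) {p : ℕ} (hp : p.Prime)
    (hp2 : p ≠ 2) (hpK : (p : K) ≠ 0) (k : ℕ) : (torsSet W (p ^ k)).ncard ≤ p ^ (2 * k) := by
  classical
  have hpkK : ∀ j : ℕ, ((p ^ j : ℕ) : K) ≠ 0 := fun j => by
    push_cast; exact pow_ne_zero j hpK
  have hpos : ∀ j : ℕ, 1 ≤ p ^ j := fun j => Nat.one_le_pow _ _ hp.pos
  induction k with
  | zero =>
    have : torsSet W (p ^ 0) = {0} := by
      ext P; simp [torsSet]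
    rw [this]; simp
  | succ k ih =>
    have hfin1 := finite_torsSet W p hp.one_lt.le hpK
    have hfink := finite_torsSet W (p ^ k) (hpos k) (hpkK k)
    have hfink1 := finite_torsSet W (p ^ (k + 1)) (hpos (k + 1)) (hpkK (k + 1))
    rw [Set.ncard_eq_toFinset_card _ hfink1]
    have hmaps : ∀ P ∈ hfink1.toFinset, p • P ∈ hfink.toFinset := by
      intro P hP
      rw [Set.Finite.mem_toFinset] at hP ⊢
      show p ^ k • (p • P) = 0
      rw [← mul_smul, ← pow_succ]; exact hP
    have hfib : ∀ Q ∈ hfink.toFinset,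
        (hfink1.toFinset.filter (fun P => p • P = Q)).card ≤ p ^ 2 := by
      intro Q _
      by_cases hne : (hfink1.toFinset.filter (fun P => p • P = Q)).Nonempty
      · obtain ⟨P₀, hP₀⟩ := hne
        rw [Finset.mem_filter] at hP₀
        rw [← ncard_torsSet_prime W hΔ hp hp2 hpK, Set.ncard_eq_toFinset_card _ hfin1]
        refine Finset.card_le_card_of_injOn (fun P => P - P₀) ?_ ?_
        · intro P hP
          rw [Finset.mem_coe, Finset.mem_filter] at hP
          rw [Finset.mem_coe, Set.Finite.mem_toFinset]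
          show p • (P - P₀) = 0
          rw [smul_sub, hP.2, hP₀.2, sub_self]
        · intro P _ P' _ h
          have := congrArg (fun z => z + P₀) h
          simpa using this
      · rw [Finset.not_nonempty_iff_eq_empty] at hne
        rw [hne]; simp
    have h := Finset.card_le_mul_card_image_of_maps_to hmaps (p ^ 2) hfib
    calc hfink1.toFinset.card ≤ p ^ 2 * hfink.toFinset.card := h
      _ = p ^ 2 * (torsSet W (p ^ k)).ncard := by rw [Set.ncard_eq_toFinset_card _ hfink]
      _ ≤ p ^ 2 * p ^ (2 * k) := Nat.mul_le_mul_left _ ih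
      _ = p ^ (2 * (k + 1)) := by ring

/-- **`#E[p^k] = p^(2k)`** (odd prime `p` invertible in `K`). -/
theorem ncard_torsSet_prime_pow [IsAlgClosed K] (hΔ : W.Δ ≠ 0) {p : ℕ} (hp : p.Prime)
    (hp2 : p ≠ 2) (hpK : (p : K) ≠ 0) (k : ℕ) : (torsSet W (p ^ k)).ncard = p ^ (2 * k) := by
  refine le_antisymm (ncard_torsSet_prime_pow_le W hΔ hp hp2 hpK k) ?_
  have h := sq_le_ncard_torsSet W hΔ (p ^ k) (Nat.one_le_pow _ _ hp.pos)
    (by push_cast; exact pow_ne_zero k hpK)
  calc p ^ (2 * k) = (p ^ k) ^ 2 := by ring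
    _ ≤ _ := h

theorem natCard_torsionBy_prime_pow [IsAlgClosed K] (hΔ : W.Δ ≠ 0) {p : ℕ} (hp : p.Prime)
    (hp2 : p ≠ 2) (hpK : (p : K) ≠ 0) (k : ℕ) :
    Nat.card (Submodule.torsionBy ℤ W.toAffine.Point ((p ^ k : ℕ) : ℤ)) = p ^ (2 * k) := by
  rw [natCard_torsionBy_eq_ncard]
  exact ncard_torsSet_prime_pow W hΔ hp hp2 hpK k

/-! ### base-change forms (the shape used by the frozen statements) -/

section BaseChange

open WeierstrassCurve.Affine

variable {R : Type*} [CommRing R] {L : Type*} [Field L] [DecidableEq L] [Algebra R L]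
  (W' : Affine R)

/-- `#E[p] = p²` for `E = W'⁄L`, `L` algebraically closed, `p` an odd prime invertible in `L`. -/
theorem natCard_torsionBy_baseChange [IsAlgClosed L] (hΔ : (W'⁄L).Δ ≠ 0) {p : ℕ} (hp : p.Prime)
    (hp2 : p ≠ 2) (hpL : (p : L) ≠ 0) :
    Nat.card (Submodule.torsionBy ℤ (W'⁄L).Point p) = p ^ 2 :=
  natCard_torsionBy_prime (W'⁄L) hΔ hp hp2 hpL

/-- `#E[p^k] = p^(2k)` in base-change form. -/
theorem natCard_torsionBy_prime_pow_baseChange [IsAlgClosed L] (hΔ : (W'⁄L).Δ ≠ 0) {p : ℕ}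
    (hp : p.Prime) (hp2 : p ≠ 2) (hpL : (p : L) ≠ 0) (k : ℕ) :
    Nat.card (Submodule.torsionBy ℤ (W'⁄L).Point ((p ^ k : ℕ) : ℤ)) = p ^ (2 * k) :=
  natCard_torsionBy_prime_pow (W'⁄L) hΔ hp hp2 hpL k

/-- divisibility of `E(L)` in base-change form. -/
theorem exists_nsmul_eq_baseChange [IsAlgClosed L] (hΔ : (W'⁄L).Δ ≠ 0) (n : ℕ) (hn : 1 ≤ n)
    (Q : (W'⁄L).Point) : ∃ P : (W'⁄L).Point, n • P = Q :=
  exists_nsmul_eq (W'⁄L) hΔ n hn Q

/-- a point of exact order `p^k` in base-change form. -/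
theorem exists_addOrderOf_eq_prime_pow_baseChange [IsAlgClosed L] (hΔ : (W'⁄L).Δ ≠ 0) {p : ℕ}
    (hp : p.Prime) (hpL : (p : L) ≠ 0) (k : ℕ) :
    ∃ P : (W'⁄L).Point, addOrderOf P = p ^ k :=
  exists_addOrderOf_eq_prime_pow (W'⁄L) hΔ hp hpL k

/-- **`E[p]` is a 2-dimensional `𝔽_p`-vector space** (with the Prelude's `ZMod p`-module
structure `WeierstrassCurve.Affine.Point.instModuleZModTorsionBy`). -/
theorem finrank_torsionBy_baseChange [IsAlgClosed L] (hΔ : (W'⁄L).Δ ≠ 0) {p : ℕ} [Fact p.Prime]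
    (hp2 : p ≠ 2) (hpL : (p : L) ≠ 0) :
    Module.finrank (ZMod p) (Submodule.torsionBy ℤ (W'⁄L).Point p) = 2 := by
  have hp : p.Prime := Fact.out
  have hcard := natCard_torsionBy_baseChange W' hΔ hp hp2 hpL
  have hfin : Finite (Submodule.torsionBy ℤ (W'⁄L).Point p) :=
    Nat.finite_of_card_ne_zero (by rw [hcard]; exact pow_ne_zero 2 hp.ne_zero)
  have h := Module.natCard_eq_pow_finrank (K := ZMod p)
    (V := Submodule.torsionBy ℤ (W'⁄L).Point p)
  rw [hcard, Nat.card_zmod] at h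
  exact (Nat.pow_right_injective hp.two_le h).symm

/-- finiteness of `E[p]` as a `ZMod p`-module. -/
theorem finite_torsionBy_baseChange [IsAlgClosed L] (hΔ : (W'⁄L).Δ ≠ 0) {p : ℕ} [Fact p.Prime]
    (hp2 : p ≠ 2) (hpL : (p : L) ≠ 0) :
    Module.Finite (ZMod p) (Submodule.torsionBy ℤ (W'⁄L).Point p) := by
  have hp : p.Prime := Fact.out
  have hcard := natCard_torsionBy_baseChange W' hΔ hp hp2 hpL
  have hfin : Finite (Submodule.torsionBy ℤ (W'⁄L).Point p) :=
    Nat.finite_of_card_ne_zero (by rw [hcard]; exact pow_ne_zero 2 hp.ne_zero)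
  exact Module.Finite.of_finite

end BaseChange

end Fermat.Agent.EC.H15
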