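import Mathlib
import Fermat.Prelude.Def_FLTPrelim_GaloisRep
import Fermat.Agent.S13.H38_Level
import Fermat.Agent.EC.H15_TorsionCount

/-!
# (E1), (E2) of the (EC) interface of (T3) (helper28's binder shapes)

`W : WeierstrassCurve ℤ`, `E := W.map (Int.castRingHom ℚ)`,
`M_m := Submodule.torsionBy ℤ (E⁄Qbar).Point m` with the Prelude's Galois action.

* `faithful_torsionBy` (E1): an integer killing `M_(lam^n)` is divisible by `lam^n`.
* `exists_finiteDimensional_fixing_torsionBy` (E2): the action on `M_m` has finite level.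
* also: `finite_torsionBy_int`, `exists_mem_torsionBy_addOrderOf` (a point of exact order
  `lam^n` inside `M_(lam^n)`), `natCard_torsionBy_int` (`#M_p = p²`), `finrank_torsionBy_int`.
-/

set_option autoImplicit false

namespace Fermat.Agent.EC.H15

open WeierstrassCurve WeierstrassCurve.Affine WeierstrassCurve.Affine.Point

local notation "Qbar" => AlgebraicClosure ℚ

section T3

variable (W : WeierstrassCurve ℤ)

/-- the discriminant of the base change to `Qbar` of the rational model -/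
theorem baseChange_Δ_ne_zero (hΔ : W.Δ ≠ 0) :
    (((W.map (Int.castRingHom ℚ) : Affine ℚ))⁄Qbar).Δ ≠ 0 := by
  rw [Affine.baseChange, WeierstrassCurve.baseChange, map_Δ, map_Δ]
  intro h
  apply hΔ
  have h1 : (algebraMap ℚ Qbar) ((Int.castRingHom ℚ) W.Δ) = 0 := h
  rw [map_eq_zero_iff _ (algebraMap ℚ Qbar).injective] at h1
  rw [eq_intCast] at h1
  exact_mod_cast h1

/-- `M_m` is finite for every `m > 0` (no hypothesis on `Δ`). -/
theorem finite_torsionBy_int (m : ℕ) (hm : 0 < m) :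
    Finite (Submodule.torsionBy ℤ ((W.map (Int.castRingHom ℚ) : Affine ℚ)⁄Qbar).Point m) := by
  have hmK : (m : Qbar) ≠ 0 := by exact_mod_cast hm.ne'
  have h := finite_torsSet ((W.map (Int.castRingHom ℚ) : Affine ℚ)⁄Qbar) m hm hmK
  rw [← coe_torsionBy_eq_torsSet] at h
  exact h

/-- a point of exact order `lam^n` in `M_(lam^n)` -/
theorem exists_mem_torsionBy_addOrderOf (hΔ : W.Δ ≠ 0) {lam : ℕ} (hlam : lam.Prime) (n : ℕ) :
    ∃ P : ((W.map (Int.castRingHom ℚ) : Affine ℚ)⁄Qbar).Point,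
      P ∈ Submodule.torsionBy ℤ ((W.map (Int.castRingHom ℚ) : Affine ℚ)⁄Qbar).Point
        ((lam ^ n : ℕ) : ℤ) ∧ addOrderOf P = lam ^ n := by
  have hlamK : (lam : Qbar) ≠ 0 := by exact_mod_cast hlam.ne_zero
  obtain ⟨P, hP⟩ := exists_addOrderOf_eq_prime_pow_baseChange
    (W.map (Int.castRingHom ℚ) : Affine ℚ) (L := Qbar) (baseChange_Δ_ne_zero W hΔ) hlam hlamK n
  refine ⟨P, ?_, hP⟩
  rw [Submodule.mem_torsionBy_iff, natCast_zsmul, ← hP]
  exact addOrderOf_nsmul_eq_zero P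

/-- **(E1)**: `M_(lam^n)` is a faithful `ℤ/lam^n`-module. -/
theorem faithful_torsionBy (hΔ : W.Δ ≠ 0) {lam : ℕ} (hlam : lam.Prime) (n : ℕ) (z : ℤ)
    (hz : ∀ P ∈ Submodule.torsionBy ℤ ((W.map (Int.castRingHom ℚ) : Affine ℚ)⁄Qbar).Point
      ((lam ^ n : ℕ) : ℤ), z • P = 0) :
    ((lam ^ n : ℕ) : ℤ) ∣ z := by
  obtain ⟨P, hPmem, hP⟩ := exists_mem_torsionBy_addOrderOf W hΔ hlam n
  rw [← hP]
  exact (addOrderOf_dvd_iff_zsmul_eq_zero).mpr (hz P hPmem)

/-- (E1) with the divisor spelled `(lam : ℤ) ^ n`. -/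
theorem faithful_torsionBy' (hΔ : W.Δ ≠ 0) {lam : ℕ} (hlam : lam.Prime) (n : ℕ) (z : ℤ)
    (hz : ∀ P ∈ Submodule.torsionBy ℤ ((W.map (Int.castRingHom ℚ) : Affine ℚ)⁄Qbar).Point
      ((lam ^ n : ℕ) : ℤ), z • P = 0) :
    (lam : ℤ) ^ n ∣ z := by
  have := faithful_torsionBy W hΔ hlam n z hz
  rwa [Nat.cast_pow] at this

/-- **(E2)**: the Galois action on `M_m` has finite level. -/
theorem exists_finiteDimensional_fixing_torsionBy (m : ℕ) (hm : 0 < m) :
    ∃ L : IntermediateField ℚ Qbar, FiniteDimensional ℚ L ∧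
      ∀ σ : Qbar ≃ₐ[ℚ] Qbar, (∀ x ∈ L, σ x = x) →
        ∀ P : Submodule.torsionBy ℤ ((W.map (Int.castRingHom ℚ) : Affine ℚ)⁄Qbar).Point m,
          σ • P = P := by
  have := finite_torsionBy_int W m hm
  obtain ⟨L, hL, h⟩ := Fermat.Agent.S13.H38.exists_finiteDimensional_fixing_rat
    (W.map (Int.castRingHom ℚ) : Affine ℚ) m
  refine ⟨L, hL, fun σ hσ P => h σ ?_ P⟩
  rw [IntermediateField.mem_fixingSubgroup_iff]
  exact hσ

/-- (E2), on the points themselves. -/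
theorem exists_finiteDimensional_fixing_torsionBy' (m : ℕ) (hm : 0 < m) :
    ∃ L : IntermediateField ℚ Qbar, FiniteDimensional ℚ L ∧
      ∀ σ : Qbar ≃ₐ[ℚ] Qbar, (∀ x ∈ L, σ x = x) →
        ∀ P ∈ Submodule.torsionBy ℤ ((W.map (Int.castRingHom ℚ) : Affine ℚ)⁄Qbar).Point m,
          σ • P = P := by
  obtain ⟨L, hL, h⟩ := exists_finiteDimensional_fixing_torsionBy W m hm
  refine ⟨L, hL, fun σ hσ P hP => ?_⟩
  have := h σ hσ ⟨P, hP⟩
  exact congrArg Subtype.val this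

/-- `#M_p = p²` for an odd prime `p`. -/
theorem natCard_torsionBy_int (hΔ : W.Δ ≠ 0) {p : ℕ} (hp : p.Prime) (hp2 : p ≠ 2) :
    Nat.card (Submodule.torsionBy ℤ ((W.map (Int.castRingHom ℚ) : Affine ℚ)⁄Qbar).Point p) =
      p ^ 2 :=
  natCard_torsionBy_baseChange (W.map (Int.castRingHom ℚ) : Affine ℚ) (L := Qbar)
    (baseChange_Δ_ne_zero W hΔ) hp hp2 (by exact_mod_cast hp.ne_zero)

/-- `M_p` is a 2-dimensional `𝔽_p`-vector space. -/
theorem finrank_torsionBy_int (hΔ : W.Δ ≠ 0) {p : ℕ} [Fact p.Prime] (hp2 : p ≠ 2) :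
    Module.finrank (ZMod p)
      (Submodule.torsionBy ℤ ((W.map (Int.castRingHom ℚ) : Affine ℚ)⁄Qbar).Point p) = 2 :=
  finrank_torsionBy_baseChange (W.map (Int.castRingHom ℚ) : Affine ℚ) (L := Qbar)
    (baseChange_Δ_ne_zero W hΔ) hp2 (by exact_mod_cast (Fact.out : p.Prime).ne_zero)

end T3

end Fermat.Agent.EC.H15
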