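import Mathlib

/-!
# Reduction of integral points of a Weierstrass curve at a valuation subring (helper64)

`K` a field, `A : ValuationSubring K`, `E` a Weierstrass curve over `K` with coefficients in `A`
(`IntModel`), good reduction (`Δ` of the reduced curve nonzero).  We define the reduction map
`red` on affine points (non-integral points go to `0`) and prove that it is additive on
integral points: `red (P + Q) = red P + red Q` whenever `P`, `Q` are integral (or zero).
No formal group / kernel of reduction is needed for this.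
-/

set_option autoImplicit false

namespace Fermat.Agent.EC.H64

open WeierstrassCurve WeierstrassCurve.Affine

variable {K : Type*} [Field K] [DecidableEq K] (A : ValuationSubring K)
  [DecidableEq (IsLocalRing.ResidueField A)]

/-- A Weierstrass curve over `K` with coefficients in `A`. -/
structure IntModel (E : WeierstrassCurve K) where
  WA : WeierstrassCurve A
  hE : WA.map A.subtype = E

variable {A} {E : WeierstrassCurve K} (M : IntModel A E)

/-- the reduced curve over the residue field -/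
noncomputable abbrev IntModel.redCurve : WeierstrassCurve (IsLocalRing.ResidueField A) :=
  M.WA.map (IsLocalRing.residue A)

omit [DecidableEq K] [DecidableEq (IsLocalRing.ResidueField A)] in
lemma IntModel.equation_of_mem {x y : K} (hx : x ∈ A) (hy : y ∈ A)
    (h : E.toAffine.Equation x y) : M.WA.toAffine.Equation ⟨x, hx⟩ ⟨y, hy⟩ := by
  rw [← M.hE] at h
  exact (Affine.map_equation _ A.subtype_injective ⟨x, hx⟩ ⟨y, hy⟩).mp h

open Classical in
/-- The reduction map on affine points; non-integral points are sent to `0`. -/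
noncomputable def red (hΔ : M.redCurve.Δ ≠ 0) :
    E.toAffine.Point → M.redCurve.toAffine.Point
  | .zero => 0
  | .some x y h =>
    if hxy : x ∈ A ∧ y ∈ A then
      .some (IsLocalRing.residue A ⟨x, hxy.1⟩) (IsLocalRing.residue A ⟨y, hxy.2⟩)
        ((equation_iff_nonsingular_of_Δ_ne_zero hΔ).mp
          ((M.equation_of_mem hxy.1 hxy.2 h.1).map (IsLocalRing.residue A)))
    else 0

section Basics

omit [DecidableEq K] [DecidableEq (IsLocalRing.ResidueField A)] in
lemma isUnit_of_residue_ne_zero {a : A} (h : IsLocalRing.residue A a ≠ 0) : IsUnit a := by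
  by_contra hu
  exact h ((IsLocalRing.residue_eq_zero_iff a).mpr ((IsLocalRing.mem_maximalIdeal a).mpr hu))

omit [DecidableEq K] [DecidableEq (IsLocalRing.ResidueField A)] in
lemma not_isUnit_of_residue_eq_zero {a : A} (h : IsLocalRing.residue A a = 0) : ¬ IsUnit a :=
  (IsLocalRing.mem_maximalIdeal a).mp ((IsLocalRing.residue_eq_zero_iff a).mp h)

/-- integral-or-zero points -/
def IsIntPt (A : ValuationSubring K) {E : WeierstrassCurve K} : E.toAffine.Point → Prop
  | .zero => True
  | .some x y _ => x ∈ A ∧ y ∈ A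

omit [DecidableEq K] in
lemma some_congr {F : Type*} [Field F] {W : Affine F} {x y x' y' : F}
    (h : W.Nonsingular x y) (h' : W.Nonsingular x' y') (hx : x = x') (hy : y = y') :
    Point.some x y h = Point.some x' y' h' := by
  subst hx hy; rfl

omit [DecidableEq K] [DecidableEq (IsLocalRing.ResidueField A)] in
lemma IntModel.nonsingular_res (hΔ : M.redCurve.Δ ≠ 0) (X Y : A) (h : E.toAffine.Nonsingular (X : K) (Y : K)) :
    M.redCurve.toAffine.Nonsingular (IsLocalRing.residue A X) (IsLocalRing.residue A Y) :=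
  (equation_iff_nonsingular_of_Δ_ne_zero hΔ).mp
    ((M.equation_of_mem X.2 Y.2 h.1).map (IsLocalRing.residue A))

omit [DecidableEq K] [DecidableEq (IsLocalRing.ResidueField A)] in
lemma red_zero (hΔ : M.redCurve.Δ ≠ 0) : red M hΔ 0 = 0 := rfl

omit [DecidableEq K] [DecidableEq (IsLocalRing.ResidueField A)] in
lemma red_some (hΔ : M.redCurve.Δ ≠ 0) (X Y : A) (h : E.toAffine.Nonsingular (X : K) (Y : K)) :
    red M hΔ (.some (X : K) (Y : K) h) =
      .some (IsLocalRing.residue A X) (IsLocalRing.residue A Y) (M.nonsingular_res hΔ X Y h) := by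
  simp only [red]
  rw [dif_pos ⟨X.2, Y.2⟩]

omit [DecidableEq K] [DecidableEq (IsLocalRing.ResidueField A)] in
lemma red_some_of_not_mem (hΔ : M.redCurve.Δ ≠ 0) {x y : K} (h : E.toAffine.Nonsingular x y) (hx : x ∉ A) :
    red M hΔ (.some x y h) = 0 := by
  simp only [red]
  rw [dif_neg (fun hxy => hx hxy.1)]

end Basics

section Core

variable (hΔ : M.redCurve.Δ ≠ 0)

omit [DecidableEq K] [DecidableEq (IsLocalRing.ResidueField A)] in
lemma IntModel.addX_coe (X1 X2 L : A) :
    E.toAffine.addX (X1 : K) (X2 : K) (L : K) = ((M.WA.toAffine.addX X1 X2 L : A) : K) := by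
  obtain ⟨WA, rfl⟩ := M
  exact Affine.map_addX (W' := WA.toAffine) A.subtype X1 X2 L

omit [DecidableEq K] [DecidableEq (IsLocalRing.ResidueField A)] in
lemma IntModel.addY_coe (X1 X2 Y1 L : A) :
    E.toAffine.addY (X1 : K) (X2 : K) (Y1 : K) (L : K) =
      ((M.WA.toAffine.addY X1 X2 Y1 L : A) : K) := by
  obtain ⟨WA, rfl⟩ := M
  exact Affine.map_addY (W' := WA.toAffine) A.subtype X1 Y1 X2 L

omit [DecidableEq K] [DecidableEq (IsLocalRing.ResidueField A)] in
lemma IntModel.negY_coe (X Y : A) :
    E.toAffine.negY (X : K) (Y : K) = ((M.WA.toAffine.negY X Y : A) : K) := by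
  obtain ⟨WA, rfl⟩ := M
  exact Affine.map_negY (W' := WA.toAffine) A.subtype X Y

omit [DecidableEq K] [DecidableEq (IsLocalRing.ResidueField A)] in
lemma IntModel.addX_res (X1 X2 L : A) :
    M.redCurve.toAffine.addX (IsLocalRing.residue A X1) (IsLocalRing.residue A X2)
      (IsLocalRing.residue A L) = IsLocalRing.residue A (M.WA.toAffine.addX X1 X2 L) :=
  Affine.map_addX (W' := M.WA.toAffine) (IsLocalRing.residue A) X1 X2 L

omit [DecidableEq K] [DecidableEq (IsLocalRing.ResidueField A)] in
lemma IntModel.addY_res (X1 X2 Y1 L : A) :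
    M.redCurve.toAffine.addY (IsLocalRing.residue A X1) (IsLocalRing.residue A X2)
      (IsLocalRing.residue A Y1) (IsLocalRing.residue A L) =
      IsLocalRing.residue A (M.WA.toAffine.addY X1 X2 Y1 L) :=
  Affine.map_addY (W' := M.WA.toAffine) (IsLocalRing.residue A) X1 Y1 X2 L

omit [DecidableEq K] [DecidableEq (IsLocalRing.ResidueField A)] in
lemma IntModel.negY_res (X Y : A) :
    M.redCurve.toAffine.negY (IsLocalRing.residue A X) (IsLocalRing.residue A Y) =
      IsLocalRing.residue A (M.WA.toAffine.negY X Y) :=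
  Affine.map_negY (W' := M.WA.toAffine) (IsLocalRing.residue A) X Y

/-- If the slope upstairs is (the image of) `L : A` and the slope downstairs is the residue of
`L`, then reduction commutes with this addition. -/
lemma red_add_of_slope (X1 Y1 X2 Y2 L : A)
    (h1 : E.toAffine.Nonsingular (X1 : K) (Y1 : K)) (h2 : E.toAffine.Nonsingular (X2 : K) (Y2 : K))
    (hxy : ¬((X1 : K) = X2 ∧ (Y1 : K) = E.toAffine.negY (X2 : K) (Y2 : K)))
    (hxy' : ¬(IsLocalRing.residue A X1 = IsLocalRing.residue A X2 ∧
      IsLocalRing.residue A Y1 =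
        M.redCurve.toAffine.negY (IsLocalRing.residue A X2) (IsLocalRing.residue A Y2)))
    (hL : E.toAffine.slope (X1 : K) (X2 : K) (Y1 : K) (Y2 : K) = (L : K))
    (hL' : M.redCurve.toAffine.slope (IsLocalRing.residue A X1) (IsLocalRing.residue A X2)
      (IsLocalRing.residue A Y1) (IsLocalRing.residue A Y2) = IsLocalRing.residue A L) :
    red M hΔ (Point.some (X1 : K) (Y1 : K) h1 + Point.some (X2 : K) (Y2 : K) h2) =
      red M hΔ (Point.some (X1 : K) (Y1 : K) h1) + red M hΔ (Point.some (X2 : K) (Y2 : K) h2) := by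
  rw [red_some, red_some, Point.add_some hxy, Point.add_some hxy']
  have hns := nonsingular_add h1 h2 hxy
  have e1 : E.toAffine.addX (X1 : K) (X2 : K)
      (E.toAffine.slope (X1 : K) (X2 : K) (Y1 : K) (Y2 : K)) =
      ((M.WA.toAffine.addX X1 X2 L : A) : K) := by rw [hL, M.addX_coe]
  have e2 : E.toAffine.addY (X1 : K) (X2 : K) (Y1 : K)
      (E.toAffine.slope (X1 : K) (X2 : K) (Y1 : K) (Y2 : K)) =
      ((M.WA.toAffine.addY X1 X2 Y1 L : A) : K) := by rw [hL, M.addY_coe]
  have hns' : E.toAffine.Nonsingular ((M.WA.toAffine.addX X1 X2 L : A) : K)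
      ((M.WA.toAffine.addY X1 X2 Y1 L : A) : K) := by rw [← e1, ← e2]; exact hns
  rw [some_congr hns hns' e1 e2, red_some]
  apply some_congr
  · rw [hL', M.addX_res]
  · rw [hL', M.addY_res]

end Core

section Cases

variable (hΔ : M.redCurve.Δ ≠ 0)

omit [DecidableEq K] [DecidableEq (IsLocalRing.ResidueField A)] in
lemma coe_inv_of_mul_eq_one {a b : A} (h : a * b = 1) : (b : K) = (a : K)⁻¹ := by
  have h' : (a : K) * (b : K) = 1 := by exact_mod_cast congrArg (fun z : A => (z : K)) h
  exact eq_inv_of_mul_eq_one_right h'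

omit [DecidableEq K] [DecidableEq (IsLocalRing.ResidueField A)] in
lemma res_inv_of_mul_eq_one {a b : A} (h : a * b = 1) :
    IsLocalRing.residue A b = (IsLocalRing.residue A a)⁻¹ := by
  have h' : IsLocalRing.residue A a * IsLocalRing.residue A b = 1 := by
    rw [← map_mul, h, map_one]
  exact eq_inv_of_mul_eq_one_right h'

/-- Case A: the `x`-coordinates have different residues. -/
lemma red_add_caseA (X1 Y1 X2 Y2 : A)
    (h1 : E.toAffine.Nonsingular (X1 : K) (Y1 : K)) (h2 : E.toAffine.Nonsingular (X2 : K) (Y2 : K))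
    (hx : IsLocalRing.residue A X1 ≠ IsLocalRing.residue A X2) :
    red M hΔ (Point.some (X1 : K) (Y1 : K) h1 + Point.some (X2 : K) (Y2 : K) h2) =
      red M hΔ (Point.some (X1 : K) (Y1 : K) h1) + red M hΔ (Point.some (X2 : K) (Y2 : K) h2) := by
  have hu : IsUnit (X1 - X2) :=
    isUnit_of_residue_ne_zero (by rw [map_sub]; exact sub_ne_zero.mpr hx)
  obtain ⟨b, hb⟩ := isUnit_iff_exists_inv.mp hu
  have hxK : (X1 : K) ≠ X2 := fun h => hx (by rw [Subtype.ext h])
  refine red_add_of_slope M hΔ X1 Y1 X2 Y2 ((Y1 - Y2) * b) h1 h2 (fun h => hxK h.1)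
    (fun h => hx h.1) ?_ ?_
  · rw [slope_of_X_ne hxK, div_eq_mul_inv]
    have := coe_inv_of_mul_eq_one hb
    push_cast at this ⊢
    rw [this]
  · rw [slope_of_X_ne hx, div_eq_mul_inv, map_mul, map_sub, res_inv_of_mul_eq_one hb, map_sub]

end Cases

section CaseB

variable (hΔ : M.redCurve.Δ ≠ 0)

/-- the secant/tangent numerator -/
def slopeNum {R : Type*} [CommRing R] (W : WeierstrassCurve R) (x1 x2 y2 : R) : R :=
  x1 ^ 2 + x1 * x2 + x2 ^ 2 + W.a₂ * (x1 + x2) + W.a₄ - W.a₁ * y2

/-- the secant/tangent denominator -/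
def slopeDen {R : Type*} [CommRing R] (W : WeierstrassCurve R) (x1 y1 y2 : R) : R :=
  y1 + y2 + W.a₁ * x1 + W.a₃

lemma slope_identity {R : Type*} [CommRing R] (W : WeierstrassCurve R) {x1 y1 x2 y2 : R}
    (e1 : W.toAffine.Equation x1 y1) (e2 : W.toAffine.Equation x2 y2) :
    (y1 - y2) * slopeDen W x1 y1 y2 = (x1 - x2) * slopeNum W x1 x2 y2 := by
  rw [equation_iff] at e1 e2
  simp only [slopeDen, slopeNum]
  linear_combination e1 - e2

lemma slopeNum_map {R S : Type*} [CommRing R] [CommRing S] (W : WeierstrassCurve R) (f : R →+* S)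
    (x1 x2 y2 : R) : slopeNum (W.map f) (f x1) (f x2) (f y2) = f (slopeNum W x1 x2 y2) := by
  simp only [slopeNum, map_a₁, map_a₂, map_a₄, map_add, map_sub, map_mul, map_pow]

lemma slopeDen_map {R S : Type*} [CommRing R] [CommRing S] (W : WeierstrassCurve R) (f : R →+* S)
    (x1 y1 y2 : R) : slopeDen (W.map f) (f x1) (f y1) (f y2) = f (slopeDen W x1 y1 y2) := by
  simp only [slopeDen, map_a₁, map_a₃, map_add, map_mul]

/-- over a field: the slope is `slopeNum / slopeDen` whenever the denominator is nonzero -/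
lemma slope_eq_num_div_den {F : Type*} [Field F] [DecidableEq F] (W : WeierstrassCurve F)
    {x1 y1 x2 y2 : F} (e1 : W.toAffine.Equation x1 y1) (e2 : W.toAffine.Equation x2 y2)
    (hD : slopeDen W x1 y1 y2 ≠ 0) :
    W.toAffine.slope x1 x2 y1 y2 = slopeNum W x1 x2 y2 / slopeDen W x1 y1 y2 := by
  by_cases hx : x1 = x2
  · have hy : y1 ≠ W.toAffine.negY x2 y2 := by
      intro hy
      apply hD
      simp only [slopeDen]
      rw [hy, hx]
      simp only [negY]
      ring
    have hyy : y1 = y2 := Y_eq_of_Y_ne e1 e2 hx hy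
    rw [slope_of_Y_ne hx hy]
    subst hx hyy
    simp only [slopeNum, slopeDen, negY]
    congr 1 <;> ring
  · rw [slope_of_X_ne hx, div_eq_div_iff (sub_ne_zero.mpr hx) hD]
    rw [slope_identity W e1 e2, mul_comm]

end CaseB

section CaseB2

variable (hΔ : M.redCurve.Δ ≠ 0)

omit [DecidableEq K] [DecidableEq (IsLocalRing.ResidueField A)] in
lemma IntModel.slopeNum_coe (X1 X2 Y2 : A) :
    slopeNum E (X1 : K) (X2 : K) (Y2 : K) = ((slopeNum M.WA X1 X2 Y2 : A) : K) := by
  obtain ⟨WA, rfl⟩ := M
  exact slopeNum_map WA A.subtype X1 X2 Y2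

omit [DecidableEq K] [DecidableEq (IsLocalRing.ResidueField A)] in
lemma IntModel.slopeDen_coe (X1 Y1 Y2 : A) :
    slopeDen E (X1 : K) (Y1 : K) (Y2 : K) = ((slopeDen M.WA X1 Y1 Y2 : A) : K) := by
  obtain ⟨WA, rfl⟩ := M
  exact slopeDen_map WA A.subtype X1 Y1 Y2

/-- Case B: same residue `x`-coordinate, the reductions are not opposite. -/
lemma red_add_caseB (X1 Y1 X2 Y2 : A)
    (h1 : E.toAffine.Nonsingular (X1 : K) (Y1 : K)) (h2 : E.toAffine.Nonsingular (X2 : K) (Y2 : K))
    (hx : IsLocalRing.residue A X1 = IsLocalRing.residue A X2)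
    (hy : IsLocalRing.residue A Y1 ≠
      M.redCurve.toAffine.negY (IsLocalRing.residue A X2) (IsLocalRing.residue A Y2)) :
    red M hΔ (Point.some (X1 : K) (Y1 : K) h1 + Point.some (X2 : K) (Y2 : K) h2) =
      red M hΔ (Point.some (X1 : K) (Y1 : K) h1) + red M hΔ (Point.some (X2 : K) (Y2 : K) h2) := by
  have hDres : IsLocalRing.residue A (slopeDen M.WA X1 Y1 Y2) ≠ 0 := by
    rw [← slopeDen_map]
    intro h0
    apply hy
    simp only [slopeDen] at h0
    simp only [negY]
    rw [← hx]
    linear_combination h0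
  obtain ⟨b, hb⟩ := isUnit_iff_exists_inv.mp (isUnit_of_residue_ne_zero hDres)
  have hDK : slopeDen E (X1 : K) (Y1 : K) (Y2 : K) ≠ 0 := by
    rw [M.slopeDen_coe]
    intro h0
    have : slopeDen M.WA X1 Y1 Y2 = 0 := Subtype.ext h0
    rw [this, map_zero] at hDres
    exact hDres rfl
  have hxyK : ¬((X1 : K) = X2 ∧ (Y1 : K) = E.toAffine.negY (X2 : K) (Y2 : K)) := by
    rintro ⟨hx', hy'⟩
    apply hDK
    simp only [slopeDen]
    rw [hy', hx']
    simp only [negY]
    ring
  have e1' := (M.nonsingular_res hΔ X1 Y1 h1).1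
  have e2' := (M.nonsingular_res hΔ X2 Y2 h2).1
  have hD' : slopeDen M.redCurve (IsLocalRing.residue A X1) (IsLocalRing.residue A Y1)
      (IsLocalRing.residue A Y2) ≠ 0 := by
    rw [IntModel.redCurve, slopeDen_map]; exact hDres
  refine red_add_of_slope M hΔ X1 Y1 X2 Y2 (slopeNum M.WA X1 X2 Y2 * b) h1 h2 hxyK
    (fun h => hy h.2) ?_ ?_
  · rw [slope_eq_num_div_den E h1.1 h2.1 hDK, M.slopeNum_coe, M.slopeDen_coe, div_eq_mul_inv]
    have := coe_inv_of_mul_eq_one hb
    push_cast
    rw [this]
  · rw [slope_eq_num_div_den M.redCurve e1' e2' hD', IntModel.redCurve, slopeNum_map,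
      slopeDen_map, div_eq_mul_inv, map_mul, res_inv_of_mul_eq_one hb]

end CaseB2

section CaseC

variable (hΔ : M.redCurve.Δ ≠ 0)

omit [DecidableEq K] [DecidableEq (IsLocalRing.ResidueField A)] in
/-- If `ℓ` has an inverse in `A` which is a non-unit, then `ℓ² + a₁ ℓ - c` is not in `A`. -/
lemma addX_not_mem {ℓ : K} {t a c : A} (ht : ¬ IsUnit t) (hℓt : ℓ * (t : K) = 1) :
    ℓ ^ 2 + (a : K) * ℓ - (c : K) ∉ A := by
  intro hz
  have hℓ : ℓ = (((⟨_, hz⟩ : A) + c) * t - a : A) := by
    push_cast
    have : ℓ ^ 2 * (t : K) = ℓ := by rw [pow_two, mul_assoc, hℓt, mul_one]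
    linear_combination (-(1 : K)) * this - (a : K) * hℓt
  have hℓA : ℓ ∈ A := by rw [hℓ]; exact Subtype.mem _
  apply ht
  refine isUnit_iff_exists_inv.mpr ⟨⟨ℓ, hℓA⟩, ?_⟩
  apply Subtype.ext
  push_cast
  rw [mul_comm]; exact hℓt

/-- Case C: the reductions are opposite; the sum is `0` or non-integral. -/
lemma red_add_caseC (X1 Y1 X2 Y2 : A)
    (h1 : E.toAffine.Nonsingular (X1 : K) (Y1 : K)) (h2 : E.toAffine.Nonsingular (X2 : K) (Y2 : K))
    (hx : IsLocalRing.residue A X1 = IsLocalRing.residue A X2)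
    (hy : IsLocalRing.residue A Y1 =
      M.redCurve.toAffine.negY (IsLocalRing.residue A X2) (IsLocalRing.residue A Y2)) :
    red M hΔ (Point.some (X1 : K) (Y1 : K) h1 + Point.some (X2 : K) (Y2 : K) h2) =
      red M hΔ (Point.some (X1 : K) (Y1 : K) h1) + red M hΔ (Point.some (X2 : K) (Y2 : K) h2) := by
  rw [red_some, red_some, Point.add_of_Y_eq hx hy]
  by_cases hxyK : (X1 : K) = X2 ∧ (Y1 : K) = E.toAffine.negY (X2 : K) (Y2 : K)
  · rw [Point.add_of_Y_eq hxyK.1 hxyK.2]; rfl
  rw [Point.add_some hxyK]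
  apply red_some_of_not_mem
  -- the residue of the denominator vanishes
  have hDres : IsLocalRing.residue A (slopeDen M.WA X1 Y1 Y2) = 0 := by
    rw [← slopeDen_map]
    simp only [slopeDen]
    rw [hy, hx]
    simp only [negY]
    ring
  have hDnu : ¬ IsUnit (slopeDen M.WA X1 Y1 Y2) := not_isUnit_of_residue_eq_zero hDres
  -- find the non-unit inverse of the slope
  obtain ⟨t, ht, hℓt⟩ : ∃ t : A, ¬ IsUnit t ∧
      E.toAffine.slope (X1 : K) (X2 : K) (Y1 : K) (Y2 : K) * (t : K) = 1 := by
    by_cases hyy : IsLocalRing.residue A Y1 = IsLocalRing.residue A Y2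
    · -- the numerator is a unit by nonsingularity of the reduction
      have hns := M.nonsingular_res hΔ X2 Y2 h2
      rw [nonsingular_iff] at hns
      have hNres : IsLocalRing.residue A (slopeNum M.WA X1 X2 Y2) ≠ 0 := by
        rw [← slopeNum_map]
        simp only [slopeNum]
        rcases hns.2 with h | h
        · intro h0
          apply h
          rw [hx] at h0
          linear_combination (-1 : IsLocalRing.ResidueField A) * h0
        · exact absurd (hyy.symm.trans hy) h
      obtain ⟨b, hb⟩ := isUnit_iff_exists_inv.mp (isUnit_of_residue_ne_zero hNres)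
      have hDK : slopeDen E (X1 : K) (Y1 : K) (Y2 : K) ≠ 0 := by
        by_cases hxx : (X1 : K) = X2
        · intro h0
          apply hxyK
          refine ⟨hxx, ?_⟩
          simp only [slopeDen] at h0
          simp only [negY]
          rw [← hxx]
          linear_combination h0
        · intro h0
          have hid := slope_identity E h1.1 h2.1
          rw [h0, mul_zero] at hid
          have hN0 : slopeNum E (X1 : K) (X2 : K) (Y2 : K) = 0 := by
            rcases mul_eq_zero.mp hid.symm with h | h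
            · exact absurd (sub_eq_zero.mp h) hxx
            · exact h
          rw [M.slopeNum_coe] at hN0
          have : slopeNum M.WA X1 X2 Y2 = 0 := Subtype.ext hN0
          rw [this, map_zero] at hNres
          exact hNres rfl
      refine ⟨slopeDen M.WA X1 Y1 Y2 * b, fun hu => hDnu (isUnit_of_mul_isUnit_left hu), ?_⟩
      rw [slope_eq_num_div_den E h1.1 h2.1 hDK, M.slopeNum_coe]
      rw [M.slopeDen_coe] at hDK ⊢
      have hb' : ((slopeNum M.WA X1 X2 Y2 : A) : K) * (b : K) = 1 := by
        exact_mod_cast congrArg (fun z : A => (z : K)) hb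
      push_cast
      field_simp
      linear_combination hb'
    · -- `Y1 - Y2` is a unit and `X1 ≠ X2`
      have hu : IsUnit (Y1 - Y2) :=
        isUnit_of_residue_ne_zero (by rw [map_sub]; exact sub_ne_zero.mpr hyy)
      obtain ⟨c, hc⟩ := isUnit_iff_exists_inv.mp hu
      have hxx : (X1 : K) ≠ X2 := by
        intro hxx
        have hyK : (Y1 : K) ≠ E.toAffine.negY (X2 : K) (Y2 : K) := fun h => hxyK ⟨hxx, h⟩
        have := Y_eq_of_Y_ne h1.1 h2.1 hxx hyK
        exact hyy (by rw [Subtype.ext this])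
      have hXnu : ¬ IsUnit (X1 - X2) :=
        not_isUnit_of_residue_eq_zero (by rw [map_sub, hx, sub_self])
      refine ⟨(X1 - X2) * c, fun hu => hXnu (isUnit_of_mul_isUnit_left hu), ?_⟩
      rw [slope_of_X_ne hxx]
      have hc' : ((Y1 : K) - (Y2 : K)) * (c : K) = 1 := by
        exact_mod_cast congrArg (fun z : A => (z : K)) hc
      have hne : (X1 : K) - (X2 : K) ≠ 0 := sub_ne_zero.mpr hxx
      push_cast
      field_simp
      linear_combination hc'
  -- conclude
  have hcoe : E.toAffine.addX (X1 : K) (X2 : K)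
      (E.toAffine.slope (X1 : K) (X2 : K) (Y1 : K) (Y2 : K)) =
      E.toAffine.slope (X1 : K) (X2 : K) (Y1 : K) (Y2 : K) ^ 2 +
        ((M.WA.a₁ : A) : K) * E.toAffine.slope (X1 : K) (X2 : K) (Y1 : K) (Y2 : K) -
        ((M.WA.a₂ + X1 + X2 : A) : K) := by
    obtain ⟨WA, rfl⟩ := M
    simp only [addX, map_a₁, map_a₂, ValuationSubring.subtype_apply]
    push_cast
    ring
  rw [hcoe]
  exact addX_not_mem ht hℓt

end CaseC

section Main

variable (hΔ : M.redCurve.Δ ≠ 0)

omit [DecidableEq K] [DecidableEq (IsLocalRing.ResidueField A)] in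
lemma isIntPt_zero : IsIntPt A (0 : E.toAffine.Point) := trivial

/-- **Reduction is additive on integral points.** -/
theorem red_add {P Q : E.toAffine.Point} (hP : IsIntPt A P) (hQ : IsIntPt A Q) :
    red M hΔ (P + Q) = red M hΔ P + red M hΔ Q := by
  rcases P with _ | ⟨x1, y1, h1⟩
  · change red M hΔ (0 + Q) = red M hΔ 0 + red M hΔ Q
    rw [zero_add, red_zero, zero_add]
  rcases Q with _ | ⟨x2, y2, h2⟩
  · change red M hΔ (Point.some x1 y1 h1 + 0) = red M hΔ (Point.some x1 y1 h1) + red M hΔ 0
    rw [add_zero, red_zero, add_zero]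
  obtain ⟨hx1, hy1⟩ := hP
  obtain ⟨hx2, hy2⟩ := hQ
  lift x1 to A using hx1
  lift y1 to A using hy1
  lift x2 to A using hx2
  lift y2 to A using hy2
  by_cases hx : IsLocalRing.residue A x1 = IsLocalRing.residue A x2
  · by_cases hy : IsLocalRing.residue A y1 =
        M.redCurve.toAffine.negY (IsLocalRing.residue A x2) (IsLocalRing.residue A y2)
    · exact red_add_caseC M hΔ x1 y1 x2 y2 h1 h2 hx hy
    · exact red_add_caseB M hΔ x1 y1 x2 y2 h1 h2 hx hy
  · exact red_add_caseA M hΔ x1 y1 x2 y2 h1 h2 hx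

omit [DecidableEq K] [DecidableEq (IsLocalRing.ResidueField A)] in
/-- An integral point with trivial reduction is trivial. -/
theorem eq_zero_of_red_eq_zero {P : E.toAffine.Point} (hP : IsIntPt A P)
    (h : red M hΔ P = 0) : P = 0 := by
  rcases P with _ | ⟨x, y, hxy⟩
  · rfl
  · exfalso
    obtain ⟨hx, hy⟩ := hP
    lift x to A using hx
    lift y to A using hy
    rw [red_some] at h
    exact Point.some_ne_zero _ h

/-- Reduction as a group homomorphism on a subgroup of integral points. -/
noncomputable def redHom (H : AddSubgroup E.toAffine.Point) (hH : ∀ P ∈ H, IsIntPt A P) :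
    H →+ M.redCurve.toAffine.Point where
  toFun P := red M hΔ (P : E.toAffine.Point)
  map_zero' := rfl
  map_add' P Q := red_add M hΔ (hH P P.2) (hH Q Q.2)

lemma redHom_apply (H : AddSubgroup E.toAffine.Point) (hH : ∀ P ∈ H, IsIntPt A P) (P : H) :
    redHom M hΔ H hH P = red M hΔ (P : E.toAffine.Point) := rfl

theorem redHom_injective (H : AddSubgroup E.toAffine.Point) (hH : ∀ P ∈ H, IsIntPt A P) :
    Function.Injective (redHom M hΔ H hH) := by
  rw [injective_iff_map_eq_zero]
  intro P hP
  exact Subtype.ext (eq_zero_of_red_eq_zero M hΔ (hH P P.2) hP)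

end Main

end Fermat.Agent.EC.H64
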