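import Mathlib
import Fermat.Prelude.Def_FLTPrelim_GaloisRep
import Fermat.Prelude.Def_FLTPrelim_Ramification
import Fermat.Prelude.Def_FLTPrelim_Modularity
import Fermat.Prelude.Def_EllipticCurve_FrobeniusTrace
import Fermat.Agent.S05.H38_Gal
import Fermat.Agent.EC.H64_Reduction

/-!
# Good reduction: inertia acts trivially on prime-to-`l` torsion, Frobenius satisfies its
characteristic equation (helper64)

`W : WeierstrassCurve ℤ`, `E := W.map (Int.castRingHom ℚ)`,
`M_m := Submodule.torsionBy ℤ (E⁄Qbar).Point m` with the Prelude's Galois action.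
-/

set_option autoImplicit false

namespace Fermat.Agent.EC.H64

open WeierstrassCurve WeierstrassCurve.Affine WeierstrassCurve.Affine.Point

local notation "Qbar" => AlgebraicClosure ℚ

section Residue

variable {K L : Type*} [Field K] [Field L] [Algebra K L]

/-- Frobenius elements raise residues to the `q`-th power. -/
theorem residue_frob {A : ValuationSubring L} {φ : L ≃ₐ[K] L} {q : ℕ} (h : A.IsFrobeniusAt φ q)
    (x : A) :
    IsLocalRing.residue A ⟨φ x, Fermat.Agent.S05.H38.apply_mem_of_mem_decomposition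
      h.mem_decompositionSubgroup x.2⟩ = (IsLocalRing.residue A x) ^ q := by
  have h1 := h.smul_residue_eq (IsLocalRing.residue A x)
  rw [← IsLocalRing.ResidueField.residue_smul] at h1
  rw [← h1]
  rfl

/-- Inertia elements fix residues. -/
theorem residue_inertia {A : ValuationSubring L} {σ : L ≃ₐ[K] L} (h : σ ∈ A.inertiaSubgroupIn K)
    (x : A) :
    IsLocalRing.residue A ⟨σ x, Fermat.Agent.S05.H38.apply_mem_of_mem_decomposition
      (Fermat.Agent.S05.H38.mem_decomposition_of_mem_inertiaSubgroupIn h) x.2⟩ =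
      IsLocalRing.residue A x := by
  have h1 := Fermat.Agent.S05.H38.apply_sub_mem_nonunits_of_mem_inertiaSubgroupIn h x.2
  rw [← sub_eq_zero, ← map_sub, IsLocalRing.residue_eq_zero_iff]
  exact (ValuationSubring.coe_mem_nonunits_iff (A := A)).1 h1

end Residue

section Model

variable (W : WeierstrassCurve ℤ) (A : ValuationSubring Qbar)

/-- The integral model over `A` of the base change of `W` to `Qbar`. -/
noncomputable def intModel :
    IntModel A ((W.map (Int.castRingHom ℚ) : Affine ℚ)⁄Qbar) where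
  WA := W.map (Int.castRingHom A)
  hE := by
    rw [Affine.baseChange, WeierstrassCurve.baseChange, WeierstrassCurve.map_map,
      WeierstrassCurve.map_map]
    congr 1

lemma intModel_redCurve :
    (intModel W A).redCurve = W.map (Int.castRingHom (IsLocalRing.ResidueField A)) := by
  rw [IntModel.redCurve, intModel, WeierstrassCurve.map_map]
  congr 1

variable {A}

/-- the residue characteristic -/
theorem natCast_residue_eq_zero {l : ℕ} (hA : A.LiesOverPrime l) :
    ((l : ℕ) : IsLocalRing.ResidueField A) = 0 := by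
  have h1 : ((l : A) : Qbar) ∈ A.nonunits := by
    have : ((l : A) : Qbar) = (l : Qbar) := by simp
    rw [this]; exact hA
  have h2 := (ValuationSubring.coe_mem_nonunits_iff (A := A)).1 h1
  have h3 := (IsLocalRing.residue_eq_zero_iff (l : A)).2 h2
  rwa [map_natCast] at h3

theorem charP_residueField {l : ℕ} (hl : l.Prime) (hA : A.LiesOverPrime l) :
    CharP (IsLocalRing.ResidueField A) l := by
  have := CharP.ringChar_of_prime_eq_zero hl (natCast_residue_eq_zero hA)
  rw [← this]
  exact ringChar.charP _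

theorem intCast_residue_eq_zero_iff {l : ℕ} (hl : l.Prime) (hA : A.LiesOverPrime l) (z : ℤ) :
    ((z : ℤ) : IsLocalRing.ResidueField A) = 0 ↔ (l : ℤ) ∣ z := by
  have := charP_residueField hl hA
  exact CharP.intCast_eq_zero_iff _ l z

theorem intModel_redCurve_Δ_ne_zero {l : ℕ} (hl : l.Prime) (hA : A.LiesOverPrime l)
    (hΔ : ¬ (l : ℤ) ∣ W.Δ) : (intModel W A).redCurve.Δ ≠ 0 := by
  rw [intModel_redCurve, WeierstrassCurve.map_Δ, eq_intCast]
  exact fun h => hΔ ((intCast_residue_eq_zero_iff hl hA _).1 h)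

/-- the `ZMod l`-algebra structure on the residue field (not an instance) -/
noncomputable abbrev algebraZMod {l : ℕ} (hl : l.Prime) (hA : A.LiesOverPrime l) :
    Algebra (ZMod l) (IsLocalRing.ResidueField A) :=
  @ZMod.algebra _ _ l (charP_residueField hl hA)

/-- an integer prime to `l` is a unit of `A` -/
theorem isUnit_natCast {l : ℕ} (hl : l.Prime) (hA : A.LiesOverPrime l) {m : ℕ} (hm : ¬ l ∣ m) :
    IsUnit ((m : ℕ) : A) := by
  apply isUnit_of_residue_ne_zero
  rw [map_natCast]
  intro h
  apply hm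
  have := (intCast_residue_eq_zero_iff hl hA (m : ℤ)).1 (by exact_mod_cast h)
  exact_mod_cast this

end Model

section Congr

variable {F : Type*} [Field F] [DecidableEq F]

/-- transport of points along an equality of curves -/
noncomputable def pointCongr {W₁ W₂ : WeierstrassCurve F} (h : W₁ = W₂) :
    W₁.toAffine.Point ≃+ W₂.toAffine.Point := by
  subst h
  exact AddEquiv.refl _

lemma pointCongr_some {W₁ W₂ : WeierstrassCurve F} (h : W₁ = W₂) {x y : F}
    (hxy : W₁.toAffine.Nonsingular x y) :
    pointCongr h (Point.some x y hxy) = Point.some x y (h ▸ hxy) := by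
  subst h
  rfl

lemma pointCongr_zero {W₁ W₂ : WeierstrassCurve F} (h : W₁ = W₂) :
    pointCongr h (0 : W₁.toAffine.Point) = 0 := map_zero _

end Congr

section Assembly

variable (W : WeierstrassCurve ℤ) {A : ValuationSubring Qbar}

/-- The operator form of Hasse–Weil on the reduction of `W` mod `l`, over an extension `κ` of
`ZMod l`: `Frob² - a_l Frob + l = 0` on `κ`-points. -/
def HasseWeilOpAt (l : ℕ) [Fact l.Prime] (κ : Type*) [Field κ] [DecidableEq κ]
    [Algebra (ZMod l) κ] : Prop :=
  ∀ Q : ((W.reductionMod l : Affine (ZMod l))⁄κ).Point,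
    Point.map (W' := (W.reductionMod l : Affine (ZMod l))) (FiniteField.frobeniusAlgHom (ZMod l) κ)
      (Point.map (W' := (W.reductionMod l : Affine (ZMod l)))
        (FiniteField.frobeniusAlgHom (ZMod l) κ) Q)
    - (W.apOfModel l) • Point.map (W' := (W.reductionMod l : Affine (ZMod l)))
        (FiniteField.frobeniusAlgHom (ZMod l) κ) Q
    + (l : ℤ) • Q = 0

lemma redCurve_eq_baseChange {l : ℕ} [hl : Fact l.Prime] (hA : A.LiesOverPrime l) :
    letI := algebraZMod hl.out hA
    (intModel W A).redCurve =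
      ((W.reductionMod l : Affine (ZMod l))⁄(IsLocalRing.ResidueField A)) := by
  rw [intModel_redCurve, Affine.baseChange, WeierstrassCurve.baseChange, reductionMod,
    WeierstrassCurve.map_map]
  congr 1
  exact RingHom.ext_int _ _

end Assembly

section E4

variable (W : WeierstrassCurve ℤ) {A : ValuationSubring Qbar}

open Classical in
/-- Reduction commutes with the inertia action on integral points. -/
theorem red_inertia_smul {l : ℕ} (hl : l.Prime) (hA : A.LiesOverPrime l)
    (hΔ : ¬ (l : ℤ) ∣ W.Δ) {σ : Qbar ≃ₐ[ℚ] Qbar} (hσ : σ ∈ A.inertiaSubgroupIn ℚ)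
    (P : ((W.map (Int.castRingHom ℚ) : Affine ℚ)⁄Qbar).Point) (hP : IsIntPt A P) :
    red (intModel W A) (intModel_redCurve_Δ_ne_zero W hl hA hΔ) (σ • P) =
      red (intModel W A) (intModel_redCurve_Δ_ne_zero W hl hA hΔ) P := by
  rcases P with _ | ⟨x, y, h⟩
  · rfl
  · obtain ⟨hx, hy⟩ := hP
    lift x to A using hx
    lift y to A using hy
    have hdec := Fermat.Agent.S05.H38.mem_decomposition_of_mem_inertiaSubgroupIn hσ
    have h' : ((W.map (Int.castRingHom ℚ) : Affine ℚ)⁄Qbar).Nonsingular (σ (x : Qbar)) (σ (y : Qbar)) :=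
      (Affine.baseChange_nonsingular (W.map (Int.castRingHom ℚ) : Affine ℚ)
        σ.toAlgHom.injective ..).mpr h
    have e1 : σ • (Point.some (x : Qbar) (y : Qbar) h :
        ((W.map (Int.castRingHom ℚ) : Affine ℚ)⁄Qbar).Point) = Point.some _ _ h' := rfl
    rw [e1]
    have e2 := red_some (intModel W A) (intModel_redCurve_Δ_ne_zero W hl hA hΔ)
      ⟨σ (x : Qbar), Fermat.Agent.S05.H38.apply_mem_of_mem_decomposition hdec x.2⟩
      ⟨σ (y : Qbar), Fermat.Agent.S05.H38.apply_mem_of_mem_decomposition hdec y.2⟩ h'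
    rw [red_some]
    refine e2.trans ?_
    exact some_congr _ _ (residue_inertia hσ x) (residue_inertia hσ y)

open Classical in
/-- **(E4), modulo integrality of torsion points**: inertia at a good prime `l` acts trivially
on a torsion module all of whose points are `A`-integral. -/
theorem inertia_smul_eq_self_of_integral {l : ℕ} (hl : l.Prime) (hA : A.LiesOverPrime l)
    (hΔ : ¬ (l : ℤ) ∣ W.Δ) {m : ℕ}
    (hint : ∀ P ∈ Submodule.torsionBy ℤ ((W.map (Int.castRingHom ℚ) : Affine ℚ)⁄Qbar).Point m,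
      IsIntPt A P)
    {σ : Qbar ≃ₐ[ℚ] Qbar} (hσ : σ ∈ A.inertiaSubgroupIn ℚ)
    (P : ((W.map (Int.castRingHom ℚ) : Affine ℚ)⁄Qbar).Point)
    (hP : P ∈ Submodule.torsionBy ℤ ((W.map (Int.castRingHom ℚ) : Affine ℚ)⁄Qbar).Point m) :
    σ • P = P := by
  let H : AddSubgroup ((W.map (Int.castRingHom ℚ) : Affine ℚ)⁄Qbar).Point :=
    (Submodule.torsionBy ℤ ((W.map (Int.castRingHom ℚ) : Affine ℚ)⁄Qbar).Point m).toAddSubgroup
  have hΔ' := intModel_redCurve_Δ_ne_zero W hl hA hΔ
  have hinj := redHom_injective (intModel W A) hΔ' H hint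
  have key : redHom (intModel W A) hΔ' H hint ⟨σ • P, smul_mem_torsionBy σ hP⟩ =
      redHom (intModel W A) hΔ' H hint ⟨P, hP⟩ :=
    red_inertia_smul W hl hA hΔ hσ P (hint P hP)
  exact congrArg Subtype.val (hinj key)

end E4

section E3

variable (W : WeierstrassCurve ℤ) {A : ValuationSubring Qbar}

open Classical in
/-- Reduction intertwines a Frobenius element at `A` with the Frobenius endomorphism of the
reduced curve (on integral points). -/
theorem red_frob_smul {l : ℕ} [hl : Fact l.Prime] (hA : A.LiesOverPrime l)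
    (hΔ : ¬ (l : ℤ) ∣ W.Δ) {φ : Qbar ≃ₐ[ℚ] Qbar} (hφ : A.IsFrobeniusAt φ l)
    (P : ((W.map (Int.castRingHom ℚ) : Affine ℚ)⁄Qbar).Point) (hP : IsIntPt A P) :
    letI := algebraZMod hl.out hA
    pointCongr (redCurve_eq_baseChange W hA)
      (red (intModel W A) (intModel_redCurve_Δ_ne_zero W hl.out hA hΔ) (φ • P)) =
    Point.map (W' := (W.reductionMod l : Affine (ZMod l)))
      (FiniteField.frobeniusAlgHom (ZMod l) (IsLocalRing.ResidueField A))
      (pointCongr (redCurve_eq_baseChange W hA)
        (red (intModel W A) (intModel_redCurve_Δ_ne_zero W hl.out hA hΔ) P)) := by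
  let _ := algebraZMod hl.out hA
  rcases P with _ | ⟨x, y, h⟩
  · change pointCongr _ (red _ _ 0) = Point.map _ (pointCongr _ (red _ _ 0))
    rw [red_zero, pointCongr_zero, Point.map_zero]
  · obtain ⟨hx, hy⟩ := hP
    lift x to A using hx
    lift y to A using hy
    have hdec := hφ.mem_decompositionSubgroup
    have h' : ((W.map (Int.castRingHom ℚ) : Affine ℚ)⁄Qbar).Nonsingular (φ (x : Qbar)) (φ (y : Qbar)) :=
      (Affine.baseChange_nonsingular (W.map (Int.castRingHom ℚ) : Affine ℚ)
        φ.toAlgHom.injective ..).mpr h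
    have e1 : φ • (Point.some (x : Qbar) (y : Qbar) h :
        ((W.map (Int.castRingHom ℚ) : Affine ℚ)⁄Qbar).Point) = Point.some _ _ h' := rfl
    rw [e1]
    have e2 := red_some (intModel W A) (intModel_redCurve_Δ_ne_zero W hl.out hA hΔ)
      ⟨φ (x : Qbar), Fermat.Agent.S05.H38.apply_mem_of_mem_decomposition hdec x.2⟩
      ⟨φ (y : Qbar), Fermat.Agent.S05.H38.apply_mem_of_mem_decomposition hdec y.2⟩ h'
    rw [red_some, pointCongr_some]
    have e3 := congrArg (pointCongr (redCurve_eq_baseChange W hA)) e2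
    rw [pointCongr_some] at e3
    refine e3.trans ?_
    rw [Point.map_some]
    refine some_congr _ _ ?_ ?_
    · rw [residue_frob hφ x, FiniteField.frobeniusAlgHom_apply, ZMod.card]
    · rw [residue_frob hφ y, FiniteField.frobeniusAlgHom_apply, ZMod.card]

open Classical in
/-- **(E3), modulo integrality of torsion points and the operator form of Hasse–Weil on the
reduced curve**: a Frobenius element at a good prime `l` satisfies `φ² - a_l φ + l = 0` on a torsion
module all of whose points are `A`-integral. -/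
theorem frob_charpoly_of_integral {l : ℕ} [hl : Fact l.Prime] (hA : A.LiesOverPrime l)
    (hΔ : ¬ (l : ℤ) ∣ W.Δ) {m : ℕ}
    (hint : ∀ P ∈ Submodule.torsionBy ℤ ((W.map (Int.castRingHom ℚ) : Affine ℚ)⁄Qbar).Point m,
      IsIntPt A P)
    {φ : Qbar ≃ₐ[ℚ] Qbar} (hφ : A.IsFrobeniusAt φ l)
    (HW : @HasseWeilOpAt W l _ (IsLocalRing.ResidueField A) _ (Classical.decEq _)
      (algebraZMod hl.out hA))
    (P : ((W.map (Int.castRingHom ℚ) : Affine ℚ)⁄Qbar).Point)
    (hP : P ∈ Submodule.torsionBy ℤ ((W.map (Int.castRingHom ℚ) : Affine ℚ)⁄Qbar).Point m) :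
    φ • φ • P - (W.apOfModel l) • (φ • P) + (l : ℤ) • P = 0 := by
  let _ := algebraZMod hl.out hA
  let H : AddSubgroup ((W.map (Int.castRingHom ℚ) : Affine ℚ)⁄Qbar).Point :=
    (Submodule.torsionBy ℤ ((W.map (Int.castRingHom ℚ) : Affine ℚ)⁄Qbar).Point m).toAddSubgroup
  have hΔ' := intModel_redCurve_Δ_ne_zero W hl.out hA hΔ
  have hinj := redHom_injective (intModel W A) hΔ' H hint
  let g : H →+ ((W.reductionMod l : Affine (ZMod l))⁄(IsLocalRing.ResidueField A)).Point :=
    (pointCongr (redCurve_eq_baseChange W hA)).toAddMonoidHom.comp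
      (redHom (intModel W A) hΔ' H hint)
  have hg : Function.Injective g :=
    (pointCongr (redCurve_eq_baseChange W hA)).injective.comp hinj
  have hφP : φ • P ∈ H := smul_mem_torsionBy φ hP
  have hφφP : φ • φ • P ∈ H := smul_mem_torsionBy φ hφP
  have key1 : g ⟨φ • P, hφP⟩ = Point.map (W' := (W.reductionMod l : Affine (ZMod l)))
      (FiniteField.frobeniusAlgHom (ZMod l) (IsLocalRing.ResidueField A)) (g ⟨P, hP⟩) :=
    red_frob_smul W hA hΔ hφ P (hint P hP)
  have key2 : g ⟨φ • φ • P, hφφP⟩ = Point.map (W' := (W.reductionMod l : Affine (ZMod l)))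
      (FiniteField.frobeniusAlgHom (ZMod l) (IsLocalRing.ResidueField A)) (g ⟨φ • P, hφP⟩) :=
    red_frob_smul W hA hΔ hφ (φ • P) (hint _ hφP)
  have hz : g ((⟨φ • φ • P, hφφP⟩ : H) - (W.apOfModel l) • (⟨φ • P, hφP⟩ : H) +
      (l : ℤ) • (⟨P, hP⟩ : H)) = 0 := by
    rw [map_add, map_sub, map_zsmul, map_zsmul, key2, key1]
    exact HW (g ⟨P, hP⟩)
  have h0 := hg (hz.trans (map_zero g).symm)
  have := congrArg Subtype.val h0
  simpa using this

end E3

end Fermat.Agent.EC.H64
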