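import Mathlib
import Fermat.Agent.S13.H84_Struct

/-!
# Odd torsion points of order prime to the residue characteristic are integral (helper64)

`K` a field, `A : ValuationSubring K`, `WA` a Weierstrass curve over `A`, `m` odd and a unit of `A`:
every affine point of `WA.map A.subtype` killed by `m` has coordinates in `A`.
(The `x`-coordinate is a root of the division polynomial `theta`, whose leading coefficient is
`-m`, and valuation rings are integrally closed; `y` is then a root of the monic Weierstrass
equation.)
-/

set_option autoImplicit false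

namespace Fermat.Agent.EC.H64

open Polynomial WeierstrassCurve WeierstrassCurve.Affine

variable {K : Type*} [Field K]

/-- a root in `K` of a polynomial over `A` with unit leading coefficient lies in `A` -/
theorem mem_of_root_of_isUnit_leadingCoeff (A : ValuationSubring K) (p : A[X])
    (hu : IsUnit p.leadingCoeff) {x : K} (hx : (p.map A.subtype).eval x = 0) : x ∈ A := by
  obtain ⟨b, hb⟩ := isUnit_iff_exists_inv'.mp hu
  have hmonic : (C b * p).Monic := monic_C_mul_of_mul_leadingCoeff_eq_one hb
  have hint : IsIntegral A x := by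
    refine ⟨C b * p, hmonic, ?_⟩
    rw [eval₂_mul, eval₂_C]
    have : eval₂ (algebraMap A K) x p = (p.map A.subtype).eval x := by
      rw [eval_map]; rfl
    rw [this, hx, mul_zero]
  obtain ⟨y, hy⟩ := IsIntegrallyClosed.isIntegral_iff.mp hint
  rw [← hy]
  exact y.2

variable [DecidableEq K]

/-- **Integrality of torsion points.** -/
theorem mem_of_nsmul_eq_zero (A : ValuationSubring K) (WA : WeierstrassCurve A) {m : ℕ}
    (hm : Odd m) (hmA : IsUnit ((m : ℕ) : A)) {x y : K}
    (h : (WA.map A.subtype).toAffine.Nonsingular x y)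
    (hP : m • (Point.some x y h : (WA.map A.subtype).toAffine.Point) = 0) : x ∈ A ∧ y ∈ A := by
  have hx : x ∈ A := by
    have h1 := (Fermat.Agent.S13.H84.torsion_criterion_field (WA.map A.subtype) hm x y h).mp hP
    obtain ⟨j, rfl⟩ := hm
    have e : (2 * j + 1) / 2 = j := by omega
    rw [e, ← Fermat.Agent.S13.H84.map_theta] at h1
    have hne : (2 * (j : A) + 1) ≠ 0 := by
      intro h0
      have : ((2 * j + 1 : ℕ) : A) = 0 := by push_cast; exact h0
      rw [this] at hmA
      exact not_isUnit_zero hmA
    refine mem_of_root_of_isUnit_leadingCoeff A (Fermat.Agent.S13.H84.theta WA j) ?_ h1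
    rw [Fermat.Agent.S13.H84.leadingCoeff_theta WA hne]
    have : (2 * (j : A) + 1) = ((2 * j + 1 : ℕ) : A) := by push_cast; rfl
    rw [this]
    exact hmA.neg
  refine ⟨hx, ?_⟩
  lift x to A using hx
  -- `y` is a root of the monic Weierstrass equation over `A`
  have heq := h.1
  rw [Affine.equation_iff] at heq
  simp only [WeierstrassCurve.map_a₁, WeierstrassCurve.map_a₂, WeierstrassCurve.map_a₃,
    WeierstrassCurve.map_a₄, WeierstrassCurve.map_a₆, ValuationSubring.subtype_apply] at heq
  let p : A[X] := X ^ 2 + C (WA.a₁ * x + WA.a₃) * X -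
    C (x ^ 3 + WA.a₂ * x ^ 2 + WA.a₄ * x + WA.a₆)
  have hp1 : p.leadingCoeff = 1 := by
    have hdeg : (C (WA.a₁ * x + WA.a₃) * X -
        C (x ^ 3 + WA.a₂ * x ^ 2 + WA.a₄ * x + WA.a₆) : A[X]).degree < ((2 : ℕ) : WithBot ℕ) := by
      refine lt_of_le_of_lt (degree_sub_le _ _) (max_lt ?_ ?_)
      · exact lt_of_le_of_lt (degree_C_mul_X_le _) (by norm_num)
      · exact lt_of_le_of_lt degree_C_le (by norm_num)
    have : p = X ^ 2 + (C (WA.a₁ * x + WA.a₃) * X -
        C (x ^ 3 + WA.a₂ * x ^ 2 + WA.a₄ * x + WA.a₆)) := by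
      simp only [p]; ring
    rw [this]
    exact (monic_X_pow_add hdeg).leadingCoeff
  refine mem_of_root_of_isUnit_leadingCoeff A p (by rw [hp1]; exact isUnit_one) ?_
  simp only [p, Polynomial.map_sub, Polynomial.map_add, Polynomial.map_mul, Polynomial.map_pow,
    map_X, map_C, eval_sub, eval_add, eval_mul, eval_pow, eval_X, eval_C,
    ValuationSubring.subtype_apply]
  push_cast
  linear_combination heq

end Fermat.Agent.EC.H64
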