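import Mathlib
import Fermat.Agent.EC.H64_GoodRed
import Fermat.Agent.EC.H64_TorsionIntegral
import Fermat.Agent.EC.H14_ApOfModel

/-!
# (E3), (E4) of the (EC) interface of (T3) (helper28's binder shapes; helper64)

`W : WeierstrassCurve ℤ`, `E := W.map (Int.castRingHom ℚ)`,
`M_m := Submodule.torsionBy ℤ (E⁄Qbar).Point m` with the Prelude's Galois action, `m` odd,
`l` a prime of good reduction not dividing `m`, `A` a valuation subring of `Qbar` over `l`:

* `inertia_smul_eq_self` (E4): the inertia group at `A` acts trivially on `M_m`.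
* `frob_charpoly` (E3): a Frobenius element `φ` at `A` satisfies
  `φ² - (W.apOfModel l) φ + l = 0` on `M_m`.
-/

set_option autoImplicit false

namespace Fermat.Agent.EC.H64

open WeierstrassCurve WeierstrassCurve.Affine WeierstrassCurve.Affine.Point

local notation "Qbar" => AlgebraicClosure ℚ

section General

variable {K : Type*} [Field K] [DecidableEq K] {A : ValuationSubring K}
  {E : WeierstrassCurve K}

/-- Odd torsion points of order a unit of `A` are `A`-integral. -/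
theorem IntModel.isIntPt_of_nsmul_eq_zero (M : IntModel A E) {m : ℕ} (hm : Odd m)
    (hmA : IsUnit ((m : ℕ) : A)) (P : E.toAffine.Point) (hP : m • P = 0) : IsIntPt A P := by
  obtain ⟨WA, rfl⟩ := M
  rcases P with _ | ⟨x, y, h⟩
  · trivial
  · exact mem_of_nsmul_eq_zero A WA hm hmA h hP

end General

variable (W : WeierstrassCurve ℤ) {A : ValuationSubring Qbar}

/-- torsion points of odd order prime to `l` are integral at every `A` over `l` -/
theorem isIntPt_of_mem_torsionBy {l : ℕ} (hl : l.Prime) (hA : A.LiesOverPrime l) {m : ℕ}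
    (hm : Odd m) (hlm : ¬ l ∣ m) :
    ∀ P ∈ Submodule.torsionBy ℤ ((W.map (Int.castRingHom ℚ) : Affine ℚ)⁄Qbar).Point m,
      IsIntPt A P := by
  intro P hP
  rw [Submodule.mem_torsionBy_iff, natCast_zsmul] at hP
  exact (intModel W A).isIntPt_of_nsmul_eq_zero hm (isUnit_natCast hl hA hlm) P hP

/-- **(E4)**: inertia at a good prime `l` acts trivially on `M_m`, `m` odd prime to `l`. -/
theorem inertia_smul_eq_self {l : ℕ} (hl : l.Prime) (hΔ : ¬ (l : ℤ) ∣ W.Δ) {m : ℕ} (hm : Odd m)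
    (hlm : ¬ l ∣ m) (hA : A.LiesOverPrime l) {σ : Qbar ≃ₐ[ℚ] Qbar}
    (hσ : σ ∈ A.inertiaSubgroupIn ℚ)
    (P : ((W.map (Int.castRingHom ℚ) : Affine ℚ)⁄Qbar).Point)
    (hP : P ∈ Submodule.torsionBy ℤ ((W.map (Int.castRingHom ℚ) : Affine ℚ)⁄Qbar).Point m) :
    σ • P = P :=
  inertia_smul_eq_self_of_integral W hl hA hΔ (isIntPt_of_mem_torsionBy W hl hA hm hlm) hσ P hP

/-- (E4) on the torsion module itself. -/
theorem inertia_smul_eq_self' {l : ℕ} (hl : l.Prime) (hΔ : ¬ (l : ℤ) ∣ W.Δ) {m : ℕ} (hm : Odd m)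
    (hlm : ¬ l ∣ m) (hA : A.LiesOverPrime l) {σ : Qbar ≃ₐ[ℚ] Qbar}
    (hσ : σ ∈ A.inertiaSubgroupIn ℚ)
    (P : Submodule.torsionBy ℤ ((W.map (Int.castRingHom ℚ) : Affine ℚ)⁄Qbar).Point m) :
    σ • P = P :=
  Subtype.ext (inertia_smul_eq_self W hl hΔ hm hlm hA hσ P.1 P.2)

/-- the mod `m` representation of `W` is unramified at every good prime `l ∤ m` (`m` odd),
in the Prelude's `GaloisRepUnramifiedAt` shape -/
theorem galoisRepUnramifiedAt {l : ℕ} (hl : l.Prime) (hΔ : ¬ (l : ℤ) ∣ W.Δ) {m : ℕ} (hm : Odd m)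
    (hlm : ¬ l ∣ m) :
    GaloisRepUnramifiedAt ℚ Qbar (W.map (Int.castRingHom ℚ) : Affine ℚ) m l :=
  fun _ hA _ hσ P => inertia_smul_eq_self' W hl hΔ hm hlm hA hσ P

open Classical in
/-- **(E3)**: a Frobenius element at a good prime `l` satisfies `φ² - a_l φ + l = 0` on `M_m`,
`m` odd prime to `l`. -/
theorem frob_charpoly {l : ℕ} (hl : l.Prime) (hΔ : ¬ (l : ℤ) ∣ W.Δ) {m : ℕ} (hm : Odd m)
    (hlm : ¬ l ∣ m) (hA : A.LiesOverPrime l) {φ : Qbar ≃ₐ[ℚ] Qbar} (hφ : A.IsFrobeniusAt φ l)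
    (P : ((W.map (Int.castRingHom ℚ) : Affine ℚ)⁄Qbar).Point)
    (hP : P ∈ Submodule.torsionBy ℤ ((W.map (Int.castRingHom ℚ) : Affine ℚ)⁄Qbar).Point m) :
    φ • φ • P - (W.apOfModel l) • (φ • P) + (l : ℤ) • P = 0 := by
  have : Fact l.Prime := ⟨hl⟩
  refine frob_charpoly_of_integral W hA hΔ (isIntPt_of_mem_torsionBy W hl hA hm hlm) hφ ?_ P hP
  intro Q
  exact @Fermat.Agent.EC.H14.hasse_weil_apOfModel W l _ hΔ (IsLocalRing.ResidueField A) _
    (algebraZMod hl hA) (Classical.decEq _) Q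

/-- (E3) on the torsion module itself. -/
theorem frob_charpoly' {l : ℕ} (hl : l.Prime) (hΔ : ¬ (l : ℤ) ∣ W.Δ) {m : ℕ} (hm : Odd m)
    (hlm : ¬ l ∣ m) (hA : A.LiesOverPrime l) {φ : Qbar ≃ₐ[ℚ] Qbar} (hφ : A.IsFrobeniusAt φ l)
    (P : Submodule.torsionBy ℤ ((W.map (Int.castRingHom ℚ) : Affine ℚ)⁄Qbar).Point m) :
    φ • φ • P - (W.apOfModel l) • (φ • P) + (l : ℤ) • P = 0 := by
  apply Subtype.ext
  have := frob_charpoly W hl hΔ hm hlm hA hφ P.1 P.2
  simp only [Submodule.coe_add, Submodule.coe_sub, Submodule.coe_smul_of_tower,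
    Submodule.coe_zero]
  exact this

end Fermat.Agent.EC.H64
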