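import Mathlib

/-!
# The nodal cubic `y² + xy = x³` (project S58, row (EC-c'), helper76)

Over any field `k` the nonsingular points of `nodeW0 k : y² + xy = x³` (Mathlib's group law covers
the nonsingular points of singular Weierstrass curves) are parametrised by `kˣ`:
`t ↦ (t/(1-t)², t²/(1-t)³)`, `1 ↦ O`, and this is an injective group homomorphism
(`nodePsi_mul`, `nodePsi_eq_zero_iff`).  Consequently, over a separably closed field, there is a
point of exact order `m` for every `m` invertible in `k` (`exists_addOrderOf_nodeW0`).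
-/

set_option autoImplicit false

namespace Fermat.Agent.EC.H76

open WeierstrassCurve WeierstrassCurve.Affine

variable {k : Type*} [Field k]

/-- the nodal cubic `y² + xy = x³` -/
def nodeW0 (k : Type*) [Field k] : WeierstrassCurve k := ⟨1, 0, 0, 0, 0⟩

@[simp] lemma nodeW0_a₁ : (nodeW0 k).a₁ = 1 := rfl
@[simp] lemma nodeW0_a₂ : (nodeW0 k).a₂ = 0 := rfl
@[simp] lemma nodeW0_a₃ : (nodeW0 k).a₃ = 0 := rfl
@[simp] lemma nodeW0_a₄ : (nodeW0 k).a₄ = 0 := rfl
@[simp] lemma nodeW0_a₆ : (nodeW0 k).a₆ = 0 := rfl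

/-- abscissa of the point with parameter `t` -/
noncomputable def nX (t : k) : k := t / (1 - t) ^ 2
/-- ordinate of the point with parameter `t` -/
noncomputable def nY (t : k) : k := t ^ 2 / (1 - t) ^ 3

lemma nodeW0_equation_iff (x y : k) :
    (nodeW0 k).toAffine.Equation x y ↔ y ^ 2 + x * y = x ^ 3 := by
  rw [Affine.equation_iff]; simp

lemma nodeW0_negY (x y : k) : (nodeW0 k).toAffine.negY x y = -y - x := by
  simp [Affine.negY]

lemma nodeW0_nonsingular {t : k} (ht0 : t ≠ 0) (ht1 : t ≠ 1) :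
    (nodeW0 k).toAffine.Nonsingular (nX t) (nY t) := by
  have h1 : (1 - t) ≠ 0 := sub_ne_zero.mpr (Ne.symm ht1)
  rw [Affine.nonsingular_iff', nodeW0_equation_iff]
  refine ⟨by simp only [nX, nY]; field_simp; ring, ?_⟩
  simp only [nodeW0_a₁, nodeW0_a₂, nodeW0_a₃, nodeW0_a₄, nX, nY]
  by_contra hcon
  simp only [not_or, ne_eq, not_not] at hcon
  obtain ⟨hA, hB⟩ := hcon
  have hA' : t ^ 2 * (1 - t) - 3 * t ^ 2 = 0 := by
    have := hA
    field_simp at this
    linear_combination this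
  have hB' : 2 * t ^ 2 + t * (1 - t) = 0 := by
    have := hB
    field_simp at this
    linear_combination this
  have e1 : t + 1 = 0 := by
    have : t * (t + 1) = 0 := by linear_combination hB'
    rcases mul_eq_zero.mp this with h | h
    · exact absurd h ht0
    · exact h
  have e2 : t + 2 = 0 := by
    have : t ^ 2 * (t + 2) = 0 := by linear_combination -hA'
    rcases mul_eq_zero.mp this with h | h
    · exact absurd ((pow_eq_zero_iff two_ne_zero).mp h) ht0
    · exact h
  have : (1 : k) = 0 := by linear_combination e2 - e1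
  exact one_ne_zero this

lemma nX_eq_iff {s t : k} (hs1 : s ≠ 1) (ht1 : t ≠ 1) :
    nX s = nX t ↔ s = t ∨ s * t = 1 := by
  have h1 : (1 - s) ≠ 0 := sub_ne_zero.mpr (Ne.symm hs1)
  have h2 : (1 - t) ≠ 0 := sub_ne_zero.mpr (Ne.symm ht1)
  simp only [nX]
  rw [div_eq_div_iff (pow_ne_zero 2 h1) (pow_ne_zero 2 h2)]
  constructor
  · intro h
    have : (s - t) * (1 - s * t) = 0 := by linear_combination h
    rcases mul_eq_zero.mp this with h | h
    · left; exact sub_eq_zero.mp h
    · right; exact (sub_eq_zero.mp h).symm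
  · rintro (h | h)
    · rw [h]
    · have : (s - t) * (1 - s * t) = 0 := by rw [h]; ring
      linear_combination this

/-- `P(1/t) = -P(t)` -/
lemma nY_inv {s t : k} (hs1 : s ≠ 1) (ht1 : t ≠ 1) (hst : s * t = 1) :
    nY s = -nY t - nX t := by
  have h1 : (1 - s) ≠ 0 := sub_ne_zero.mpr (Ne.symm hs1)
  have h2 : (1 - t) ≠ 0 := sub_ne_zero.mpr (Ne.symm ht1)
  have hs0 : s ≠ 0 := fun h => by rw [h, zero_mul] at hst; exact zero_ne_one hst
  have ht : t = s⁻¹ := eq_inv_of_mul_eq_one_right hst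
  have h2' : (1 - s⁻¹) ≠ 0 := ht ▸ h2
  have h3 : s - 1 ≠ 0 := sub_ne_zero.mpr hs1
  subst ht
  simp only [nX, nY]
  have e : (1 - s⁻¹) = (s - 1) / s := by field_simp
  rw [e]
  field_simp
  ring

/-- generic slope in closed form -/
lemma slope_generic {s t : k} (hs1 : s ≠ 1) (ht1 : t ≠ 1) (hst : s ≠ t) (hst1 : s * t ≠ 1) :
    (nY s - nY t) / (nX s - nX t) =
      (s + t - 3 * s * t + s ^ 2 * t ^ 2) / ((1 - s * t) * (1 - s) * (1 - t)) := by
  have h1 : (1 - s) ≠ 0 := sub_ne_zero.mpr (Ne.symm hs1)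
  have h2 : (1 - t) ≠ 0 := sub_ne_zero.mpr (Ne.symm ht1)
  have h3 : (1 - s * t) ≠ 0 := sub_ne_zero.mpr (Ne.symm hst1)
  have h4 : s - t ≠ 0 := sub_ne_zero.mpr hst
  have hx : nX s - nX t = (s - t) * (1 - s * t) / ((1 - s) ^ 2 * (1 - t) ^ 2) := by
    simp only [nX]; field_simp; ring
  have hy : nY s - nY t = (s - t) * (s + t - 3 * s * t + s ^ 2 * t ^ 2) /
      ((1 - s) ^ 3 * (1 - t) ^ 3) := by
    simp only [nY]; field_simp; ring
  rw [hx, hy]
  field_simp

/-- tangent slope in closed form -/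
lemma slope_tangent {s : k} (hs0 : s ≠ 0) (hs1 : s ≠ 1) (hs2 : s * s ≠ 1) :
    (3 * nX s ^ 2 + 2 * 0 * nX s + 0 - 1 * nY s) / (nY s - (-nY s - nX s)) =
      (s + s - 3 * s * s + s ^ 2 * s ^ 2) / ((1 - s * s) * (1 - s) * (1 - s)) := by
  have h1 : (1 - s) ≠ 0 := sub_ne_zero.mpr (Ne.symm hs1)
  have h3 : (1 - s * s) ≠ 0 := sub_ne_zero.mpr (Ne.symm hs2)
  have h5 : (1 + s) ≠ 0 := by
    intro h
    apply h3
    have : 1 - s * s = (1 - s) * (1 + s) := by ring
    rw [this, h, mul_zero]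
  have hd : nY s - (-nY s - nX s) = s * (1 + s) / (1 - s) ^ 3 := by
    simp only [nX, nY]; field_simp; ring
  have hn : 3 * nX s ^ 2 + 2 * 0 * nX s + 0 - 1 * nY s = s ^ 2 * (2 + s) / (1 - s) ^ 4 := by
    simp only [nX, nY]; field_simp; ring
  have e3 : (1 - s * s) = (1 - s) * (1 + s) := by ring
  rw [hd, hn, e3]
  field_simp
  ring

/-- sum formula, abscissa -/
lemma addX_generic {s t : k} (hs1 : s ≠ 1) (ht1 : t ≠ 1) (hst1 : s * t ≠ 1) :
    (nodeW0 k).toAffine.addX (nX s) (nX t)
      ((s + t - 3 * s * t + s ^ 2 * t ^ 2) / ((1 - s * t) * (1 - s) * (1 - t))) = nX (s * t) := by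
  have h1 : (1 - s) ≠ 0 := sub_ne_zero.mpr (Ne.symm hs1)
  have h2 : (1 - t) ≠ 0 := sub_ne_zero.mpr (Ne.symm ht1)
  have h3 : (1 - s * t) ≠ 0 := sub_ne_zero.mpr (Ne.symm hst1)
  simp only [Affine.addX, nodeW0_a₁, nodeW0_a₂, nX]
  field_simp
  ring

/-- sum formula, ordinate -/
lemma addY_generic {s t : k} (hs1 : s ≠ 1) (ht1 : t ≠ 1) (hst1 : s * t ≠ 1) :
    (nodeW0 k).toAffine.addY (nX s) (nX t) (nY s)
      ((s + t - 3 * s * t + s ^ 2 * t ^ 2) / ((1 - s * t) * (1 - s) * (1 - t))) = nY (s * t) := by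
  have h1 : (1 - s) ≠ 0 := sub_ne_zero.mpr (Ne.symm hs1)
  have h2 : (1 - t) ≠ 0 := sub_ne_zero.mpr (Ne.symm ht1)
  have h3 : (1 - s * t) ≠ 0 := sub_ne_zero.mpr (Ne.symm hst1)
  rw [Affine.addY, Affine.negAddY, addX_generic hs1 ht1 hst1, nodeW0_negY]
  simp only [nX, nY]
  field_simp
  ring

variable [DecidableEq k]

/-- the parametrisation `kˣ → E_ns(k)` of the nodal cubic -/
noncomputable def nodePsi (t : kˣ) : (nodeW0 k).toAffine.Point :=
  if h : (t : k) = 1 then 0 else Point.some (nX (t : k)) (nY (t : k)) (nodeW0_nonsingular t.ne_zero h)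

lemma nodePsi_one : nodePsi (1 : kˣ) = 0 := by
  simp [nodePsi]

lemma nodePsi_of_ne {t : kˣ} (h : (t : k) ≠ 1) :
    nodePsi t = Point.some (nX (t : k)) (nY (t : k)) (nodeW0_nonsingular t.ne_zero h) := by
  simp [nodePsi, h]

lemma nodePsi_eq_zero_iff (t : kˣ) : nodePsi t = 0 ↔ t = 1 := by
  constructor
  · intro h
    by_contra h1
    have h1' : (t : k) ≠ 1 := fun e => h1 (Units.ext e)
    rw [nodePsi_of_ne h1'] at h
    exact Point.some_ne_zero _ h
  · rintro rfl; exact nodePsi_one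

theorem nodePsi_mul (s t : kˣ) : nodePsi (s * t) = nodePsi s + nodePsi t := by
  by_cases hs : (s : k) = 1
  · have : s = 1 := Units.ext hs
    rw [this, one_mul, nodePsi_one, zero_add]
  by_cases ht : (t : k) = 1
  · have : t = 1 := Units.ext ht
    rw [this, mul_one, nodePsi_one, add_zero]
  rw [nodePsi_of_ne hs, nodePsi_of_ne ht]
  by_cases hst : (s : k) * (t : k) = 1
  · have : s * t = 1 := Units.ext (by simpa using hst)
    rw [this, nodePsi_one]
    symm
    apply Point.add_of_Y_eq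
    · exact (nX_eq_iff hs ht).mpr (Or.inr hst)
    · rw [nodeW0_negY]; exact nY_inv hs ht hst
  have hst' : ((s * t : kˣ) : k) ≠ 1 := by simpa using hst
  rw [nodePsi_of_ne hst']
  by_cases he : (s : k) = (t : k)
  · -- doubling
    have hst2 : (s : k) * (s : k) ≠ 1 := by rw [he]; rw [he] at hst; exact hst
    have hy : nY (s : k) ≠ (nodeW0 k).toAffine.negY (nX (s : k)) (nY (s : k)) := by
      rw [nodeW0_negY]
      intro h
      have h1 : (1 - (s : k)) ≠ 0 := sub_ne_zero.mpr (Ne.symm hs)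
      have hd : nY (s : k) - (-nY (s : k) - nX (s : k)) = s * (1 + s) / (1 - (s : k)) ^ 3 := by
        simp only [nX, nY]; field_simp; ring
      have h0 : (s : k) * (1 + s) / (1 - (s : k)) ^ 3 = 0 := by rw [← hd, ← h]; ring
      rw [div_eq_zero_iff] at h0
      rcases h0 with h0 | h0
      · rcases mul_eq_zero.mp h0 with h0 | h0
        · exact s.ne_zero h0
        · apply hst2
          have : (s : k) = -1 := by linear_combination h0
          rw [this]; ring
      · exact pow_ne_zero 3 h1 h0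
    have hts : t = s := Units.ext he.symm
    subst hts
    rw [Point.add_self_of_Y_ne hy]
    congr 1
    · rw [Affine.slope_of_Y_ne rfl hy, nodeW0_negY]
      simp only [nodeW0_a₁, nodeW0_a₂, nodeW0_a₄]
      rw [slope_tangent t.ne_zero hs hst2, addX_generic hs hs hst2]
      simp
    · rw [Affine.slope_of_Y_ne rfl hy, nodeW0_negY]
      simp only [nodeW0_a₁, nodeW0_a₂, nodeW0_a₄]
      rw [slope_tangent t.ne_zero hs hst2, addY_generic hs hs hst2]
      simp
  · have hx : nX (s : k) ≠ nX (t : k) := by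
      rw [Ne, nX_eq_iff hs ht]
      rintro (h | h)
      · exact he h
      · exact hst h
    rw [Point.add_of_X_ne hx]
    congr 1
    · rw [Affine.slope_of_X_ne hx, slope_generic hs ht he hst, addX_generic hs ht hst]
      simp
    · rw [Affine.slope_of_X_ne hx, slope_generic hs ht he hst, addY_generic hs ht hst]
      simp

/-- the parametrisation as a monoid homomorphism into `Multiplicative (Point)` -/
noncomputable def nodePsiHom : kˣ →* Multiplicative (nodeW0 k).toAffine.Point where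
  toFun t := Multiplicative.ofAdd (nodePsi t)
  map_one' := by rw [nodePsi_one]; rfl
  map_mul' s t := by rw [nodePsi_mul]; rfl

lemma nodePsiHom_injective : Function.Injective (nodePsiHom (k := k)) := by
  rw [injective_iff_map_eq_one]
  intro t ht
  have : nodePsi t = 0 := ht
  exact (nodePsi_eq_zero_iff t).mp this

lemma addOrderOf_nodePsi (t : kˣ) : addOrderOf (nodePsi t) = orderOf t := by
  have h := orderOf_injective (nodePsiHom (k := k)) nodePsiHom_injective t
  rw [← h]
  exact (orderOf_ofAdd_eq_addOrderOf (nodePsi t)).symm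

/-- **a point of exact order `m` on the nodal cubic**, `k` separably closed, `m` invertible -/
theorem exists_addOrderOf_nodeW0 [IsSepClosed k] (m : ℕ) (hm : (m : k) ≠ 0) :
    ∃ P : (nodeW0 k).toAffine.Point, addOrderOf P = m := by
  have : NeZero (m : k) := ⟨hm⟩
  obtain ⟨ζ, hζ⟩ := HasEnoughRootsOfUnity.exists_primitiveRoot k m
  have hm0 : m ≠ 0 := by rintro rfl; exact hm (by simp)
  have hζ0 : ζ ≠ 0 := hζ.ne_zero hm0
  refine ⟨nodePsi (Units.mk0 ζ hζ0), ?_⟩
  rw [addOrderOf_nodePsi]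
  have h1 : orderOf (Units.mk0 ζ hζ0) = orderOf ζ := by
    rw [← orderOf_units]; rfl
  rw [h1, ← hζ.eq_orderOf]

end Fermat.Agent.EC.H76
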