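import Mathlib
import Fermat.Agent.S05.H79_VarChange
import Fermat.Agent.EC.H76_NodeParam

/-!
# Nodal Weierstrass curves over an algebraically closed field (project S58, row (EC-c'), helper76)

`k` algebraically closed, `W : WeierstrassCurve k` with `Δ = 0` and `c₄ ≠ 0` (ANY characteristic).
Then there is a `VariableChange` taking `W` to `y² + xy = x³` (`exists_variableChange_nodeW0`);
the singular point is `x₀ = (18 b₆ - b₂ b₄)/c₄`,
`y₀ = (-3 a₁ x₀² - 6 a₃ x₀ + a₁ a₄ - 2 a₂ a₃)/(b₂ + 12 x₀)`.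
Consequently `W` has a nonsingular point of exact order `m` for every `m` invertible in `k`
(`exists_addOrderOf_of_node`).
-/

set_option autoImplicit false

namespace Fermat.Agent.EC.H76

open WeierstrassCurve Polynomial

variable {k : Type*} [Field k]

section identities

variable (W : WeierstrassCurve k)

lemma node_key_identity :
    6 * (18 * W.b₆ - W.b₂ * W.b₄) ^ 2 + W.b₂ * (18 * W.b₆ - W.b₂ * W.b₄) * W.c₄
      + W.b₄ * W.c₄ ^ 2 = -72 * W.Δ := by
  simp only [WeierstrassCurve.Δ, WeierstrassCurve.c₄, WeierstrassCurve.b₂, WeierstrassCurve.b₄,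
    WeierstrassCurve.b₆, WeierstrassCurve.b₈]
  ring

/-- abscissa of the singular point -/
noncomputable def nodeX : k := (18 * W.b₆ - W.b₂ * W.b₄) / W.c₄

/-- ordinate of the singular point -/
noncomputable def nodeY : k :=
  (-3 * W.a₁ * nodeX W ^ 2 - 6 * W.a₃ * nodeX W + W.a₁ * W.a₄ - 2 * W.a₂ * W.a₃) /
    (W.b₂ + 12 * nodeX W)

variable {W}

lemma nodeX_quadratic (hΔ : W.Δ = 0) (hc : W.c₄ ≠ 0) :
    6 * nodeX W ^ 2 + W.b₂ * nodeX W + W.b₄ = 0 := by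
  have h := node_key_identity W
  rw [hΔ, mul_zero] at h
  have h2 : (6 * nodeX W ^ 2 + W.b₂ * nodeX W + W.b₄) * W.c₄ ^ 2 = 0 := by
    rw [← h, nodeX]
    field_simp
  rcases mul_eq_zero.mp h2 with h3 | h3
  · exact h3
  · exact absurd (pow_eq_zero_iff two_ne_zero |>.mp h3) hc

lemma nodeD_sq (hΔ : W.Δ = 0) (hc : W.c₄ ≠ 0) : (W.b₂ + 12 * nodeX W) ^ 2 = W.c₄ := by
  have h := nodeX_quadratic hΔ hc
  have hc4 : W.c₄ = W.b₂ ^ 2 - 24 * W.b₄ := rfl
  rw [hc4]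
  linear_combination 24 * h

lemma nodeD_ne_zero (hΔ : W.Δ = 0) (hc : W.c₄ ≠ 0) : W.b₂ + 12 * nodeX W ≠ 0 := by
  intro h
  apply hc
  rw [← nodeD_sq hΔ hc, h]
  ring

lemma nodeY_mul (hΔ : W.Δ = 0) (hc : W.c₄ ≠ 0) :
    nodeY W * (W.b₂ + 12 * nodeX W) =
      -3 * W.a₁ * nodeX W ^ 2 - 6 * W.a₃ * nodeX W + W.a₁ * W.a₄ - 2 * W.a₂ * W.a₃ :=
  div_mul_cancel₀ _ (nodeD_ne_zero hΔ hc)

/-- `∂F/∂y` vanishes at the singular point -/
lemma node_dy (hΔ : W.Δ = 0) (hc : W.c₄ ≠ 0) :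
    W.a₃ + nodeX W * W.a₁ + 2 * nodeY W = 0 := by
  have hD := nodeD_ne_zero hΔ hc
  have h := nodeX_quadratic hΔ hc
  have hy := nodeY_mul hΔ hc
  have hb2 : W.b₂ = W.a₁ ^ 2 + 4 * W.a₂ := rfl
  have hb4 : W.b₄ = 2 * W.a₄ + W.a₁ * W.a₃ := rfl
  have e : (W.a₃ + nodeX W * W.a₁ + 2 * nodeY W) * (W.b₂ + 12 * nodeX W) = 0 := by
    rw [hb2, hb4] at h
    rw [hb2] at hy ⊢
    linear_combination W.a₁ * h + 2 * hy
  rcases mul_eq_zero.mp e with h3 | h3
  · exact h3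
  · exact absurd h3 hD

/-- `∂F/∂x` vanishes at the singular point -/
lemma node_dx (hΔ : W.Δ = 0) (hc : W.c₄ ≠ 0) :
    W.a₁ * nodeY W - 3 * nodeX W ^ 2 - 2 * W.a₂ * nodeX W - W.a₄ = 0 := by
  have hD := nodeD_ne_zero hΔ hc
  have h := nodeX_quadratic hΔ hc
  have hy := nodeY_mul hΔ hc
  have hb2 : W.b₂ = W.a₁ ^ 2 + 4 * W.a₂ := rfl
  have hb4 : W.b₄ = 2 * W.a₄ + W.a₁ * W.a₃ := rfl
  have e : (W.a₁ * nodeY W - 3 * nodeX W ^ 2 - 2 * W.a₂ * nodeX W - W.a₄) *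
      (W.b₂ + 12 * nodeX W) = 0 := by
    rw [hb2, hb4] at h
    rw [hb2] at hy ⊢
    linear_combination (-(6 * nodeX W + 2 * W.a₂)) * h + W.a₁ * hy
  rcases mul_eq_zero.mp e with h3 | h3
  · exact h3
  · exact absurd h3 hD

end identities

section normal

variable [IsAlgClosed k] (W : WeierstrassCurve k)

/-- **normal form of a nodal cubic** over an algebraically closed field -/
theorem exists_variableChange_nodeW0 (hΔ : W.Δ = 0) (hc : W.c₄ ≠ 0) :
    ∃ C : VariableChange k, C • W = nodeW0 k := by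
  -- the shear parameter
  set p : k[X] := X ^ 2 + C W.a₁ * X - C (W.a₂ + 3 * nodeX W) with hp
  have hdeg : p.degree ≠ 0 := by
    have : p.natDegree = 2 := by rw [hp]; compute_degree!
    intro h0
    have := natDegree_eq_of_degree_eq_some (n := 0) (by simpa using h0)
    omega
  obtain ⟨s, hs⟩ := IsAlgClosed.exists_root p hdeg
  have hs' : s ^ 2 + W.a₁ * s - (W.a₂ + 3 * nodeX W) = 0 := by
    have : p.eval s = 0 := hs
    simpa [hp] using this
  set C₁ : VariableChange k := ⟨1, nodeX W, s, nodeY W⟩ with hC₁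
  set W₁ := C₁ • W with hW₁
  have hdy := node_dy hΔ hc
  have hdx := node_dx hΔ hc
  have ha₂ : W₁.a₂ = 0 := by
    rw [hW₁, variableChange_a₂]
    simp only [hC₁, inv_one, Units.val_one, one_pow, one_mul]
    linear_combination -hs'
  have ha₃ : W₁.a₃ = 0 := by
    rw [hW₁, variableChange_a₃]
    simp only [hC₁, inv_one, Units.val_one, one_pow, one_mul]
    exact hdy
  have ha₄ : W₁.a₄ = 0 := by
    rw [hW₁, variableChange_a₄]
    simp only [hC₁, inv_one, Units.val_one, one_pow, one_mul]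
    linear_combination -hdx - s * hdy
  have hΔ₁ : W₁.Δ = 0 := by
    rw [hW₁, variableChange_Δ, hΔ, mul_zero]
  have hc₁ : W₁.c₄ = W.c₄ := by
    rw [hW₁, variableChange_c₄]
    simp [hC₁]
  -- the invariant `N = 18 b₆ - b₂ b₄` vanishes after the translation
  have hN₁ : 18 * W₁.b₆ - W₁.b₂ * W₁.b₄ = 0 := by
    rw [hW₁, variableChange_b₂, variableChange_b₄, variableChange_b₆]
    simp only [hC₁, inv_one, Units.val_one, one_pow, one_mul]
    have hx : nodeX W * W.c₄ = 18 * W.b₆ - W.b₂ * W.b₄ := by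
      rw [nodeX]; field_simp
    have hc4 : W.c₄ = W.b₂ ^ 2 - 24 * W.b₄ := rfl
    rw [hc4] at hx
    linear_combination -hx
  -- so `72 a₆ = 0`
  have h72 : 72 * W₁.a₆ = 0 := by
    have : 18 * W₁.b₆ - W₁.b₂ * W₁.b₄ = 72 * W₁.a₆ := by
      simp only [WeierstrassCurve.b₂, WeierstrassCurve.b₄, WeierstrassCurve.b₆, ha₃, ha₄]
      ring
    rw [← this]; exact hN₁
  have hc₁' : W₁.c₄ = W₁.a₁ ^ 4 := by
    simp only [WeierstrassCurve.c₄, WeierstrassCurve.b₂, WeierstrassCurve.b₄, ha₂, ha₃, ha₄]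
    ring
  have hu : W₁.a₁ ≠ 0 := by
    intro h0
    apply hc
    rw [← hc₁, hc₁', h0]
    ring
  have ha₆ : W₁.a₆ = 0 := by
    have hΔ' : W₁.Δ = -W₁.a₆ * W₁.a₁ ^ 6 - 6 * (72 * W₁.a₆) * W₁.a₆ := by
      simp only [WeierstrassCurve.Δ, WeierstrassCurve.b₂, WeierstrassCurve.b₄,
        WeierstrassCurve.b₆, WeierstrassCurve.b₈, ha₂, ha₃, ha₄]
      ring
    rw [h72, hΔ₁] at hΔ'
    have : W₁.a₆ * W₁.a₁ ^ 6 = 0 := by linear_combination hΔ'
    rcases mul_eq_zero.mp this with h | h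
    · exact h
    · exact absurd (pow_eq_zero_iff (by norm_num) |>.mp h) hu
  set C₂ : VariableChange k := ⟨Units.mk0 W₁.a₁ hu, 0, 0, 0⟩ with hC₂
  refine ⟨C₂ * C₁, ?_⟩
  rw [mul_smul, ← hW₁]
  ext
  · rw [variableChange_a₁]
    simp only [hC₂, Units.val_inv_eq_inv_val, Units.val_mk0, nodeW0_a₁]
    field_simp
    ring
  · rw [variableChange_a₂]
    simp only [hC₂, ha₂, nodeW0_a₂]
    ring
  · rw [variableChange_a₃]
    simp only [hC₂, ha₃, nodeW0_a₃]
    ring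
  · rw [variableChange_a₄]
    simp only [hC₂, ha₃, ha₄, ha₂, nodeW0_a₄]
    ring
  · rw [variableChange_a₆]
    simp only [hC₂, ha₃, ha₄, ha₂, ha₆, nodeW0_a₆]
    ring

variable [DecidableEq k]

/-- the nonsingular points of a nodal cubic form a copy of those of `y² + xy = x³` -/
theorem nonempty_addEquiv_nodeW0 (hΔ : W.Δ = 0) (hc : W.c₄ ≠ 0) :
    Nonempty ((nodeW0 k).toAffine.Point ≃+ W.toAffine.Point) := by
  obtain ⟨C, hC⟩ := exists_variableChange_nodeW0 W hΔ hc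
  exact ⟨(Fermat.Agent.S05.H79.pointCongr hC.symm).trans (Fermat.Agent.S05.H79.pointEquiv W C)⟩

/-- **a nonsingular point of exact order `m` on a nodal cubic**, `m` invertible in `k` -/
theorem exists_addOrderOf_of_node (hΔ : W.Δ = 0) (hc : W.c₄ ≠ 0) (m : ℕ) (hm : (m : k) ≠ 0) :
    ∃ P : W.toAffine.Point, addOrderOf P = m := by
  obtain ⟨e⟩ := nonempty_addEquiv_nodeW0 W hΔ hc
  obtain ⟨P, hP⟩ := exists_addOrderOf_nodeW0 (k := k) m hm
  exact ⟨e P, by rw [AddEquiv.addOrderOf_eq, hP]⟩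

end normal

end Fermat.Agent.EC.H76
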