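import Mathlib
import Fermat.Agent.S13.H84_Struct
import Fermat.Agent.S13.H46_StructExport
import Fermat.Agent.S13.H89_GF3
import Fermat.Agent.S18.H45_StrictDVRResidue
import Fermat.Agent.EC.H76_NodeNormal

/-!
# Lifting a point of exact order `m` from a nodal special fibre (project S58, row (EC-c'), helper76)

`K` algebraically closed, `A : ValuationSubring K`, `WA : WeierstrassCurve A` whose reduction is a
nodal cubic (`Δ = 0`, `c₄ ≠ 0` in the residue field) and whose generic fibre is elliptic.  For `m`
odd, `m ≠ 1`, invertible in the residue field, `exists_torsion_lift` produces an integral point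
`(x, y)` of the generic fibre of exact order `m` with nonsingular reduction.

Route: a point of exact order `m` on the special fibre (`exists_addOrderOf_of_node`), the torsion
criterion `m • P = 0 ↔ θ_m(x(P)) = 0` of `S13.H84` on both fibres, and the lifting of roots of a
polynomial with unit leading coefficient (`exists_root_close`).
-/

set_option autoImplicit false

namespace Fermat.Agent.EC.H76

open WeierstrassCurve WeierstrassCurve.Affine Polynomial IsLocalRing
open Fermat.Agent.S13

section lift

variable {K : Type*} [Field K] [IsAlgClosed K] (A : ValuationSubring K)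

/-- a polynomial with unit leading coefficient which is small at `a` has a root close to `a` -/
lemma exists_root_close (p : K[X]) (hlc : A.valuation p.leadingCoeff = 1) (a : K)
    (ha : A.valuation (p.eval a) < 1) : ∃ r, p.IsRoot r ∧ A.valuation (a - r) < 1 := by
  have hp0 : p ≠ 0 := by
    rintro rfl
    simp at hlc
  by_contra hcon
  have hcon' : ∀ r, p.IsRoot r → (1 : A.ValueGroup) ≤ A.valuation (a - r) := by
    intro r hr
    by_contra h
    exact hcon ⟨r, hr, not_le.mp h⟩
  have h1 := (IsAlgClosed.splits p).eval_eq_prod_roots a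
  rw [h1, map_mul, hlc, one_mul, map_multiset_prod, Multiset.map_map] at ha
  have : (1 : A.ValueGroup) ≤ (Multiset.map (⇑A.valuation ∘ fun r => a - r) p.roots).prod := by
    apply Multiset.one_le_prod_of_one_le
    intro x hx
    obtain ⟨r, hr, rfl⟩ := Multiset.mem_map.mp hx
    exact hcon' r ((mem_roots hp0).mp hr)
  exact absurd ha (not_lt.mpr this)

lemma residue_eq_zero_iff_val_lt (a : A) : residue A a = 0 ↔ A.valuation (a : K) < 1 := by
  rw [residue_eq_zero_iff, ValuationSubring.valuation_lt_one_iff]

lemma residue_ne_zero_iff_val_eq (a : A) : residue A a ≠ 0 ↔ A.valuation (a : K) = 1 := by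
  rw [Ne, residue_eq_zero_iff_val_lt]
  constructor
  · intro h
    exact le_antisymm (A.valuation_le_one a) (not_lt.mp h)
  · intro h; rw [h]; exact lt_irrefl _

end lift

section main

variable {K : Type*} [Field K] [IsAlgClosed K] [DecidableEq K] (A : ValuationSubring K)
  (WA : WeierstrassCurve A)

/-- **lifting a point of exact order `m` from a nodal special fibre** -/
theorem exists_torsion_lift
    (hΔ : (WA.map A.subtype).Δ ≠ 0)
    (hΔk : (WA.map (residue A)).Δ = 0) (hck : (WA.map (residue A)).c₄ ≠ 0)
    {m : ℕ} (hm : Odd m) (hm1 : m ≠ 1) (hmk : ((m : ℕ) : ResidueField A) ≠ 0) :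
    ∃ (x y : K) (h : (WA.map A.subtype).toAffine.Nonsingular x y),
      addOrderOf (Point.some x y h) = m ∧ A.valuation x ≤ 1 ∧ A.valuation y ≤ 1 ∧
      (A.valuation (2 * y + (WA.map A.subtype).a₁ * x + (WA.map A.subtype).a₃) = 1 ∨
        A.valuation (3 * x ^ 2 + 2 * (WA.map A.subtype).a₂ * x + (WA.map A.subtype).a₄
          - (WA.map A.subtype).a₁ * y) = 1) := by
  classical
  haveI : IsAlgClosed (ResidueField A) := S18.H45.isAlgClosed_residueField_of_isAlgClosed A
  set W := WA.map A.subtype with hW
  set Wk := WA.map (residue A) with hWk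
  have hinj : Function.Injective A.subtype := Subtype.val_injective
  -- the point on the special fibre
  obtain ⟨Pb, hPb⟩ := exists_addOrderOf_of_node Wk hΔk hck m hmk
  have hPb0 : Pb ≠ 0 := by
    rintro rfl
    rw [addOrderOf_zero] at hPb
    exact hm1 hPb.symm
  obtain ⟨xb, yb, hb, rfl⟩ := Fermat.Agent.S05.H67.exists_of_ne_zero Wk hPb0
  have hmPb : m • Point.some xb yb hb = 0 := by rw [← hPb]; exact addOrderOf_nsmul_eq_zero _
  have hθb : (H84.theta Wk (m / 2)).eval xb = 0 :=
    (H84.torsion_criterion_field Wk hm xb yb hb).mp hmPb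
  -- lift the abscissa
  obtain ⟨x0, rfl⟩ := residue_surjective xb
  have hθmap : (H84.theta WA (m / 2)).map (residue A) = H84.theta Wk (m / 2) := H84.map_theta WA _ _
  have hθmapK : (H84.theta WA (m / 2)).map A.subtype = H84.theta W (m / 2) := H84.map_theta WA _ _
  have hsmall : A.valuation ((H84.theta W (m / 2)).eval (x0 : K)) < 1 := by
    have e1 : (H84.theta W (m / 2)).eval (x0 : K) = (((H84.theta WA (m / 2)).eval x0 : A) : K) := by
      rw [← hθmapK]
      exact (Polynomial.eval_map_apply (f := A.subtype) (p := H84.theta WA (m / 2)) x0)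
    rw [e1, ← residue_eq_zero_iff_val_lt]
    rw [← Polynomial.eval_map_apply, hθmap]
    exact hθb
  -- `m` is a unit of `A`
  have hmA : A.valuation ((m : ℕ) : K) = 1 := by
    have : residue A ((m : ℕ) : A) ≠ 0 := by rwa [map_natCast]
    have h2 := (residue_ne_zero_iff_val_eq A _).mp this
    simpa using h2
  have hmK : ((m : ℕ) : K) ≠ 0 := by
    intro h0; rw [h0, map_zero] at hmA; exact zero_ne_one hmA
  obtain ⟨j, hj⟩ := hm
  have hj2 : m / 2 = j := by omega
  have hlcK : (2 * (j : K) + 1) ≠ 0 := by
    have : ((m : ℕ) : K) = 2 * (j : K) + 1 := by rw [hj]; push_cast; ring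
    rwa [← this]
  have hlc : A.valuation (H84.theta W (m / 2)).leadingCoeff = 1 := by
    rw [hj2, H84.leadingCoeff_theta W hlcK, Valuation.map_neg]
    have : ((m : ℕ) : K) = 2 * (j : K) + 1 := by rw [hj]; push_cast; ring
    rw [← this]; exact hmA
  obtain ⟨x1, hx1root, hx1close⟩ := exists_root_close A _ hlc (x0 : K) hsmall
  have hx1A : A.valuation x1 ≤ 1 := by
    have : x1 = (x0 : K) - ((x0 : K) - x1) := by ring
    rw [this]
    exact le_trans (A.valuation.map_sub _ _) (max_le (A.valuation_le_one x0) hx1close.le)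
  have hx1mem : x1 ∈ A := (A.valuation_le_one_iff x1).mp hx1A
  -- the point of the generic fibre
  obtain ⟨P, hP0, hPx⟩ := H46.exists_point_of_xCoord W hΔ x1
  obtain ⟨x, y, h, rfl⟩ := Fermat.Agent.S05.H67.exists_of_ne_zero W hP0
  rw [Fermat.Agent.S05.H67.xCoord_some] at hPx
  subst hPx
  have ha₁ : A.valuation W.a₁ ≤ 1 := by rw [hW]; exact A.valuation_le_one _
  have ha₂ : A.valuation W.a₂ ≤ 1 := by rw [hW]; exact A.valuation_le_one _
  have ha₃ : A.valuation W.a₃ ≤ 1 := by rw [hW]; exact A.valuation_le_one _
  have ha₄ : A.valuation W.a₄ ≤ 1 := by rw [hW]; exact A.valuation_le_one _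
  have ha₆ : A.valuation W.a₆ ≤ 1 := by rw [hW]; exact A.valuation_le_one _
  have hyA : A.valuation y ≤ 1 := H89.val_y_le_one A.valuation W ha₁ ha₂ ha₃ ha₄ ha₆ h.1 hx1A
  have hymem : y ∈ A := (A.valuation_le_one_iff y).mp hyA
  have hmP : m • Point.some x y h = 0 := by
    rw [H84.torsion_criterion_field W ⟨j, hj⟩ x y h]
    exact hx1root
  -- the reduction of the point
  set xA : A := ⟨x, hx1mem⟩ with hxA
  set yA : A := ⟨y, hymem⟩ with hyA'
  have hxres : residue A xA = residue A x0 := by
    rw [← sub_eq_zero, ← map_sub, residue_eq_zero_iff_val_lt]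
    have : ((xA - x0 : A) : K) = -((x0 : K) - x) := by simp [hxA]
    rw [this, Valuation.map_neg]; exact hx1close
  have heqA : WA.toAffine.Equation xA yA := by
    have := h.1
    rw [hW] at this
    exact (Affine.map_equation (W := WA.toAffine) (f := A.subtype) hinj xA yA).mp this
  have heqk : Wk.toAffine.Equation (residue A xA) (residue A yA) := heqA.map (residue A)
  rw [hxres] at heqk
  have hns : Wk.toAffine.Nonsingular (residue A x0) (residue A yA) := by
    rcases Affine.Y_eq_of_X_eq heqk hb.1 rfl with hy | hy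
    · rw [hy]; exact hb
    · rw [hy]; exact (Affine.nonsingular_neg ..).mpr hb
  have hQ : Point.some _ _ hns = Point.some _ _ hb ∨ Point.some _ _ hns = -Point.some _ _ hb := by
    rcases Affine.Y_eq_of_X_eq heqk hb.1 rfl with hy | hy
    · left; simp only [hy]
    · right; rw [Point.neg_some]; simp only [hy]
  have hQord : addOrderOf (Point.some _ _ hns) = m := by
    rcases hQ with hQ | hQ
    · rw [hQ, hPb]
    · rw [hQ, addOrderOf_neg, hPb]
  refine ⟨x, y, h, ?_, hx1A, hyA, ?_⟩
  · -- exact order
    set d := addOrderOf (Point.some x y h) with hd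
    have hdm : d ∣ m := addOrderOf_dvd_of_nsmul_eq_zero hmP
    have hdodd : Odd d := Odd.of_dvd_nat ⟨j, hj⟩ hdm
    have hdP : d • Point.some x y h = 0 := addOrderOf_nsmul_eq_zero _
    have hθd : (H84.theta W (d / 2)).eval x = 0 :=
      (H84.torsion_criterion_field W hdodd x y h).mp hdP
    have hθdA : (H84.theta WA (d / 2)).eval xA = 0 := by
      apply hinj
      rw [map_zero]
      have := Polynomial.eval_map_apply (f := A.subtype) (p := H84.theta WA (d / 2)) xA
      rw [H84.map_theta] at this
      rw [← this]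
      exact hθd
    have hθdk : (H84.theta Wk (d / 2)).eval (residue A x0) = 0 := by
      rw [← hxres, ← H84.map_theta WA (residue A), Polynomial.eval_map_apply, hθdA, map_zero]
    have hdQ : d • Point.some _ _ hns = 0 :=
      (H84.torsion_criterion_field Wk hdodd _ _ hns).mpr hθdk
    have hmd : m ∣ d := by
      rw [← hQord]; exact addOrderOf_dvd_of_nsmul_eq_zero hdQ
    exact Nat.dvd_antisymm hdm hmd
  · -- nonsingular reduction
    have h' := (Affine.nonsingular_iff' _ _).mp hns
    have hxK : A.subtype xA = x := rfl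
    have hyK : A.subtype yA = y := rfl
    rcases h'.2 with h1 | h1
    · right
      have e : Wk.a₁ * residue A yA - (3 * residue A x0 ^ 2 + 2 * Wk.a₂ * residue A x0 + Wk.a₄)
          = residue A (WA.a₁ * yA - (3 * xA ^ 2 + 2 * WA.a₂ * xA + WA.a₄)) := by
        rw [← hxres]
        simp only [map_sub, map_add, map_mul, map_pow, map_ofNat]
        rfl
      rw [e, residue_ne_zero_iff_val_eq] at h1
      have e2 : A.subtype (WA.a₁ * yA - (3 * xA ^ 2 + 2 * WA.a₂ * xA + WA.a₄)) =
          -(3 * x ^ 2 + 2 * W.a₂ * x + W.a₄ - W.a₁ * y) := by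
        simp only [map_sub, map_add, map_mul, map_pow, map_ofNat, hxK, hyK]
        have e3 : A.subtype WA.a₁ = W.a₁ := rfl
        have e4 : A.subtype WA.a₂ = W.a₂ := rfl
        have e5 : A.subtype WA.a₄ = W.a₄ := rfl
        rw [e3, e4, e5]
        ring
      have e6 : ((WA.a₁ * yA - (3 * xA ^ 2 + 2 * WA.a₂ * xA + WA.a₄) : A) : K) =
          A.subtype (WA.a₁ * yA - (3 * xA ^ 2 + 2 * WA.a₂ * xA + WA.a₄)) := rfl
      rw [e6, e2, Valuation.map_neg] at h1
      exact h1
    · left
      have e : 2 * residue A yA + Wk.a₁ * residue A x0 + Wk.a₃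
          = residue A (2 * yA + WA.a₁ * xA + WA.a₃) := by
        rw [← hxres]
        simp only [map_add, map_mul, map_ofNat]
        rfl
      rw [e, residue_ne_zero_iff_val_eq] at h1
      have e2 : A.subtype (2 * yA + WA.a₁ * xA + WA.a₃) = 2 * y + W.a₁ * x + W.a₃ := by
        simp only [map_add, map_mul, map_ofNat, hxK, hyK]
        rfl
      have e6 : ((2 * yA + WA.a₁ * xA + WA.a₃ : A) : K) =
          A.subtype (2 * yA + WA.a₁ * xA + WA.a₃) := rfl
      rw [e6, e2] at h1
      exact h1

/-- **a torsion point of exact order `m` which is fixed by every residually trivial coordinatewise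
action**: multiplicative reduction, `m` odd and invertible in the residue field.  The generic fibre
is given as `W'` with `WA.map A.subtype = W'` so that callers can use their own spelling. -/
theorem exists_fixed_torsion (W' : WeierstrassCurve K) (hW' : WA.map A.subtype = W')
    (hΔ : W'.Δ ≠ 0)
    (hΔk : (WA.map (residue A)).Δ = 0) (hck : (WA.map (residue A)).c₄ ≠ 0)
    {m : ℕ} (hm : Odd m) (hm1 : m ≠ 1) (hmk : ((m : ℕ) : ResidueField A) ≠ 0) :
    ∃ (x y : K) (h : W'.toAffine.Nonsingular x y),
      addOrderOf (Point.some x y h) = m ∧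
      ∀ (σ : K →+* K) (h' : W'.toAffine.Nonsingular (σ x) (σ y)),
        m • Point.some (σ x) (σ y) h' = 0 →
        (∀ z : K, A.valuation z ≤ 1 → A.valuation (σ z - z) < 1) → σ x = x ∧ σ y = y := by
  subst hW'
  obtain ⟨x, y, h, hord, hx, hy, hns⟩ := exists_torsion_lift A WA hΔ hΔk hck hm hm1 hmk
  refine ⟨x, y, h, hord, ?_⟩
  intro σ h' hT' hσ
  have hT : m • Point.some x y h = 0 := by rw [← hord]; exact addOrderOf_nsmul_eq_zero _
  have hmA : A.valuation ((m : ℕ) : K) = 1 := by
    have : residue A ((m : ℕ) : A) ≠ 0 := by rwa [map_natCast]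
    have h2 := (residue_ne_zero_iff_val_eq A _).mp this
    simpa using h2
  have key := H89.eq_of_close A.valuation (WA.map A.subtype) (A.valuation_le_one _)
    (A.valuation_le_one _) (A.valuation_le_one _) (A.valuation_le_one _) (A.valuation_le_one _)
    hmA h h' hT hT' hx hy
    (by rw [Valuation.map_sub_swap]; exact hσ x hx)
    (by rw [Valuation.map_sub_swap]; exact hσ y hy) hns
  exact ⟨key.1.symm, key.2.symm⟩

end main

end Fermat.Agent.EC.H76
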