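import Mathlib
import Fermat.Agent.S05.H38_Gal
import Fermat.Agent.EC.H76_TorsionLift

/-!
# An inertia-fixed torsion point of exact order `m` at a prime of multiplicative reduction
(project S58, row (EC-c'), helper76)

`W : WeierstrassCurve ℤ`, `q` a prime with `q ∣ Δ`, `q ∤ c₄` (multiplicative reduction), `Δ ≠ 0`,
`m` odd and prime to `q`, `A` a valuation subring of `Qbar` over `q`.  Then there is a point `P` of
`W(Qbar)` of exact order `m` with `σ • P = P` for every `σ` in the inertia group of `A`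
(`exists_inertia_fixed_addOrderOf`).  This is the only input on multiplicative primes which the
level-lowering step of S58 uses: with `P_σ(σ) = 0` on `W[m]` one gets `P_σ(1) • P = 0`.
-/

set_option autoImplicit false

namespace Fermat.Agent.EC.H76

open WeierstrassCurve WeierstrassCurve.Affine IsLocalRing
open Fermat.Agent.S05

local notation "Qbar" => AlgebraicClosure ℚ

attribute [local instance 10000] AlgebraicClosure.instAlgebra

variable (W : WeierstrassCurve ℤ)

/-- the integral model over `A` has generic fibre `(W_ℚ)⁄Qbar` -/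
lemma map_subtype_eq (A : ValuationSubring Qbar) :
    (W.map (Int.castRingHom A)).map A.subtype = ((W.map (Int.castRingHom ℚ))⁄Qbar) := by
  change _ = (W.map (Int.castRingHom ℚ)).map (algebraMap ℚ Qbar)
  rw [WeierstrassCurve.map_map, WeierstrassCurve.map_map]
  congr 1

theorem exists_inertia_fixed_addOrderOf {q : ℕ} (hq : q.Prime) (hqΔ : (q : ℤ) ∣ W.Δ)
    (hqc : ¬ (q : ℤ) ∣ W.c₄) (hΔ : W.Δ ≠ 0) {m : ℕ} (hm : Odd m) (hqm : ¬ q ∣ m)
    (A : ValuationSubring Qbar) (hA : A.LiesOverPrime q) :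
    ∃ P : ((W.map (Int.castRingHom ℚ))⁄Qbar).Point, addOrderOf P = m ∧
      ∀ σ ∈ A.inertiaSubgroupIn ℚ, σ • P = P := by
  by_cases hm1 : m = 1
  · subst hm1
    exact ⟨0, addOrderOf_zero, fun σ _ => H38.smul_zero_point _ σ⟩
  have : CharP (ResidueField A) q := S18.H45.charP_residueField hq hA
  set WA := W.map (Int.castRingHom A) with hWA
  have hΔK : ((W.map (Int.castRingHom ℚ))⁄Qbar).Δ ≠ 0 := by
    rw [← map_subtype_eq W A, WeierstrassCurve.map_Δ, WeierstrassCurve.map_Δ]
    simp only [eq_intCast, map_intCast]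
    exact_mod_cast hΔ
  have hΔk : (WA.map (residue A)).Δ = 0 := by
    rw [hWA, WeierstrassCurve.map_Δ, WeierstrassCurve.map_Δ]
    simp only [eq_intCast, map_intCast]
    exact (CharP.intCast_eq_zero_iff (ResidueField A) q W.Δ).mpr hqΔ
  have hck : (WA.map (residue A)).c₄ ≠ 0 := by
    rw [hWA, WeierstrassCurve.map_c₄, WeierstrassCurve.map_c₄]
    simp only [eq_intCast, map_intCast]
    intro h0
    exact hqc ((CharP.intCast_eq_zero_iff (ResidueField A) q W.c₄).mp h0)
  have hmk : ((m : ℕ) : ResidueField A) ≠ 0 := by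
    intro h0
    exact hqm ((CharP.cast_eq_zero_iff (ResidueField A) q m).mp h0)
  obtain ⟨x, y, h, hord, hfix⟩ := exists_fixed_torsion A WA _ (map_subtype_eq W A) hΔK hΔk hck hm
    hm1 hmk
  refine ⟨Point.some x y h, hord, ?_⟩
  intro σ hσ
  have hT : m • (Point.some x y h : ((W.map (Int.castRingHom ℚ))⁄Qbar).Point) = 0 := by
    rw [← hord]; exact addOrderOf_nsmul_eq_zero _
  have hT' : m • (Point.some (σ x) (σ y) (H38.nonsingular_apply _ σ h) :
      ((W.map (Int.castRingHom ℚ))⁄Qbar).Point) = 0 := by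
    have e0 : σ • (Point.some x y h : ((W.map (Int.castRingHom ℚ))⁄Qbar).Point) =
        Point.some (σ x) (σ y) (H38.nonsingular_apply _ σ h) := H38.smul_some_point _ σ h
    rw [← e0]
    have e := map_nsmul (DistribSMul.toAddMonoidHom
      ((W.map (Int.castRingHom ℚ))⁄Qbar).Point σ) m (Point.some x y h)
    simp only [DistribSMul.toAddMonoidHom_apply] at e
    rw [← e, hT]
    exact H38.smul_zero_point _ σ
  obtain ⟨hx, hy⟩ := hfix (σ : Qbar →+* Qbar) (H38.nonsingular_apply _ σ h) hT'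
    (fun z hz => H38.valuation_apply_sub_lt_one hσ hz)
  exact H38.smul_some_eq_self _ σ h hx hy

/-- the same, with membership in the `m`-torsion submodule (the spelling of the frozen Galois
representation on torsion points) -/
theorem exists_inertia_fixed_mem_torsionBy {q : ℕ} (hq : q.Prime) (hqΔ : (q : ℤ) ∣ W.Δ)
    (hqc : ¬ (q : ℤ) ∣ W.c₄) (hΔ : W.Δ ≠ 0) {m : ℕ} (hm : Odd m) (hqm : ¬ q ∣ m)
    (A : ValuationSubring Qbar) (hA : A.LiesOverPrime q) :
    ∃ P : ((W.map (Int.castRingHom ℚ))⁄Qbar).Point,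
      P ∈ Submodule.torsionBy ℤ ((W.map (Int.castRingHom ℚ))⁄Qbar).Point (m : ℤ) ∧
      addOrderOf P = m ∧ ∀ σ ∈ A.inertiaSubgroupIn ℚ, σ • P = P := by
  obtain ⟨P, hP, hfix⟩ := exists_inertia_fixed_addOrderOf W hq hqΔ hqc hΔ hm hqm A hA
  refine ⟨P, ?_, hP, hfix⟩
  rw [Submodule.mem_torsionBy_iff, natCast_zsmul, ← hP]
  exact addOrderOf_nsmul_eq_zero P

end Fermat.Agent.EC.H76
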