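import Fermat.Agent.EC.H28_T3Interface
import Fermat.Agent.EC.H76_InertiaFixed

/-!
# Row (E5') of `S58 CHAIN v1` in the exact shape of the field `H28.ECInputs.inertiaMult` (helper76)
-/

set_option autoImplicit false

namespace Fermat.Agent.EC.H76

local notation "Qbar" => AlgebraicClosure ℚ

/-- the field `inertiaMult` of `H28.ECInputs W`, verbatim -/
theorem inertiaMult_spec (W : WeierstrassCurve ℤ) (hΔ : W.Δ ≠ 0) :
    ∀ q : ℕ, q.Prime → (q : ℤ) ∣ W.Δ → ¬ (q : ℤ) ∣ W.c₄ → ∀ m : ℕ, Odd m → ¬ q ∣ m →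
    ∀ A : ValuationSubring Qbar, A.LiesOverPrime q →
      ∃ P : H28.Pts W, addOrderOf P = m ∧ ∀ σ ∈ A.inertiaSubgroupIn ℚ, σ • P = P :=
  fun _ hq hqΔ hqc _ hm hqm A hA =>
    exists_inertia_fixed_addOrderOf W hq hqΔ hqc hΔ hm hqm A hA

end Fermat.Agent.EC.H76
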