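import Mathlib
import Fermat.Agent.EC.H28_T3Interface
import Fermat.Agent.EC.H15_T3Inputs
import Fermat.Agent.EC.H64_E3E4
import Fermat.Agent.EC.H76_InertiaMultSpec

/-!
# (EC-asm): the five (EC) inputs of the (T3) chain for every integral model with `Δ ≠ 0`

`ecInputs W hΔ : H28.ECInputs W`, assembled from
* (E1), (E2): `EC.H15.faithful_torsionBy`, `EC.H15.exists_finiteDimensional_fixing_torsionBy`;
* (E3), (E4): `EC.H64.frob_charpoly'`, `EC.H64.inertia_smul_eq_self'`;
* (E5'): `EC.H76.inertiaMult_spec`.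
-/

set_option autoImplicit false

namespace Fermat.Agent.EC.H15

open WeierstrassCurve WeierstrassCurve.Affine WeierstrassCurve.Affine.Point

/-- **(EC-asm)**: the (EC) interface of the (T3) chain holds for every integral Weierstrass
model with nonzero discriminant. -/
theorem ecInputs (W : WeierstrassCurve ℤ) (hΔ : W.Δ ≠ 0) : Fermat.Agent.EC.H28.ECInputs W where
  faithful := fun _ hlam n z hz =>
    faithful_torsionBy W hΔ hlam n z (fun P hP => congrArg Subtype.val (hz ⟨P, hP⟩))
  finiteLevel := fun m hm => exists_finiteDimensional_fixing_torsionBy W m hm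
  hw := fun _ hl hΔl _ hm hlm _ hA _ hφ P =>
    Fermat.Agent.EC.H64.frob_charpoly' W hl hΔl hm hlm hA hφ P
  inertiaGood := fun _ hl hΔl _ hm hlm _ hA _ hσ P =>
    Fermat.Agent.EC.H64.inertia_smul_eq_self' W hl hΔl hm hlm hA hσ P
  inertiaMult := Fermat.Agent.EC.H76.inertiaMult_spec W hΔ

end Fermat.Agent.EC.H15
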