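/-
EC library (optional, topic S58), brick (T3-B) of helper28's #3704 (helper74).

The coefficient embedding `iota : chig.range →+* O'` that the frozen S36 wants, for
`O' = ℤ_[lam]`:

* (B1) if every generator of `heckeAlgebra N k S` is sent by `chig` to (the image of) an integer,
  then `chig.range` is the prime subring and there is `ι₀ : chig.range →+* ℤ` with
  `((ι₀ x : ℤ) : ℂ) = x`; composing with the cast gives `iota` into ANY ring, and
  `iota x = z` whenever `(x : ℂ) = z`.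
* (B2) if all generators but one go to integers and the last one goes to an algebraic integer
  `a`, then `chig.range ≤ ℤ[a]`, and for every finite set `T0` of primes there is a prime
  `lam ∉ T0` with an INJECTIVE ring hom `ℤ[a] →+* ℤ_[lam]` (Schur: `minpoly ℤ a` has a root mod
  infinitely many primes; separability: that root is simple for almost all of them; Hensel).

Mathlib + the prelude definition of the Hecke algebra only.  New file, nothing imports it.
-/
import Mathlib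
import Fermat.Prelude.Def_CuspForm_HeckeAlgebra

set_option autoImplicit false
set_option linter.style.haveILetI false

namespace Fermat.Agent.EC.H74

open Polynomial

noncomputable section

/-! ## Part 1: the range of a character of the Hecke algebra -/

section range

variable {N : ℕ} [NeZero N] {k : ℤ} {S : Set ℕ}

/-- If a character of the Hecke algebra sends every generator into a subring `R` of `ℂ`,
its range is contained in `R`. -/
theorem range_le_of_gens (chig : CuspForm.heckeAlgebra N k S →+* ℂ) (R : Subring ℂ)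
    (hT : ∀ (ℓ : ℕ) (hℓ : ℓ.Prime) (hℓN : ¬ ℓ ∣ N) (hℓS : ℓ ∉ S),
      chig (CuspForm.heckeAlgebra.T hℓ hℓN hℓS) ∈ R)
    (hU : ∀ (q : ℕ) (hq : q.Prime) (hqN : q ∣ N) (hqS : q ∉ S),
      chig (CuspForm.heckeAlgebra.U hq hqN hqS) ∈ R) :
    chig.range ≤ R := by
  rintro _ ⟨t, rfl⟩
  obtain ⟨t, ht⟩ := t
  induction ht using Algebra.adjoin_induction with
  | mem T hT' =>
    rcases hT' with ⟨ℓ, hℓ, hℓN, hℓS, rfl⟩ | ⟨q, hqN, hq, hqS, rfl⟩
    · exact hT ℓ hℓ hℓN hℓS
    · exact hU q hq hqN hqS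
  | algebraMap r =>
    have h : (⟨algebraMap ℤ _ r, Subalgebra.algebraMap_mem _ r⟩ : CuspForm.heckeAlgebra N k S)
        = ((r : ℤ) : CuspForm.heckeAlgebra N k S) := by
      apply Subtype.ext
      simp
    rw [h, map_intCast]
    exact intCast_mem R r
  | add T T' hT1 hT2 ihT ihT' =>
    have h : (⟨T + T', Subalgebra.add_mem _ hT1 hT2⟩ : CuspForm.heckeAlgebra N k S)
        = ⟨T, hT1⟩ + ⟨T', hT2⟩ := rfl
    rw [h, map_add]
    exact R.add_mem ihT ihT'
  | mul T T' hT1 hT2 ihT ihT' =>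
    have h : (⟨T * T', Subalgebra.mul_mem _ hT1 hT2⟩ : CuspForm.heckeAlgebra N k S)
        = ⟨T, hT1⟩ * ⟨T', hT2⟩ := rfl
    rw [h, map_mul]
    exact R.mul_mem ihT ihT'

/-- Variant: `S` contains all primes dividing the level, so only the `T_ℓ` matter. -/
theorem range_le_of_T (chig : CuspForm.heckeAlgebra N k S →+* ℂ) (R : Subring ℂ)
    (hNS : ∀ q : ℕ, q.Prime → q ∣ N → q ∈ S)
    (hT : ∀ (ℓ : ℕ) (hℓ : ℓ.Prime) (hℓN : ¬ ℓ ∣ N) (hℓS : ℓ ∉ S),
      chig (CuspForm.heckeAlgebra.T hℓ hℓN hℓS) ∈ R) :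
    chig.range ≤ R :=
  range_le_of_gens chig R hT fun q hq hqN hqS => absurd (hNS q hq hqN) hqS

end range


/-! ## Part 1b: ring homs out of subrings of `ℂ` made of integers -/

section toInt

/-- `ℤ ≃+* ` the prime subring of `ℂ`. -/
def intRangeEquiv : ℤ ≃+* (Int.castRingHom ℂ).range :=
  RingEquiv.ofBijective (Int.castRingHom ℂ).rangeRestrict
    ⟨fun _ _ h => Int.cast_injective (congrArg Subtype.val h),
      (Int.castRingHom ℂ).rangeRestrict_surjective⟩

/-- A subring of `ℂ` consisting of integers maps to `ℤ`, compatibly with the inclusions. -/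
theorem exists_toInt {R : Subring ℂ} (hR : R ≤ (Int.castRingHom ℂ).range) :
    ∃ ι₀ : R →+* ℤ, ∀ x : R, ((ι₀ x : ℤ) : ℂ) = x := by
  refine ⟨(intRangeEquiv.symm : (Int.castRingHom ℂ).range →+* ℤ).comp (Subring.inclusion hR),
    fun x => ?_⟩
  have h := intRangeEquiv.apply_symm_apply (Subring.inclusion hR x)
  exact congrArg Subtype.val h

/-- ANY ring hom out of a subring of `ℂ` sends an element equal to the integer `z` to `z`. -/
theorem ringHom_eq_intCast {R : Subring ℂ} {O' : Type*} [Ring O'] (ι : R →+* O') (x : R) (z : ℤ)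
    (hx : (x : ℂ) = z) : ι x = z := by
  have h : x = ((z : ℤ) : R) := Subtype.ext (by rw [hx]; simp)
  rw [h, map_intCast]

end toInt

/-! ## Part 2: Schur's theorem and simple roots mod `p` -/

section schur

/-- **Schur.** A nonconstant integer polynomial has a root modulo some prime outside any given
finite set. -/
theorem exists_prime_dvd_eval (f : ℤ[X]) (hf : 0 < f.natDegree) (T0 : Finset ℕ) :
    ∃ p : ℕ, p.Prime ∧ p ∉ T0 ∧ ∃ n : ℤ, (p : ℤ) ∣ f.eval n := by
  classical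
  set c : ℤ := f.eval 0 with hc
  by_cases hc0 : c = 0
  · obtain ⟨p, hp, hpT⟩ := Nat.infinite_setOfPred_prime.exists_notMem_finset T0
    exact ⟨p, hp, hpT, 0, by rw [← hc, hc0]; exact dvd_zero _⟩
  set P : ℕ := (T0.sup id).factorial with hP
  have hP0 : (P : ℤ) ≠ 0 := by exact_mod_cast (Nat.factorial_pos _).ne'
  have hcP : c * (P : ℤ) ≠ 0 := mul_ne_zero hc0 hP0
  -- the three polynomials `f`, `f - c`, `f + c` are nonzero
  have hne : ∀ d : ℤ, f - C d ≠ 0 := by
    intro d h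
    have h1 : f = C d := sub_eq_zero.1 h
    rw [h1, natDegree_C] at hf
    exact lt_irrefl _ hf
  have hfin : ∀ d : ℤ, {x : ℤ | f.eval x = d}.Finite := by
    intro d
    have := Polynomial.finite_setOfPred_isRoot (hne d)
    refine this.subset ?_
    intro x hx
    simp only [Set.mem_ofPred_eq, IsRoot.def, eval_sub, eval_C] at hx ⊢
    rw [hx, sub_self]
  have hB : ({x : ℤ | f.eval x = 0} ∪ {x : ℤ | f.eval x = c} ∪ {x : ℤ | f.eval x = -c}).Finite :=
    ((hfin 0).union (hfin c)).union (hfin (-c))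
  have hinj : Function.Injective fun t : ℤ => c * (P : ℤ) * t :=
    fun s t h => mul_left_cancel₀ hcP h
  obtain ⟨t, ht⟩ := (hB.preimage (Set.injOn_of_injective hinj)).exists_notMem
  simp only [Set.mem_preimage, Set.mem_union, Set.mem_ofPred_eq, not_or] at ht
  obtain ⟨⟨ht0, htc⟩, htc'⟩ := ht
  -- `f (cPt) = c (1 + P t k)`
  obtain ⟨k, hk⟩ : (c * (P : ℤ) * t - 0) ∣ f.eval (c * (P : ℤ) * t) - f.eval 0 :=
    Polynomial.sub_dvd_eval_sub _ _ f
  rw [sub_zero, ← hc] at hk
  set h : ℤ := 1 + (P : ℤ) * t * k with hh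
  have hfh : f.eval (c * (P : ℤ) * t) = c * h := by
    rw [hh]; linear_combination hk
  have hh1 : h.natAbs ≠ 1 := by
    intro h1
    rcases Int.natAbs_eq_iff.1 h1 with h2 | h2
    · exact htc (by rw [hfh, h2]; simp)
    · exact htc' (by rw [hfh, h2]; simp)
  obtain ⟨p, hp, hph⟩ := Nat.exists_prime_and_dvd hh1
  have hph' : (p : ℤ) ∣ h := Int.natCast_dvd.2 hph
  refine ⟨p, hp, ?_, c * (P : ℤ) * t, hfh ▸ Dvd.dvd.mul_left hph' c⟩
  intro hpT
  have hpP : p ∣ P := Nat.dvd_factorial hp.pos (Finset.le_sup (f := id) hpT)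
  have hpP' : (p : ℤ) ∣ (P : ℤ) := Int.natCast_dvd_natCast.2 hpP
  have h1 : (p : ℤ) ∣ 1 := by
    have h2 : (p : ℤ) ∣ h - (P : ℤ) * t * k :=
      dvd_sub hph' (Dvd.dvd.mul_right (Dvd.dvd.mul_right hpP' t) k)
    rwa [hh, add_sub_cancel_right] at h2
  have h3 : p ∣ 1 := by exact_mod_cast h1
  exact hp.one_lt.ne' (Nat.dvd_one.1 h3)

/-- A nonconstant integer polynomial which is separable over `ℚ` has a SIMPLE root modulo some
prime outside any given finite set. -/
theorem exists_prime_simple_root (f : ℤ[X]) (hf : 0 < f.natDegree)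
    (hsep : (f.map (Int.castRingHom ℚ)).Separable) (T0 : Finset ℕ) :
    ∃ p : ℕ, p.Prime ∧ p ∉ T0 ∧ ∃ n : ℤ, (p : ℤ) ∣ f.eval n ∧
      ¬ (p : ℤ) ∣ (derivative f).eval n := by
  classical
  set D : ℤ := resultant f (derivative f) f.natDegree (derivative f).natDegree with hD
  have hD0 : D ≠ 0 := by
    have hinj : Function.Injective (Int.castRingHom ℚ) := Int.cast_injective
    have h1 : (f.map (Int.castRingHom ℚ)).natDegree = f.natDegree :=
      natDegree_map_eq_of_injective hinj f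
    have h2 : (derivative (f.map (Int.castRingHom ℚ))).natDegree = (derivative f).natDegree := by
      rw [derivative_map]; exact natDegree_map_eq_of_injective hinj _
    have h3 := resultant_ne_zero (f.map (Int.castRingHom ℚ))
      (derivative (f.map (Int.castRingHom ℚ))) hsep
    rw [h1, h2, derivative_map, resultant_map_map] at h3
    intro h0
    apply h3
    rw [← hD, h0, map_zero]
  obtain ⟨U, V, -, -, hUV⟩ := exists_mul_add_mul_eq_C_resultant f (derivative f)
    (m := f.natDegree) (n := (derivative f).natDegree) le_rfl le_rfl (Or.inl hf.ne')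
  obtain ⟨p, hp, hpT, n, hn⟩ := exists_prime_dvd_eval f hf (T0 ∪ D.natAbs.primeFactors)
  rw [Finset.mem_union, not_or] at hpT
  refine ⟨p, hp, hpT.1, n, hn, fun hn' => hpT.2 ?_⟩
  have h1 : f.eval n * U.eval n + (derivative f).eval n * V.eval n = D := by
    have := congrArg (Polynomial.eval n) hUV
    rwa [eval_add, eval_mul, eval_mul, eval_C] at this
  have h2 : (p : ℤ) ∣ D := by
    rw [← h1]
    exact dvd_add (Dvd.dvd.mul_right hn _) (Dvd.dvd.mul_right hn' _)
  rw [Nat.mem_primeFactors]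
  exact ⟨hp, Int.natCast_dvd.1 h2, by simpa using hD0⟩

/-- ... hence a root in `ℤ_[p]` (Hensel). -/
theorem exists_prime_padic_root (f : ℤ[X]) (hf : 0 < f.natDegree)
    (hsep : (f.map (Int.castRingHom ℚ)).Separable) (T0 : Finset ℕ) :
    ∃ (p : ℕ) (_ : Fact p.Prime), p ∉ T0 ∧ ∃ z : ℤ_[p], aeval z f = 0 := by
  obtain ⟨p, hp, hpT, n, hn, hn'⟩ := exists_prime_simple_root f hf hsep T0
  haveI : Fact p.Prime := ⟨hp⟩
  refine ⟨p, ⟨hp⟩, hpT, ?_⟩
  have e1 : aeval (n : ℤ_[p]) f = ((f.eval n : ℤ) : ℤ_[p]) := by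
    rw [← eq_intCast (algebraMap ℤ ℤ_[p]) n, aeval_algebraMap_apply, eq_intCast]
    simp
  have e2 : aeval (n : ℤ_[p]) (derivative f) = (((derivative f).eval n : ℤ) : ℤ_[p]) := by
    rw [← eq_intCast (algebraMap ℤ ℤ_[p]) n, aeval_algebraMap_apply, eq_intCast]
    simp
  have h1 : ‖aeval (n : ℤ_[p]) f‖ < 1 := by
    rw [e1]; exact (PadicInt.norm_int_lt_one_iff_dvd _).2 hn
  have h2 : ‖aeval (n : ℤ_[p]) (derivative f)‖ = 1 := by
    rw [e2]
    have hle := PadicInt.norm_le_one (((derivative f).eval n : ℤ) : ℤ_[p])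
    rcases hle.lt_or_eq with h | h
    · exact absurd ((PadicInt.norm_int_lt_one_iff_dvd _).1 h) hn'
    · exact h
  have hnorm : ‖aeval (n : ℤ_[p]) f‖ < ‖aeval (n : ℤ_[p]) (derivative f)‖ ^ 2 := by
    rw [h2, one_pow]; exact h1
  obtain ⟨z, hz, -⟩ := hensels_lemma hnorm
  exact ⟨z, hz⟩

end schur


/-! ## Part 3: `ℤ[a] ↪ ℤ_[lam]` for an algebraic integer `a` -/

section embed

variable {K : Type*} [Field K] [CharZero K]

/-- The minimal polynomial over `ℤ` of an algebraic integer is separable over `ℚ`. -/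
theorem minpoly_int_map_separable {a : K} (ha : IsIntegral ℤ a) :
    ((minpoly ℤ a).map (Int.castRingHom ℚ)).Separable := by
  have h1 : minpoly ℚ a = (minpoly ℤ a).map (algebraMap ℤ ℚ) :=
    minpoly.isIntegrallyClosed_eq_field_fractions' ℚ ha
  have h2 : Irreducible (minpoly ℚ a) := minpoly.irreducible ha.tower_top
  rw [h1] at h2
  exact h2.separable

omit [CharZero K] in
/-- Any ring hom from `ℤ[a]` (integral over `ℤ`) to a domain of characteristic zero is
injective. -/
theorem injective_of_adjoin_int {a : K} (ha : IsIntegral ℤ a) {O' : Type*} [CommRing O']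
    [IsDomain O'] [CharZero O'] (ι : (Algebra.adjoin ℤ ({a} : Set K)) →+* O') :
    Function.Injective ι := by
  haveI : Algebra.IsIntegral ℤ (Algebra.adjoin ℤ ({a} : Set K)) := by
    rw [← le_integralClosure_iff_isIntegral]
    exact Algebra.adjoin_le (Set.singleton_subset_iff.2 ha)
  rw [injective_iff_map_eq_zero]
  have hprime : (RingHom.ker ι).IsPrime := RingHom.ker_isPrime ι
  have hbot : RingHom.ker ι = ⊥ := by
    apply Ideal.eq_bot_of_comap_eq_bot (R := ℤ)
    rw [eq_bot_iff]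
    intro z hz
    rw [Ideal.mem_comap, RingHom.mem_ker, eq_intCast, map_intCast] at hz
    rw [Ideal.mem_bot]
    exact_mod_cast hz
  intro x hx
  have : x ∈ RingHom.ker ι := hx
  rwa [hbot, Ideal.mem_bot] at this

/-- **(B2a)** For an algebraic integer `a` and a finite set `T0` of primes there is a prime
`lam ∉ T0` and an injective ring hom `ℤ[a] →+* ℤ_[lam]`. -/
theorem exists_prime_adjoin_embedding (a : K) (ha : IsIntegral ℤ a) (T0 : Finset ℕ) :
    ∃ (lam : ℕ) (_ : Fact lam.Prime), lam ∉ T0 ∧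
      ∃ ι : (Algebra.adjoin ℤ ({a} : Set K)) →+* ℤ_[lam], Function.Injective ι := by
  obtain ⟨lam, hlam, hT, z, hz⟩ := exists_prime_padic_root (minpoly ℤ a)
    (minpoly.natDegree_pos ha) (minpoly_int_map_separable ha) T0
  refine ⟨lam, hlam, hT, ?_⟩
  have hz' : (minpoly ℤ a).eval₂ (Int.castRingHom ℤ_[lam]) z = 0 := by
    rw [← hz, aeval_def]
    congr 1
  let ι : (Algebra.adjoin ℤ ({a} : Set K)) →+* ℤ_[lam] :=
    (AdjoinRoot.lift (Int.castRingHom ℤ_[lam]) z hz').comp
      ((minpoly.equivAdjoin ha).symm : (Algebra.adjoin ℤ ({a} : Set K)) →+* _)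
  exact ⟨ι, injective_of_adjoin_int ha ι⟩

end embed


/-! ## Part 4: the statements (B1), (B2) in the shape of the frozen S36 -/

section final

/-- Converse of `ringHom_eq_intCast` for injective homs. -/
theorem eq_intCast_of_ringHom_eq {R : Subring ℂ} {O' : Type*} [Ring O'] (ι : R →+* O')
    (hι : Function.Injective ι) (x : R) (z : ℤ) (h : ι x = z) : (x : ℂ) = z := by
  have h1 : ι x = ι ((z : ℤ) : R) := by rw [h, map_intCast]
  have h2 : x = ((z : ℤ) : R) := hι h1
  rw [h2]; simp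

theorem intCast_mem_adjoin (a : ℂ) (z : ℤ) :
    (z : ℂ) ∈ (Algebra.adjoin ℤ ({a} : Set ℂ)).toSubring :=
  intCast_mem (Algebra.adjoin ℤ ({a} : Set ℂ)).toSubring z

theorem self_mem_adjoin (a : ℂ) : a ∈ (Algebra.adjoin ℤ ({a} : Set ℂ)).toSubring :=
  Algebra.subset_adjoin (Set.mem_singleton a)

variable {N : ℕ} [NeZero N] {k : ℤ} {S : Set ℕ}

/-- **(B1)** If `S` contains the primes of the level and `chig (T_ℓ) = a ℓ ∈ ℤ` for all `ℓ ∉ S`,
then for EVERY ring `O'` (e.g. `ℤ_[lam]`) there is `iota : chig.range →+* O'` with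
`iota (chig (T_ℓ)) = a ℓ`; it sends every integer-valued element to that integer and is
injective when `O'` has characteristic zero. -/
theorem exists_iota_of_int (chig : CuspForm.heckeAlgebra N k S →+* ℂ)
    (hNS : ∀ q : ℕ, q.Prime → q ∣ N → q ∈ S) (a : ℕ → ℤ)
    (hT : ∀ (ℓ : ℕ) (hℓ : ℓ.Prime) (hℓN : ¬ ℓ ∣ N) (hℓS : ℓ ∉ S),
      chig (CuspForm.heckeAlgebra.T hℓ hℓN hℓS) = (a ℓ : ℂ))
    (O' : Type*) [Ring O'] :
    ∃ iota : chig.range →+* O',
      (∀ (x : chig.range) (z : ℤ), (x : ℂ) = z → iota x = z) ∧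
      (∀ (ℓ : ℕ) (hℓ : ℓ.Prime) (hℓN : ¬ ℓ ∣ N) (hℓS : ℓ ∉ S),
        (iota.comp chig.rangeRestrict) (CuspForm.heckeAlgebra.T hℓ hℓN hℓS) = (a ℓ : O')) ∧
      (CharZero O' → Function.Injective iota) := by
  have hle : chig.range ≤ (Int.castRingHom ℂ).range :=
    range_le_of_T chig _ hNS fun ℓ hℓ hℓN hℓS => ⟨a ℓ, by rw [hT]; simp⟩
  obtain ⟨ι₀, hι₀⟩ := exists_toInt hle
  refine ⟨(Int.castRingHom O').comp ι₀, fun x z hx => ringHom_eq_intCast _ x z hx, ?_, ?_⟩
  · intro ℓ hℓ hℓN hℓS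
    rw [RingHom.comp_apply]
    exact ringHom_eq_intCast _ _ _ (hT ℓ hℓ hℓN hℓS)
  · intro hO x y hxy
    have h1 : ι₀ x = ι₀ y := by
      have : ((ι₀ x : ℤ) : O') = ((ι₀ y : ℤ) : O') := hxy
      exact_mod_cast this
    apply Subtype.ext
    rw [← hι₀ x, ← hι₀ y, h1]

/-- **(B2)** For an algebraic integer `a` and a finite set `T0` there is a prime `lam ∉ T0` such
that EVERY character of a Hecke algebra with values in `ℤ[a]` admits an INJECTIVE
`iota : chig.range →+* ℤ_[lam]` (which then sends integer-valued elements to that integer). -/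
theorem exists_lam_iota_of_adjoin (a : ℂ) (ha : IsIntegral ℤ a) (T0 : Finset ℕ) :
    ∃ (lam : ℕ) (_ : Fact lam.Prime), lam ∉ T0 ∧
      ∀ {N : ℕ} [NeZero N] {k : ℤ} {S : Set ℕ} (chig : CuspForm.heckeAlgebra N k S →+* ℂ),
        chig.range ≤ (Algebra.adjoin ℤ ({a} : Set ℂ)).toSubring →
        ∃ iota : chig.range →+* ℤ_[lam], Function.Injective iota ∧
          ∀ (x : chig.range) (z : ℤ), (x : ℂ) = z → iota x = z := by
  obtain ⟨lam, hlam, hT, ι, hι⟩ := exists_prime_adjoin_embedding a ha T0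
  refine ⟨lam, hlam, hT, ?_⟩
  intro N _ k S chig hle
  refine ⟨ι.comp (Subring.inclusion hle), ?_, fun x z hx => ringHom_eq_intCast _ x z hx⟩
  exact hι.comp (Subring.inclusion_injective hle)

/-- **(B2')** the same in generator form: all `T_ℓ` with `ℓ ≠ l` have integer eigenvalues `aZ ℓ`
and `T_l` has the algebraic-integer eigenvalue `a`. -/
theorem exists_lam_iota_one_extra (l : ℕ) (a : ℂ) (ha : IsIntegral ℤ a) (T0 : Finset ℕ) :
    ∃ (lam : ℕ) (_ : Fact lam.Prime), lam ∉ T0 ∧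
      ∀ {N : ℕ} [NeZero N] {k : ℤ} {S : Set ℕ} (chig : CuspForm.heckeAlgebra N k S →+* ℂ),
        (∀ q : ℕ, q.Prime → q ∣ N → q ∈ S) → ∀ aZ : ℕ → ℤ,
        (∀ (ℓ : ℕ) (hℓ : ℓ.Prime) (hℓN : ¬ ℓ ∣ N) (hℓS : ℓ ∉ S), ℓ ≠ l →
          chig (CuspForm.heckeAlgebra.T hℓ hℓN hℓS) = (aZ ℓ : ℂ)) →
        (∀ (hl : l.Prime) (hlN : ¬ l ∣ N) (hlS : l ∉ S),
          chig (CuspForm.heckeAlgebra.T hl hlN hlS) = a) →
        ∃ iota : chig.range →+* ℤ_[lam], Function.Injective iota ∧
          (∀ (x : chig.range) (z : ℤ), (x : ℂ) = z → iota x = z) ∧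
          (∀ (x : chig.range) (z : ℤ), iota x = z → (x : ℂ) = z) ∧
          ∀ (ℓ : ℕ) (hℓ : ℓ.Prime) (hℓN : ¬ ℓ ∣ N) (hℓS : ℓ ∉ S), ℓ ≠ l →
            (iota.comp chig.rangeRestrict) (CuspForm.heckeAlgebra.T hℓ hℓN hℓS)
              = (aZ ℓ : ℤ_[lam]) := by
  obtain ⟨lam, hlam, hT, H⟩ := exists_lam_iota_of_adjoin a ha T0
  refine ⟨lam, hlam, hT, ?_⟩
  intro N _ k S chig hNS aZ hZ hl
  have hle : chig.range ≤ (Algebra.adjoin ℤ ({a} : Set ℂ)).toSubring := by
    refine range_le_of_T chig _ hNS fun ℓ hℓ hℓN hℓS => ?_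
    by_cases hℓl : ℓ = l
    · subst hℓl
      rw [hl hℓ hℓN hℓS]
      exact self_mem_adjoin a
    · rw [hZ ℓ hℓ hℓN hℓS hℓl]
      exact intCast_mem_adjoin a _
  obtain ⟨iota, hinj, hint⟩ := H chig hle
  refine ⟨iota, hinj, hint, fun x z h => eq_intCast_of_ringHom_eq iota hinj x z h, ?_⟩
  intro ℓ hℓ hℓN hℓS hℓl
  rw [RingHom.comp_apply]
  exact hint _ _ (hZ ℓ hℓ hℓN hℓS hℓl)

/-- `ℤ_[lam]` satisfies the hypothesis `hlamO'` of the frozen S36 (all instance hypotheses
`IsDomain`, `IsDiscreteValuationRing`, `IsAdicComplete`, `Finite (ResidueField _)`, `CharZero`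
are found by `inferInstance`). -/
theorem natCast_mem_maximalIdeal_padicInt (lam : ℕ) [Fact lam.Prime] :
    (lam : ℤ_[lam]) ∈ IsLocalRing.maximalIdeal ℤ_[lam] := by
  rw [PadicInt.maximalIdeal_eq_span_p]
  exact Ideal.mem_span_singleton_self _

example (lam : ℕ) [Fact lam.Prime] : IsDiscreteValuationRing ℤ_[lam] := inferInstance
example (lam : ℕ) [Fact lam.Prime] :
    IsAdicComplete (IsLocalRing.maximalIdeal ℤ_[lam]) ℤ_[lam] := inferInstance
example (lam : ℕ) [Fact lam.Prime] : Finite (IsLocalRing.ResidueField ℤ_[lam]) := inferInstance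
example (lam : ℕ) [Fact lam.Prime] : CharZero ℤ_[lam] := inferInstance

end final

end

end Fermat.Agent.EC.H74
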