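/-
EC library (optional, topic S58), seam for brick (T3-B) (helper74).

`S36.H57.s36_of_model` at `O' = ℤ_[lam]`, `chig = S41.H85.eigenChar`, with the coefficient map
`iota` of `EC/H74_T3Iota` (B1) plugged in: for a newform `g` of level `M` whose eigenvalues
`a_ℓ(g)`, `ℓ ∉ S`, are the integers `a ℓ`, there is `ρ : GaloisRepAdic O''` over a finite
extension `O''` of `ℤ_[lam]` with `charpoly ρ(Frob_ℓ) = X² − a ℓ X + ℓ` (integers cast to `O''`)
which is NOT unipotent on inertia at any `q ≠ lam` with `q² ∥ M`.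

New file, nothing imports it.
-/
import Mathlib
import Fermat.Agent.S36.H57_Geo36Input
import Fermat.Agent.S41.H85_EigenDict
import Fermat.Agent.EC.H74_T3Iota

set_option autoImplicit false
set_option linter.style.haveILetI false

namespace Fermat.Agent.EC.H74

open Polynomial

/-- `s36_of_model` at `O' = ℤ_[lam]` for a newform with integer eigenvalues outside `S`. -/
theorem s36_padic_of_int (hmodel : Fermat.Agent.S36.H57.Model36)
    {M : ℕ} [NeZero M] {g : CuspForm (CongruenceSubgroup.Gamma0 M) 2} (hg : g.IsNewform)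
    (lam : ℕ) [Fact lam.Prime] (hlam2 : lam ≠ 2)
    (S : Finset ℕ) (hlamS : lam ∈ S) (hMS : ∀ q : ℕ, q.Prime → q ∣ M → q ∈ S)
    (a : ℕ → ℤ)
    (ha : ∀ ℓ : ℕ, ℓ.Prime → ¬ ℓ ∣ M → ℓ ∉ S → ModularFormClass.qCoeff g ℓ = (a ℓ : ℂ)) :
    ∃ (O'' : Type) (_ : CommRing O'') (_ : IsDomain O'') (_ : IsDiscreteValuationRing O'')
      (_ : IsAdicComplete (IsLocalRing.maximalIdeal O'') O'')
      (_ : Finite (IsLocalRing.ResidueField O''))
      (_ : CharZero O'') (_ : Algebra ℤ_[lam] O'') (_ : Module.Finite ℤ_[lam] O'')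
      (_ : IsLocalHom (algebraMap ℤ_[lam] O'')),
      Function.Injective (algebraMap ℤ_[lam] O'') ∧
      (lam : O'') ∈ IsLocalRing.maximalIdeal O'' ∧
      ∃ ρ : GaloisRepAdic O'',
        (∀ ℓ : ℕ, ℓ.Prime → ¬ ℓ ∣ M → ℓ ∉ S →
          ∀ A : ValuationSubring (AlgebraicClosure ℚ), A.LiesOverPrime ℓ →
            ∀ σ : AlgebraicClosure ℚ ≃ₐ[ℚ] AlgebraicClosure ℚ, A.IsFrobeniusAt σ ℓ →
              LinearMap.charpoly (ρ.ρ σ) =
                X ^ 2 - C ((a ℓ : ℤ) : O'') * X + C ((ℓ : O''))) ∧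
        (∀ q : ℕ, q.Prime → q ≠ lam → M.factorization q = 2 →
          ¬ ρ.IsUnipotentOnInertiaAt q) := by
  have hchig : ∀ (ℓ : ℕ) (hℓ : ℓ.Prime) (hℓM : ¬ ℓ ∣ M) (hℓS : ℓ ∉ (↑S : Set ℕ)),
      Fermat.Agent.S41.H85.eigenChar hg.1 (↑S : Set ℕ) (CuspForm.heckeAlgebra.T hℓ hℓM hℓS)
        = ModularFormClass.qCoeff g ℓ :=
    fun ℓ hℓ hℓM hℓS => Fermat.Agent.S41.H85.eigenChar_T hg.1 hℓ hℓM hℓS
  obtain ⟨iota, -, hiota, -⟩ := exists_iota_of_int
    (Fermat.Agent.S41.H85.eigenChar hg.1 (↑S : Set ℕ))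
    (fun q hq hqM => Finset.mem_coe.2 (hMS q hq hqM)) a
    (fun ℓ hℓ hℓM hℓS => by
      rw [hchig ℓ hℓ hℓM hℓS]; exact ha ℓ hℓ hℓM (fun h => hℓS (Finset.mem_coe.2 h))) ℤ_[lam]
  have key := Fermat.Agent.S36.H57.s36_of_model hmodel hg lam S ℤ_[lam]
    (natCast_mem_maximalIdeal_padicInt lam) hlam2
    (Fermat.Agent.S41.H85.eigenChar hg.1 (↑S : Set ℕ)) hchig iota hlamS hMS
  obtain ⟨O'', i1, i2, i3, i4, i5, i6, i7, i8, i9, hinj, ρ, hρ, hq⟩ := key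
  refine ⟨O'', i1, i2, i3, i4, i5, i6, i7, i8, i9, hinj, ?_, ρ, ?_, hq⟩
  · have h1 : (lam : O'') = algebraMap ℤ_[lam] O'' (lam : ℤ_[lam]) := by
      rw [map_natCast]
    rw [h1, IsLocalRing.mem_maximalIdeal, mem_nonunits_iff]
    intro hu
    have h2 : IsUnit (lam : ℤ_[lam]) := isUnit_of_map_unit (algebraMap ℤ_[lam] O'') _ hu
    exact (IsLocalRing.mem_maximalIdeal _).1 (natCast_mem_maximalIdeal_padicInt lam) h2
  · intro ℓ hℓ hℓM hℓS A hA σ hσ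
    have hℓS' : ℓ ∉ (↑S : Set ℕ) := fun h => hℓS (Finset.mem_coe.1 h)
    rw [hρ ℓ hℓ hℓM hℓS' A hA σ hσ, hiota ℓ hℓ hℓM hℓS', map_intCast]

/-- The prime-index Fourier coefficients of a normalised eigenform are algebraic integers. -/
theorem isIntegral_qCoeff_prime {M : ℕ} [NeZero M] {g : CuspForm (CongruenceSubgroup.Gamma0 M) 2}
    (hg : g.IsNormalizedEigenform) {l : ℕ} (hl : l.Prime) (hlM : ¬ l ∣ M) :
    IsIntegral ℤ (ModularFormClass.qCoeff g l) := by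
  rw [← Fermat.Agent.S41.H85.eigenChar_T hg (S := ∅) hl hlM (Set.notMem_empty l)]
  exact Fermat.Agent.S41.H85.isIntegral_eigenChar hg ∅ _

/-- **Step (c) package.**  For a newform `g` of level `M`, a number `l` and a finite set `T0`
there is a prime `lam ∉ T0` such that for every `S ∋ lam` containing the primes of `M`:
if `a_ℓ(g) = aZ ℓ ∈ ℤ` for all `ℓ ∉ S`, `ℓ ≠ l`, then `s36_of_model` at `O' = ℤ_[lam]` gives `ρ`
with the integer charpolys at `ℓ ≠ l`, and at `ℓ = l` (if `l` is a prime `∉ S`, `∤ M`) the trace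
is some `α : O''` with the DETECTION property `α = z ∈ ℤ → a_l(g) = z`. -/
theorem s36_padic_one_extra (hmodel : Fermat.Agent.S36.H57.Model36)
    {M : ℕ} [NeZero M] {g : CuspForm (CongruenceSubgroup.Gamma0 M) 2} (hg : g.IsNewform)
    (l : ℕ) (T0 : Finset ℕ) :
    ∃ (lam : ℕ) (_ : Fact lam.Prime), lam ∉ T0 ∧
      ∀ (_ : lam ≠ 2) (S : Finset ℕ) (_ : lam ∈ S) (_ : ∀ q : ℕ, q.Prime → q ∣ M → q ∈ S)
        (aZ : ℕ → ℤ)
        (_ : ∀ ℓ : ℕ, ℓ.Prime → ¬ ℓ ∣ M → ℓ ∉ S → ℓ ≠ l →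
          ModularFormClass.qCoeff g ℓ = (aZ ℓ : ℂ)),
        ∃ (O'' : Type) (_ : CommRing O'') (_ : IsDomain O'') (_ : IsDiscreteValuationRing O'')
          (_ : IsAdicComplete (IsLocalRing.maximalIdeal O'') O'')
          (_ : Finite (IsLocalRing.ResidueField O''))
          (_ : CharZero O'') (_ : Algebra ℤ_[lam] O'') (_ : Module.Finite ℤ_[lam] O'')
          (_ : IsLocalHom (algebraMap ℤ_[lam] O'')),
          Function.Injective (algebraMap ℤ_[lam] O'') ∧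
          (lam : O'') ∈ IsLocalRing.maximalIdeal O'' ∧
          ∃ ρ : GaloisRepAdic O'',
            (∀ ℓ : ℕ, ℓ.Prime → ¬ ℓ ∣ M → ℓ ∉ S → ℓ ≠ l →
              ∀ A : ValuationSubring (AlgebraicClosure ℚ), A.LiesOverPrime ℓ →
                ∀ σ : AlgebraicClosure ℚ ≃ₐ[ℚ] AlgebraicClosure ℚ, A.IsFrobeniusAt σ ℓ →
                  LinearMap.charpoly (ρ.ρ σ) =
                    X ^ 2 - C ((aZ ℓ : ℤ) : O'') * X + C ((ℓ : O''))) ∧
            (l.Prime → ¬ l ∣ M → l ∉ S → ∃ α : O'',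
              (∀ A : ValuationSubring (AlgebraicClosure ℚ), A.LiesOverPrime l →
                ∀ σ : AlgebraicClosure ℚ ≃ₐ[ℚ] AlgebraicClosure ℚ, A.IsFrobeniusAt σ l →
                  LinearMap.charpoly (ρ.ρ σ) = X ^ 2 - C α * X + C ((l : O''))) ∧
              ∀ z : ℤ, α = (z : O'') → ModularFormClass.qCoeff g l = (z : ℂ)) ∧
            (∀ q : ℕ, q.Prime → q ≠ lam → M.factorization q = 2 →
              ¬ ρ.IsUnipotentOnInertiaAt q) := by
  classical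
  set a : ℂ := if l.Prime ∧ ¬ l ∣ M then ModularFormClass.qCoeff g l else 0 with ha_def
  have haint : IsIntegral ℤ a := by
    rw [ha_def]
    split_ifs with h
    · exact isIntegral_qCoeff_prime hg.1 h.1 h.2
    · exact isIntegral_zero
  obtain ⟨lam, hlam, hT0, H⟩ := exists_lam_iota_one_extra l a haint T0
  refine ⟨lam, hlam, hT0, ?_⟩
  intro hlam2 S hlamS hMS aZ haZ
  have hchig : ∀ (ℓ : ℕ) (hℓ : ℓ.Prime) (hℓM : ¬ ℓ ∣ M) (hℓS : ℓ ∉ (↑S : Set ℕ)),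
      Fermat.Agent.S41.H85.eigenChar hg.1 (↑S : Set ℕ) (CuspForm.heckeAlgebra.T hℓ hℓM hℓS)
        = ModularFormClass.qCoeff g ℓ :=
    fun ℓ hℓ hℓM hℓS => Fermat.Agent.S41.H85.eigenChar_T hg.1 hℓ hℓM hℓS
  obtain ⟨iota, hinjι, -, hdet, hiota⟩ := H
    (Fermat.Agent.S41.H85.eigenChar hg.1 (↑S : Set ℕ))
    (fun q hq hqM => Finset.mem_coe.2 (hMS q hq hqM)) aZ
    (fun ℓ hℓ hℓM hℓS hℓl => by
      rw [hchig ℓ hℓ hℓM hℓS]
      exact haZ ℓ hℓ hℓM (fun h => hℓS (Finset.mem_coe.2 h)) hℓl)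
    (fun hl hlM hlS => by
      rw [hchig l hl hlM hlS, ha_def, if_pos ⟨hl, hlM⟩])
  have key := Fermat.Agent.S36.H57.s36_of_model hmodel hg lam S ℤ_[lam]
    (natCast_mem_maximalIdeal_padicInt lam) hlam2
    (Fermat.Agent.S41.H85.eigenChar hg.1 (↑S : Set ℕ)) hchig iota hlamS hMS
  obtain ⟨O'', i1, i2, i3, i4, i5, i6, i7, i8, i9, hinj, ρ, hρ, hq⟩ := key
  refine ⟨O'', i1, i2, i3, i4, i5, i6, i7, i8, i9, hinj, ?_, ρ, ?_, ?_, hq⟩
  · have h1 : (lam : O'') = algebraMap ℤ_[lam] O'' (lam : ℤ_[lam]) := by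
      rw [map_natCast]
    rw [h1, IsLocalRing.mem_maximalIdeal, mem_nonunits_iff]
    intro hu
    have h2 : IsUnit (lam : ℤ_[lam]) := isUnit_of_map_unit (algebraMap ℤ_[lam] O'') _ hu
    exact (IsLocalRing.mem_maximalIdeal _).1 (natCast_mem_maximalIdeal_padicInt lam) h2
  · intro ℓ hℓ hℓM hℓS hℓl A hA σ hσ
    have hℓS' : ℓ ∉ (↑S : Set ℕ) := fun h => hℓS (Finset.mem_coe.1 h)
    rw [hρ ℓ hℓ hℓM hℓS' A hA σ hσ, hiota ℓ hℓ hℓM hℓS' hℓl, map_intCast]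
  · intro hl hlM hlS
    have hlS' : l ∉ (↑S : Set ℕ) := fun h => hlS (Finset.mem_coe.1 h)
    refine ⟨algebraMap ℤ_[lam] O'' ((iota.comp
      (Fermat.Agent.S41.H85.eigenChar hg.1 (↑S : Set ℕ)).rangeRestrict)
      (CuspForm.heckeAlgebra.T hl hlM hlS')), fun A hA σ hσ => hρ l hl hlM hlS' A hA σ hσ, ?_⟩
    intro z hz
    have h1 : (iota.comp (Fermat.Agent.S41.H85.eigenChar hg.1 (↑S : Set ℕ)).rangeRestrict)
        (CuspForm.heckeAlgebra.T hl hlM hlS') = ((z : ℤ) : ℤ_[lam]) := by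
      apply hinj
      rw [hz, map_intCast]
    rw [RingHom.comp_apply] at h1
    have h2 := hdet _ z h1
    rw [← hchig l hl hlM hlS']
    exact h2

end Fermat.Agent.EC.H74
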