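/-
helper28 — S58 row (ASM): **the assembly of the chain `S35 + S36 + (EC) ⟹ S58`.**

`s58_of_specs` : from `Model36` (= the geometric input of S36), the (EC) interface `ECInputs`
for every integral curve with `Δ ≠ 0`, and the seven row statements of `H28_T3Interface`
(`SpecA`, `SpecC3a`, `SpecC3b`, `SpecC3c`, `SpecD`, `SpecF`, `SpecS35`), the conclusion of the
frozen statement S58 (without its unused hypotheses `p`, `hirr`, `¬ p² ∣ N`).
-/
import Mathlib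
import Fermat.Agent.EC.H28_T3Interface
import Fermat.Agent.EC.H74_T3IotaSeam
import Fermat.Agent.S54.H69_Frobenius

set_option autoImplicit false
set_option linter.style.haveILetI false

noncomputable section

namespace Fermat.Agent.EC.H28

open WeierstrassCurve Polynomial

local notation "Qbar" => AlgebraicClosure ℚ
local notation "GQ" => (AlgebraicClosure ℚ ≃ₐ[ℚ] AlgebraicClosure ℚ)

/-- Transport of a normalised eigenform along an equality of levels. -/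
theorem transport_level {M M' : ℕ} (h : M = M')
    {f : CuspForm (CongruenceSubgroup.Gamma0 M) 2} (hf : f.IsNormalizedEigenform) :
    ∃ f' : CuspForm (CongruenceSubgroup.Gamma0 M') 2, f'.IsNormalizedEigenform ∧
      ∀ n : ℕ, ModularFormClass.qCoeff f' n = ModularFormClass.qCoeff f n := by
  subst h
  exact ⟨f, hf, fun _ => rfl⟩

/-- An odd prime different from `q`. -/
theorem exists_odd_prime_ne (q : ℕ) : ∃ lam : ℕ, lam.Prime ∧ lam ≠ 2 ∧ lam ≠ q := by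
  by_cases h : q = 3
  · exact ⟨5, by norm_num, by norm_num, by omega⟩
  · exact ⟨3, by norm_num, by norm_num, fun h' => h h'.symm⟩

theorem natCast_dvd_disc_iff (W : WeierstrassCurve ℤ) (l : ℕ) :
    (l : ℤ) ∣ W.Δ ↔ l ∣ W.Δ.natAbs := Int.natCast_dvd

/-- **The assembly.** -/
theorem s58_of_specs (hmodel : Fermat.Agent.S36.H57.Model36)
    (hEC : ∀ W : WeierstrassCurve ℤ, W.Δ ≠ 0 → ECInputs W)
    (hA : SpecA) (h3a : SpecC3a) (h3b : SpecC3b) (h3c : SpecC3c) (hD : SpecD) (hF : SpecF)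
    (h35 : SpecS35)
    (W : WeierstrassCurve ℤ) (hss : W.IsSemistableModel) (N : ℕ)
    (hN : W.IsModularModelOfLevel N)
    (hbad : ∀ ℓ : ℕ, ℓ.Prime → (ℓ : ℤ) ∣ W.Δ → ℓ ∣ N)
    (hN3 : ∀ q : ℕ, q.Prime → ¬ q ^ 3 ∣ N) :
    W.IsModularModelOfLevel W.conductorLevel := by
  classical
  -- Step 0: `N ≠ 0`, `Δ ≠ 0`.
  have hN0 : N ≠ 0 := by
    rintro rfl
    exact hN3 2 Nat.prime_two (dvd_zero _)
  have hΔ : W.Δ ≠ 0 := by
    intro h0
    obtain ⟨p, hpN, hp⟩ := Nat.exists_infinite_primes (N + 1)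
    have hdvd : p ∣ N := hbad p hp (by rw [h0]; exact dvd_zero _)
    have := Nat.le_of_dvd (Nat.pos_of_ne_zero hN0) hdvd
    omega
  have hECW := hEC W hΔ
  -- Step 1: the minimal-level newform.
  obtain ⟨f, hf, hfW⟩ := hN
  obtain ⟨N0, hN0N, g, hg, hgf⟩ := hA N hN0 f hf
  have hN0ne : N0 ≠ 0 := fun h => hN0 (by rw [h] at hN0N; exact zero_dvd_iff.mp hN0N)
  haveI : NeZero N0 := ⟨hN0ne⟩
  have hgoodN : ∀ ℓ : ℕ, ℓ.Prime → ¬ ℓ ∣ N → ¬ (ℓ : ℤ) ∣ W.Δ := fun ℓ hℓ hℓN h =>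
    hℓN (hbad ℓ hℓ h)
  have K1 : ∀ ℓ : ℕ, ℓ.Prime → ¬ ℓ ∣ N →
      ModularFormClass.qCoeff g ℓ = ((W.apOfModel ℓ : ℤ) : ℂ) := fun ℓ hℓ hℓN => by
    rw [hgf ℓ hℓ hℓN]
    exact hfW ℓ hℓ (hgoodN ℓ hℓ hℓN) hℓN
  have hN0dvd : ∀ ℓ : ℕ, ℓ ∣ N0 → ℓ ∣ N := fun ℓ h => h.trans hN0N
  have hmemPF : ∀ ℓ : ℕ, ℓ.Prime → (ℓ ∈ N.primeFactors ↔ ℓ ∣ N) := fun ℓ hℓ => by
    rw [Nat.mem_primeFactors]
    exact ⟨fun h => h.2.1, fun h => ⟨hℓ, h, hN0⟩⟩
  -- Step 2: `N0` is squarefree.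
  have hsqf : Squarefree N0 := by
    rw [Nat.squarefree_iff_prime_squarefree]
    intro q hq hqq
    have hq2 : q ^ 2 ∣ N0 := by rwa [pow_two]
    have hfact : N0.factorization q = 2 := by
      have h2 : 2 ≤ N0.factorization q :=
        (hq.pow_dvd_iff_le_factorization hN0ne).mp hq2
      have h3 : ¬ 3 ≤ N0.factorization q := fun h =>
        hN3 q hq (hN0dvd _ ((hq.pow_dvd_iff_le_factorization hN0ne).mpr h))
      omega
    obtain ⟨lam, hlam, hlam2, hlamq⟩ := exists_odd_prime_ne q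
    haveI : Fact lam.Prime := ⟨hlam⟩
    set S : Finset ℕ := insert lam N.primeFactors with hS
    have hlamS : lam ∈ S := Finset.mem_insert_self _ _
    have hMS : ∀ q' : ℕ, q'.Prime → q' ∣ N0 → q' ∈ S := fun q' hq' h =>
      Finset.mem_insert_of_mem ((hmemPF q' hq').mpr (hN0dvd q' h))
    have hnotS : ∀ ℓ : ℕ, ℓ.Prime → ℓ ∉ S → ¬ ℓ ∣ N := fun ℓ hℓ hℓS h =>
      hℓS (Finset.mem_insert_of_mem ((hmemPF ℓ hℓ).mpr h))
    obtain ⟨O'', i1, i2, i3, i4, i5, i6, i7, i8, i9, -, hlamO, ρ, hρ, hnu⟩ :=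
      Fermat.Agent.EC.H74.s36_padic_of_int hmodel hg lam hlam2 S hlamS hMS W.apOfModel
        (fun ℓ hℓ _ hℓS => K1 ℓ hℓ (hnotS ℓ hℓ hℓS))
    have hatt : IsAttachedAway W ρ S := fun l hl hlS A hA φ hφ =>
      hρ l hl (fun h => hnotS l hl hlS (hN0dvd l h)) hlS A hA φ hφ
    have huni := h3a W hΔ hECW O'' lam hlam hlam2 hlamO ρ S hlamS
      (fun l hl hlΔ => Finset.mem_insert_of_mem ((hmemPF l hl).mpr (hbad l hl hlΔ))) hatt
      q hq hlamq.symm (hss q hq)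
    exact hnu q hq hlamq.symm hfact huni
  -- Step 3: the primes of `N0` are bad.
  have hbadN0 : ∀ q : ℕ, q.Prime → q ∣ N0 → (q : ℤ) ∣ W.Δ := by
    intro q hq hqN0
    by_contra hgood
    have hq2 : ¬ q ^ 2 ∣ N0 := by
      intro h
      exact Nat.squarefree_iff_prime_squarefree.mp hsqf q hq (by rwa [← pow_two])
    obtain ⟨lam, hlam, hlam2, hlamq⟩ := exists_odd_prime_ne q
    haveI : Fact lam.Prime := ⟨hlam⟩
    set S : Finset ℕ := insert lam N.primeFactors with hS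
    have hlamS : lam ∈ S := Finset.mem_insert_self _ _
    have hMS : ∀ q' : ℕ, q'.Prime → q' ∣ N0 → q' ∈ S := fun q' hq' h =>
      Finset.mem_insert_of_mem ((hmemPF q' hq').mpr (hN0dvd q' h))
    have hnotS : ∀ ℓ : ℕ, ℓ.Prime → ℓ ∉ S → ¬ ℓ ∣ N := fun ℓ hℓ hℓS h =>
      hℓS (Finset.mem_insert_of_mem ((hmemPF ℓ hℓ).mpr h))
    obtain ⟨O'', i1, i2, i3, i4, hlamO, ρ, hρ, hii⟩ :=
      h35 N0 g hg lam S hlamS hMS W.apOfModel
        (fun ℓ hℓ _ hℓS => K1 ℓ hℓ (hnotS ℓ hℓ hℓS))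
    have hatt : IsAttachedAway W ρ S := fun l hl hlS A hA φ hφ =>
      hρ l hl (fun h => hnotS l hl hlS (hN0dvd l h)) hlS A hA φ hφ
    obtain ⟨A, σ, hA, hσ⟩ := Fermat.Agent.S54.H69.exists_isFrobeniusAt q hq
    exact h3b W hΔ hECW O'' lam hlam hlam2 hlamO ρ S hlamS
      (fun l hl hlΔ => Finset.mem_insert_of_mem ((hmemPF l hl).mpr (hbad l hl hlΔ))) hatt
      q hq hlamq.symm hgood A hA σ hσ (hii q hq hlamq.symm hqN0 hq2 A hA σ hσ)
  -- Step 4: `a_l(g) = a_l(W)` at every good prime.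
  have K2 : ∀ l : ℕ, l.Prime → ¬ (l : ℤ) ∣ W.Δ →
      ModularFormClass.qCoeff g l = ((W.apOfModel l : ℤ) : ℂ) := by
    intro l hl hgood
    by_cases hlN : l ∣ N
    swap
    · exact K1 l hl hlN
    have hlN0 : ¬ l ∣ N0 := fun h => hgood (hbadN0 l hl h)
    obtain ⟨lam, hlamF, hlamT0, H⟩ :=
      Fermat.Agent.EC.H74.s36_padic_one_extra hmodel hg l (insert 2 (insert l N.primeFactors))
    have hlam : lam.Prime := hlamF.out
    have hlam2 : lam ≠ 2 := fun h => hlamT0 (h ▸ Finset.mem_insert_self _ _)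
    have hlaml : lam ≠ l := fun h =>
      hlamT0 (Finset.mem_insert_of_mem (h ▸ Finset.mem_insert_self _ _))
    have hlamN : ¬ lam ∣ N := fun h =>
      hlamT0 (Finset.mem_insert_of_mem (Finset.mem_insert_of_mem ((hmemPF lam hlam).mpr h)))
    set S : Finset ℕ := insert lam (N.primeFactors.erase l) with hS
    have hlamS : lam ∈ S := Finset.mem_insert_self _ _
    have hMS : ∀ q' : ℕ, q'.Prime → q' ∣ N0 → q' ∈ S := fun q' hq' h =>
      Finset.mem_insert_of_mem (Finset.mem_erase.mpr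
        ⟨fun h' => hlN0 (h' ▸ h), (hmemPF q' hq').mpr (hN0dvd q' h)⟩)
    have hnotS : ∀ ℓ : ℕ, ℓ.Prime → ℓ ∉ S → ℓ ≠ l → ¬ ℓ ∣ N := fun ℓ hℓ hℓS hℓl h =>
      hℓS (Finset.mem_insert_of_mem (Finset.mem_erase.mpr ⟨hℓl, (hmemPF ℓ hℓ).mpr h⟩))
    have hlS : l ∉ S := by
      rw [hS, Finset.mem_insert, not_or]
      exact ⟨fun h => hlaml h.symm, fun h => (Finset.mem_erase.mp h).1 rfl⟩
    obtain ⟨O'', i1, i2, i3, i4, i5, i6, i7, i8, i9, -, hlamO, ρ, hρ, hlα, -⟩ :=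
      H hlam2 S hlamS hMS W.apOfModel
        (fun ℓ hℓ _ hℓS hℓl => K1 ℓ hℓ (hnotS ℓ hℓ hℓS hℓl))
    obtain ⟨α, hα, hdet⟩ := hlα hl hlN0 hlS
    obtain ⟨A, σ, hA, hσ⟩ := Fermat.Agent.S54.H69.exists_isFrobeniusAt l hl
    have hatt : IsAttachedAway W ρ (insert l S) := fun ℓ hℓ hℓT A hA φ hφ => by
      have hℓl : ℓ ≠ l := fun h => hℓT (h ▸ Finset.mem_insert_self _ _)
      have hℓS : ℓ ∉ S := fun h => hℓT (Finset.mem_insert_of_mem h)
      exact hρ ℓ hℓ (fun h => hnotS ℓ hℓ hℓS hℓl (hN0dvd ℓ h)) hℓS hℓl A hA φ hφ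
    have hαW := h3c W hΔ hECW O'' lam hlam hlam2 hlamO ρ (insert l S)
      (Finset.mem_insert_of_mem hlamS)
      (fun ℓ hℓ hℓΔ => Finset.mem_insert_of_mem (Finset.mem_insert_of_mem
        (Finset.mem_erase.mpr ⟨fun h => hgood (h ▸ hℓΔ), (hmemPF ℓ hℓ).mpr (hbad ℓ hℓ hℓΔ)⟩)))
      hatt l hl hlaml.symm hgood A hA σ hσ α (hα A hA σ hσ)
    exact hdet _ hαW
  -- Step 5: stabilisation to the conductor level.
  obtain ⟨s, hs, hlevel⟩ := hF W hΔ N0 hsqf hbadN0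
  obtain ⟨f', hf', hf'g⟩ := hD N0 hN0ne g hg.1 s (fun q hq => ⟨(hs q hq).1, (hs q hq).2.1⟩)
  obtain ⟨f'', hf'', hf''f'⟩ := transport_level hlevel hf'
  refine ⟨f'', hf'', fun p hp hgood _ => ?_⟩
  have hps : p ∉ s := fun h => hgood (hs p h).2.2
  rw [hf''f' p, hf'g p hp hps]
  exact K2 p hp hgood

end Fermat.Agent.EC.H28
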