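import Mathlib
import Fermat.Prelude.Def_FLTPrelim_Modularity
import Fermat.Agent.S30.H68_CycloAdic

/-!
# EC / (T3-G) (helper36): three small facts for the S58 route of helper28

* `inertia_apply_root_of_unity` (G1): inertia at a place over `q` fixes the `m`-th roots of unity,
  `q ∤ m` (wrapper of `S30.H68.inertia_apply_of_pow_eq_one`).
* `one_le_card`, `card_le` (G2): `1 ≤ #W'(𝔽_q) ≤ 2 q + 1` for a Weierstrass curve over `ZMod q`
  (`W'.card` is the prelude's `Nat.card W'.toAffine.Point`); `apOfModel_le`, `neg_le_apOfModel`,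
  `card_reductionMod_ne_zero`, `card_reductionMod_ne`.
* `pow_dvd_of_mem_span_pow` (G3): in a local domain of characteristic `0` whose maximal ideal
  contains the prime `lam`, an integer divisible by `lam ^ n` in the ring is divisible by
  `lam ^ n` in `ℤ`.
-/

set_option autoImplicit false
set_option linter.unusedSectionVars false

noncomputable section

namespace Fermat.Agent.EC.H36

open Polynomial

/-! ### (G1) inertia and roots of unity -/

section G1

variable {K L : Type*} [Field K] [Field L] [Algebra K L]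

/-- **(G1)** Inertia at a place `A` over `q` fixes every `m`-th root of unity when `q ∤ m`. -/
theorem inertia_apply_root_of_unity {A : ValuationSubring L} {q m : ℕ}
    (hA : A.LiesOverPrime q) (hqm : q.Coprime m) (hm : 0 < m)
    {σ : L ≃ₐ[K] L} (hσ : σ ∈ A.inertiaSubgroupIn K) {μ : L} (hμ : μ ^ m = 1) : σ μ = μ :=
  Fermat.Agent.S30.H68.inertia_apply_of_pow_eq_one hσ hm
    (Fermat.Agent.S14.H31.natCast_not_mem_nonunits_of_coprime hA hqm) hμ

/-- Variant with `q` prime and `¬ q ∣ m`. -/
theorem inertia_apply_root_of_unity' {A : ValuationSubring L} {q m : ℕ} (hq : q.Prime)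
    (hA : A.LiesOverPrime q) (hqm : ¬ q ∣ m) (hm : 0 < m)
    {σ : L ≃ₐ[K] L} (hσ : σ ∈ A.inertiaSubgroupIn K) {μ : L} (hμ : μ ^ m = 1) : σ μ = μ :=
  inertia_apply_root_of_unity hA ((Nat.Prime.coprime_iff_not_dvd hq).mpr hqm) hm hσ hμ

end G1

/-! ### (G2) the number of points over `ZMod q` -/

section G2

variable {F : Type*} [Field F] [Fintype F] (W' : WeierstrassCurve F)

/-- For fixed `x` the Weierstrass equation has at most two solutions `y`. -/
theorem card_fiber_le_two (x : F) (s : Finset F)
    (hs : ∀ y ∈ s, W'.toAffine.Equation x y) : s.card ≤ 2 := by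
  classical
  set P : F[X] := X ^ 2 + C (W'.a₁ * x + W'.a₃) * X -
    C (x ^ 3 + W'.a₂ * x ^ 2 + W'.a₄ * x + W'.a₆) with hP
  have hdeg : P.natDegree = 2 := by
    rw [hP]
    compute_degree!
  have hP0 : P ≠ 0 := by
    intro h0
    rw [h0, natDegree_zero] at hdeg
    omega
  have hsub : s ⊆ P.roots.toFinset := by
    intro y hy
    rw [Multiset.mem_toFinset, mem_roots hP0, IsRoot.def, hP]
    have h := (WeierstrassCurve.Affine.equation_iff (W := W'.toAffine) x y).mp (hs y hy)
    simp only [eval_sub, eval_add, eval_pow, eval_X, eval_mul, eval_C]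
    linear_combination h
  calc s.card ≤ P.roots.toFinset.card := Finset.card_le_card hsub
    _ ≤ Multiset.card P.roots := Multiset.toFinset_card_le _
    _ ≤ P.natDegree := card_roots' P
    _ = 2 := hdeg

/-- **(G2)** `1 ≤ #W'(F)`. -/
theorem one_le_card : 1 ≤ W'.card := by
  have : Nonempty W'.toAffine.Point := ⟨0⟩
  exact Nat.card_pos

/-- **(G2)** `#W'(F) ≤ 2 #F + 1`. -/
theorem card_le : W'.card ≤ 2 * Fintype.card F + 1 := by
  classical
  -- the affine solutions
  let S : Finset (F × F) := Finset.univ.filter fun p => W'.toAffine.Equation p.1 p.2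
  have hS : S.card ≤ 2 * Fintype.card F := by
    have h1 := Finset.card_le_mul_card_image (f := Prod.fst) S 2 (by
      intro a _
      have hinj : ((S.filter fun p => p.1 = a).image Prod.snd).card =
          (S.filter fun p => p.1 = a).card := by
        apply Finset.card_image_of_injOn
        intro p hp p' hp' hpp
        simp only [Finset.coe_filter, Set.mem_ofPred_eq] at hp hp'
        exact Prod.ext (hp.2.trans hp'.2.symm) hpp
      rw [← hinj]
      apply card_fiber_le_two W' a
      intro y hy
      obtain ⟨p, hp, rfl⟩ := Finset.mem_image.mp hy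
      simp only [Finset.mem_filter, S, Finset.mem_univ, true_and] at hp
      rw [← hp.2]
      exact hp.1)
    calc S.card ≤ 2 * (S.image Prod.fst).card := h1
      _ ≤ 2 * Fintype.card F := Nat.mul_le_mul_left 2 (Finset.card_le_univ _)
  -- injection of the points into `Option S`
  let f : W'.toAffine.Point → Option S := fun P =>
    match P with
    | .zero => none
    | .some (x := x) (y := y) h => some ⟨(x, y), by
        simp only [S, Finset.mem_filter, Finset.mem_univ, true_and]
        exact h.left⟩
  have hf : Function.Injective f := by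
    rintro (_ | ⟨h₁⟩) (_ | ⟨h₂⟩) h
    · rfl
    · simp [f] at h
    · simp [f] at h
    · simp only [f, Option.some.injEq, Subtype.mk.injEq, Prod.mk.injEq] at h
      obtain ⟨rfl, rfl⟩ := h
      rfl
  have h2 : Nat.card W'.toAffine.Point ≤ Nat.card (Option S) :=
    Nat.card_le_card_of_injective f hf
  have h3 : Nat.card (Option S) = S.card + 1 := by
    rw [Finite.card_option, Nat.card_eq_fintype_card, Fintype.card_coe]
  show Nat.card W'.toAffine.Point ≤ _
  omega

end G2

section G2Z

variable (W : WeierstrassCurve ℤ) (q : ℕ) [hq : Fact q.Prime]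

/-- `1 ≤ #W(𝔽_q)`. -/
theorem one_le_card_reductionMod : 1 ≤ (W.reductionMod q).card :=
  one_le_card _

/-- `#W(𝔽_q) ≤ 2 q + 1`. -/
theorem card_reductionMod_le : (W.reductionMod q).card ≤ 2 * q + 1 := by
  have h := card_le (W.reductionMod q)
  rwa [ZMod.card] at h

theorem card_reductionMod_ne_zero : (W.reductionMod q).card ≠ 0 := by
  have := one_le_card_reductionMod W q
  omega

theorem card_reductionMod_ne : (W.reductionMod q).card ≠ 2 * q + 2 := by
  have := card_reductionMod_le W q
  omega

/-- `a_q(W) ≤ q`. -/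
theorem apOfModel_le : W.apOfModel q ≤ q := by
  have h := one_le_card_reductionMod W q
  show ((Nat.card (ZMod q) : ℤ) + 1 - ((W.reductionMod q).card : ℤ)) ≤ q
  rw [Nat.card_eq_fintype_card, ZMod.card]
  have : (1 : ℤ) ≤ ((W.reductionMod q).card : ℤ) := by exact_mod_cast h
  omega

/-- `-q ≤ a_q(W)`. -/
theorem neg_le_apOfModel : -(q : ℤ) ≤ W.apOfModel q := by
  have h := card_reductionMod_le W q
  show -(q : ℤ) ≤ ((Nat.card (ZMod q) : ℤ) + 1 - ((W.reductionMod q).card : ℤ))
  rw [Nat.card_eq_fintype_card, ZMod.card]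
  have : ((W.reductionMod q).card : ℤ) ≤ 2 * q + 1 := by exact_mod_cast h
  omega

/-- `a_q(W) ≠ ± (q + 1)`: the two values excluded in step (b) of (T3). -/
theorem apOfModel_ne : W.apOfModel q ≠ (q : ℤ) + 1 ∧ W.apOfModel q ≠ -((q : ℤ) + 1) := by
  have h1 := apOfModel_le W q
  have h2 := neg_le_apOfModel W q
  constructor <;> omega

end G2Z

/-! ### (G3) divisibility of integers in a local domain of characteristic zero -/

section G3

variable {O : Type*} [CommRing O] [IsDomain O] [IsLocalRing O] [CharZero O]

/-- **(G3)** If `lam` is a prime number in the maximal ideal of the local domain `O` of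
characteristic `0`, and the integer `z` is divisible by `lam ^ n` in `O`, then `lam ^ n ∣ z`. -/
theorem pow_dvd_of_mem_span_pow {lam : ℕ} (hlam : lam.Prime)
    (hm : (lam : O) ∈ IsLocalRing.maximalIdeal O) (n : ℕ) (z : ℤ)
    (hz : (z : O) ∈ Ideal.span {(lam : O) ^ n}) : (lam : ℤ) ^ n ∣ z := by
  induction n generalizing z with
  | zero => simp
  | succ n ih =>
    obtain ⟨c, hc⟩ := Ideal.mem_span_singleton.mp hz
    have hlam0 : (lam : O) ≠ 0 := by
      exact_mod_cast hlam.ne_zero
    -- `lam ∣ z` in `ℤ`
    have hdvd : (lam : ℤ) ∣ z := by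
      by_contra hnd
      have hcop : IsCoprime (lam : ℤ) z :=
        (Nat.prime_iff_prime_int.mp hlam).coprime_iff_not_dvd.mpr hnd
      obtain ⟨a, b, hab⟩ := hcop
      have h1 : ((a : O) * (lam : O) + (b : O) * (z : O)) = 1 := by
        have := congrArg (fun t : ℤ => (t : O)) hab
        simpa using this
      have hzm : (z : O) ∈ IsLocalRing.maximalIdeal O := by
        rw [hc, pow_succ, mul_assoc]
        exact Ideal.mul_mem_left _ _ (Ideal.mul_mem_right _ _ hm)
      have : (1 : O) ∈ IsLocalRing.maximalIdeal O := by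
        rw [← h1]
        exact Ideal.add_mem _ (Ideal.mul_mem_left _ _ hm) (Ideal.mul_mem_left _ _ hzm)
      exact (Ideal.ne_top_iff_one _).mp (IsLocalRing.maximalIdeal.isMaximal O).ne_top this
    obtain ⟨z', rfl⟩ := hdvd
    have hz' : ((z' : ℤ) : O) ∈ Ideal.span {(lam : O) ^ n} := by
      rw [Ideal.mem_span_singleton]
      refine ⟨c, ?_⟩
      apply mul_left_cancel₀ hlam0
      have : ((lam : ℤ) * z' : ℤ) = (lam : O) * (z' : O) := by push_cast; ring
      rw [← this, hc, pow_succ]
      ring
    obtain ⟨d, hd⟩ := ih z' hz'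
    exact ⟨d, by rw [hd, pow_succ]; ring⟩

/-- Ideal-power form: `z ∈ 𝔪 ^ n`-type statement for the principal ideal `(lam)`. -/
theorem pow_dvd_of_mem_span_pow' {lam : ℕ} (hlam : lam.Prime)
    (hm : (lam : O) ∈ IsLocalRing.maximalIdeal O) (n : ℕ) (z : ℤ)
    (hz : (z : O) ∈ Ideal.span {(lam : O)} ^ n) : (lam : ℤ) ^ n ∣ z := by
  rw [Ideal.span_singleton_pow] at hz
  exact pow_dvd_of_mem_span_pow hlam hm n z hz

end G3

end Fermat.Agent.EC.H36
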