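import Mathlib
import Fermat.Agent.EC.H28_T3Interface
import Fermat.Agent.EC.H36_SmallFacts

/-!
# EC / row (C3b) of `S58 CHAIN v1` (helper36), core: `SpecC3b` from the transfer lemma (C1)

`TransferShape` is the pinned statement of helper90's `(C1)` (`EC/H90_Transfer.transfer`, board
#3718) as a `Prop` (with `M : Type`); `specC3b_of_transfer : TransferShape → H28.SpecC3b`.

Proof.  Let `char ρ(σ) = X² ∓ (q+1) X + q`, so `tr ρ(σ) = e (q+1)`, `det ρ(σ) = q`, `e = ± 1`.
Fix `n`; `(λ)ⁿ = 𝔪^(k n)`.  Transfer at `M := W[λⁿ]` gives integers `t, d` with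
`tr - t, det - d ∈ (λⁿ)` and `σ² - t σ + d = 0` on `M`; Hasse–Weil at the good prime `q` gives
`σ² - a_q σ + q = 0` on `M`.  So `λⁿ ∣ e(q+1) - t`, `λⁿ ∣ q - d`, and subtracting,
`(t - a_q) σ = d - q = 0` on `M`; `σ` is bijective and `M` is faithful, hence `λⁿ ∣ t - a_q`.
Therefore `λⁿ ∣ e(q+1) - a_q(W)` for every `n`, i.e. `a_q(W) = ± (q+1)`: impossible
(`H36.apOfModel_ne`).
-/

set_option autoImplicit false
set_option linter.unusedSectionVars false

noncomputable section

namespace Fermat.Agent.EC.H36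

open WeierstrassCurve WeierstrassCurve.Affine WeierstrassCurve.Affine.Point Polynomial
open Fermat.Agent.EC.H28

local notation "Qbar" => AlgebraicClosure ℚ
local notation "GQ" => (AlgebraicClosure ℚ ≃ₐ[ℚ] AlgebraicClosure ℚ)

/-- The pinned statement of the transfer lemma `(C1)` (helper90, board #3718), at `M : Type`. -/
def TransferShape : Prop :=
  ∀ {O'' : Type} [CommRing O''] [IsLocalRing O''] (rho : GaloisRepAdic O'')
    {M : Type} [AddCommGroup M] [DistribMulAction GQ M]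
    (_ : ∃ L : IntermediateField ℚ Qbar, FiniteDimensional ℚ L ∧
      ∀ σ : GQ, (∀ x ∈ L, σ x = x) → ∀ P : M, σ • P = P)
    (a : ℕ → ℤ) (T0 : Finset ℕ)
    (_ : ∀ l : ℕ, l.Prime → l ∉ T0 → ∀ A : ValuationSubring Qbar, A.LiesOverPrime l →
      ∀ φ : GQ, A.IsFrobeniusAt φ l →
        LinearMap.charpoly (rho.ρ φ) = X ^ 2 - C ((a l : ℤ) : O'') * X + C ((l : ℕ) : O''))
    (_ : ∀ l : ℕ, l.Prime → l ∉ T0 → ∀ A : ValuationSubring Qbar, A.LiesOverPrime l →
      ∀ φ : GQ, A.IsFrobeniusAt φ l →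
        ∀ P : M, φ • φ • P - (a l) • (φ • P) + (l : ℤ) • P = 0)
    (σ : GQ) (n' m : ℕ) (_ : 0 < m) (_ : ∀ q : ℕ, q.Prime → q ∣ m → q ∈ T0),
    ∃ (t : ℤ) (d : ℕ),
      LinearMap.trace O'' rho.V (rho.ρ σ) - (t : O'') ∈ IsLocalRing.maximalIdeal O'' ^ n' ∧
      LinearMap.det (rho.ρ σ) - (d : O'') ∈ IsLocalRing.maximalIdeal O'' ^ n' ∧
      (∀ P : M, σ • σ • P - t • (σ • P) + (d : ℤ) • P = 0) ∧
      (∀ ζ : Qbar, ζ ^ m = 1 → σ ζ = ζ ^ d)

/-! ### Linear algebra in rank two -/

section RankTwo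

variable {R V : Type*} [CommRing R] [Nontrivial R] [AddCommGroup V] [Module R V]
  [Module.Free R V] [Module.Finite R V]

/-- The characteristic polynomial of an endomorphism of a free module of rank two. -/
theorem charpoly_eq_of_finrank_two (h : Module.finrank R V = 2) (f : Module.End R V) :
    LinearMap.charpoly f = X ^ 2 - C (LinearMap.trace R V f) * X + C (LinearMap.det f) := by
  classical
  let b : Module.Basis (Fin 2) R V := Module.finBasisOfFinrankEq R V h
  rw [← LinearMap.charpoly_toMatrix f b, Matrix.charpoly_fin_two,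
    LinearMap.trace_eq_matrix_trace R b f, ← LinearMap.det_toMatrix b f]

omit [Nontrivial R] in
/-- Comparing coefficients of monic quadratics. -/
theorem coeffs_eq_of_quadratic_eq {a b a' b' : R}
    (h : (X ^ 2 - C a * X + C b : R[X]) = X ^ 2 - C a' * X + C b') : a = a' ∧ b = b' := by
  have h1 := congrArg (fun p : R[X] => p.coeff 1) h
  have h0 := congrArg (fun p : R[X] => p.coeff 0) h
  simp only [coeff_add, coeff_sub, coeff_X_pow, coeff_C_mul, coeff_X_one, coeff_C_zero,
    coeff_X_zero, mul_one, mul_zero, sub_zero] at h1 h0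
  norm_num at h1 h0
  exact ⟨h1, h0⟩

/-- Trace and determinant from the characteristic polynomial. -/
theorem trace_det_of_charpoly_eq (h : Module.finrank R V = 2) (f : Module.End R V) {a b : R}
    (hf : LinearMap.charpoly f = X ^ 2 - C a * X + C b) :
    LinearMap.trace R V f = a ∧ LinearMap.det f = b := by
  rw [charpoly_eq_of_finrank_two h f] at hf
  exact coeffs_eq_of_quadratic_eq hf

end RankTwo

/-! ### Small arithmetic -/

/-- An integer divisible by every power of a prime is zero. -/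
theorem int_eq_zero_of_forall_pow_dvd {lam : ℕ} (hlam : lam.Prime) {z : ℤ}
    (h : ∀ n : ℕ, (lam : ℤ) ^ n ∣ z) : z = 0 := by
  by_contra hz
  have h1 := h z.natAbs
  have h2 : ((lam ^ z.natAbs : ℕ) : ℤ) ∣ z := by
    rw [Nat.cast_pow]
    exact h1
  have h3 : lam ^ z.natAbs ∣ z.natAbs := Int.natCast_dvd.mp h2
  have h4 : lam ^ z.natAbs ≤ z.natAbs := Nat.le_of_dvd (Int.natAbs_pos.mpr hz) h3
  have h5 : z.natAbs < lam ^ z.natAbs := Nat.lt_pow_self hlam.one_lt
  omega

/-- In a DVR of characteristic zero, `(λ)ⁿ` is a power of the maximal ideal. -/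
theorem exists_maximalIdeal_pow_eq_span {O : Type*} [CommRing O] [IsDomain O]
    [IsDiscreteValuationRing O] [CharZero O] {lam : ℕ} (hlam : lam ≠ 0) :
    ∃ k : ℕ, ∀ n : ℕ, IsLocalRing.maximalIdeal O ^ (k * n) = Ideal.span {(lam : O) ^ n} := by
  obtain ⟨ϖ, hϖ⟩ := IsDiscreteValuationRing.exists_irreducible O
  have hlam0 : (lam : O) ≠ 0 := by exact_mod_cast hlam
  have hne : Ideal.span {(lam : O)} ≠ ⊥ := by
    rw [Ne, Ideal.span_singleton_eq_bot]
    exact hlam0
  obtain ⟨k, hk⟩ := IsDiscreteValuationRing.ideal_eq_span_pow_irreducible hne hϖ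
  refine ⟨k, fun n => ?_⟩
  rw [hϖ.maximalIdeal_eq, Ideal.span_singleton_pow, pow_mul, ← Ideal.span_singleton_pow,
    ← hk, Ideal.span_singleton_pow]

/-! ### The row -/

set_option maxHeartbeats 1600000 in
/-- **Row (C3b) from the transfer lemma.** -/
theorem specC3b_of_transfer (htr : TransferShape) : SpecC3b := by
  intro W hΔ hEC O _ _ _ _ lam hlam hlam2 hlamO ρ T0 hlamT0 hbadT0 hatt q hq hqlam hqΔ A hA σ hσ
    hchar
  have : Fact q.Prime := ⟨hq⟩
  -- trace and determinant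
  obtain ⟨e, he, htrace, hdet⟩ : ∃ e : ℤ, (e = 1 ∨ e = -1) ∧
      LinearMap.trace O ρ.V (ρ.ρ σ) = ((e * ((q : ℤ) + 1) : ℤ) : O) ∧
      LinearMap.det (ρ.ρ σ) = ((q : ℤ) : O) := by
    rcases hchar with h | h
    · obtain ⟨h1, h2⟩ := trace_det_of_charpoly_eq ρ.finrank_eq (ρ.ρ σ) h
      exact ⟨1, Or.inl rfl, by rw [h1]; push_cast; ring, by rw [h2]; push_cast; rfl⟩
    · have h' : LinearMap.charpoly (ρ.ρ σ) =
          X ^ 2 - C (-((q : O) + 1)) * X + C ((q : O)) := by
        rw [h, map_neg]; ring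
      obtain ⟨h1, h2⟩ := trace_det_of_charpoly_eq ρ.finrank_eq (ρ.ρ σ) h'
      exact ⟨-1, Or.inr rfl, by rw [h1]; push_cast; ring, by rw [h2]; push_cast; rfl⟩
  obtain ⟨k, hk⟩ := exists_maximalIdeal_pow_eq_span (O := O) hlam.ne_zero
  have hlamodd : Odd lam := hlam.odd_of_ne_two hlam2
  -- the key divisibility
  have key : ∀ n : ℕ, (lam : ℤ) ^ n ∣ e * ((q : ℤ) + 1) - W.apOfModel q := by
    intro n
    have hmpos : 0 < lam ^ n := pow_pos hlam.pos n
    have hmodd : Odd (lam ^ n) := hlamodd.pow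
    have hqm : ¬ q ∣ lam ^ n := by
      intro h
      exact hqlam ((Nat.prime_dvd_prime_iff_eq hq hlam).mp (hq.dvd_of_dvd_pow h))
    have hmT0 : ∀ p : ℕ, p.Prime → p ∣ lam ^ n → p ∈ T0 := by
      intro p hp hpd
      have : p = lam := (Nat.prime_dvd_prime_iff_eq hp hlam).mp (hp.dvd_of_dvd_pow hpd)
      rw [this]; exact hlamT0
    have hMq : ∀ l : ℕ, l.Prime → l ∉ T0 → ∀ A : ValuationSubring Qbar, A.LiesOverPrime l →
        ∀ φ : GQ, A.IsFrobeniusAt φ l → ∀ P : Tors W (lam ^ n),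
          φ • φ • P - (W.apOfModel l) • (φ • P) + (l : ℤ) • P = 0 := by
      intro l hl hlT0 A' hA' φ hφ P
      have hgood : ¬ (l : ℤ) ∣ W.Δ := fun h => hlT0 (hbadT0 l hl h)
      have hlm : ¬ l ∣ lam ^ n := by
        intro h
        have : l = lam := (Nat.prime_dvd_prime_iff_eq hl hlam).mp (hl.dvd_of_dvd_pow h)
        exact hlT0 (this ▸ hlamT0)
      exact hEC.hw l hl hgood (lam ^ n) hmodd hlm A' hA' φ hφ P
    obtain ⟨t, d, ht, hd, hquad, -⟩ := htr ρ (M := Tors W (lam ^ n))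
      (hEC.finiteLevel (lam ^ n) hmpos) W.apOfModel T0 hatt hMq σ (k * n) (lam ^ n) hmpos hmT0
    rw [hk n] at ht hd
    -- `λⁿ ∣ e(q+1) - t`, `λⁿ ∣ q - d`
    have h1 : (lam : ℤ) ^ n ∣ e * ((q : ℤ) + 1) - t := by
      apply pow_dvd_of_mem_span_pow hlam hlamO n
      rw [htrace] at ht
      push_cast at ht ⊢
      exact ht
    have h2 : (lam : ℤ) ^ n ∣ (q : ℤ) - (d : ℤ) := by
      apply pow_dvd_of_mem_span_pow hlam hlamO n
      rw [hdet] at hd
      push_cast at hd ⊢
      exact hd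
    -- Hasse–Weil at `q`
    have hHW : ∀ P : Tors W (lam ^ n),
        σ • σ • P - (W.apOfModel q) • (σ • P) + (q : ℤ) • P = 0 :=
      fun P => hEC.hw q hq hqΔ (lam ^ n) hmodd hqm A hA σ hσ P
    -- torsion: `λⁿ ∣ c → c • P = 0`
    have htors : ∀ (c : ℤ), (lam : ℤ) ^ n ∣ c → ∀ P : Tors W (lam ^ n), c • P = 0 := by
      intro c hc P
      obtain ⟨c', rfl⟩ := hc
      have hP : ((lam ^ n : ℕ) : ℤ) • P = 0 := by
        apply Subtype.ext
        have := P.2
        rw [Submodule.mem_torsionBy_iff] at this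
        first | simp | simpa using this
      rw [mul_comm, mul_smul]
      have : ((lam : ℤ) ^ n) • P = 0 := by
        have h := hP
        push_cast at h
        exact h
      rw [this, smul_zero]
    -- `(t - a_q) • σ • P = 0`
    have h3 : ∀ P : Tors W (lam ^ n), (t - W.apOfModel q) • (σ • P) = 0 := by
      intro P
      have e1 := hquad P
      have e2 := hHW P
      have e3 : ((d : ℤ) - (q : ℤ)) • P = 0 := by
        apply htors
        have : (d : ℤ) - (q : ℤ) = -((q : ℤ) - (d : ℤ)) := by ring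
        rw [this]
        exact (dvd_neg).mpr h2
      have : (t - W.apOfModel q) • (σ • P) =
          (σ • σ • P - (W.apOfModel q) • (σ • P) + (q : ℤ) • P) -
          (σ • σ • P - t • (σ • P) + (d : ℤ) • P) + ((d : ℤ) - (q : ℤ)) • P := by
        simp only [sub_smul]
        abel
      rw [this, e1, e2, e3]
      simp
    -- `σ` is onto
    have h4 : ∀ P : Tors W (lam ^ n), (t - W.apOfModel q) • P = 0 := by
      intro P
      have := h3 (σ⁻¹ • P)
      rwa [smul_inv_smul] at this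
    have h5 : ((lam ^ n : ℕ) : ℤ) ∣ t - W.apOfModel q :=
      hEC.faithful lam hlam n (t - W.apOfModel q) h4
    have h5' : (lam : ℤ) ^ n ∣ t - W.apOfModel q := by
      push_cast at h5
      exact h5
    have : e * ((q : ℤ) + 1) - W.apOfModel q =
        (e * ((q : ℤ) + 1) - t) + (t - W.apOfModel q) := by ring
    rw [this]
    exact dvd_add h1 h5'
  have hzero := int_eq_zero_of_forall_pow_dvd hlam key
  have hne := apOfModel_ne W q
  rcases he with rfl | rfl
  · apply hne.1
    linarith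
  · apply hne.2
    linarith

end Fermat.Agent.EC.H36
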