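import Mathlib
import Fermat.Prelude.Def_GaloisRep_Adic
import Fermat.Prelude.Def_FLTPrelim_Ramification
import Fermat.Agent.S31.H81_PowerTrace
import Fermat.Agent.S31.H81_TraceCongr
import Fermat.Agent.S31.H81_S31Reduction
import Fermat.Agent.S14.H31_FrobPrelude
import Fermat.Agent.S14.H31_FrobCyclo

/-!
# S58 (T3), brick (C1): the transfer lemma

Abstract (no elliptic curves).  `ρ : GaloisRepAdic O''`, `M` any abelian group with a
`G_ℚ`-action of finite level, `a : ℕ → ℤ`, `T0` a finite set of primes.  If for every Frobenius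
element `φ` at every prime `ℓ ∉ T0`

* `charpoly ρ(φ) = X² - a_ℓ X + ℓ`  and
* `φ² - a_ℓ φ + ℓ = 0` on `M`,

then for EVERY `σ ∈ G_ℚ`, every `n'` and every `m > 0` all of whose prime factors lie in `T0`
there are `t : ℤ`, `d : ℕ` with

* `tr ρ(σ) ≡ t`, `det ρ(σ) ≡ d` modulo `𝔪^n'`,
* `σ² - t σ + d = 0` on `M`,
* `σ ζ = ζ ^ d` for every `m`-th root of unity `ζ`.

Proof: Frobenius density (existence form, `S14.H31.exists_isFrobeniusAt_map_eq_zpow`) at the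
normal closure of (level of `ρ mod 𝔪^n'`) (level of `M`) `ℚ(μ_m)`: `σ = φ^j τ` with `τ` trivial on
everything, `t := V_j(a_ℓ, ℓ)` (Lucas / power-sum sequence `S31.H81.psum`), `d := ℓ^j`.
-/

set_option autoImplicit false

namespace Fermat.Agent.EC.H90

open IsLocalRing Matrix Polynomial
open Fermat.Agent.S31.H81

local notation "Qb" => AlgebraicClosure ℚ
local notation "GQ" => (AlgebraicClosure ℚ ≃ₐ[ℚ] AlgebraicClosure ℚ)
local notation "M2" => Matrix (Fin 2) (Fin 2)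

section Lucas

variable {J : Type*} [AddCommGroup J]

/-- **Lucas / power sums, operator form.**  If an additive automorphism `φ` (given through a group
action) satisfies `φ² - a φ + ℓ = 0` on `J`, then `(φ^j)² - V_j φ^j + ℓ^j = 0` on `J`, where
`V_j = psum a ℓ j`. -/
theorem quad_pow_of_quad {G : Type*} [Group G] [DistribMulAction G J] (φ : G) (a ℓ : ℤ)
    (h : ∀ P : J, φ • φ • P - a • (φ • P) + ℓ • P = 0) (j : ℕ) (P : J) :
    (φ ^ j) • (φ ^ j) • P - (psum a ℓ j) • ((φ ^ j) • P) + (ℓ ^ j) • P = 0 := by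
  -- `ψ z := a z - φ z` is the conjugate: `φ ψ = ψ φ = ℓ`, `φ + ψ = a`
  have hsm : ∀ (g : G) (c : ℤ) (z : J), g • (c • z) = c • (g • z) := fun g c z =>
    smul_comm g c z
  -- key: `φ^j P + ψ^j P = V_j P` where we encode `ψ^j P = ℓ^j (φ^j)⁻¹ P`
  have hquad : ∀ z : J, a • z = φ • z + ℓ • φ⁻¹ • z := by
    intro z
    have h1 := h (φ⁻¹ • z)
    rw [smul_inv_smul] at h1
    have h2 : φ • z + ℓ • φ⁻¹ • z - a • z = 0 := by rw [← h1]; abel
    exact (sub_eq_zero.mp h2).symm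
  have key : ∀ (j : ℕ) (z : J), (psum a ℓ j) • z = φ ^ j • z + ℓ ^ j • (φ ^ j)⁻¹ • z := by
    intro j
    induction j using Nat.twoStepInduction with
    | zero => intro z; simp [two_smul]
    | one => intro z; simpa using hquad z
    | more j h1 h2 =>
      intro z
      have e1 : φ • φ ^ (j + 1) • z = φ ^ (j + 2) • z := by
        rw [← mul_smul, ← pow_succ']
      have e2 : φ⁻¹ • φ ^ (j + 1) • z = φ ^ j • z := by
        rw [← mul_smul, pow_succ', inv_mul_cancel_left]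
      have e3 : φ • (ℓ ^ (j + 1) • (φ ^ (j + 1))⁻¹ • z) = ℓ ^ (j + 1) • (φ ^ j)⁻¹ • z := by
        rw [hsm, ← mul_smul]
        congr 2
        rw [pow_succ, _root_.mul_inv_rev, mul_inv_cancel_left]
      have e4 : φ⁻¹ • (ℓ ^ (j + 1) • (φ ^ (j + 1))⁻¹ • z)
          = ℓ ^ (j + 1) • (φ ^ (j + 2))⁻¹ • z := by
        rw [hsm, ← mul_smul]
        congr 2
        rw [pow_succ φ (j + 1), _root_.mul_inv_rev]
      have e5 : ∀ w : J, ℓ • ℓ ^ (j + 1) • w = ℓ ^ (j + 2) • w := by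
        intro w; rw [smul_smul, ← pow_succ']
      have e6 : ∀ w : J, ℓ • ℓ ^ j • w = ℓ ^ (j + 1) • w := by
        intro w; rw [smul_smul, ← pow_succ']
      rw [psum_succ_succ, sub_smul, mul_smul, mul_smul, h2 z, h1 z, smul_add, smul_add,
        hquad (φ ^ (j + 1) • z), hquad (ℓ ^ (j + 1) • (φ ^ (j + 1))⁻¹ • z), e1, e2, e3, e4,
        e5, e6]
      abel
  have h3 := key j ((φ ^ j) • P)
  rw [inv_smul_smul] at h3
  rw [h3]
  abel

end Lucas

section Det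

variable {R : Type*} [CommRing R]

/-- the determinant of a `2 × 2` matrix congruent to `1` modulo `I` is congruent to `1` -/
lemma det_sub_one_mem (I : Ideal R) (Y : M2 R) (hY : ∀ i j, (Y - 1) i j ∈ I) :
    Y.det - 1 ∈ I := by
  have h1 : (Ideal.Quotient.mk I).mapMatrix Y = 1 := by
    ext i j
    have h2 := Ideal.Quotient.eq.mpr (hY i j |> fun h => by simpa [Matrix.sub_apply] using h :
      Y i j - (1 : M2 R) i j ∈ I)
    rw [RingHom.mapMatrix_apply, Matrix.map_apply, h2]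
    by_cases hij : i = j
    · subst hij; simp
    · simp [Matrix.one_apply_ne hij]
  have h3 : Ideal.Quotient.mk I Y.det = 1 := by
    rw [RingHom.map_det, h1, Matrix.det_one]
  rw [← Ideal.Quotient.eq, h3, map_one]

end Det

section Main

variable {O'' : Type} [CommRing O''] [IsLocalRing O'']

/-- **(C1) Transfer lemma.** -/
theorem transfer (ρ : GaloisRepAdic O'')
    {M : Type*} [AddCommGroup M] [DistribMulAction GQ M]
    (hM : ∃ L : IntermediateField ℚ Qb, FiniteDimensional ℚ L ∧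
      ∀ σ : GQ, (∀ x ∈ L, σ x = x) → ∀ P : M, σ • P = P)
    (a : ℕ → ℤ) (T0 : Finset ℕ)
    (hρ : ∀ ℓ : ℕ, ℓ.Prime → ℓ ∉ T0 → ∀ A : ValuationSubring Qb, A.LiesOverPrime ℓ →
      ∀ φ : GQ, A.IsFrobeniusAt φ ℓ →
        LinearMap.charpoly (ρ.ρ φ) = X ^ 2 - C (((a ℓ : ℤ) : O'')) * X + C ((ℓ : O'')))
    (hMq : ∀ ℓ : ℕ, ℓ.Prime → ℓ ∉ T0 → ∀ A : ValuationSubring Qb, A.LiesOverPrime ℓ →
      ∀ φ : GQ, A.IsFrobeniusAt φ ℓ →
        ∀ P : M, φ • φ • P - (a ℓ) • (φ • P) + (ℓ : ℤ) • P = 0)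
    (σ : GQ) (n' m : ℕ) (hm : 0 < m) (hmT0 : ∀ q : ℕ, q.Prime → q ∣ m → q ∈ T0) :
    ∃ (t : ℤ) (d : ℕ),
      LinearMap.trace O'' ρ.V (ρ.ρ σ) - (t : O'') ∈ maximalIdeal O'' ^ n' ∧
      LinearMap.det (ρ.ρ σ) - (d : O'') ∈ maximalIdeal O'' ^ n' ∧
      (∀ P : M, σ • σ • P - t • (σ • P) + (d : ℤ) • P = 0) ∧
      (∀ ζ : Qb, ζ ^ m = 1 → σ ζ = ζ ^ d) := by
  classical
  have hfr : Module.finrank O'' ρ.V = 2 := ρ.finrank_eq
  let b : Module.Basis (Fin 2) O'' ρ.V := Module.finBasisOfFinrankEq O'' ρ.V hfr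
  obtain ⟨L₁, hL₁fin, hL₁⟩ := matAdicCont_matRep ρ b n'
  obtain ⟨FY, hFYfin, hFY⟩ := hM
  have : NeZero m := ⟨hm.ne'⟩
  obtain ⟨ζ₀, hζ₀⟩ := HasEnoughRootsOfUnity.exists_primitiveRoot Qb m
  have hζint : IsIntegral ℚ ζ₀ := (hζ₀.isIntegral hm).tower_top
  have : FiniteDimensional ℚ (IntermediateField.adjoin ℚ {ζ₀}) :=
    IntermediateField.adjoin.finiteDimensional hζint
  have := hL₁fin
  have := hFYfin
  let F₀ : IntermediateField ℚ Qb := L₁ ⊔ FY ⊔ IntermediateField.adjoin ℚ {ζ₀}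
  have : FiniteDimensional ℚ ↥(L₁ ⊔ FY) := IntermediateField.finiteDimensional_sup _ _
  have : FiniteDimensional ℚ ↥F₀ := IntermediateField.finiteDimensional_sup _ _
  have hQalg : Algebra.IsAlgebraic ℚ Qb := AlgebraicClosure.isAlgebraic ℚ
  have hQcl : IsAlgClosure ℚ Qb := ⟨inferInstance, hQalg⟩
  have : Normal ℚ Qb := IsAlgClosure.normal ℚ Qb
  let Fn : IntermediateField ℚ Qb := IntermediateField.normalClosure ℚ ↥F₀ Qb
  have : Normal ℚ ↥Fn := normalClosure.normal ℚ ↥F₀ Qb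
  have : FiniteDimensional ℚ ↥Fn := normalClosure.is_finiteDimensional ℚ ↥F₀ Qb
  have hF₀Fn : F₀ ≤ Fn := IntermediateField.le_normalClosure F₀
  let ρ' : GQ →* (↥Fn ≃ₐ[ℚ] ↥Fn) := AlgEquiv.restrictNormalHom ↥Fn
  have hker : ρ'.ker = Fn.fixingSubgroup := IntermediateField.restrictNormalHom_ker Fn
  obtain ⟨ℓ, A, φ, j, k', hℓ, hℓS, hA, hφ, -, hgφ⟩ :=
    Fermat.Agent.S14.H31.exists_isFrobeniusAt_map_eq_zpow Fn ρ' hker.ge σ T0
  -- a natural exponent
  obtain ⟨j', hj'⟩ : ∃ j' : ℕ, ρ' φ ^ j = ρ' φ ^ j' := by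
    have ho : 0 < orderOf (ρ' φ) := orderOf_pos (ρ' φ)
    refine ⟨(j % (orderOf (ρ' φ) : ℤ)).toNat, ?_⟩
    rw [← zpow_natCast, Int.toNat_of_nonneg (Int.emod_nonneg _ (by exact_mod_cast ho.ne')),
      zpow_mod_orderOf]
  set τ : GQ := (φ ^ j')⁻¹ * σ with hτ
  have hτker : τ ∈ Fn.fixingSubgroup := by
    rw [← hker, MonoidHom.mem_ker, hτ, map_mul, map_inv, map_pow, hgφ, hj', inv_mul_cancel]
  have hfix : ∀ u : GQ, u ∈ Fn.fixingSubgroup → ∀ x ∈ F₀, u x = x := by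
    intro u hu x hx
    exact (IntermediateField.mem_fixingSubgroup_iff Fn u).mp hu x (hF₀Fn hx)
  have hg : σ = φ ^ j' * τ := by rw [hτ, mul_inv_cancel_left]
  -- consequences of fixing `F₀`
  have hfixL : ∀ i j, (matRep ρ b τ - 1) i j ∈ maximalIdeal O'' ^ n' :=
    hL₁ τ fun x hx =>
      hfix τ hτker x ((le_sup_left : L₁ ≤ L₁ ⊔ FY).trans le_sup_left hx)
  have hfixY : ∀ P : M, τ • P = P :=
    hFY τ fun x hx =>
      hfix τ hτker x ((le_sup_right : FY ≤ L₁ ⊔ FY).trans le_sup_left hx)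
  have hfixζ : τ ζ₀ = ζ₀ :=
    hfix τ hτker ζ₀ ((le_sup_right : _ ≤ F₀) (IntermediateField.mem_adjoin_simple_self ℚ ζ₀))
  -- `ℓ` is prime to `m`
  have hcop : ℓ.Coprime m := by
    rw [Nat.Prime.coprime_iff_not_dvd hℓ]
    exact fun h => hℓS (hmT0 ℓ hℓ h)
  obtain ⟨htr, hdet⟩ := trace_det_of_charpoly ρ b φ _ _ (hρ ℓ hℓ hℓS A hA φ hφ)
  have hrσ : matRep ρ b σ = (matRep ρ b φ) ^ j' * matRep ρ b τ := by
    rw [hg, map_mul, map_pow]
  refine ⟨psum (a ℓ) (ℓ : ℤ) j', ℓ ^ j', ?_, ?_, ?_, ?_⟩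
  · -- trace congruence
    have h0 : LinearMap.trace O'' ρ.V (ρ.ρ σ) = (matRep ρ b σ).trace := by
      rw [matRep_apply]; exact LinearMap.trace_eq_matrix_trace O'' b (ρ.ρ σ)
    have h1 : (matRep ρ b σ).trace - ((matRep ρ b φ) ^ j').trace
        = ((matRep ρ b φ) ^ j' * (matRep ρ b τ - 1)).trace := by
      rw [hrσ, Matrix.mul_sub, Matrix.mul_one, Matrix.trace_sub]
    have h2 : ((matRep ρ b φ) ^ j').trace = ((psum (a ℓ) (ℓ : ℤ) j' : ℤ) : O'') := by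
      rw [trace_pow_eq_psum, htr, hdet]
      have h3 := map_psum (Int.castRingHom O'') (a ℓ) (ℓ : ℤ) j'
      simpa using h3.symm
    rw [h0, ← h2, h1]
    exact trace_mul_mem _ _ _ hfixL
  · -- determinant congruence
    have h0 : LinearMap.det (ρ.ρ σ) = (matRep ρ b σ).det := by
      rw [matRep_apply]; exact (LinearMap.det_toMatrix b (ρ.ρ σ)).symm
    have h1 : (matRep ρ b σ).det - ((ℓ ^ j' : ℕ) : O'')
        = (ℓ : O'') ^ j' * ((matRep ρ b τ).det - 1) := by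
      rw [hrσ, Matrix.det_mul, Matrix.det_pow, hdet]
      push_cast
      ring
    rw [h0, h1]
    exact Ideal.mul_mem_left _ _ (det_sub_one_mem _ _ hfixL)
  · -- the quadratic relation on `M`
    intro P
    have hσP : ∀ Q : M, σ • Q = φ ^ j' • Q := by
      intro Q; rw [hg, mul_smul, hfixY]
    have h1 := quad_pow_of_quad φ (a ℓ) (ℓ : ℤ) (hMq ℓ hℓ hℓS A hA φ hφ) j' P
    rw [hσP, hσP]
    push_cast
    exact h1
  · -- roots of unity
    intro ζ hζ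
    obtain ⟨k, -, rfl⟩ := hζ₀.eq_pow_of_pow_eq_one hζ
    have h1 : φ ζ₀ = ζ₀ ^ ℓ :=
      Fermat.Agent.S14.H31.map_primitiveRoot_of_isFrobeniusAt hA hφ hζ₀ hcop
    have h2 := pow_apply_of_apply_eq_pow φ ζ₀ ℓ h1 j'
    rw [map_pow, hg, AlgEquiv.mul_apply, hfixζ, h2, ← pow_mul, ← pow_mul, mul_comm]

end Main

end Fermat.Agent.EC.H90
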