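import Mathlib
import Fermat.Agent.EC.H28_T3Interface
import Fermat.Agent.EC.H90_Transfer
import Fermat.Agent.EC.H36_C3bCore

/-!
# EC / row (C3b) of `S58 CHAIN v1` (helper36): `specC3b : H28.SpecC3b`

`H36.specC3b_of_transfer` (file `EC/H36_C3bCore`) applied to helper90's transfer lemma
`H90.transfer` (row (C1), file `EC/H90_Transfer`).
-/

set_option autoImplicit false

namespace Fermat.Agent.EC.H36

/-- helper90's transfer lemma has the pinned shape. -/
theorem transferShape : TransferShape :=
  fun rho _ _ _ hM a T0 hrho hMq σ n' m hm hmT0 =>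
    Fermat.Agent.EC.H90.transfer rho hM a T0 hrho hMq σ n' m hm hmT0

/-- **Row (C3b)**: at a good prime `q ≠ λ` of `W`, the Frobenius characteristic polynomial of a
representation attached to `W` away from `T0` is not `(X ∓ 1)(X ∓ q)`. -/
theorem specC3b : Fermat.Agent.EC.H28.SpecC3b :=
  specC3b_of_transfer transferShape

end Fermat.Agent.EC.H36
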