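/-
helper38, S58 side project, row (HW-op)(v), sub-lemmas (B1) (B2) of helper14's H14_FrobCount.

Mathlib only.

* `card_point_eq` (B1): over a finite field, `#E = 1 + ∑ a, #{b | Equation a b}`.
* `add_pow_card`, `sub_pow_card`, `neg_pow_card`, `algebraMap_pow_card` : the `q`-power map on an
  algebra over a finite field with `q` elements.
* `pow_card_eq_self_iff` : in a field extension, the fixed points of `z ↦ z ^ q` are the image of
  the finite field.
* `fibre_roots` (B2, root side) and `fibre_trichotomy` (B2, full form with the point count of the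
  fibre).
-/
import Mathlib

set_option autoImplicit false

namespace Fermat.Agent.EC.H38

open Polynomial

section PointCount

variable {k0 : Type*} [Field k0] [Fintype k0] [DecidableEq k0]

/-- (B1) The number of points of an elliptic curve over a finite field, fibre by fibre. -/
theorem card_point_eq (W0 : WeierstrassCurve k0) [W0.IsElliptic] :
    Nat.card W0.toAffine.Point
      = 1 + ∑ a : k0, Nat.card {b : k0 // W0.toAffine.Equation a b} := by
  classical
  rw [Nat.card_congr (WeierstrassCurve.Affine.pointEquiv W0.toAffine)]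
  have h1 : Nat.card (WithZero {xy : k0 × k0 // W0.toAffine.Equation xy.1 xy.2})
      = Nat.card {xy : k0 × k0 // W0.toAffine.Equation xy.1 xy.2} + 1 :=
    Finite.card_option
  rw [h1, Nat.card_congr
    (Equiv.subtypeProdEquivSigmaSubtype (fun a b => W0.toAffine.Equation a b)),
    Nat.card_sigma, add_comm]

end PointCount

section Frobenius

variable {k0 : Type*} [Field k0] [Fintype k0]
variable {S : Type*} [CommRing S] [Algebra k0 S]

/-- The `q`-power map is additive on every algebra over a finite field with `q` elements. -/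
theorem add_pow_card (x y : S) :
    (x + y) ^ Fintype.card k0 = x ^ Fintype.card k0 + y ^ Fintype.card k0 := by
  rcases subsingleton_or_nontrivial S with hS | hS
  · exact Subsingleton.elim _ _
  · obtain ⟨p, hchar, n, hp, hq⟩ := FiniteField.card' k0
    haveI := Fact.mk hp
    haveI : CharP S p := charP_of_injective_algebraMap (algebraMap k0 S).injective p
    rw [hq]
    exact add_pow_char_pow x y p n

theorem neg_pow_card (x : S) : (-x) ^ Fintype.card k0 = -(x ^ Fintype.card k0) := by
  have h := add_pow_card (k0 := k0) (-x) x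
  rw [neg_add_cancel, zero_pow Fintype.card_ne_zero] at h
  exact eq_neg_of_add_eq_zero_left h.symm

theorem sub_pow_card (x y : S) :
    (x - y) ^ Fintype.card k0 = x ^ Fintype.card k0 - y ^ Fintype.card k0 := by
  rw [sub_eq_add_neg, add_pow_card (k0 := k0), neg_pow_card (k0 := k0), ← sub_eq_add_neg]

theorem algebraMap_pow_card (a : k0) :
    (algebraMap k0 S a) ^ Fintype.card k0 = algebraMap k0 S a := by
  rw [← map_pow, FiniteField.pow_card]

end Frobenius

section Fixed

variable {k0 : Type*} [Field k0] [Fintype k0]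
variable {k : Type*} [Field k] [Algebra k0 k]

/-- The fixed points of `z ↦ z ^ q` in a field extension of `𝔽_q` are exactly `𝔽_q`. -/
theorem pow_card_eq_self_iff (z : k) :
    z ^ Fintype.card k0 = z ↔ z ∈ Set.range (algebraMap k0 k) := by
  classical
  constructor
  · intro hz
    by_contra hnot
    have hq1 : 1 < Fintype.card k0 := Fintype.one_lt_card
    set p : k[X] := X ^ Fintype.card k0 - X with hp
    have hp0 : p ≠ 0 := FiniteField.X_pow_card_sub_X_ne_zero k hq1
    have hdeg : p.natDegree = Fintype.card k0 :=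
      FiniteField.X_pow_card_sub_X_natDegree_eq k hq1
    let Z : Finset k := insert z (Finset.univ.image (algebraMap k0 k))
    have hzZ : z ∉ Finset.univ.image (algebraMap k0 k) := by
      intro h
      obtain ⟨a, -, ha⟩ := Finset.mem_image.mp h
      exact hnot ⟨a, ha⟩
    have hcard : Z.card = Fintype.card k0 + 1 := by
      rw [Finset.card_insert_of_notMem hzZ,
        Finset.card_image_of_injective _ (algebraMap k0 k).injective, Finset.card_univ]
    have hsub : Z.val ⊆ p.roots := by
      intro w hw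
      have hw' : w ∈ Z := hw
      rw [mem_roots hp0, IsRoot.def, hp]
      simp only [eval_sub, eval_pow, eval_X]
      rcases Finset.mem_insert.mp hw' with rfl | hw''
      · rw [hz, sub_self]
      · obtain ⟨a, -, rfl⟩ := Finset.mem_image.mp hw''
        rw [algebraMap_pow_card, sub_self]
    have := card_le_degree_of_subset_roots hsub
    omega
  · rintro ⟨a, rfl⟩
    exact algebraMap_pow_card a

end Fixed

section Fibre

variable {k0 : Type*} [Field k0] [Fintype k0]
variable {k : Type*} [Field k] [Algebra k0 k]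

/-- (B2), root side.  Let `b₁ b₂` be the two roots (in a field extension `k` of the finite field
`k0`) of a monic quadratic `Z ^ 2 + P Z - F` with coefficients in `k0`.  Then Frobenius permutes
them, and it fixes one iff it fixes the other iff they are rational. -/
theorem fibre_roots (P F : k0) (b₁ b₂ : k)
    (hs : b₁ + b₂ = -algebraMap k0 k P) (hm : b₁ * b₂ = -algebraMap k0 k F) :
    (b₁ ^ Fintype.card k0 = b₁ ∨ b₁ ^ Fintype.card k0 = b₂) ∧
    (b₁ ^ Fintype.card k0 = b₁ ↔ b₁ ∈ Set.range (algebraMap k0 k)) ∧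
    (b₁ ∈ Set.range (algebraMap k0 k) ↔ b₂ ∈ Set.range (algebraMap k0 k)) ∧
    (b₁ ^ Fintype.card k0 = b₂ → b₂ ^ Fintype.card k0 = b₁) ∧
    (b₁ ^ Fintype.card k0 = b₁ → b₂ ^ Fintype.card k0 = b₂) := by
  set q := Fintype.card k0 with hq
  have hb2 : b₂ = -algebraMap k0 k P - b₁ := by linear_combination hs
  have hb2q : b₂ ^ q = -algebraMap k0 k P - b₁ ^ q := by
    rw [hb2, sub_pow_card (k0 := k0), neg_pow_card (k0 := k0), algebraMap_pow_card]
  have hroot : b₁ ^ 2 + algebraMap k0 k P * b₁ - algebraMap k0 k F = 0 := by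
    linear_combination b₁ * hs - hm
  have hrootq : (b₁ ^ q) ^ 2 + algebraMap k0 k P * b₁ ^ q - algebraMap k0 k F = 0 := by
    have h : (b₁ ^ 2 + algebraMap k0 k P * b₁ - algebraMap k0 k F) ^ q = 0 ^ q := by
      rw [hroot]
    rw [zero_pow Fintype.card_ne_zero, sub_pow_card (k0 := k0), add_pow_card (k0 := k0),
      mul_pow, algebraMap_pow_card, algebraMap_pow_card, ← pow_mul, mul_comm 2 q, pow_mul] at h
    exact h
  have hprod : (b₁ ^ q - b₁) * (b₁ ^ q - b₂) = 0 := by
    linear_combination hrootq - (b₁ ^ q) * hs + hm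
  have hrange : b₁ ∈ Set.range (algebraMap k0 k) ↔ b₂ ∈ Set.range (algebraMap k0 k) := by
    constructor
    · rintro ⟨a, ha⟩
      exact ⟨-P - a, by rw [map_sub, map_neg, ha, hb2]⟩
    · rintro ⟨a, ha⟩
      exact ⟨-P - a, by rw [map_sub, map_neg, ha]; linear_combination -hs⟩
  refine ⟨?_, pow_card_eq_self_iff b₁, hrange, ?_, ?_⟩
  · rcases mul_eq_zero.mp hprod with h | h
    · exact Or.inl (sub_eq_zero.mp h)
    · exact Or.inr (sub_eq_zero.mp h)
  · intro h
    rw [hb2q, h]
    linear_combination -hs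
  · intro h
    rw [hb2q, h, hb2]

end Fibre

section Trichotomy

variable {k0 : Type*} [Field k0] [Fintype k0]
variable {k : Type*} [Field k] [Algebra k0 k]

/-- The fibre of the affine curve above `a`, as roots of the quadratic `Z^2 + P Z - F`. -/
theorem equation_iff_quadratic (W0 : WeierstrassCurve k0) (a b : k0) :
    W0.toAffine.Equation a b ↔
      b ^ 2 + (W0.a₁ * a + W0.a₃) * b - (a ^ 3 + W0.a₂ * a ^ 2 + W0.a₄ * a + W0.a₆) = 0 := by
  rw [WeierstrassCurve.Affine.equation_iff]
  constructor
  · intro h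
    linear_combination h
  · intro h
    linear_combination h

/-- (B2), full form.  `k` any field extension of the finite field `k0` in which the Weierstrass
quadratic above `a : k0` has a root `b₁` (e.g. `k` algebraically closed); `b₂` is the other root.
Then exactly one of the three cases holds, with the number `n_a` of rational points above `a`
equal to `2`, `0`, `1` respectively. -/
theorem fibre_trichotomy (W0 : WeierstrassCurve k0) (a : k0) (b₁ b₂ : k)
    (hs : b₁ + b₂ = -algebraMap k0 k (W0.a₁ * a + W0.a₃))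
    (hm : b₁ * b₂ = -algebraMap k0 k (a ^ 3 + W0.a₂ * a ^ 2 + W0.a₄ * a + W0.a₆)) :
    (b₁ ≠ b₂ ∧ b₁ ∈ Set.range (algebraMap k0 k) ∧ b₂ ∈ Set.range (algebraMap k0 k) ∧
        b₁ ^ Fintype.card k0 = b₁ ∧ b₂ ^ Fintype.card k0 = b₂ ∧
        Nat.card {b : k0 // W0.toAffine.Equation a b} = 2) ∨
    (b₁ ≠ b₂ ∧ b₁ ∉ Set.range (algebraMap k0 k) ∧ b₂ ∉ Set.range (algebraMap k0 k) ∧
        b₁ ^ Fintype.card k0 = b₂ ∧ b₂ ^ Fintype.card k0 = b₁ ∧
        Nat.card {b : k0 // W0.toAffine.Equation a b} = 0) ∨
    (b₁ = b₂ ∧ b₁ ∈ Set.range (algebraMap k0 k) ∧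
        2 * b₁ + algebraMap k0 k (W0.a₁ * a + W0.a₃) = 0 ∧
        b₁ ^ Fintype.card k0 = b₁ ∧
        Nat.card {b : k0 // W0.toAffine.Equation a b} = 1) := by
  classical
  obtain ⟨hor, hfix, hrange, hswap, hfix2⟩ := fibre_roots (W0.a₁ * a + W0.a₃)
    (a ^ 3 + W0.a₂ * a ^ 2 + W0.a₄ * a + W0.a₆) b₁ b₂ hs hm
  have hinj : Function.Injective (algebraMap k0 k) := (algebraMap k0 k).injective
  -- a rational point above `a` gives a rational root
  have hrat : ∀ b : k0, W0.toAffine.Equation a b →
      algebraMap k0 k b = b₁ ∨ algebraMap k0 k b = b₂ := by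
    intro b hb
    rw [equation_iff_quadratic] at hb
    have hb' := congrArg (algebraMap k0 k) hb
    simp only [map_sub, map_add, map_mul, map_pow, map_zero] at hb'
    have hprod : (algebraMap k0 k b - b₁) * (algebraMap k0 k b - b₂) = 0 := by
      simp only [map_add, map_mul, map_pow] at hs hm
      linear_combination hb' - (algebraMap k0 k b) * hs + hm
    rcases mul_eq_zero.mp hprod with h | h
    · exact Or.inl (sub_eq_zero.mp h)
    · exact Or.inr (sub_eq_zero.mp h)
  -- a rational root gives a rational point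
  have hpt : ∀ b : k0, (algebraMap k0 k b = b₁ ∨ algebraMap k0 k b = b₂) →
      W0.toAffine.Equation a b := by
    intro b hb
    rw [equation_iff_quadratic]
    apply hinj
    simp only [map_sub, map_add, map_mul, map_pow, map_zero]
    simp only [map_add, map_mul, map_pow] at hs hm
    rcases hb with h | h
    · rw [h]; linear_combination b₁ * hs - hm
    · rw [h]; linear_combination b₂ * hs - hm
  by_cases h12 : b₁ = b₂
  · -- ramified
    right; right
    have h2 : 2 * b₁ + algebraMap k0 k (W0.a₁ * a + W0.a₃) = 0 := by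
      rw [← h12] at hs
      linear_combination hs
    have hq1 : b₁ ^ Fintype.card k0 = b₁ := by
      rcases hor with h | h
      · exact h
      · rw [h, ← h12]
    have hr1 : b₁ ∈ Set.range (algebraMap k0 k) := hfix.mp hq1
    refine ⟨h12, hr1, h2, hq1, ?_⟩
    obtain ⟨β, hβ⟩ := hr1
    rw [Nat.card_eq_one_iff_unique]
    refine ⟨⟨?_⟩, ⟨⟨β, hpt β (Or.inl hβ)⟩⟩⟩
    rintro ⟨b, hb⟩ ⟨b', hb'⟩
    have e1 : algebraMap k0 k b = b₁ := by
      rcases hrat b hb with h | h
      · exact h
      · rw [h, ← h12]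
    have e2 : algebraMap k0 k b' = b₁ := by
      rcases hrat b' hb' with h | h
      · exact h
      · rw [h, ← h12]
    exact Subtype.ext (hinj (e1.trans e2.symm))
  · by_cases hq1 : b₁ ^ Fintype.card k0 = b₁
    · -- split
      left
      have hr1 : b₁ ∈ Set.range (algebraMap k0 k) := hfix.mp hq1
      have hr2 : b₂ ∈ Set.range (algebraMap k0 k) := hrange.mp hr1
      refine ⟨h12, hr1, hr2, hq1, hfix2 hq1, ?_⟩
      obtain ⟨β₁, hβ₁⟩ := hr1
      obtain ⟨β₂, hβ₂⟩ := hr2
      rw [Nat.card_eq_two_iff]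
      refine ⟨⟨β₁, hpt β₁ (Or.inl hβ₁)⟩, ⟨β₂, hpt β₂ (Or.inr hβ₂)⟩, ?_, ?_⟩
      · intro h
        have : β₁ = β₂ := congrArg Subtype.val h
        exact h12 (by rw [← hβ₁, ← hβ₂, this])
      · ext ⟨b, hb⟩
        simp only [Set.mem_insert_iff, Set.mem_singleton_iff, Set.mem_univ, iff_true,
          Subtype.mk.injEq]
        rcases hrat b hb with h | h
        · exact Or.inl (hinj (h.trans hβ₁.symm))
        · exact Or.inr (hinj (h.trans hβ₂.symm))
    · -- inert
      right; left
      have hq2 : b₁ ^ Fintype.card k0 = b₂ := hor.resolve_left hq1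
      have hn1 : b₁ ∉ Set.range (algebraMap k0 k) := fun h => hq1 (hfix.mpr h)
      have hn2 : b₂ ∉ Set.range (algebraMap k0 k) := fun h => hn1 (hrange.mpr h)
      refine ⟨h12, hn1, hn2, hq2, hswap hq2, ?_⟩
      haveI : IsEmpty {b : k0 // W0.toAffine.Equation a b} := by
        refine ⟨fun ⟨b, hb⟩ => ?_⟩
        rcases hrat b hb with h | h
        · exact hn1 ⟨b, h⟩
        · exact hn2 ⟨b, h⟩
      exact Nat.card_of_isEmpty

/-- (B2) over an algebraically closed field: the two roots exist. -/
theorem exists_fibre_trichotomy [IsAlgClosed k] (W0 : WeierstrassCurve k0) (a : k0) :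
    ∃ b₁ b₂ : k,
      b₁ + b₂ = -algebraMap k0 k (W0.a₁ * a + W0.a₃) ∧
      b₁ * b₂ = -algebraMap k0 k (a ^ 3 + W0.a₂ * a ^ 2 + W0.a₄ * a + W0.a₆) ∧
      ((b₁ ≠ b₂ ∧ b₁ ∈ Set.range (algebraMap k0 k) ∧ b₂ ∈ Set.range (algebraMap k0 k) ∧
          b₁ ^ Fintype.card k0 = b₁ ∧ b₂ ^ Fintype.card k0 = b₂ ∧
          Nat.card {b : k0 // W0.toAffine.Equation a b} = 2) ∨
      (b₁ ≠ b₂ ∧ b₁ ∉ Set.range (algebraMap k0 k) ∧ b₂ ∉ Set.range (algebraMap k0 k) ∧
          b₁ ^ Fintype.card k0 = b₂ ∧ b₂ ^ Fintype.card k0 = b₁ ∧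
          Nat.card {b : k0 // W0.toAffine.Equation a b} = 0) ∨
      (b₁ = b₂ ∧ b₁ ∈ Set.range (algebraMap k0 k) ∧
          2 * b₁ + algebraMap k0 k (W0.a₁ * a + W0.a₃) = 0 ∧
          b₁ ^ Fintype.card k0 = b₁ ∧
          Nat.card {b : k0 // W0.toAffine.Equation a b} = 1)) := by
  set P : k := algebraMap k0 k (W0.a₁ * a + W0.a₃) with hP
  set F : k := algebraMap k0 k (a ^ 3 + W0.a₂ * a ^ 2 + W0.a₄ * a + W0.a₆) with hF
  have hdeg : (X ^ 2 + C P * X - C F : k[X]).degree ≠ 0 := by
    have h : (X ^ 2 + C P * X - C F : k[X]).degree = 2 := by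
      compute_degree!
    rw [h]; norm_num
  obtain ⟨b₁, hb₁⟩ := IsAlgClosed.exists_root _ hdeg
  have hb₁' : b₁ ^ 2 + P * b₁ - F = 0 := by
    simpa [IsRoot.def] using hb₁
  have hs : b₁ + (-P - b₁) = -P := by ring
  have hm : b₁ * (-P - b₁) = -F := by linear_combination -hb₁'
  exact ⟨b₁, -P - b₁, hs, hm, fibre_trichotomy W0 a b₁ (-P - b₁) hs hm⟩

end Trichotomy

end Fermat.Agent.EC.H38
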