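import Mathlib
import Fermat.Agent.S13.H77_NodeGroup
import Fermat.Agent.S13.H89_GF3

/-!
# Unipotency of twisted coordinate actions on a node model (helper40, row (EC-c) of S58)

`K` a field with a valuation `v` (any residue characteristic), `W` a `S13.H77.NodeModel`
(`a₃ = a₆ = 0`, `v a₄ < 1`, `v b₂ = 1`: the origin is a `2`-torsion point reducing to a node).

For a general elliptic curve with multiplicative reduction the `2`-torsion point at the origin
is NOT fixed by inertia in general (inertia swaps the two `2`-torsion points reducing to the node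
when the valuation of the discriminant is odd), so in node-model coordinates an inertia element
acts through the *twisted* rule `(x, y) ↦ (σ x + ε, σ y + η)` with `(ε, η)` deep in the node
(`v ε ≤ v a₄`, `v η ≤ v a₄`).  Such a twist is invisible to torsion points of odd order:

* `inE0_twist_sub` (G1): `φ T - T ∈ E₀` for every torsion point `T` of odd order;
* `twist_fixed_of_inE0`: `φ` fixes the torsion points of `E₀` of order prime to the residue
  characteristic;
* `twist_unipotent`: `φ (φ T) - φ T = φ T - T` for `T` of odd order prime to the residue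
  characteristic, i.e. `(φ - 1)² = 0` on that torsion.
-/

set_option autoImplicit false
set_option linter.unusedSectionVars false

namespace Fermat.Agent.EC.H40

open WeierstrassCurve WeierstrassCurve.Affine
open Fermat.Agent.S05 Fermat.Agent.S13

variable {K : Type*} [Field K] [DecidableEq K]
variable {Γ₀ : Type*} [LinearOrderedCommGroupWithZero Γ₀] {v : Valuation K Γ₀}
variable {W : WeierstrassCurve K}

/-- A twisted coordinatewise action on the points of `W`:
`φ (x, y) = (σ x + ε, σ y + η)`. -/
structure TwistAction (W : WeierstrassCurve K) (σ : K →+* K) (ε η : K)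
    (φ : W.toAffine.Point →+ W.toAffine.Point) : Prop where
  map_some : ∀ (x y : K) (h : W.toAffine.Nonsingular x y),
    ∃ h' : W.toAffine.Nonsingular (σ x + ε) (σ y + η),
      φ (Point.some x y h) = Point.some _ _ h'

/-- an untwisted coordinate action is a twisted one with `ε = η = 0`. -/
theorem TwistAction.of_coordAction {σ : K →+* K} {φ : W.toAffine.Point →+ W.toAffine.Point}
    (hφ : H77.CoordAction W σ φ) : TwistAction W σ 0 0 φ where
  map_some x y h := by
    obtain ⟨h', e⟩ := hφ.map_some x y h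
    have hx : σ x + 0 = σ x := add_zero _
    have hy : σ y + 0 = σ y := add_zero _
    refine ⟨by rw [hx, hy]; exact h', ?_⟩
    rw [e]
    congr 1 <;> simp

section twist

variable {σ : K →+* K} {ε η : K} {φ : W.toAffine.Point →+ W.toAffine.Point}

/-- a deep twist preserves `E₀`. -/
theorem inE0_twist_iff (hW : H77.NodeModel v W) (hφ : TwistAction W σ ε η φ)
    (hσv : ∀ z : K, v (σ z) = v z) (hε : v ε ≤ v W.a₄) (T : W.toAffine.Point) :
    H77.InE0 v (φ T) ↔ H77.InE0 v T := by
  cases T with
  | zero =>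
    have : φ (Point.zero : W.toAffine.Point) = 0 := map_zero φ
    rw [this]; exact Iff.rfl
  | some x y h =>
    obtain ⟨h', e⟩ := hφ.map_some x y h
    rw [e, H77.inE0_some, H77.inE0_some]
    have hε1 : v ε < 1 := lt_of_le_of_lt hε hW.a₄
    constructor
    · intro h1
      by_contra hcon
      rw [not_le] at hcon
      have : v (σ x + ε) < 1 :=
        lt_of_le_of_lt (v.map_add _ _) (max_lt (by rw [hσv]; exact hcon) hε1)
      exact absurd (lt_of_le_of_lt h1 this) (lt_irrefl _)
    · intro h1
      have hlt : v ε < v (σ x) := by rw [hσv]; exact lt_of_lt_of_le hε1 h1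
      rw [Valuation.map_add_eq_of_lt_left v hlt, hσv]
      exact h1

/-- **G1, node region**: a deep twist of a residually trivial valuation preserving `σ` moves a
non-deep point of the node region inside its `E₀`-coset. -/
theorem inE0_twist_sub_of_node (hW : H77.NodeModel v W) (hφ : TwistAction W σ ε η φ)
    (hσv : ∀ z : K, v (σ z) = v z) (hσ : H77.ResTrivial v σ)
    (hε : v ε ≤ v W.a₄) (hη : v η ≤ v W.a₄)
    {x y : K} (h : W.toAffine.Nonsingular x y) (hx : v W.a₄ < v x) (hx' : v x < 1) :
    H77.InE0 v (φ (Point.some x y h) - Point.some x y h) := by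
  obtain ⟨h', e⟩ := hφ.map_some x y h
  rw [e]
  obtain ⟨ht, -, -, -⟩ := H77.node_slope hW h.1 hx hx'
  have hvx0 : 0 < v x := lt_trans hW.val_a₄_pos hx
  have hx0 : x ≠ 0 := (map_ne_zero v).mp hvx0.ne'
  have hεx : v ε < v (σ x) := by rw [hσv]; exact lt_of_le_of_lt hε hx
  have hvx1 : v (σ x + ε) = v x := by
    rw [Valuation.map_add_eq_of_lt_left v hεx, hσv]
  have hx10 : σ x + ε ≠ 0 := by
    intro h0
    rw [h0, map_zero] at hvx1
    exact hvx0.ne hvx1
  refine H77.inE0_sub_of_same_branch hW h' h (by rw [hvx1]; exact hx) (by rw [hvx1]; exact hx')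
    hvx1.symm ?_
  -- the branch condition
  set t := y / x with htdef
  have hy : y = t * x := by rw [htdef]; field_simp
  have hσt : v (σ t - t) < 1 := hσ t ht
  have hσy : σ y = σ t * σ x := by rw [hy, map_mul]
  have e1 : (σ y + η) / (σ x + ε) - t =
      ((σ t - t) * σ x + (η - t * ε)) / (σ x + ε) := by
    rw [hσy]
    field_simp
    ring
  rw [e1, map_div₀, hvx1]
  rw [div_lt_one₀ hvx0]
  refine lt_of_le_of_lt (v.map_add _ _) (max_lt ?_ ?_)
  · rw [map_mul, hσv]
    calc v (σ t - t) * v x < 1 * v x := mul_lt_mul_of_pos_right hσt hvx0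
      _ = v x := one_mul _
  · refine lt_of_le_of_lt (Valuation.map_sub _ _ _) (max_lt (lt_of_le_of_lt hη hx) ?_)
    rw [map_mul]
    calc v t * v ε ≤ 1 * v ε := mul_le_mul' ht le_rfl
      _ = v ε := one_mul _
      _ < v x := lt_of_le_of_lt hε hx

/-- **G1**: a deep twist of a residually trivial valuation preserving `σ` moves a torsion point
of odd order inside its `E₀`-coset. -/
theorem inE0_twist_sub (hW : H77.NodeModel v W) (hφ : TwistAction W σ ε η φ)
    (hσv : ∀ z : K, v (σ z) = v z) (hσ : H77.ResTrivial v σ)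
    (hε : v ε ≤ v W.a₄) (hη : v η ≤ v W.a₄)
    {n : ℕ} (hn : Odd n) {T : W.toAffine.Point} (hT : n • T = 0) :
    H77.InE0 v (φ T - T) := by
  by_cases hE : H77.InE0 v T
  · exact H77.inE0_sub hW ((inE0_twist_iff hW hφ hσv hε T).mpr hE) hE
  · have hdeep := H77.val_a₄_lt_of_odd_torsion hW hn hT hE
    obtain ⟨hT0, hx1⟩ := H77.not_inE0_iff.mp hE
    obtain ⟨x, y, h, rfl⟩ := H67.exists_of_ne_zero W hT0
    rw [H67.xCoord_some] at hdeep hx1
    exact inE0_twist_sub_of_node hW hφ hσv hσ hε hη h hdeep hx1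

/-- A deep twist of a residually trivial `σ` fixes the torsion points of `E₀` whose order is a
unit for `v`. -/
theorem twist_fixed_of_inE0 (hW : H77.NodeModel v W) (hφ : TwistAction W σ ε η φ)
    (hσ : H77.ResTrivial v σ) (hε : v ε ≤ v W.a₄) (hη : v η ≤ v W.a₄)
    {n : ℕ} (hn : v (n : K) = 1) {U : W.toAffine.Point} (hU : n • U = 0)
    (hE : H77.InE0 v U) : φ U = U := by
  cases U with
  | zero => exact map_zero φ
  | some x y h =>
    obtain ⟨h', e⟩ := hφ.map_some x y h
    rw [H77.inE0_some] at hE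
    have ha₃ : v W.a₃ ≤ 1 := by rw [hW.a₃, map_zero]; exact zero_le_one
    have ha₆ : v W.a₆ ≤ 1 := by rw [hW.a₆, map_zero]; exact zero_le_one
    have ha₄ : v W.a₄ ≤ 1 := hW.a₄.le
    obtain ⟨c₂, c₄, c₆, c₈⟩ := H89.val_b_le_one v W hW.a₁ hW.a₂ ha₃ ha₄ ha₆
    have hx1 : v x ≤ 1 := by
      have := H89.val_xCoord_le_one_of_nsmul_eq_zero v W c₂ c₄ c₆ c₈ hn hU
      rwa [H67.xCoord_some] at this
    have hxeq : v x = 1 := le_antisymm hx1 hE
    have hy1 : v y ≤ 1 := H89.val_y_le_one v W hW.a₁ hW.a₂ ha₃ ha₄ ha₆ h.1 hx1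
    have hε1 : v ε < 1 := lt_of_le_of_lt hε hW.a₄
    have hη1 : v η < 1 := lt_of_le_of_lt hη hW.a₄
    have hb₄ : v W.b₄ < 1 := by
      rw [hW.b₄_eq, map_mul]
      exact Right.mul_lt_one_of_le_of_lt H77.val_two_le_one hW.a₄
    have hb₆ : v W.b₆ < 1 := by rw [hW.b₆_eq, map_zero]; exact zero_lt_one
    have hns := H89.nonsing_red_of_unit_x v W hW.a₁ hW.b₂ hb₄ hb₆ h.1 hxeq
    have hU' : n • Point.some (σ x + ε) (σ y + η) h' = 0 := by
      rw [← e, ← map_nsmul, hU, map_zero]
    have hxx : v (x - (σ x + ε)) < 1 := by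
      have e1 : x - (σ x + ε) = -((σ x - x) + ε) := by ring
      rw [e1, Valuation.map_neg]
      exact lt_of_le_of_lt (v.map_add _ _) (max_lt (hσ x hx1) hε1)
    have hyy : v (y - (σ y + η)) < 1 := by
      have e1 : y - (σ y + η) = -((σ y - y) + η) := by ring
      rw [e1, Valuation.map_neg]
      exact lt_of_le_of_lt (v.map_add _ _) (max_lt (hσ y hy1) hη1)
    obtain ⟨ex, ey⟩ := H89.eq_of_close v W hW.a₁ hW.a₂ ha₃ ha₄ ha₆ hn h h' hU hU' hx1 hy1 hxx hyy
      hns
    rw [e]
    congr 1
    · exact ex.symm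
    · exact ey.symm

/-- **Unipotency.**  A deep twist of a residually trivial valuation preserving `σ` satisfies
`(φ - 1)² = 0` on the torsion points of odd order prime to the residue characteristic. -/
theorem twist_unipotent (hW : H77.NodeModel v W) (hφ : TwistAction W σ ε η φ)
    (hσv : ∀ z : K, v (σ z) = v z) (hσ : H77.ResTrivial v σ)
    (hε : v ε ≤ v W.a₄) (hη : v η ≤ v W.a₄)
    {n : ℕ} (hn : Odd n) (hnv : v (n : K) = 1) {T : W.toAffine.Point} (hT : n • T = 0) :
    φ (φ T) - φ T = φ T - T := by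
  have hU : n • (φ T - T) = 0 := by
    rw [nsmul_sub, ← map_nsmul, hT, map_zero, sub_zero]
  have hfix := twist_fixed_of_inE0 hW hφ hσ hε hη hnv hU
    (inE0_twist_sub hW hφ hσv hσ hε hη hn hT)
  rw [map_sub] at hfix
  exact hfix

end twist

end Fermat.Agent.EC.H40
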