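import Mathlib
import Fermat.Agent.S13.H89_GF3

/-!
# A `2`-torsion point reducing to the node (helper40, row (EC-c) of S58)

`K` an algebraically closed field with `2 ≠ 0` and a valuation `v`; `W` a Weierstrass curve over
`K` with `v`-integral coefficients, `v Δ < 1` and `v c₄ = 1` (multiplicative reduction).  Then
`W` has a `2`-torsion point `(e, f)` with integral coordinates which reduces to the singular
point of the reduction: `v (3 e² + 2 a₂ e + a₄ - a₁ f) < 1` (the partial derivative in `x`;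
the one in `y` vanishes identically at a `2`-torsion point).  Any residue characteristic.

The proof is valuation algebra on the three roots `e₁ e₂ e₃` of
`4 x³ + b₂ x² + 2 b₄ x + b₆`: with `zᵢ = (eᵢ - eⱼ)(eᵢ - eₖ)` (the value of `a₄` of the translate)
one has `16 z₁ z₂ z₃ = -Δ` and `zᵢ² (16 zᵢ - c₄) = -Δ`.
-/

set_option autoImplicit false
set_option linter.unusedSectionVars false

namespace Fermat.Agent.EC.H40

open WeierstrassCurve WeierstrassCurve.Affine Polynomial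
open Fermat.Agent.S05 Fermat.Agent.S13

section cubic

variable {K : Type*} [Field K]

/-- a cubic over an algebraically closed field splits (function form). -/
theorem exists_roots_cubic [IsAlgClosed K] {a b c d : K} (ha : a ≠ 0) :
    ∃ e₁ e₂ e₃ : K, ∀ x : K,
      a * x ^ 3 + b * x ^ 2 + c * x + d = a * ((x - e₁) * (x - e₂) * (x - e₃)) := by
  set p : K[X] := C a * X ^ 3 + C b * X ^ 2 + C c * X + C d with hp
  have hdeg : p.natDegree = 3 := natDegree_cubic ha
  have hlead : p.leadingCoeff = a := leadingCoeff_cubic ha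
  have hs : p.Splits := IsAlgClosed.splits p
  have hcard : p.roots.card = 3 := by rw [← hs.natDegree_eq_card_roots, hdeg]
  obtain ⟨e₁, e₂, e₃, hr⟩ := Multiset.card_eq_three.mp hcard
  refine ⟨e₁, e₂, e₃, fun x => ?_⟩
  have h := hs.eval_eq_prod_roots x
  rw [hr, hlead] at h
  simp only [hp, eval_add, eval_mul, eval_C, eval_pow, eval_X, Multiset.insert_eq_cons,
    Multiset.map_cons, Multiset.map_singleton, Multiset.prod_cons, Multiset.prod_singleton] at h
  rw [h]
  ring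

/-- Vieta for `4 x³ + b x² + c x + d`. -/
theorem vieta_cubic {b c d e₁ e₂ e₃ : K} (h2 : (2 : K) ≠ 0)
    (h : ∀ x : K, 4 * x ^ 3 + b * x ^ 2 + c * x + d = 4 * ((x - e₁) * (x - e₂) * (x - e₃))) :
    b = -4 * (e₁ + e₂ + e₃) ∧ c = 4 * (e₁ * e₂ + e₁ * e₃ + e₂ * e₃) ∧
      d = -4 * (e₁ * e₂ * e₃) := by
  have h0 := h 0
  have h1 := h 1
  have hm := h (-1)
  have hd : d = -4 * (e₁ * e₂ * e₃) := by linear_combination h0
  have hb : 2 * b = 2 * (-4 * (e₁ + e₂ + e₃)) := by linear_combination h1 + hm - 2 * hd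
  have hc : 2 * c = 2 * (4 * (e₁ * e₂ + e₁ * e₃ + e₂ * e₃)) := by linear_combination h1 - hm
  exact ⟨mul_left_cancel₀ h2 hb, mul_left_cancel₀ h2 hc, hd⟩

end cubic

section algebra

variable {K : Type*} [Field K] (W : WeierstrassCurve K)

/-- the `y`-coordinate of the `2`-torsion point with abscissa `e`. -/
def fOf (e : K) : K := -(W.a₁ * e + W.a₃) / 2

/-- the coefficient `a₄` of the translate of `W` by the `2`-torsion point with abscissa `e`. -/
def zOf (e : K) : K := 3 * e ^ 2 + 2 * W.a₂ * e + W.a₄ - W.a₁ * fOf W e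

/-- `e₁ e₂ e₃` are the roots of `4 x³ + b₂ x² + 2 b₄ x + b₆` (Vieta form). -/
structure Roots (e₁ e₂ e₃ : K) : Prop where
  hb₂ : W.b₂ = -4 * (e₁ + e₂ + e₃)
  hb₄ : W.b₄ = 2 * (e₁ * e₂ + e₁ * e₃ + e₂ * e₃)
  hb₆ : W.b₆ = -4 * (e₁ * e₂ * e₃)

variable {W} {e₁ e₂ e₃ : K}

theorem Roots.swap (h : Roots W e₁ e₂ e₃) : Roots W e₂ e₁ e₃ where
  hb₂ := by rw [h.hb₂]; ring
  hb₄ := by rw [h.hb₄]; ring
  hb₆ := by rw [h.hb₆]; ring

theorem Roots.rot (h : Roots W e₁ e₂ e₃) : Roots W e₃ e₁ e₂ where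
  hb₂ := by rw [h.hb₂]; ring
  hb₄ := by rw [h.hb₄]; ring
  hb₆ := by rw [h.hb₆]; ring

theorem Roots.root (h : Roots W e₁ e₂ e₃) :
    4 * e₁ ^ 3 + W.b₂ * e₁ ^ 2 + 2 * W.b₄ * e₁ + W.b₆ = 0 := by
  rw [h.hb₂, h.hb₄, h.hb₆]; ring

theorem two_fOf (h2 : (2 : K) ≠ 0) (e : K) : 2 * fOf W e + W.a₁ * e + W.a₃ = 0 := by
  unfold fOf; field_simp; ring

theorem two_zOf (h2 : (2 : K) ≠ 0) (e : K) : 2 * zOf W e = 6 * e ^ 2 + W.b₂ * e + W.b₄ := by
  unfold zOf fOf
  simp only [WeierstrassCurve.b₂, WeierstrassCurve.b₄]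
  field_simp
  ring

theorem Roots.zOf_eq (h2 : (2 : K) ≠ 0) (h : Roots W e₁ e₂ e₃) :
    zOf W e₁ = (e₁ - e₂) * (e₁ - e₃) := by
  apply mul_left_cancel₀ h2
  rw [two_zOf h2, h.hb₂, h.hb₄]; ring

theorem Roots.c₄_eq (h : Roots W e₁ e₂ e₃) :
    W.c₄ = 16 * ((e₁ + e₂ + e₃) ^ 2 - 3 * (e₁ * e₂ + e₁ * e₃ + e₂ * e₃)) := by
  rw [WeierstrassCurve.c₄, h.hb₂, h.hb₄]; ring

theorem Roots.Δ_eq (h2 : (2 : K) ≠ 0) (h : Roots W e₁ e₂ e₃) :
    W.Δ = 16 * ((e₁ - e₂) * (e₁ - e₃) * (e₂ - e₃)) ^ 2 := by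
  have h4 : (4 : K) ≠ 0 := by
    have : (4 : K) = 2 * 2 := by norm_num
    rw [this]; exact mul_ne_zero h2 h2
  have e8 : W.b₈ = (W.b₂ * W.b₆ - W.b₄ ^ 2) / 4 := by
    field_simp
    linear_combination W.b_relation
  rw [WeierstrassCurve.Δ, e8, h.hb₂, h.hb₄, h.hb₆]
  field_simp
  ring

/-- the cubic resolvent: `z² (16 z - c₄) = -Δ` for `z = zOf e₁`. -/
theorem Roots.resolvent (h2 : (2 : K) ≠ 0) (h : Roots W e₁ e₂ e₃) :
    zOf W e₁ ^ 2 * (16 * zOf W e₁ - W.c₄) = -W.Δ := by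
  rw [h.zOf_eq h2, h.c₄_eq, h.Δ_eq h2]; ring

/-- `16 z₁ z₂ z₃ = -Δ`. -/
theorem Roots.prod_zOf (h2 : (2 : K) ≠ 0) (h : Roots W e₁ e₂ e₃) :
    16 * (zOf W e₁ * zOf W e₂ * zOf W e₃) = -W.Δ := by
  rw [h.zOf_eq h2, h.swap.zOf_eq h2, h.rot.zOf_eq h2, h.Δ_eq h2]; ring

/-- the point `(e, fOf e)` lies on `W` when `e` is a root of the `2`-division cubic. -/
theorem equation_of_root (h2 : (2 : K) ≠ 0) {e : K}
    (he : 4 * e ^ 3 + W.b₂ * e ^ 2 + 2 * W.b₄ * e + W.b₆ = 0) :
    W.toAffine.Equation e (fOf W e) := by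
  rw [Affine.equation_iff]
  have h4 : (4 : K) ≠ 0 := by
    have : (4 : K) = 2 * 2 := by norm_num
    rw [this]; exact mul_ne_zero h2 h2
  apply mul_left_cancel₀ h4
  have hf := two_fOf (W := W) h2 e
  simp only [WeierstrassCurve.b₂, WeierstrassCurve.b₄, WeierstrassCurve.b₆] at he
  linear_combination (2 * fOf W e + W.a₁ * e + W.a₃) * hf - he

end algebra

section valuation

variable {K : Type*} [Field K] {Γ₀ : Type*} [LinearOrderedCommGroupWithZero Γ₀]
  (v : Valuation K Γ₀)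

lemma val_four_le_one' : v (4 : K) ≤ 1 := by
  have : (4 : K) = 2 * 2 := by norm_num
  rw [this, map_mul]
  exact mul_le_one' (H89.val_two_le_one' v) (H89.val_two_le_one' v)

lemma val_six_le_one' : v (6 : K) ≤ 1 := by
  have : (6 : K) = 2 * 3 := by norm_num
  rw [this, map_mul]
  exact mul_le_one' (H89.val_two_le_one' v) (H89.val_three_le_one' v)

/-- a non-integral root `e` of an integral cubic `4 x³ + b x² + c x + d` has `v (4 e) ≤ 1`. -/
lemma val_four_mul_le_one_of_root {b c d e : K} (hb : v b ≤ 1) (hc : v c ≤ 1) (hd : v d ≤ 1)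
    (he : 4 * e ^ 3 + b * e ^ 2 + c * e + d = 0) (h1 : 1 < v e) : v (4 * e) ≤ 1 := by
  have hpos : 0 < v e := lt_trans zero_lt_one h1
  have hsq : 0 < v e ^ 2 := pow_pos hpos 2
  have hle : v e ≤ v e ^ 2 := by
    rw [sq]
    calc v e = v e * 1 := (mul_one _).symm
      _ ≤ v e * v e := mul_le_mul' le_rfl h1.le
  have e1 : 4 * e * e ^ 2 = -(b * e ^ 2 + c * e + d) := by linear_combination he
  have h3 : v (4 * e) * v e ^ 2 ≤ 1 * v e ^ 2 := by
    have := congrArg v e1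
    rw [map_mul, map_pow, Valuation.map_neg] at this
    rw [this, one_mul]
    refine le_trans (v.map_add _ _) (max_le (le_trans (v.map_add _ _) (max_le ?_ ?_)) ?_)
    · rw [map_mul, map_pow]
      calc v b * v e ^ 2 ≤ 1 * v e ^ 2 := mul_le_mul' hb le_rfl
        _ = v e ^ 2 := one_mul _
    · rw [map_mul]
      calc v c * v e ≤ 1 * v e := mul_le_mul' hc le_rfl
        _ = v e := one_mul _
        _ ≤ v e ^ 2 := hle
    · exact le_trans hd (le_trans h1.le hle)
  exact le_of_mul_le_mul_right h3 hsq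

/-- a root of a monic quadratic with integral coefficients is integral. -/
lemma val_le_one_of_quadratic {y p r : K} (hp : v p ≤ 1) (hr : v r ≤ 1)
    (h : y ^ 2 + p * y = r) : v y ≤ 1 := by
  by_contra hcon
  rw [not_le] at hcon
  have hpos : 0 < v y := lt_trans zero_lt_one hcon
  have e1 : y * y = r - p * y := by linear_combination h
  have h3 : v y * v y ≤ 1 * v y := by
    have := congrArg v e1
    rw [map_mul] at this
    rw [this, one_mul]
    refine le_trans (Valuation.map_sub _ _ _) (max_le (le_trans hr hcon.le) ?_)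
    rw [map_mul]
    calc v p * v y ≤ 1 * v y := mul_le_mul' hp le_rfl
      _ = v y := one_mul _
  have := le_of_mul_le_mul_right h3 hpos
  exact absurd (lt_of_lt_of_le hcon this) (lt_irrefl _)

variable {v} {W : WeierstrassCurve K}

/-- at an integral root of the `2`-division cubic, `fOf` and `zOf` are integral. -/
theorem integral_of_root (h2 : (2 : K) ≠ 0)
    (h₁ : v W.a₁ ≤ 1) (h₂ : v W.a₂ ≤ 1) (h₃ : v W.a₃ ≤ 1) (h₄ : v W.a₄ ≤ 1) (h₆ : v W.a₆ ≤ 1)
    {e : K} (he : 4 * e ^ 3 + W.b₂ * e ^ 2 + 2 * W.b₄ * e + W.b₆ = 0) (hv : v e ≤ 1) :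
    v (fOf W e) ≤ 1 ∧ v (zOf W e) ≤ 1 := by
  have heq := (Affine.equation_iff _ _).mp (equation_of_root (W := W) h2 he)
  have hf : v (fOf W e) ≤ 1 := by
    refine val_le_one_of_quadratic v (p := W.a₁ * e + W.a₃)
      (r := e ^ 3 + W.a₂ * e ^ 2 + W.a₄ * e + W.a₆) ?_ ?_ (by linear_combination heq)
    · exact le_trans (v.map_add _ _) (max_le (H89.val_mul_le_one v h₁ hv) h₃)
    · refine le_trans (v.map_add _ _) (max_le (le_trans (v.map_add _ _) (max_le
        (le_trans (v.map_add _ _) (max_le ?_ ?_)) ?_)) h₆)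
      · exact H89.val_pow_le_one v hv 3
      · exact H89.val_mul_le_one v h₂ (H89.val_pow_le_one v hv 2)
      · exact H89.val_mul_le_one v h₄ hv
  refine ⟨hf, ?_⟩
  unfold zOf
  refine le_trans (Valuation.map_sub _ _ _) (max_le (le_trans (v.map_add _ _) (max_le
    (le_trans (v.map_add _ _) (max_le ?_ ?_)) h₄)) (H89.val_mul_le_one v h₁ hf))
  · exact H89.val_mul_le_one v (H89.val_three_le_one' v) (H89.val_pow_le_one v hv 2)
  · exact H89.val_mul_le_one v (H89.val_mul_le_one v (H89.val_two_le_one' v) h₂) hv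

/-- residue characteristic `2`: every integral root has small `zOf`. -/
theorem Roots.val_zOf_lt_one_of_four {e₁ e₂ e₃ : K} (h2 : (2 : K) ≠ 0) (R : Roots W e₁ e₂ e₃)
    (h4 : v (4 : K) < 1) (hc₄ : v W.c₄ = 1) (hΔ : v W.Δ < 1) (hz : v (zOf W e₁) ≤ 1) :
    v (zOf W e₁) < 1 := by
  by_contra hcon
  have hz1 : v (zOf W e₁) = 1 := le_antisymm hz (not_lt.mp hcon)
  have h16 : v (16 * zOf W e₁) < 1 := by
    have : (16 : K) = 4 * 4 := by norm_num
    rw [this, map_mul, map_mul, hz1, mul_one]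
    exact Left.mul_lt_one' h4 h4
  have h1 : v (16 * zOf W e₁ - W.c₄) = 1 := by
    rw [Valuation.map_sub_eq_of_lt_right v (by rw [hc₄]; exact h16), hc₄]
  have := congrArg v (R.resolvent h2)
  rw [map_mul, map_pow, hz1, h1, one_pow, one_mul, Valuation.map_neg] at this
  rw [← this] at hΔ
  exact lt_irrefl _ hΔ

/-- **Existence of a `2`-torsion point reducing to the node.** -/
theorem exists_two_torsion_node [IsAlgClosed K] (h2 : (2 : K) ≠ 0)
    (h₁ : v W.a₁ ≤ 1) (h₂ : v W.a₂ ≤ 1) (h₃ : v W.a₃ ≤ 1) (h₄ : v W.a₄ ≤ 1) (h₆ : v W.a₆ ≤ 1)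
    (hc₄ : v W.c₄ = 1) (hΔ : v W.Δ < 1) :
    ∃ e : K, v e ≤ 1 ∧ v (fOf W e) ≤ 1 ∧ W.toAffine.Equation e (fOf W e) ∧
      v (zOf W e) < 1 := by
  obtain ⟨c₂, c₄, c₆, -⟩ := H89.val_b_le_one v W h₁ h₂ h₃ h₄ h₆
  have h4 : (4 : K) ≠ 0 := by
    have : (4 : K) = 2 * 2 := by norm_num
    rw [this]; exact mul_ne_zero h2 h2
  have c₄' : v (2 * W.b₄) ≤ 1 := H89.val_mul_le_one v (H89.val_two_le_one' v) c₄
  obtain ⟨e₁, e₂, e₃, hr⟩ := exists_roots_cubic (K := K) (a := 4) (b := W.b₂) (c := 2 * W.b₄)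
    (d := W.b₆) h4
  obtain ⟨hb₂, hc, hb₆⟩ := vieta_cubic h2 hr
  have hb₄ : W.b₄ = 2 * (e₁ * e₂ + e₁ * e₃ + e₂ * e₃) :=
    mul_left_cancel₀ h2 (by rw [hc]; ring)
  have R : Roots W e₁ e₂ e₃ := ⟨hb₂, hb₄, hb₆⟩
  -- the conclusion for an integral root with small `zOf`
  have fin : ∀ {a b c : K}, Roots W a b c → v a ≤ 1 → v (zOf W a) < 1 →
      ∃ e : K, v e ≤ 1 ∧ v (fOf W e) ≤ 1 ∧ W.toAffine.Equation e (fOf W e) ∧
        v (zOf W e) < 1 := fun {a b c} R' ha hz =>
    ⟨a, ha, (integral_of_root h2 h₁ h₂ h₃ h₄ h₆ R'.root ha).1, equation_of_root h2 R'.root, hz⟩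
  rcases (val_four_le_one' v).lt_or_eq with h4lt | h4eq
  · -- residue characteristic 2
    have hb₂1 : v W.b₂ = 1 := by
      have h24 : v (24 * W.b₄) < 1 := by
        have : (24 : K) * W.b₄ = 4 * (6 * W.b₄) := by ring
        rw [this, map_mul]
        exact mul_lt_one_of_nonneg_of_lt_one_left zero_le h4lt
          (H89.val_mul_le_one v (val_six_le_one' v) c₄)
      have e1 : W.b₂ ^ 2 = W.c₄ + 24 * W.b₄ := by rw [WeierstrassCurve.c₄]; ring
      have := congrArg v e1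
      rw [map_pow, Valuation.map_add_eq_of_lt_left v (by rw [hc₄]; exact h24), hc₄] at this
      exact sq_eq_one.mp this
    -- some root is integral
    have hint : v e₁ ≤ 1 ∨ v e₂ ≤ 1 ∨ v e₃ ≤ 1 := by
      by_contra hcon
      push Not at hcon
      obtain ⟨g₁, g₂, g₃⟩ := hcon
      have r₁ := val_four_mul_le_one_of_root v c₂ c₄' c₆ R.root g₁
      have r₂ := val_four_mul_le_one_of_root v c₂ c₄' c₆ R.swap.root g₂
      have r₃ := val_four_mul_le_one_of_root v c₂ c₄' c₆ R.rot.root g₃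
      have hsum : W.b₂ = -(4 * e₁ + 4 * e₂ + 4 * e₃) := by rw [hb₂]; ring
      have h1 : (1 : Γ₀) ≤ max (max (v (4 * e₁)) (v (4 * e₂))) (v (4 * e₃)) := by
        rw [← hb₂1, hsum, Valuation.map_neg]
        exact le_trans (v.map_add _ _) (max_le_max (v.map_add _ _) le_rfl)
      have hprod : ∀ a b c : K, 1 ≤ v (4 * a) → 1 < v b → 1 < v c →
          W.b₆ = -(4 * a * b * c) → False := by
        intro a b c ha hb hc' hb6
        have := congrArg v hb6
        rw [Valuation.map_neg, map_mul, map_mul] at this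
        have hlt : (1 : Γ₀) < v (4 * a) * v b * v c :=
          calc (1 : Γ₀) = 1 * 1 * 1 := by simp
            _ ≤ v (4 * a) * 1 * 1 := mul_le_mul' (mul_le_mul' ha le_rfl) le_rfl
            _ < v (4 * a) * v b * v c := by
              have hpos : 0 < v (4 * a) := lt_of_lt_of_le zero_lt_one ha
              have h1 : v (4 * a) * 1 < v (4 * a) * v b := mul_lt_mul_of_pos_left hb hpos
              have hpos2 : 0 < v (4 * a) * v b := mul_pos hpos (lt_trans zero_lt_one hb)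
              calc v (4 * a) * 1 * 1 = v (4 * a) * 1 := mul_one _
                _ < v (4 * a) * v b := h1
                _ = v (4 * a) * v b * 1 := (mul_one _).symm
                _ < v (4 * a) * v b * v c := mul_lt_mul_of_pos_left hc' hpos2
        rw [← this] at hlt
        exact absurd (lt_of_lt_of_le hlt c₆) (lt_irrefl _)
      rcases le_max_iff.mp h1 with h | h
      · rcases le_max_iff.mp h with h | h
        · exact hprod e₁ e₂ e₃ h g₂ g₃ (by rw [hb₆]; ring)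
        · exact hprod e₂ e₁ e₃ h g₁ g₃ (by rw [hb₆]; ring)
      · exact hprod e₃ e₁ e₂ h g₁ g₂ (by rw [hb₆]; ring)
    rcases hint with g | g | g
    · exact fin R g (R.val_zOf_lt_one_of_four h2 h4lt hc₄ hΔ
        (integral_of_root h2 h₁ h₂ h₃ h₄ h₆ R.root g).2)
    · exact fin R.swap g (R.swap.val_zOf_lt_one_of_four h2 h4lt hc₄ hΔ
        (integral_of_root h2 h₁ h₂ h₃ h₄ h₆ R.swap.root g).2)
    · exact fin R.rot g (R.rot.val_zOf_lt_one_of_four h2 h4lt hc₄ hΔ
        (integral_of_root h2 h₁ h₂ h₃ h₄ h₆ R.rot.root g).2)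
  · -- odd residue characteristic: all roots are integral
    have hroot : ∀ {a b c : K}, Roots W a b c → v a ≤ 1 := by
      intro a b c R'
      by_contra hcon
      rw [not_le] at hcon
      have := val_four_mul_le_one_of_root v c₂ c₄' c₆ R'.root hcon
      rw [map_mul, h4eq, one_mul] at this
      exact absurd (lt_of_lt_of_le hcon this) (lt_irrefl _)
    have g₁ := hroot R
    have g₂ := hroot R.swap
    have g₃ := hroot R.rot
    have z₁ := (integral_of_root h2 h₁ h₂ h₃ h₄ h₆ R.root g₁).2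
    have z₂ := (integral_of_root h2 h₁ h₂ h₃ h₄ h₆ R.swap.root g₂).2
    have z₃ := (integral_of_root h2 h₁ h₂ h₃ h₄ h₆ R.rot.root g₃).2
    have h16 : v (16 : K) = 1 := by
      have : (16 : K) = 4 * 4 := by norm_num
      rw [this, map_mul, h4eq, one_mul]
    have hprod := congrArg v (R.prod_zOf h2)
    rw [map_mul, h16, one_mul, Valuation.map_neg, map_mul, map_mul] at hprod
    by_cases s₁ : v (zOf W e₁) < 1
    · exact fin R g₁ s₁
    by_cases s₂ : v (zOf W e₂) < 1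
    · exact fin R.swap g₂ s₂
    by_cases s₃ : v (zOf W e₃) < 1
    · exact fin R.rot g₃ s₃
    exfalso
    rw [le_antisymm z₁ (not_lt.mp s₁), le_antisymm z₂ (not_lt.mp s₂),
      le_antisymm z₃ (not_lt.mp s₃), one_mul, one_mul] at hprod
    rw [← hprod] at hΔ
    exact lt_irrefl _ hΔ

end valuation

end Fermat.Agent.EC.H40
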