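import Mathlib
import Fermat.Agent.EC.H40_NodeTwist
import Fermat.Agent.EC.H40_TwoTorsionNode
import Fermat.Agent.S05.H79_VarChange

/-!
# Unipotency of inertia at a prime of multiplicative reduction: the valued-field core
(helper40, row (EC-c) of S58)

`K` an algebraically closed field with `2 ≠ 0` and a valuation `v`, `W` a Weierstrass curve over
`K` with `v`-integral coefficients, `Δ ≠ 0`, `v Δ < 1`, `v c₄ = 1` (multiplicative reduction), and
`σ` a residually trivial, valuation preserving ring endomorphism of `K` acting coordinatewise on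
the points of `W` through the additive map `φ`.  Then `(φ - 1)² = 0` on the torsion points of odd
order prime to the residue characteristic (`unipotent_of_mult`).

Proof: translate a `2`-torsion point `(e, f)` reducing to the node (`H40_TwoTorsionNode`) to the
origin; the translate is a `S13.H77.NodeModel`, on which `σ` acts by the twisted rule
`(x, y) ↦ (σ x + (σ e - e), σ y + (σ f - f))`, and `(σ e - e, σ f - f)` is a `2`-torsion point of
the translate in the node region, hence deep (`deep_of_two_torsion`); conclude by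
`H40_NodeTwist.twist_unipotent`.
-/

set_option autoImplicit false
set_option linter.unusedSectionVars false

namespace Fermat.Agent.EC.H40

open WeierstrassCurve WeierstrassCurve.Affine
open Fermat.Agent.S05 Fermat.Agent.S13

variable {K : Type*} [Field K] [DecidableEq K]
variable {Γ₀ : Type*} [LinearOrderedCommGroupWithZero Γ₀] {v : Valuation K Γ₀}

/-- the translation `(x, y) ↦ (x + e, y + f)`. -/
def transC (e f : K) : VariableChange K := ⟨1, e, 0, f⟩

section coeffs

variable (W : WeierstrassCurve K) (e f : K)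

lemma transC_a₁ : (transC e f • W).a₁ = W.a₁ := by
  simp [transC, variableChange_a₁]

lemma transC_a₂ : (transC e f • W).a₂ = W.a₂ + 3 * e := by
  simp [transC, variableChange_a₂]

lemma transC_a₃ : (transC e f • W).a₃ = W.a₃ + e * W.a₁ + 2 * f := by
  simp [transC, variableChange_a₃]

lemma transC_a₄ : (transC e f • W).a₄ = W.a₄ + 2 * e * W.a₂ - f * W.a₁ + 3 * e ^ 2 := by
  simp [transC, variableChange_a₄]

lemma transC_a₆ : (transC e f • W).a₆ =
    W.a₆ + e * W.a₄ + e ^ 2 * W.a₂ + e ^ 3 - f * W.a₃ - f ^ 2 - e * f * W.a₁ := by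
  simp [transC, variableChange_a₆]

lemma transC_c₄ : (transC e f • W).c₄ = W.c₄ := by
  simp [transC, variableChange_c₄]

lemma transC_Δ : (transC e f • W).Δ = W.Δ := by
  simp [transC, variableChange_Δ]

lemma transC_vcX (x : K) : H79.vcX (transC e f) x = x + e := by
  simp [H79.vcX, transC]

lemma transC_vcY (x y : K) : H79.vcY (transC e f) x y = y + f := by
  simp [H79.vcY, transC]

lemma transC_vcXInv (X : K) : H79.vcXInv (transC e f) X = X - e := by
  simp [H79.vcXInv, transC]

lemma transC_vcYInv (X Y : K) : H79.vcYInv (transC e f) X Y = Y - f := by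
  simp [H79.vcYInv, H79.vcXInv, transC]

end coeffs

/-- The translate of `W` by a `2`-torsion point `(e, fOf e)` with integral coordinates which
reduces to the singular point is a node model. -/
theorem nodeModel_translate (h2 : (2 : K) ≠ 0) {W : WeierstrassCurve K}
    (h₁ : v W.a₁ ≤ 1) (h₂ : v W.a₂ ≤ 1) (hc₄ : v W.c₄ = 1) (hΔ0 : W.Δ ≠ 0)
    {e : K} (he : v e ≤ 1) (heq : W.toAffine.Equation e (fOf W e)) (hz : v (zOf W e) < 1) :
    H77.NodeModel v (transC e (fOf W e) • W) := by
  have ha₃ : (transC e (fOf W e) • W).a₃ = 0 := by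
    rw [transC_a₃]; linear_combination two_fOf (W := W) h2 e
  have ha₆ : (transC e (fOf W e) • W).a₆ = 0 := by
    rw [transC_a₆]
    have := (Affine.equation_iff _ _).mp heq
    linear_combination -this
  have ha₄ : (transC e (fOf W e) • W).a₄ = zOf W e := by
    rw [transC_a₄]; unfold zOf; ring
  have ha₄0 : (transC e (fOf W e) • W).a₄ ≠ 0 := by
    intro h0
    apply hΔ0
    rw [← transC_Δ W e (fOf W e)]
    simp only [WeierstrassCurve.Δ, WeierstrassCurve.b₂, WeierstrassCurve.b₄, WeierstrassCurve.b₆,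
      WeierstrassCurve.b₈, ha₃, ha₆, h0]
    ring
  have hb₂ : v (transC e (fOf W e) • W).b₂ = 1 := by
    have e1 : (transC e (fOf W e) • W).b₂ ^ 2 =
        W.c₄ + 24 * (2 * zOf W e) := by
      rw [← transC_c₄ W e (fOf W e), WeierstrassCurve.c₄, WeierstrassCurve.b₄, ha₃, ha₄]
      ring
    have h48 : v (24 * (2 * zOf W e)) < 1 := by
      have : (24 : K) * (2 * zOf W e) = (2 * (2 * (2 * (2 * 3)))) * zOf W e := by ring
      rw [this, map_mul]
      refine mul_lt_one_of_nonneg_of_lt_one_right ?_ zero_le hz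
      have t := H89.val_two_le_one' v
      have t3 := H89.val_three_le_one' v
      exact H89.val_mul_le_one v t (H89.val_mul_le_one v t (H89.val_mul_le_one v t
        (H89.val_mul_le_one v t t3)))
    have := congrArg v e1
    rw [map_pow, Valuation.map_add_eq_of_lt_left v (by rw [hc₄]; exact h48), hc₄] at this
    exact sq_eq_one.mp this
  refine ⟨by rw [transC_a₁]; exact h₁, ?_, ha₃, ha₆, by rw [ha₄]; exact hz, ha₄0, hb₂⟩
  rw [transC_a₂]
  exact le_trans (v.map_add _ _) (max_le h₂
    (H89.val_mul_le_one v (H89.val_three_le_one' v) he))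

/-- **A `2`-torsion point of a node model lying in the node region is deep.** -/
theorem deep_of_two_torsion (h2 : (2 : K) ≠ 0) {W : WeierstrassCurve K} (hW : H77.NodeModel v W)
    {ε η : K} (heq : W.toAffine.Equation ε η) (hT : 2 * η + W.a₁ * ε = 0) (hε : v ε < 1) :
    v ε ≤ v W.a₄ ∧ v η ≤ v W.a₄ := by
  have eq := (hW.equation_iff ε η).mp heq
  have key : ε * (4 * ε ^ 2 + W.b₂ * ε + 4 * W.a₄) = 0 := by
    rw [WeierstrassCurve.b₂]
    linear_combination (-4) * eq + (2 * η + W.a₁ * ε) * hT
  have hη2 : η * η = -(ε ^ 3 + W.a₂ * ε ^ 2 + W.a₄ * ε) := by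
    linear_combination (-1) * eq + η * hT
  by_cases hε0 : ε = 0
  · have hη0 : η = 0 := by
      rw [hε0, mul_zero, add_zero] at hT
      exact (mul_eq_zero.mp hT).resolve_left h2
    rw [hε0, hη0, map_zero]
    exact ⟨zero_le, zero_le⟩
  · have hq : W.b₂ * ε = -(4 * (ε ^ 2 + W.a₄)) := by
      have := (mul_eq_zero.mp key).resolve_left hε0
      linear_combination this
    have hεpos : 0 < v ε := zero_lt_iff.mpr ((map_ne_zero v).mpr hε0)
    have h1 : v ε ≤ v W.a₄ := by
      have hle : v ε ≤ max (v ε ^ 2) (v W.a₄) := by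
        have hv := congrArg v hq
        rw [map_mul, hW.b₂, one_mul, Valuation.map_neg, map_mul] at hv
        calc v ε = v 4 * v (ε ^ 2 + W.a₄) := hv
          _ ≤ 1 * v (ε ^ 2 + W.a₄) :=
              mul_le_mul' (val_four_le_one' v) le_rfl
          _ = v (ε ^ 2 + W.a₄) := one_mul _
          _ ≤ max (v ε ^ 2) (v W.a₄) := by
              have := v.map_add (ε ^ 2) W.a₄
              rwa [map_pow] at this
      rcases le_max_iff.mp hle with h | h
      · exfalso
        have : v ε ^ 2 < v ε := by
          rw [sq]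
          calc v ε * v ε < v ε * 1 := mul_lt_mul_of_pos_left hε hεpos
            _ = v ε := mul_one _
        exact absurd (lt_of_le_of_lt h this) (lt_irrefl _)
      · exact h
    refine ⟨h1, ?_⟩
    have ha₄1 : v W.a₄ ≤ 1 := hW.a₄.le
    have hε1 : v ε ≤ 1 := hε.le
    have hεsq : v ε ^ 2 ≤ v W.a₄ * v W.a₄ := by
      rw [sq]; exact mul_le_mul' h1 h1
    have hR : v (η * η) ≤ v W.a₄ * v W.a₄ := by
      rw [hη2, Valuation.map_neg]
      refine le_trans (v.map_add _ _) (max_le (le_trans (v.map_add _ _) (max_le ?_ ?_)) ?_)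
      · rw [map_pow]
        calc v ε ^ 3 = v ε * v ε ^ 2 := pow_succ' _ _
          _ ≤ 1 * v ε ^ 2 := mul_le_mul' hε1 le_rfl
          _ = v ε ^ 2 := one_mul _
          _ ≤ v W.a₄ * v W.a₄ := hεsq
      · rw [map_mul, map_pow]
        calc v W.a₂ * v ε ^ 2 ≤ 1 * v ε ^ 2 := mul_le_mul' hW.a₂ le_rfl
          _ = v ε ^ 2 := one_mul _
          _ ≤ v W.a₄ * v W.a₄ := hεsq
      · rw [map_mul]
        exact mul_le_mul' le_rfl h1
    by_contra hcon
    rw [not_le] at hcon
    have hηpos : 0 < v η := lt_of_le_of_lt zero_le hcon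
    have : v W.a₄ * v W.a₄ < v η * v η :=
      calc v W.a₄ * v W.a₄ ≤ v W.a₄ * v η := mul_le_mul' le_rfl hcon.le
        _ < v η * v η := mul_lt_mul_of_pos_right hcon hηpos
    rw [map_mul] at hR
    exact absurd (lt_of_lt_of_le this hR) (lt_irrefl _)

/-- equality of affine points from equality of coordinates. -/
lemma some_congr {W : WeierstrassCurve K} {x y x' y' : K} (h : W.toAffine.Nonsingular x y)
    (hx : x = x') (hy : y = y') :
    ∃ h' : W.toAffine.Nonsingular x' y', Point.some x y h = Point.some x' y' h' := by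
  subst hx; subst hy
  exact ⟨h, rfl⟩

/-- **Unipotency of inertia, multiplicative reduction (valued-field core).** -/
theorem unipotent_of_mult [IsAlgClosed K] (h2 : (2 : K) ≠ 0) (W : WeierstrassCurve K)
    (h₁ : v W.a₁ ≤ 1) (h₂ : v W.a₂ ≤ 1) (h₃ : v W.a₃ ≤ 1) (h₄ : v W.a₄ ≤ 1) (h₆ : v W.a₆ ≤ 1)
    (hc₄ : v W.c₄ = 1) (hΔ : v W.Δ < 1) (hΔ0 : W.Δ ≠ 0)
    {σ : K →+* K} {φ : W.toAffine.Point →+ W.toAffine.Point} (hφ : H77.CoordAction W σ φ)
    (hσv : ∀ z : K, v (σ z) = v z) (hσ : H77.ResTrivial v σ)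
    {n : ℕ} (hn : Odd n) (hnv : v (n : K) = 1) {T : W.toAffine.Point} (hT : n • T = 0) :
    φ (φ T) - φ T = φ T - T := by
  obtain ⟨e, he, hf, heq, hz⟩ := exists_two_torsion_node (v := v) h2 h₁ h₂ h₃ h₄ h₆ hc₄ hΔ
  set f := fOf W e with hfdef
  have hW' : H77.NodeModel v (transC e f • W) := nodeModel_translate h2 h₁ h₂ hc₄ hΔ0 he heq hz
  set ψ := H79.pointEquiv W (transC e f) with hψ
  set φ' : (transC e f • W).toAffine.Point →+ (transC e f • W).toAffine.Point :=
    ψ.symm.toAddMonoidHom.comp (φ.comp ψ.toAddMonoidHom) with hφ'def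
  have hψφ : ∀ X, ψ (φ' X) = φ (ψ X) := fun X => by
    simp only [hφ'def, AddMonoidHom.comp_apply, AddEquiv.coe_toAddMonoidHom,
      AddEquiv.apply_symm_apply]
  -- the twisted action
  have htw : TwistAction (transC e f • W) σ (σ e - e) (σ f - f) φ' := by
    constructor
    intro x y h
    have e1 : ψ (Point.some x y h) = Point.some (H79.vcX (transC e f) x)
        (H79.vcY (transC e f) x y) ((H79.nonsingular_iff W (transC e f) x y).mp h) := rfl
    obtain ⟨h'', e2⟩ := hφ.map_some _ _ ((H79.nonsingular_iff W (transC e f) x y).mp h)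
    have e3 : φ' (Point.some x y h) = ψ.symm (Point.some _ _ h'') := by
      simp only [hφ'def, AddMonoidHom.comp_apply, AddEquiv.coe_toAddMonoidHom]
      rw [e1, e2]
    have e4 : ψ.symm (Point.some _ _ h'') =
        Point.some (H79.vcXInv (transC e f) (σ (H79.vcX (transC e f) x)))
          (H79.vcYInv (transC e f) (σ (H79.vcX (transC e f) x)) (σ (H79.vcY (transC e f) x y)))
          ((H79.nonsingular_iff W (transC e f) _ _).mpr
            (by rwa [H79.vcX_vcXInv, H79.vcY_vcYInv])) := rfl
    rw [e3, e4]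
    refine some_congr _ ?_ ?_
    · rw [transC_vcXInv, transC_vcX, map_add]; ring
    · rw [transC_vcYInv, transC_vcY, map_add]; ring
  -- the twist is a `2`-torsion point of the translate in the node region
  have h00 : (transC e f • W).toAffine.Nonsingular 0 0 :=
    (Affine.nonsingular_zero).mpr ⟨hW'.a₆, Or.inr hW'.a₄_ne⟩
  obtain ⟨h', e5⟩ := htw.map_some 0 0 h00
  have hneg : -(Point.some 0 0 h00 : (transC e f • W).toAffine.Point) = Point.some 0 0 h00 := by
    rw [Point.neg_some]
    congr 1
    rw [hW'.negY_eq]; ring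
  have h2tor : φ' (Point.some 0 0 h00) = -φ' (Point.some 0 0 h00) := by
    rw [← map_neg, hneg]
  rw [e5, Point.neg_some, Point.some.injEq] at h2tor
  have hTε : 2 * (σ 0 + (σ f - f)) + (transC e f • W).a₁ * (σ 0 + (σ e - e)) = 0 := by
    have := h2tor.2
    rw [hW'.negY_eq] at this
    linear_combination this
  have hεlt : v (σ 0 + (σ e - e)) < 1 := by
    rw [map_zero, zero_add]; exact hσ e he
  obtain ⟨hε, hη⟩ := deep_of_two_torsion h2 hW' h'.1 hTε hεlt
  rw [map_zero, zero_add] at hε hη
  -- conclusion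
  have hT' : n • ψ.symm T = 0 := by rw [← map_nsmul, hT, map_zero]
  have key := twist_unipotent hW' htw hσv hσ hε hη hn hnv hT'
  have key2 := congrArg ψ key
  rw [map_sub, map_sub, hψφ, hψφ, AddEquiv.apply_symm_apply] at key2
  exact key2

end Fermat.Agent.EC.H40
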