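import Mathlib
import Fermat.Prelude.Def_FLTPrelim_GaloisRep
import Fermat.Prelude.Def_FLTPrelim_Ramification
import Fermat.Agent.S05.H38_Gal
import Fermat.Agent.EC.H40_MultUnipotentCore

/-!
# (EC-c) / (E5): inertia at a prime of multiplicative reduction is unipotent on odd torsion
(helper40, S58 side project)

`W : WeierstrassCurve ℤ`, `q` a prime with `q ∣ Δ`, `q ∤ c₄`, `Δ ≠ 0` (multiplicative reduction of
the given integral model at `q`), `A` a valuation subring of `Qbar` over `q`,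
`σ ∈ A.inertiaSubgroupIn ℚ`, `m` odd and prime to `q`.  Then `(σ - 1)² = 0` on
`M_m = Submodule.torsionBy ℤ (E⁄Qbar).Point m`, `E = W.map (Int.castRingHom ℚ)`:

* `inertia_unipotent_of_mult'` : `σ • σ • P - σ • P = σ • P - P`;
* `inertia_unipotent_of_mult` : `σ • σ • P - 2 • σ • P + P = 0` (helper28's shape (E5));
* `inertia_unipotent_of_mult_int` : the same with `(2 : ℤ) •`;
* `inertia_unipotent_torsionBy` : the same for `P : Submodule.torsionBy ℤ (E⁄Qbar).Point m`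
  (subtype form, Prelude action).
-/

set_option autoImplicit false

namespace Fermat.Agent.EC.H40

open WeierstrassCurve WeierstrassCurve.Affine WeierstrassCurve.Affine.Point
open Fermat.Agent.S05 Fermat.Agent.S13

local notation "Qbar" => AlgebraicClosure ℚ

attribute [local instance 10000] AlgebraicClosure.instAlgebra

section real

variable (W : WeierstrassCurve ℤ)

/-- the base change to `Qbar` of the rational model is the base change of the integral model -/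
lemma baseChange_eq_map :
    (((W.map (Int.castRingHom ℚ) : Affine ℚ))⁄Qbar) = W.map (Int.castRingHom Qbar) := by
  have e : (algebraMap ℚ Qbar).comp (Int.castRingHom ℚ) = Int.castRingHom Qbar :=
    RingHom.ext_int _ _
  rw [Affine.baseChange, WeierstrassCurve.baseChange, WeierstrassCurve.map_map, e]

lemma bc_a₁ : (((W.map (Int.castRingHom ℚ) : Affine ℚ))⁄Qbar).a₁ = ((W.a₁ : ℤ) : Qbar) := by
  rw [baseChange_eq_map]; simp
lemma bc_a₂ : (((W.map (Int.castRingHom ℚ) : Affine ℚ))⁄Qbar).a₂ = ((W.a₂ : ℤ) : Qbar) := by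
  rw [baseChange_eq_map]; simp
lemma bc_a₃ : (((W.map (Int.castRingHom ℚ) : Affine ℚ))⁄Qbar).a₃ = ((W.a₃ : ℤ) : Qbar) := by
  rw [baseChange_eq_map]; simp
lemma bc_a₄ : (((W.map (Int.castRingHom ℚ) : Affine ℚ))⁄Qbar).a₄ = ((W.a₄ : ℤ) : Qbar) := by
  rw [baseChange_eq_map]; simp
lemma bc_a₆ : (((W.map (Int.castRingHom ℚ) : Affine ℚ))⁄Qbar).a₆ = ((W.a₆ : ℤ) : Qbar) := by
  rw [baseChange_eq_map]; simp
lemma bc_c₄ : (((W.map (Int.castRingHom ℚ) : Affine ℚ))⁄Qbar).c₄ = ((W.c₄ : ℤ) : Qbar) := by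
  rw [baseChange_eq_map, WeierstrassCurve.map_c₄]; simp
lemma bc_Δ : (((W.map (Int.castRingHom ℚ) : Affine ℚ))⁄Qbar).Δ = ((W.Δ : ℤ) : Qbar) := by
  rw [baseChange_eq_map, WeierstrassCurve.map_Δ]; simp

/-- the Galois action as an additive endomorphism of the points -/
noncomputable def galPhi (σ : Qbar ≃ₐ[ℚ] Qbar) :
    (((W.map (Int.castRingHom ℚ) : Affine ℚ))⁄Qbar).toAffine.Point →+
      (((W.map (Int.castRingHom ℚ) : Affine ℚ))⁄Qbar).toAffine.Point :=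
  Point.map (W' := (W.map (Int.castRingHom ℚ) : Affine ℚ)) σ.toAlgHom

lemma galPhi_apply (σ : Qbar ≃ₐ[ℚ] Qbar)
    (P : (((W.map (Int.castRingHom ℚ) : Affine ℚ))⁄Qbar).Point) : galPhi W σ P = σ • P := rfl

lemma coordAction_galPhi (σ : Qbar ≃ₐ[ℚ] Qbar) :
    H77.CoordAction (((W.map (Int.castRingHom ℚ) : Affine ℚ))⁄Qbar) (σ : Qbar →+* Qbar)
      (galPhi W σ) :=
  ⟨fun _ _ h => ⟨H38.nonsingular_apply (W.map (Int.castRingHom ℚ)) σ h, rfl⟩⟩

/-- **(EC-c)**, difference form: `(σ - 1)² = 0` on odd torsion prime to `q`. -/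
theorem inertia_unipotent_of_mult' {q : ℕ} (hq : q.Prime) (hqΔ : (q : ℤ) ∣ W.Δ)
    (hqc : ¬ (q : ℤ) ∣ W.c₄) (hΔ : W.Δ ≠ 0) {m : ℕ} (hm : Odd m) (hqm : ¬ q ∣ m)
    (A : ValuationSubring Qbar) (hA : A.LiesOverPrime q) (σ : Qbar ≃ₐ[ℚ] Qbar)
    (hσ : σ ∈ A.inertiaSubgroupIn ℚ)
    (P : (((W.map (Int.castRingHom ℚ) : Affine ℚ))⁄Qbar).Point)
    (hP : P ∈ Submodule.torsionBy ℤ (((W.map (Int.castRingHom ℚ) : Affine ℚ))⁄Qbar).Point m) :
    σ • σ • P - σ • P = σ • P - P := by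
  have h2 : (2 : Qbar) ≠ 0 := two_ne_zero
  have hc₄ : A.valuation (((W.map (Int.castRingHom ℚ) : Affine ℚ))⁄Qbar).c₄ = 1 := by
    rw [bc_c₄]; exact H38.valuation_intCast_eq_one hq hA hqc
  have hΔv : A.valuation (((W.map (Int.castRingHom ℚ) : Affine ℚ))⁄Qbar).Δ < 1 := by
    rw [bc_Δ]
    obtain ⟨k, hk⟩ := hqΔ
    rw [hk, Int.cast_mul, map_mul, Int.cast_natCast]
    calc A.valuation (q : Qbar) * A.valuation (k : Qbar)
        ≤ A.valuation (q : Qbar) * 1 := mul_le_mul' le_rfl (H38.valuation_intCast_le_one A k)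
      _ = A.valuation (q : Qbar) := mul_one _
      _ < 1 := H38.valuation_natCast_lt_one hA
  have hΔ0 : (((W.map (Int.castRingHom ℚ) : Affine ℚ))⁄Qbar).Δ ≠ 0 := by
    rw [bc_Δ]; exact_mod_cast hΔ
  have hmv : A.valuation ((m : ℕ) : Qbar) = 1 := by
    have := H38.valuation_intCast_eq_one hq hA (n := (m : ℤ)) (by exact_mod_cast hqm)
    simpa using this
  have hT : m • P = 0 := by
    rw [Submodule.mem_torsionBy_iff] at hP
    rwa [natCast_zsmul] at hP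
  have key := unipotent_of_mult (v := A.valuation) h2
    (((W.map (Int.castRingHom ℚ) : Affine ℚ))⁄Qbar)
    (by rw [bc_a₁]; exact H38.valuation_intCast_le_one A _)
    (by rw [bc_a₂]; exact H38.valuation_intCast_le_one A _)
    (by rw [bc_a₃]; exact H38.valuation_intCast_le_one A _)
    (by rw [bc_a₄]; exact H38.valuation_intCast_le_one A _)
    (by rw [bc_a₆]; exact H38.valuation_intCast_le_one A _)
    hc₄ hΔv hΔ0 (coordAction_galPhi W σ) (fun z => H38.valuation_apply hσ z)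
    (fun z hz => H38.valuation_apply_sub_lt_one hσ hz) hm hmv hT
  exact key

/-- **(EC-c) = (E5)**: `σ² - 2σ + 1 = 0` on `M_m`, `m` odd and prime to `q`. -/
theorem inertia_unipotent_of_mult {q : ℕ} (hq : q.Prime) (hqΔ : (q : ℤ) ∣ W.Δ)
    (hqc : ¬ (q : ℤ) ∣ W.c₄) (hΔ : W.Δ ≠ 0) {m : ℕ} (hm : Odd m) (hqm : ¬ q ∣ m)
    (A : ValuationSubring Qbar) (hA : A.LiesOverPrime q) (σ : Qbar ≃ₐ[ℚ] Qbar)
    (hσ : σ ∈ A.inertiaSubgroupIn ℚ)
    (P : (((W.map (Int.castRingHom ℚ) : Affine ℚ))⁄Qbar).Point)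
    (hP : P ∈ Submodule.torsionBy ℤ (((W.map (Int.castRingHom ℚ) : Affine ℚ))⁄Qbar).Point m) :
    σ • σ • P - 2 • σ • P + P = 0 := by
  have h := inertia_unipotent_of_mult' W hq hqΔ hqc hΔ hm hqm A hA σ hσ P hP
  rw [two_nsmul]
  calc σ • σ • P - (σ • P + σ • P) + P = (σ • σ • P - σ • P) - (σ • P - P) := by abel
    _ = 0 := by rw [h, sub_self]

/-- (E5) with the integer scalar `(2 : ℤ)`. -/
theorem inertia_unipotent_of_mult_int {q : ℕ} (hq : q.Prime) (hqΔ : (q : ℤ) ∣ W.Δ)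
    (hqc : ¬ (q : ℤ) ∣ W.c₄) (hΔ : W.Δ ≠ 0) {m : ℕ} (hm : Odd m) (hqm : ¬ q ∣ m)
    (A : ValuationSubring Qbar) (hA : A.LiesOverPrime q) (σ : Qbar ≃ₐ[ℚ] Qbar)
    (hσ : σ ∈ A.inertiaSubgroupIn ℚ)
    (P : (((W.map (Int.castRingHom ℚ) : Affine ℚ))⁄Qbar).Point)
    (hP : P ∈ Submodule.torsionBy ℤ (((W.map (Int.castRingHom ℚ) : Affine ℚ))⁄Qbar).Point m) :
    σ • σ • P - (2 : ℤ) • σ • P + P = 0 := by
  have h := inertia_unipotent_of_mult W hq hqΔ hqc hΔ hm hqm A hA σ hσ P hP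
  rwa [← natCast_zsmul, Nat.cast_ofNat] at h

/-- (E5) on the subtype `M_m` with the Prelude action. -/
theorem inertia_unipotent_torsionBy {q : ℕ} (hq : q.Prime) (hqΔ : (q : ℤ) ∣ W.Δ)
    (hqc : ¬ (q : ℤ) ∣ W.c₄) (hΔ : W.Δ ≠ 0) {m : ℕ} (hm : Odd m) (hqm : ¬ q ∣ m)
    (A : ValuationSubring Qbar) (hA : A.LiesOverPrime q) (σ : Qbar ≃ₐ[ℚ] Qbar)
    (hσ : σ ∈ A.inertiaSubgroupIn ℚ)
    (x : Submodule.torsionBy ℤ (((W.map (Int.castRingHom ℚ) : Affine ℚ))⁄Qbar).Point m) :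
    σ • σ • x - 2 • σ • x + x = 0 := by
  apply Subtype.ext
  have h := inertia_unipotent_of_mult W hq hqΔ hqc hΔ hm hqm A hA σ hσ x.1 x.2
  simp only [Submodule.coe_add, Submodule.coe_sub, Submodule.coe_zero]
  exact h

end real

end Fermat.Agent.EC.H40
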