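import Mathlib

/-!
# EC / (HW-op), algebra brick (helper48): the parallelogram law gives a quadratic form, and the
trace identity

`Λ` an additive commutative group, `h : Λ → ℤ` with the parallelogram law

  `h (Q + R) + h (Q - R) = 2 * h Q + 2 * h R`.

* `polar h Q R := h (Q + R) - h Q - h R` is symmetric and biadditive (`polar_add_left`,
  `polar_zsmul_left`, ...), `h (n • Q) = n ^ 2 * h Q`, `polar h Q Q = 2 * h Q`;
* `h_three` : `h (x₀ • a + x₁ • b + x₂ • c)` is the expected ternary quadratic form;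
* `trace_identity` : with `h a = 1`, `h b = q`, `h c = q ^ 2`, `h (b - a) = q + 1 - t`,
  `h (b + c) = q * h (a + b)` and `h (a + 2 • b + c) = h (a + b) ^ 2` one gets
  `h (q • a - t • b + c) = 0`.

Intended use: `a = u` the generic point of an elliptic curve over a finite field with `q`
elements, `b = φ u`, `c = φ² u`, `h` = degree of the `x`-coordinate, `t = q + 1 - deg (φ - 1)`.
-/

set_option autoImplicit false

namespace Fermat.Agent.EC.H48

variable {Λ : Type*} [AddCommGroup Λ]

/-- the polar form of `h` -/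
def polar (h : Λ → ℤ) (Q R : Λ) : ℤ := h (Q + R) - h Q - h R

/-- the parallelogram law -/
def Parallelogram (h : Λ → ℤ) : Prop :=
  ∀ Q R : Λ, h (Q + R) + h (Q - R) = 2 * h Q + 2 * h R

section

variable {h : Λ → ℤ} (hp : Parallelogram h)

include hp

theorem h_zero : h 0 = 0 := by
  have := hp 0 0
  simp only [add_zero, sub_zero] at this
  omega

theorem h_neg (R : Λ) : h (-R) = h R := by
  have h1 := hp 0 R
  have h0 := h_zero hp
  simp only [zero_add, zero_sub] at h1
  omega

theorem h_two (Q : Λ) : h (Q + Q) = 4 * h Q := by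
  have h1 := hp Q Q
  have h0 := h_zero hp
  rw [sub_self, h0] at h1
  omega

omit hp in
theorem polar_comm (Q R : Λ) : polar h Q R = polar h R Q := by
  unfold polar
  rw [add_comm Q R]
  ring

theorem polar_self (Q : Λ) : polar h Q Q = 2 * h Q := by
  unfold polar
  rw [h_two hp]
  ring

theorem polar_neg_right (Q R : Λ) : polar h Q (-R) = - polar h Q R := by
  unfold polar
  have h1 := hp Q R
  rw [h_neg hp, ← sub_eq_add_neg]
  omega

/-- `2 * polar h Q R = h (Q + R) - h (Q - R)` -/
theorem two_polar (Q R : Λ) : 2 * polar h Q R = h (Q + R) - h (Q - R) := by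
  have h1 := hp Q R
  unfold polar
  omega

/-- the key identity `f (Q + Q') + f (Q - Q') = 2 f Q` for `f = 2 polar (·, R)` -/
theorem polar_add_sub (Q Q' R : Λ) :
    polar h (Q + Q') R + polar h (Q - Q') R = 2 * polar h Q R := by
  have e1 := hp (Q + R) Q'
  have e2 := hp (Q - R) Q'
  have t1 := two_polar hp (Q + Q') R
  have t2 := two_polar hp (Q - Q') R
  have t3 := two_polar hp Q R
  have a1 : Q + R + Q' = Q + Q' + R := by abel
  have a2 : Q + R - Q' = Q - Q' + R := by abel
  have a3 : Q - R + Q' = Q + Q' - R := by abel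
  have a4 : Q - R - Q' = Q - Q' - R := by abel
  rw [a1, a2] at e1
  rw [a3, a4] at e2
  omega

theorem polar_zero_left (R : Λ) : polar h 0 R = 0 := by
  unfold polar
  rw [zero_add, h_zero hp]
  ring

theorem polar_two_left (Q R : Λ) : polar h (Q + Q) R = 2 * polar h Q R := by
  have := polar_add_sub hp Q Q R
  rw [sub_self, polar_zero_left hp] at this
  omega

theorem polar_add_left (S D R : Λ) : polar h (S + D) R = polar h S R + polar h D R := by
  -- apply the key identity to `Q = S + D`, `Q' = S - D`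
  have key := polar_add_sub hp (S + D) (S - D) R
  have a1 : S + D + (S - D) = S + S := by abel
  have a2 : S + D - (S - D) = D + D := by abel
  rw [a1, a2, polar_two_left hp, polar_two_left hp] at key
  omega

theorem polar_add_right (Q S D : Λ) : polar h Q (S + D) = polar h Q S + polar h Q D := by
  rw [polar_comm, polar_add_left hp, polar_comm S, polar_comm D]

theorem polar_neg_left (Q R : Λ) : polar h (-Q) R = - polar h Q R := by
  rw [polar_comm, polar_neg_right hp, polar_comm]

/-- `polar h (·) R` as an additive homomorphism -/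
def polarHom (R : Λ) : Λ →+ ℤ where
  toFun Q := polar h Q R
  map_zero' := polar_zero_left hp R
  map_add' S D := polar_add_left hp S D R

theorem polarHom_apply (Q R : Λ) : polarHom hp R Q = polar h Q R := rfl

theorem polar_zsmul_left (n : ℤ) (Q R : Λ) : polar h (n • Q) R = n * polar h Q R := by
  rw [← polarHom_apply hp, map_zsmul, polarHom_apply, smul_eq_mul]

theorem polar_zsmul_right (n : ℤ) (Q R : Λ) : polar h Q (n • R) = n * polar h Q R := by
  rw [polar_comm, polar_zsmul_left hp, polar_comm]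

theorem polar_sub_left (S D R : Λ) : polar h (S - D) R = polar h S R - polar h D R := by
  rw [sub_eq_add_neg, polar_add_left hp, polar_neg_left hp]
  ring

omit hp in
theorem h_add (Q R : Λ) : h (Q + R) = h Q + h R + polar h Q R := by
  unfold polar
  ring

theorem h_sub (Q R : Λ) : h (Q - R) = h Q + h R - polar h Q R := by
  rw [sub_eq_add_neg, h_add (h := h), h_neg hp, polar_neg_right hp]
  ring

theorem h_zsmul (n : ℤ) (Q : Λ) : h (n • Q) = n ^ 2 * h Q := by
  have h1 := polar_self hp (n • Q)
  rw [polar_zsmul_left hp, polar_zsmul_right hp, polar_self hp] at h1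
  have : 2 * h (n • Q) = 2 * (n ^ 2 * h Q) := by rw [← h1]; ring
  omega

/-- **the ternary quadratic form** -/
theorem h_three (a b c : Λ) (x₀ x₁ x₂ : ℤ) :
    h (x₀ • a + x₁ • b + x₂ • c) =
      x₀ ^ 2 * h a + x₁ ^ 2 * h b + x₂ ^ 2 * h c + x₀ * x₁ * polar h a b +
        x₁ * x₂ * polar h b c + x₀ * x₂ * polar h a c := by
  rw [h_add (h := h), h_add (h := h), polar_add_left hp, h_zsmul hp, h_zsmul hp, h_zsmul hp,
    polar_zsmul_left hp, polar_zsmul_right hp, polar_zsmul_left hp, polar_zsmul_right hp,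
    polar_zsmul_left hp, polar_zsmul_right hp]
  ring

/-- **the trace identity**: `deg (φ² - t φ + q) = 0` from the parallelogram law, the degrees of
`1, φ, φ²`, `φ - 1`, and multiplicativity at `φ (1 + φ)` and `(1 + φ)²`. -/
theorem trace_identity (a b c : Λ) (q t : ℤ) (ha : h a = 1) (hb : h b = q) (hc : h c = q ^ 2)
    (hba : h (b - a) = q + 1 - t) (hbc : h (b + c) = q * h (a + b))
    (hsq : h (a + (2 : ℤ) • b + c) = h (a + b) ^ 2) :
    h (q • a - t • b + c) = 0 := by
  -- the three polar values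
  have hab : polar h a b = t := by
    have := h_sub hp b a
    rw [hba, ha, hb, polar_comm] at this
    omega
  have hab' : h (a + b) = 1 + q + t := by rw [h_add (h := h), ha, hb, hab]
  have hbc' : polar h b c = q * t := by
    have := h_add (h := h) b c
    rw [hbc, hab', hb, hc] at this
    have e : q * (1 + q + t) = q + q ^ 2 + q * t := by ring
    omega
  have hac : polar h a c = t ^ 2 - 2 * q := by
    have e := h_three hp a b c 1 2 1
    rw [one_smul, one_smul, hsq, hab', ha, hb, hc, hab, hbc'] at e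
    have e2 : (1 + q + t) ^ 2 = 1 ^ 2 * 1 + 2 ^ 2 * q + 1 ^ 2 * q ^ 2 + 1 * 2 * t + 2 * 1 * (q * t)
        + 1 * 1 * polar h a c := e
    nlinarith [e2]
  have e := h_three hp a b c q (-t) 1
  have r : q • a - t • b + c = q • a + (-t) • b + (1 : ℤ) • c := by
    rw [neg_smul, one_smul, sub_eq_add_neg]
  rw [r, e, ha, hb, hc, hab, hbc', hac]
  ring

end

/-- the same with the hypotheses in the shape `h (x₀ • a + x₁ • b + x₂ • c)` on `Λ = ℤ³`-style
coordinates: a function `D : ℤ → ℤ → ℤ → ℤ` satisfying the parallelogram law. -/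
theorem trace_identity_coord (D : ℤ → ℤ → ℤ → ℤ)
    (hp : ∀ x₀ x₁ x₂ y₀ y₁ y₂ : ℤ,
      D (x₀ + y₀) (x₁ + y₁) (x₂ + y₂) + D (x₀ - y₀) (x₁ - y₁) (x₂ - y₂) =
        2 * D x₀ x₁ x₂ + 2 * D y₀ y₁ y₂)
    (q t : ℤ) (h0 : D 1 0 0 = 1) (h1 : D 0 1 0 = q) (h2 : D 0 0 1 = q ^ 2)
    (h01 : D (-1) 1 0 = q + 1 - t) (h12 : D 0 1 1 = q * D 1 1 0)
    (hsq : D 1 2 1 = D 1 1 0 ^ 2) :
    D q (-t) 1 = 0 := by
  let h : ℤ × ℤ × ℤ → ℤ := fun v => D v.1 v.2.1 v.2.2
  have hpar : Parallelogram h := fun Q R => hp Q.1 Q.2.1 Q.2.2 R.1 R.2.1 R.2.2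
  have key := trace_identity hpar (1, 0, 0) (0, 1, 0) (0, 0, 1) q t h0 h1 h2
    (by simpa [h] using h01) (by simpa [h] using h12) (by simpa [h] using hsq)
  simpa [h] using key

end Fermat.Agent.EC.H48
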