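/-
helper53 — S58 plan (T3) of helper28 #3704, brick **(T3-G)**, parts (G1) and (G3).

* (G1) `inertia_apply_of_pow_eq_one_of_not_dvd` : for `A` over the prime `q`, `σ` in the inertia
  group of `A` and `ζ ^ m = 1` with `¬ q ∣ m`: `σ ζ = ζ` (wrapper of the landed
  `S30.H68.inertia_apply_of_pow_eq_one`); `modEq_one_of_inertia` : if moreover `ζ` is a primitive
  `m`-th root of unity and `σ ζ = ζ ^ d`, then `d ≡ 1 [MOD m]`; `intCast_modEq_one_of_inertia`
  the same for `σ ζ = ζ ^ (d : ℤ)`.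
* (G3) `dvd_of_intCast_mem_span_pow` : `O` a domain, `I` a proper ideal containing the prime
  `lam`, `(lam : O) ≠ 0`, `(z : O) ∈ span {lam ^ n}` for an integer `z` ⟹ `lam ^ n ∣ z` in `ℤ`;
  local-ring / DVR front ends `dvd_of_intCast_mem_span_pow_local`, `..._of_charZero`,
  and the `∃ w, (z : O) = lam ^ n * w` spelling `dvd_of_intCast_eq_pow_mul`.
-/
import Mathlib
import Fermat.Agent.S30.H68_CycloAdic

set_option autoImplicit false

namespace Fermat.Agent.EC.H53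

local notation "Qbar" => AlgebraicClosure ℚ
local notation "GQ" => (AlgebraicClosure ℚ ≃ₐ[ℚ] AlgebraicClosure ℚ)

section G1

/-- **(G1)** Inertia at a place over `q` acts trivially on the `m`-th roots of unity, `q ∤ m`. -/
theorem inertia_apply_of_pow_eq_one_of_not_dvd {q m : ℕ} (hq : q.Prime) (hqm : ¬ q ∣ m)
    {A : ValuationSubring Qbar} (hA : A.LiesOverPrime q) {σ : GQ}
    (hσ : σ ∈ A.inertiaSubgroupIn ℚ) {ζ : Qbar} (hζ : ζ ^ m = 1) : σ ζ = ζ := by
  have hmpos : 0 < m := by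
    rcases Nat.eq_zero_or_pos m with h | h
    · exact absurd (h ▸ dvd_zero q) hqm
    · exact h
  have hcop : q.Coprime m := (Nat.Prime.coprime_iff_not_dvd hq).mpr hqm
  exact Fermat.Agent.S30.H68.inertia_apply_of_pow_eq_one hσ hmpos
    (Fermat.Agent.S14.H31.natCast_not_mem_nonunits_of_coprime hA hcop) hζ

/-- **(G1), integer exponent form**: if `σ` (in the inertia group over `q`, `q ∤ m`) acts on a
primitive `m`-th root of unity by `ζ ↦ ζ ^ d`, then `d ≡ 1 [ZMOD m]`. -/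
theorem intCast_modEq_one_of_inertia {q m : ℕ} {d : ℤ} (hq : q.Prime) (hqm : ¬ q ∣ m)
    {A : ValuationSubring Qbar} (hA : A.LiesOverPrime q) {σ : GQ}
    (hσ : σ ∈ A.inertiaSubgroupIn ℚ) {ζ : Qbar} (hζ : IsPrimitiveRoot ζ m)
    (hd : σ ζ = ζ ^ d) : d ≡ 1 [ZMOD m] := by
  have h1 : σ ζ = ζ := inertia_apply_of_pow_eq_one_of_not_dvd hq hqm hA hσ hζ.pow_eq_one
  have hmpos : 0 < m := by
    rcases Nat.eq_zero_or_pos m with h | h
    · exact absurd (h ▸ dvd_zero q) hqm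
    · exact h
  have hζ0 : ζ ≠ 0 := hζ.ne_zero hmpos.ne'
  have h2 : ζ ^ (d - 1) = 1 := by
    rw [zpow_sub₀ hζ0, zpow_one, ← hd, h1, div_self hζ0]
  have h3 : (m : ℤ) ∣ d - 1 := (hζ.zpow_eq_one_iff_dvd (d - 1)).mp h2
  exact (Int.modEq_iff_dvd.mpr h3).symm

/-- **(G1), exponent form**: the same for a natural exponent. -/
theorem modEq_one_of_inertia {q m d : ℕ} (hq : q.Prime) (hqm : ¬ q ∣ m)
    {A : ValuationSubring Qbar} (hA : A.LiesOverPrime q) {σ : GQ}
    (hσ : σ ∈ A.inertiaSubgroupIn ℚ) {ζ : Qbar} (hζ : IsPrimitiveRoot ζ m)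
    (hd : σ ζ = ζ ^ d) : d ≡ 1 [MOD m] := by
  have h := intCast_modEq_one_of_inertia (d := (d : ℤ)) hq hqm hA hσ hζ
    (by rw [zpow_natCast]; exact hd)
  exact Int.natCast_modEq_iff.mp (by simpa using h)

end G1

section G3

variable {O : Type*} [CommRing O] [IsDomain O]

/-- **(G3)** In a domain `O` with a proper ideal `I` containing the rational prime `lam ≠ 0`:
an integer whose image lies in `lam ^ n O` is divisible by `lam ^ n` in `ℤ`. -/
theorem dvd_of_intCast_eq_pow_mul (I : Ideal O) (hI : I ≠ ⊤) {lam : ℕ} (hlam : lam.Prime)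
    (hlamI : ((lam : ℕ) : O) ∈ I) (hlam0 : ((lam : ℕ) : O) ≠ 0) :
    ∀ (n : ℕ) (z : ℤ) (w : O), (z : O) = ((lam : ℕ) : O) ^ n * w → ((lam : ℤ) ^ n) ∣ z := by
  intro n
  induction n with
  | zero => intro z w _; simp
  | succ n ih =>
    intro z w hzw
    -- `lam ∣ z`, else `1 ∈ I`
    have hdvd : (lam : ℤ) ∣ z := by
      by_contra hnd
      have hcop : IsCoprime (lam : ℤ) z :=
        (Nat.prime_iff_prime_int.mp hlam).coprime_iff_not_dvd.mpr hnd
      obtain ⟨a, b, hab⟩ := hcop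
      have hzI : (z : O) ∈ I := by
        rw [hzw, pow_succ, mul_assoc]
        exact I.mul_mem_left _ (I.mul_mem_right _ hlamI)
      have h1 : ((a * (lam : ℤ) + b * z : ℤ) : O) ∈ I := by
        push_cast
        exact I.add_mem (I.mul_mem_left _ hlamI) (I.mul_mem_left _ hzI)
      rw [hab, Int.cast_one] at h1
      exact hI ((Ideal.eq_top_iff_one I).mpr h1)
    obtain ⟨z1, rfl⟩ := hdvd
    have hz1 : (z1 : O) = ((lam : ℕ) : O) ^ n * w := by
      have h2 : ((lam : ℕ) : O) * (z1 : O) = ((lam : ℕ) : O) * (((lam : ℕ) : O) ^ n * w) := by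
        have h3 : (((lam : ℤ) * z1 : ℤ) : O) = ((lam : ℕ) : O) * (z1 : O) := by push_cast; ring
        rw [← h3, hzw]; ring
      exact mul_left_cancel₀ hlam0 h2
    obtain ⟨c, hc⟩ := ih z1 w hz1
    exact ⟨c, by rw [hc]; ring⟩

/-- **(G3)**, `Ideal.span` spelling. -/
theorem dvd_of_intCast_mem_span_pow (I : Ideal O) (hI : I ≠ ⊤) {lam : ℕ} (hlam : lam.Prime)
    (hlamI : ((lam : ℕ) : O) ∈ I) (hlam0 : ((lam : ℕ) : O) ≠ 0) {n : ℕ} {z : ℤ}
    (hz : (z : O) ∈ Ideal.span {((lam : ℕ) : O) ^ n}) : ((lam : ℤ) ^ n) ∣ z := by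
  obtain ⟨w, hw⟩ := Ideal.mem_span_singleton'.mp hz
  exact dvd_of_intCast_eq_pow_mul I hI hlam hlamI hlam0 n z w (by rw [← hw]; ring)

/-- **(G3)** for a local domain (e.g. a DVR) with `lam` in the maximal ideal. -/
theorem dvd_of_intCast_mem_span_pow_local [IsLocalRing O] {lam : ℕ} (hlam : lam.Prime)
    (hlamI : ((lam : ℕ) : O) ∈ IsLocalRing.maximalIdeal O) (hlam0 : ((lam : ℕ) : O) ≠ 0) {n : ℕ}
    {z : ℤ} (hz : (z : O) ∈ Ideal.span {((lam : ℕ) : O) ^ n}) : ((lam : ℤ) ^ n) ∣ z :=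
  dvd_of_intCast_mem_span_pow (IsLocalRing.maximalIdeal O)
    (IsLocalRing.maximalIdeal.isMaximal O).ne_top hlam hlamI hlam0 hz

/-- **(G3)** for a local domain of characteristic zero with `lam` in the maximal ideal. -/
theorem dvd_of_intCast_mem_span_pow_of_charZero [IsLocalRing O] [CharZero O] {lam : ℕ}
    (hlam : lam.Prime) (hlamI : ((lam : ℕ) : O) ∈ IsLocalRing.maximalIdeal O) {n : ℕ}
    {z : ℤ} (hz : (z : O) ∈ Ideal.span {((lam : ℕ) : O) ^ n}) : ((lam : ℤ) ^ n) ∣ z :=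
  dvd_of_intCast_mem_span_pow_local hlam hlamI (Nat.cast_ne_zero.mpr hlam.ne_zero) hz

/-- **(G3)**, natural-number divisibility, characteristic zero local domain: if `(z : O)` lies in
`lam ^ n O` then `lam ^ n ∣ z.natAbs`. -/
theorem pow_dvd_natAbs_of_intCast_mem_span_pow [IsLocalRing O] [CharZero O] {lam : ℕ}
    (hlam : lam.Prime) (hlamI : ((lam : ℕ) : O) ∈ IsLocalRing.maximalIdeal O) {n : ℕ}
    {z : ℤ} (hz : (z : O) ∈ Ideal.span {((lam : ℕ) : O) ^ n}) : lam ^ n ∣ z.natAbs := by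
  have h := dvd_of_intCast_mem_span_pow_of_charZero hlam hlamI hz
  have h2 : ((lam ^ n : ℕ) : ℤ) ∣ z := by push_cast; exact h
  exact Int.natCast_dvd.mp h2

/-- **(G3)**, the consequence used in (C3): an integer lying in `lam ^ n O` for all `n` is `0`. -/
theorem eq_zero_of_forall_intCast_mem_span_pow [IsLocalRing O] [CharZero O] {lam : ℕ}
    (hlam : lam.Prime) (hlamI : ((lam : ℕ) : O) ∈ IsLocalRing.maximalIdeal O) {z : ℤ}
    (hz : ∀ n : ℕ, (z : O) ∈ Ideal.span {((lam : ℕ) : O) ^ n}) : z = 0 := by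
  by_contra hz0
  have h1 : lam ^ z.natAbs ∣ z.natAbs :=
    pow_dvd_natAbs_of_intCast_mem_span_pow hlam hlamI (hz z.natAbs)
  have h2 : 0 < z.natAbs := Int.natAbs_pos.mpr hz0
  have h3 : lam ^ z.natAbs ≤ z.natAbs := Nat.le_of_dvd h2 h1
  have h4 : z.natAbs < lam ^ z.natAbs := Nat.lt_pow_self hlam.one_lt
  omega

end G3

end Fermat.Agent.EC.H53
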