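/-
helper53 — S58 CHAIN v1 (helper28 #3758), row **(C3a)**, core file.

`specC3a_of_transfer` : `H28.SpecC3a` from the pinned transfer statement `TransferSpec`
(= the statement of helper90's `EC.H90.transfer` (#3718) at modules `M : Type`), using only the
fields of `H28.ECInputs`:

for `σ` in an inertia group over `q ≠ λ` and every `n`, `transfer` at `M := W[λⁿ]`, `m := λⁿ`,
`n' := n` gives integers `t`, `d` with `tr ρ(σ) - t, det ρ(σ) - d ∈ 𝔪ⁿ`, `σ² - tσ + d = 0` on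
`W[λⁿ]` and `σ ζ = ζ ^ d` on `μ_{λⁿ}`.  Then `d ≡ 1 mod λⁿ` (inertia is trivial on `μ_{λⁿ}`), and
`λⁿ ∣ 1 - t + d` (good `q`: `σ = 1` on `W[λⁿ]` + faithfulness; multiplicative `q`: evaluate at the
inertia-fixed point of exact order `λⁿ`).  Hence `tr - 2, det - 1 ∈ 𝔪ⁿ` for all `n`, so `tr = 2`,
`det = 1` by Krull, and `charpoly = X² - tr X + det = (X - 1)²`.
-/
import Mathlib
import Fermat.Agent.EC.H28_T3Interface
import Fermat.Agent.EC.H53_T3Small

set_option autoImplicit false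
set_option linter.style.haveILetI false

noncomputable section

namespace Fermat.Agent.EC.H53

open WeierstrassCurve WeierstrassCurve.Affine Polynomial

local notation "Qbar" => AlgebraicClosure ℚ
local notation "GQ" => (AlgebraicClosure ℚ ≃ₐ[ℚ] AlgebraicClosure ℚ)

/-- The characteristic polynomial of an endomorphism of a free module of rank two. -/
theorem charpoly_eq_of_finrank_two {O V : Type*} [CommRing O] [Nontrivial O] [AddCommGroup V]
    [Module O V] [Module.Free O V] [Module.Finite O V] (h : Module.finrank O V = 2)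
    (f : Module.End O V) :
    LinearMap.charpoly f = X ^ 2 - C (LinearMap.trace O V f) * X + C (LinearMap.det f) := by
  classical
  let b : Module.Basis (Fin 2) O V := Module.finBasisOfFinrankEq O V h
  rw [← LinearMap.charpoly_toMatrix f b, Matrix.charpoly_fin_two,
    LinearMap.trace_eq_matrix_trace O b f, LinearMap.det_toMatrix b f]

/-- The pinned statement of the transfer lemma (C1) (helper90 #3718), at modules `M : Type`. -/
def TransferSpec : Prop :=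
  ∀ {O'' : Type} [CommRing O''] [IsLocalRing O''] (rho : GaloisRepAdic O'') {M : Type}
    [AddCommGroup M] [DistribMulAction GQ M]
    (_ : ∃ L : IntermediateField ℚ Qbar, FiniteDimensional ℚ L ∧
      ∀ σ : GQ, (∀ x ∈ L, σ x = x) → ∀ P : M, σ • P = P)
    (a : ℕ → ℤ) (T0 : Finset ℕ)
    (_ : ∀ l : ℕ, l.Prime → l ∉ T0 → ∀ A : ValuationSubring Qbar, A.LiesOverPrime l →
      ∀ φ : GQ, A.IsFrobeniusAt φ l →
        LinearMap.charpoly (rho.ρ φ) = X ^ 2 - C ((a l : ℤ) : O'') * X + C ((l : ℕ) : O''))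
    (_ : ∀ l : ℕ, l.Prime → l ∉ T0 → ∀ A : ValuationSubring Qbar, A.LiesOverPrime l →
      ∀ φ : GQ, A.IsFrobeniusAt φ l →
        ∀ P : M, φ • φ • P - (a l) • (φ • P) + (l : ℤ) • P = 0)
    (σ : GQ) (n' m : ℕ) (_ : 0 < m) (_ : ∀ q : ℕ, q.Prime → q ∣ m → q ∈ T0),
    ∃ (t : ℤ) (d : ℕ),
      LinearMap.trace O'' rho.V (rho.ρ σ) - (t : O'') ∈ IsLocalRing.maximalIdeal O'' ^ n' ∧
      LinearMap.det (rho.ρ σ) - (d : O'') ∈ IsLocalRing.maximalIdeal O'' ^ n' ∧
      (∀ P : M, σ • σ • P - t • (σ • P) + (d : ℤ) • P = 0) ∧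
      (∀ ζ : Qbar, ζ ^ m = 1 → σ ζ = ζ ^ d)

section Core

variable {W : WeierstrassCurve ℤ}

/-- Good prime: `λⁿ ∣ 1 - t + d`. -/
theorem dvd_of_quadratic_good (hEC : H28.ECInputs W) {lam : ℕ} (hlam : lam.Prime) (n : ℕ)
    {σ : GQ} (hfix : ∀ P : H28.Tors W (lam ^ n), σ • P = P) (t d : ℤ)
    (h : ∀ P : H28.Tors W (lam ^ n), σ • σ • P - t • (σ • P) + d • P = 0) :
    ((lam ^ n : ℕ) : ℤ) ∣ 1 - t + d := by
  refine hEC.faithful lam hlam n (1 - t + d) fun P => ?_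
  have h1 := h P
  rw [hfix P, hfix P] at h1
  rw [add_smul, sub_smul, one_smul]
  exact h1

/-- Multiplicative prime: `m ∣ 1 - t + d` from the inertia-fixed point of exact order `m`. -/
theorem dvd_of_quadratic_mult {m : ℕ} {σ : GQ} {P0 : H28.Pts W} (hord : addOrderOf P0 = m)
    (hfix : σ • P0 = P0) (t d : ℤ)
    (h : ∀ P : H28.Tors W m, σ • σ • P - t • (σ • P) + d • P = 0) :
    (m : ℤ) ∣ 1 - t + d := by
  have hmem : P0 ∈ Submodule.torsionBy ℤ (H28.Pts W) (m : ℤ) := by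
    rw [Submodule.mem_torsionBy_iff, natCast_zsmul, ← hord]
    exact addOrderOf_nsmul_eq_zero P0
  have h1 : σ • σ • P0 - t • (σ • P0) + d • P0 = 0 := congrArg Subtype.val (h ⟨P0, hmem⟩)
  rw [hfix, hfix] at h1
  have h2 : (1 - t + d) • P0 = 0 := by
    rw [add_zsmul, sub_zsmul, one_zsmul]; exact h1
  rw [← hord]
  exact addOrderOf_dvd_iff_zsmul_eq_zero.mpr h2

end Core

/-- **(C3a) from the transfer lemma.** -/
theorem specC3a_of_transfer (htr : TransferSpec) : H28.SpecC3a := by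
  intro W hΔ hEC O _ _ _ _ lam hlam hlam2 hlamO ρ T0 hlamT0 hbadT0 hatt q hq hqlam hss A hA σ hσ
  have hlamodd : Odd lam := hlam.eq_two_or_odd'.resolve_left hlam2
  -- the key congruences, level by level
  have key : ∀ n : ℕ,
      LinearMap.trace O ρ.V (ρ.ρ σ) - 2 ∈ IsLocalRing.maximalIdeal O ^ n ∧
      LinearMap.det (ρ.ρ σ) - 1 ∈ IsLocalRing.maximalIdeal O ^ n := by
    intro n
    have hmpos : 0 < lam ^ n := pow_pos hlam.pos n
    have hmodd : Odd (lam ^ n) := hlamodd.pow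
    have hndvd : ∀ l : ℕ, l.Prime → l ≠ lam → ¬ l ∣ lam ^ n := fun l hl hne hdvd =>
      hne ((Nat.prime_dvd_prime_iff_eq hl hlam).mp (hl.dvd_of_dvd_pow hdvd))
    have hqm : ¬ q ∣ lam ^ n := hndvd q hq hqlam
    have hgood : ∀ l : ℕ, l.Prime → l ∉ T0 → ¬ (l : ℤ) ∣ W.Δ := fun l hl hlT0 hdvd =>
      hlT0 (hbadT0 l hl hdvd)
    obtain ⟨t, d, h1, h2, h3, h4⟩ := htr ρ (M := H28.Tors W (lam ^ n))
      (hEC.finiteLevel (lam ^ n) hmpos) (fun l => W.apOfModel l) T0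
      (fun l hl hlT0 A' hA' φ hφ => hatt l hl hlT0 A' hA' φ hφ)
      (fun l hl hlT0 A' hA' φ hφ P =>
        hEC.hw l hl (hgood l hl hlT0) (lam ^ n) hmodd
          (hndvd l hl (fun h => hlT0 (h ▸ hlamT0))) A' hA' φ hφ P)
      σ n (lam ^ n) hmpos
      (fun q' hq' hdvd => by
        have : q' = lam := (Nat.prime_dvd_prime_iff_eq hq' hlam).mp (hq'.dvd_of_dvd_pow hdvd)
        rw [this]; exact hlamT0)
    -- `d ≡ 1 mod λⁿ`
    have hd1 : ((lam ^ n : ℕ) : ℤ) ∣ (d : ℤ) - 1 := by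
      haveI : NeZero ((lam ^ n : ℕ) : Qbar) := ⟨Nat.cast_ne_zero.mpr hmpos.ne'⟩
      obtain ⟨ζ, hζ⟩ := HasEnoughRootsOfUnity.exists_primitiveRoot Qbar (lam ^ n)
      have hmod : d ≡ 1 [MOD lam ^ n] :=
        modEq_one_of_inertia hq hqm hA hσ hζ (h4 ζ hζ.pow_eq_one)
      exact (Nat.modEq_iff_dvd.mp hmod.symm)
    -- `λⁿ ∣ 1 - t + d`
    have htd : ((lam ^ n : ℕ) : ℤ) ∣ 1 - t + (d : ℤ) := by
      by_cases hqΔ : (q : ℤ) ∣ W.Δ
      · obtain ⟨P0, hord, hfix⟩ :=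
          hEC.inertiaMult q hq hqΔ (hss hqΔ) (lam ^ n) hmodd hqm A hA
        exact dvd_of_quadratic_mult hord (hfix σ hσ) t d h3
      · exact dvd_of_quadratic_good hEC hlam n
          (hEC.inertiaGood q hq hqΔ (lam ^ n) hmodd hqm A hA σ hσ) t d h3
    -- hence `λⁿ ∣ t - 2`
    have ht2 : ((lam ^ n : ℕ) : ℤ) ∣ t - 2 := by
      have : t - 2 = ((d : ℤ) - 1) - (1 - t + (d : ℤ)) := by ring
      rw [this]; exact dvd_sub hd1 htd
    have hmem : ∀ z : ℤ, ((lam ^ n : ℕ) : ℤ) ∣ z → (z : O) ∈ IsLocalRing.maximalIdeal O ^ n := by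
      rintro z ⟨c, rfl⟩
      have : (((lam ^ n : ℕ) : ℤ) * c : ℤ) = (lam : ℤ) ^ n * c := by push_cast; ring
      rw [this]
      push_cast
      exact Ideal.mul_mem_right _ _ (Ideal.pow_mem_pow hlamO n)
    constructor
    · have h5 := hmem (t - 2) ht2
      have : LinearMap.trace O ρ.V (ρ.ρ σ) - 2 =
          (LinearMap.trace O ρ.V (ρ.ρ σ) - (t : O)) + ((t - 2 : ℤ) : O) := by push_cast; ring
      rw [this]; exact Ideal.add_mem _ h1 h5
    · have h5 := hmem ((d : ℤ) - 1) hd1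
      have : LinearMap.det (ρ.ρ σ) - 1 =
          (LinearMap.det (ρ.ρ σ) - (d : O)) + (((d : ℤ) - 1 : ℤ) : O) := by push_cast; ring
      rw [this]; exact Ideal.add_mem _ h2 h5
  -- Krull
  have hkrull : ∀ x : O, (∀ n : ℕ, x ∈ IsLocalRing.maximalIdeal O ^ n) → x = 0 := by
    intro x hx
    have h := Ideal.iInf_pow_eq_bot_of_isLocalRing (IsLocalRing.maximalIdeal O)
      (IsLocalRing.maximalIdeal.isMaximal O).ne_top
    have hx' : x ∈ (⨅ i : ℕ, IsLocalRing.maximalIdeal O ^ i) := (Ideal.mem_iInf).mpr hx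
    rw [h] at hx'
    exact (Ideal.mem_bot).mp hx'
  have htr2 : LinearMap.trace O ρ.V (ρ.ρ σ) = 2 :=
    sub_eq_zero.mp (hkrull _ fun n => (key n).1)
  have hdet1 : LinearMap.det (ρ.ρ σ) = 1 :=
    sub_eq_zero.mp (hkrull _ fun n => (key n).2)
  rw [charpoly_eq_of_finrank_two ρ.finrank_eq, htr2, hdet1]
  simp only [map_ofNat, map_one]
  ring

end Fermat.Agent.EC.H53
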