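/-
helper53 — S58 CHAIN v1 (helper28 #3758), row **(C3a)**: `theorem specC3a : H28.SpecC3a`.

`H53_C3aCore.specC3a_of_transfer` applied to helper90's landed transfer lemma `EC.H90.transfer`.
-/
import Mathlib
import Fermat.Agent.EC.H53_C3aCore
import Fermat.Agent.EC.H90_Transfer

set_option autoImplicit false

namespace Fermat.Agent.EC.H53

/-- helper90's transfer lemma (C1) in the pinned spelling. -/
theorem transferSpec : TransferSpec := by
  intro O'' _ _ rho M _ _ hM a T0 hρ hMq σ n' m hm hmT0
  exact Fermat.Agent.EC.H90.transfer rho hM a T0 hρ hMq σ n' m hm hmT0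

/-- **Row (C3a)**: a representation with the Frobenius characteristic polynomials of `W` away
from `T0 ∋ λ` is unipotent on inertia at every prime `q ≠ λ` where `W` is semistable. -/
theorem specC3a : Fermat.Agent.EC.H28.SpecC3a := specC3a_of_transfer transferSpec

end Fermat.Agent.EC.H53
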