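/-
helper53 — S58 plan (T3) of helper28 #3704, brick **(T3-G)**, part (G2): the trivial point count
bound on a Weierstrass curve over a finite field.

* `card_point_le` : `Nat.card W.Point ≤ 2 * Nat.card k + 1` for `W : Affine k`, `k` a finite field
  (for every `x` at most two `y`, plus the point at infinity); `one_le_card_point`.
* `card_le` / `one_le_card` : the same for the prelude `WeierstrassCurve.card`.
* for `W : WeierstrassCurve ℤ` and a prime `q`: `card_reductionMod_le`, `one_le_card_reductionMod`,
  `apOfModel_eq` (`a_q = q + 1 - #W(F_q)`), `apOfModel_le`, `neg_le_apOfModel`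
  (`- q ≤ a_q ≤ q`), `apOfModel_ne_succ` (`a_q ≠ q + 1`), `apOfModel_ne_neg_succ`
  (`a_q ≠ -(q + 1)`), and the form used in (C3)(b):
  `sign_mul_succ_sub_apOfModel_ne_zero : e = 1 ∨ e = -1 → e * (q + 1) - a_q ≠ 0`.
-/
import Mathlib
import Fermat.Prelude.Def_FLTPrelim_Modularity

set_option autoImplicit false
set_option linter.style.haveILetI false
set_option linter.unusedSectionVars false

namespace Fermat.Agent.EC.H53

open Polynomial WeierstrassCurve

section Field

variable {k : Type*} [Field k]

/-- The quadratic polynomial in `y` cutting out the fibre of the affine curve over `x`. -/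
noncomputable def fibrePoly (W : WeierstrassCurve.Affine k) (x : k) : k[X] :=
  C 1 * X ^ 2 + C (W.a₁ * x + W.a₃) * X + C (-(x ^ 3 + W.a₂ * x ^ 2 + W.a₄ * x + W.a₆))

theorem fibrePoly_ne_zero (W : WeierstrassCurve.Affine k) (x : k) : fibrePoly W x ≠ 0 := by
  intro h
  have h2 : (fibrePoly W x).natDegree = 2 := natDegree_quadratic one_ne_zero
  rw [h, natDegree_zero] at h2
  exact absurd h2 (by norm_num)

theorem isRoot_fibrePoly_iff (W : WeierstrassCurve.Affine k) (x y : k) :
    (fibrePoly W x).IsRoot y ↔ W.Equation x y := by
  rw [WeierstrassCurve.Affine.equation_iff, IsRoot.def, fibrePoly]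
  simp only [eval_add, eval_mul, eval_C, eval_pow, eval_X, one_mul]
  constructor
  · intro h; linear_combination h
  · intro h; linear_combination h

theorem card_roots_fibrePoly_le (W : WeierstrassCurve.Affine k) (x : k) [DecidableEq k] :
    (fibrePoly W x).roots.toFinset.card ≤ 2 := by
  refine (Multiset.toFinset_card_le _).trans ((card_roots' _).trans ?_)
  exact natDegree_quadratic_le

variable [Fintype k] [DecidableEq k]

/-- The finite set of affine solutions of the Weierstrass equation. -/
noncomputable def solFinset (W : WeierstrassCurve.Affine k) : Finset (k × k) :=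
  (Finset.univ : Finset k).biUnion fun x => (fibrePoly W x).roots.toFinset.image fun y => (x, y)

theorem mem_solFinset_iff (W : WeierstrassCurve.Affine k) (x y : k) :
    (x, y) ∈ solFinset W ↔ W.Equation x y := by
  simp only [solFinset, Finset.mem_biUnion, Finset.mem_univ, true_and, Finset.mem_image,
    Multiset.mem_toFinset, Prod.mk.injEq]
  constructor
  · rintro ⟨x', y', hy', rfl, rfl⟩
    exact (isRoot_fibrePoly_iff W _ _).mp ((mem_roots (fibrePoly_ne_zero W _)).mp hy')
  · intro h
    exact ⟨x, y, (mem_roots (fibrePoly_ne_zero W x)).mpr ((isRoot_fibrePoly_iff W x y).mpr h),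
      rfl, rfl⟩

theorem card_solFinset_le (W : WeierstrassCurve.Affine k) :
    (solFinset W).card ≤ 2 * Fintype.card k := by
  refine Finset.card_biUnion_le.trans ?_
  calc ∑ x : k, ((fibrePoly W x).roots.toFinset.image fun y => (x, y)).card
      ≤ ∑ _x : k, 2 := Finset.sum_le_sum fun x _ =>
        Finset.card_image_le.trans (card_roots_fibrePoly_le W x)
    _ = 2 * Fintype.card k := by
        rw [Finset.sum_const, Finset.card_univ, smul_eq_mul, mul_comm]

/-- The map `W.Point → Option (k × k)`. -/
def pointToOption (W : WeierstrassCurve.Affine k) : W.Point → Option (k × k)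
  | .zero => none
  | .some x y _ => some (x, y)

theorem pointToOption_injective (W : WeierstrassCurve.Affine k) :
    Function.Injective (pointToOption W) := by
  rintro (_ | ⟨x₁, y₁, h₁⟩) (_ | ⟨x₂, y₂, h₂⟩) h <;>
    simp only [pointToOption, Option.some.injEq, Prod.mk.injEq, reduceCtorEq] at h
  · rfl
  · obtain ⟨rfl, rfl⟩ := h; rfl

theorem pointToOption_mem (W : WeierstrassCurve.Affine k) (P : W.Point) :
    pointToOption W P ∈ insert none ((solFinset W).image some) := by
  cases P with
  | zero => simp [pointToOption]
  | some x y h =>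
    simp only [pointToOption, Finset.mem_insert, reduceCtorEq, Finset.mem_image,
      Option.some.injEq, exists_eq_right, false_or]
    exact (mem_solFinset_iff W x y).mpr h.1

/-- **(G2)** `#W(k) ≤ 2 #k + 1`. -/
theorem card_point_le (W : WeierstrassCurve.Affine k) :
    Nat.card W.Point ≤ 2 * Fintype.card k + 1 := by
  classical
  have hfin : Finite W.Point := Finite.of_injective _ (pointToOption_injective W)
  have h1 : Nat.card W.Point ≤ Nat.card (↥(insert none ((solFinset W).image some) :
      Finset (Option (k × k)))) :=
    Nat.card_le_card_of_injective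
      (fun P => (⟨pointToOption W P, pointToOption_mem W P⟩ :
        ↥(insert none ((solFinset W).image some) : Finset (Option (k × k)))))
      (fun P Q hPQ => pointToOption_injective W (Subtype.ext_iff.mp hPQ))
  have h2 : Nat.card (↥(insert none ((solFinset W).image some) : Finset (Option (k × k)))) =
      (insert none ((solFinset W).image some) : Finset (Option (k × k))).card := by
    rw [Nat.card_eq_fintype_card, Fintype.card_coe]
  rw [h2] at h1
  refine h1.trans ((Finset.card_insert_le _ _).trans ?_)
  exact Nat.succ_le_succ (Finset.card_image_le.trans (card_solFinset_le W))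

omit [DecidableEq k] in
/-- **(G2)** `1 ≤ #W(k)` (the point at infinity). -/
theorem one_le_card_point (W : WeierstrassCurve.Affine k) : 1 ≤ Nat.card W.Point := by
  classical
  haveI : Finite W.Point := Finite.of_injective _ (pointToOption_injective W)
  haveI : Nonempty W.Point := ⟨.zero⟩
  exact Nat.card_pos

end Field

section Card

variable {k : Type*} [Field k] [Finite k]

/-- **(G2)** for the prelude `WeierstrassCurve.card`. -/
theorem card_le (W : WeierstrassCurve k) : W.card ≤ 2 * Nat.card k + 1 := by
  classical
  haveI := Fintype.ofFinite k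
  rw [Nat.card_eq_fintype_card]
  exact card_point_le W.toAffine

theorem one_le_card (W : WeierstrassCurve k) : 1 ≤ W.card := by
  classical
  haveI := Fintype.ofFinite k
  exact one_le_card_point W.toAffine

/-- `- #k ≤ traceOfFrobenius ≤ #k` (trivial bound). -/
theorem traceOfFrobenius_le (W : WeierstrassCurve k) : W.traceOfFrobenius ≤ (Nat.card k : ℤ) := by
  have h := one_le_card W
  unfold WeierstrassCurve.traceOfFrobenius
  omega

theorem neg_le_traceOfFrobenius (W : WeierstrassCurve k) :
    -(Nat.card k : ℤ) ≤ W.traceOfFrobenius := by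
  have h := card_le W
  unfold WeierstrassCurve.traceOfFrobenius
  omega

end Card

section Model

variable (W : WeierstrassCurve ℤ) {q : ℕ}

theorem card_reductionMod_le (hq : q.Prime) : (W.reductionMod q).card ≤ 2 * q + 1 := by
  haveI : Fact q.Prime := ⟨hq⟩
  have h := card_le (W.reductionMod q)
  rwa [Nat.card_zmod] at h

theorem one_le_card_reductionMod (hq : q.Prime) : 1 ≤ (W.reductionMod q).card := by
  haveI : Fact q.Prime := ⟨hq⟩
  exact one_le_card (W.reductionMod q)

/-- `a_q = q + 1 - #W(F_q)`. -/
theorem apOfModel_eq (W : WeierstrassCurve ℤ) (q : ℕ) :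
    W.apOfModel q = (q : ℤ) + 1 - ((W.reductionMod q).card : ℤ) := by
  unfold WeierstrassCurve.apOfModel WeierstrassCurve.traceOfFrobenius
  rw [Nat.card_zmod]

theorem apOfModel_le (hq : q.Prime) : W.apOfModel q ≤ (q : ℤ) := by
  have h := one_le_card_reductionMod W hq
  rw [apOfModel_eq]; omega

theorem neg_le_apOfModel (hq : q.Prime) : -(q : ℤ) ≤ W.apOfModel q := by
  have h := card_reductionMod_le W hq
  rw [apOfModel_eq]; omega

/-- `#W(F_q) ≠ 0`, i.e. `a_q ≠ q + 1`. -/
theorem apOfModel_ne_succ (hq : q.Prime) : W.apOfModel q ≠ (q : ℤ) + 1 := by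
  have h := apOfModel_le W hq; omega

/-- `#W(F_q) ≠ 2 q + 2`, i.e. `a_q ≠ -(q + 1)`. -/
theorem apOfModel_ne_neg_succ (hq : q.Prime) : W.apOfModel q ≠ -((q : ℤ) + 1) := by
  have h := neg_le_apOfModel W hq; omega

/-- The form used in (C3)(b) of #3704: `e (q + 1) - a_q ≠ 0` for `e = ± 1`. -/
theorem sign_mul_succ_sub_apOfModel_ne_zero (hq : q.Prime) {e : ℤ} (he : e = 1 ∨ e = -1) :
    e * ((q : ℤ) + 1) - W.apOfModel q ≠ 0 := by
  have h1 := apOfModel_le W hq
  have h2 := neg_le_apOfModel W hq
  rcases he with rfl | rfl <;> omega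

end Model

end Fermat.Agent.EC.H53
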