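/-
EC library (topic S58), shared small facts for the rows (C3a) (C3b) (C3c) of `S58 CHAIN v1`
(helper74; second-seat brick, use or ignore):

* `charpoly_eq_trace_det` : for `ρ : GaloisRepAdic O` (free of rank 2),
  `charpoly ρ(σ) = X² − tr ρ(σ) X + det ρ(σ)`; `trace_det_of_charpoly`; `charpoly_eq_X_sub_one_sq`.
* `exists_maximalIdeal_pow_eq_span` : in a DVR of characteristic 0,
  `span {(lam : O)^n} = (maximalIdeal O)^k` for some `k`.
* `eq_of_forall_sub_mem_span_pow` : Krull intersection in the form used by the recipe.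

Mathlib + Prelude only.  New file, nothing imports it.
-/
import Mathlib
import Fermat.Prelude.Def_GaloisRep_Adic
import Fermat.Prelude.Def_GaloisRep_LocalConditions

set_option autoImplicit false
set_option linter.style.haveILetI false

namespace Fermat.Agent.EC.H74

open Polynomial IsLocalRing

local notation "GQ" => (AlgebraicClosure ℚ ≃ₐ[ℚ] AlgebraicClosure ℚ)

section charpoly

variable {O : Type} [CommRing O] [IsLocalRing O]

/-- The characteristic polynomial of an endomorphism of a free module of rank 2. -/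
theorem charpoly_eq_trace_det_of_finrank_two {V : Type*} [AddCommGroup V] [Module O V]
    [Module.Free O V] [Module.Finite O V] (hV : Module.finrank O V = 2) (f : Module.End O V) :
    LinearMap.charpoly f = X ^ 2 - C (LinearMap.trace O V f) * X + C (LinearMap.det f) := by
  let b : Module.Basis (Fin 2) O V := Module.finBasisOfFinrankEq O V hV
  rw [← LinearMap.charpoly_toMatrix f b, Matrix.charpoly_fin_two,
    LinearMap.trace_eq_matrix_trace O b f, LinearMap.det_toMatrix b f]

theorem charpoly_eq_trace_det (ρ : GaloisRepAdic O) (σ : GQ) :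
    LinearMap.charpoly (ρ.ρ σ) =
      X ^ 2 - C (LinearMap.trace O ρ.V (ρ.ρ σ)) * X + C (LinearMap.det (ρ.ρ σ)) :=
  charpoly_eq_trace_det_of_finrank_two ρ.finrank_eq (ρ.ρ σ)

/-- Trace and determinant read off from the characteristic polynomial. -/
theorem trace_det_of_charpoly (ρ : GaloisRepAdic O) (σ : GQ) (a d : O)
    (h : LinearMap.charpoly (ρ.ρ σ) = X ^ 2 - C a * X + C d) :
    LinearMap.trace O ρ.V (ρ.ρ σ) = a ∧ LinearMap.det (ρ.ρ σ) = d := by
  rw [charpoly_eq_trace_det] at h
  constructor
  · have := congrArg (fun P => Polynomial.coeff P 1) h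
    simp only [coeff_add, coeff_sub, coeff_X_pow, coeff_C_mul, coeff_X_one, coeff_C] at this
    simpa using this
  · have := congrArg (fun P => Polynomial.coeff P 0) h
    simp only [coeff_add, coeff_sub, coeff_X_pow, coeff_C_mul, coeff_X_zero, coeff_C_zero] at this
    simpa using this

/-- `tr = 2`, `det = 1` ⟹ `charpoly = (X − 1)²`. -/
theorem charpoly_eq_X_sub_one_sq (ρ : GaloisRepAdic O) (σ : GQ)
    (ht : LinearMap.trace O ρ.V (ρ.ρ σ) = 2) (hd : LinearMap.det (ρ.ρ σ) = 1) :
    LinearMap.charpoly (ρ.ρ σ) = (X - 1) ^ 2 := by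
  rw [charpoly_eq_trace_det, ht, hd]
  simp only [map_ofNat, map_one]
  ring

end charpoly

section dvr

variable {O : Type*} [CommRing O] [IsDomain O] [IsDiscreteValuationRing O]

/-- In a DVR every nonzero principal ideal is a power of the maximal ideal. -/
theorem exists_maximalIdeal_pow_eq_span_singleton {x : O} (hx : x ≠ 0) :
    ∃ k : ℕ, maximalIdeal O ^ k = Ideal.span {x} := by
  obtain ⟨ϖ, hϖ⟩ := IsDiscreteValuationRing.exists_irreducible O
  have hne : Ideal.span {x} ≠ ⊥ := by
    rw [Ne, Ideal.span_singleton_eq_bot]; exact hx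
  obtain ⟨k, hk⟩ := IsDiscreteValuationRing.ideal_eq_span_pow_irreducible hne hϖ
  refine ⟨k, ?_⟩
  rw [hk, hϖ.maximalIdeal_eq, Ideal.span_singleton_pow]

/-- In a DVR of characteristic 0, `span {(lam : O)^n}` is a power of the maximal ideal. -/
theorem exists_maximalIdeal_pow_eq_span [CharZero O] {lam : ℕ} (hlam : lam ≠ 0) (n : ℕ) :
    ∃ k : ℕ, maximalIdeal O ^ k = Ideal.span {(lam : O) ^ n} :=
  exists_maximalIdeal_pow_eq_span_singleton
    (pow_ne_zero n (Nat.cast_ne_zero.2 hlam))

end dvr

section krull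

variable {O : Type*} [CommRing O] [IsLocalRing O] [IsNoetherianRing O]

/-- Krull intersection in the form of the (C3) recipe. -/
theorem eq_of_forall_sub_mem_span_pow {lam : ℕ} (hlam : (lam : O) ∈ maximalIdeal O) {x y : O}
    (h : ∀ n : ℕ, x - y ∈ Ideal.span {(lam : O) ^ n}) : x = y := by
  have hle : ∀ n : ℕ, Ideal.span {(lam : O) ^ n} ≤ maximalIdeal O ^ n := fun n => by
    rw [Ideal.span_le, Set.singleton_subset_iff]
    exact Ideal.pow_mem_pow hlam n
  have hmem : x - y ∈ ⨅ n : ℕ, maximalIdeal O ^ n := by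
    rw [Ideal.mem_iInf]
    exact fun n => hle n (h n)
  rw [Ideal.iInf_pow_eq_bot_of_isLocalRing _ (Ideal.IsMaximal.ne_top inferInstance),
    Ideal.mem_bot] at hmem
  exact sub_eq_zero.1 hmem

end krull

end Fermat.Agent.EC.H74
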