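import Mathlib
import Fermat.Agent.EC.H28_T3Interface
import Fermat.Agent.EC.H90_Transfer
import Fermat.Agent.EC.H74_C3Common
import Fermat.Agent.EC.H36_SmallFacts

/-!
# S58 CHAIN v1, row (C3c) (helper55): `specC3c : H28.SpecC3c`

At a good prime `l ≠ λ` of `W`, a `λ`-adic representation `ρ` with the Frobenius characteristic
polynomials of `W` outside `T0` whose Frobenius at `l` has characteristic polynomial
`X² - α X + l` satisfies `α = a_l(W)`.

Recipe of helper28 (#3758): for every `n`, `span {λⁿ} = 𝔪^k`; the transfer lemma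
(`H90.transfer`) at `M := W[λⁿ](ℚ̄)` gives integers `t`, `d` with `tr ρ(σ) ≡ t`, `det ρ(σ) ≡ d`
mod `λⁿ` and `σ² - t σ + d = 0` on `M`; the Hasse–Weil operator identity (`ECInputs.hw`) gives
`σ² - a_l σ + l = 0` on `M`; subtracting, `(a_l - t) σ = l - d` on `M`, and `λⁿ ∣ l - d`
(determinants), so `(a_l - t)` kills `M` (`σ` is bijective), hence `λⁿ ∣ a_l - t` by faithfulness.
Therefore `α - a_l ∈ λⁿ O` for all `n`, and Krull's intersection theorem concludes.
-/

set_option autoImplicit false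

namespace Fermat.Agent.EC.H55

open Polynomial IsLocalRing Fermat.Agent.EC.H28

local notation "Qbar" => AlgebraicClosure ℚ
local notation "GQ" => (AlgebraicClosure ℚ ≃ₐ[ℚ] AlgebraicClosure ℚ)

/-- An integer divisible by `lam ^ n` has image in `span {(lam : O) ^ n}`. -/
theorem intCast_mem_span_pow_of_dvd {O : Type*} [CommRing O] {lam n : ℕ} {z : ℤ}
    (h : ((lam ^ n : ℕ) : ℤ) ∣ z) : (z : O) ∈ Ideal.span {(lam : O) ^ n} := by
  obtain ⟨c, rfl⟩ := h
  rw [Ideal.mem_span_singleton]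
  exact ⟨(c : O), by push_cast; ring⟩

/-- **Row (C3c) of `S58 CHAIN v1`.** -/
theorem specC3c : SpecC3c := by
  intro W hΔ hEC O _ _ _ _ lam hlam hlam2 hlamO ρ T0 hlamT0 hbadT0 hatt l hl hllam hlΔ A hA σ hσ α
    hchar
  -- trace and determinant of `ρ(σ)`
  have htd := Fermat.Agent.EC.H74.trace_det_of_charpoly ρ σ α ((l : ℕ) : O) hchar
  have htr := htd.1
  have hdet := htd.2
  -- Krull
  apply Fermat.Agent.EC.H74.eq_of_forall_sub_mem_span_pow hlamO
  intro n
  obtain ⟨k, hk⟩ := Fermat.Agent.EC.H74.exists_maximalIdeal_pow_eq_span (O := O) hlam.ne_zero n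
  have hpos : 0 < lam ^ n := pow_pos hlam.pos n
  have hodd : Odd (lam ^ n) := (hlam.odd_of_ne_two hlam2).pow
  -- primes dividing `lam ^ n`
  have hdvdlam : ∀ p : ℕ, p.Prime → p ∣ lam ^ n → p = lam := fun p hp hpd =>
    (Nat.prime_dvd_prime_iff_eq hp hlam).1 (hp.dvd_of_dvd_pow hpd)
  have hmT0 : ∀ p : ℕ, p.Prime → p ∣ lam ^ n → p ∈ T0 := fun p hp hpd => by
    rw [hdvdlam p hp hpd]; exact hlamT0
  -- the Hasse–Weil identity on `W[lam ^ n]` at the auxiliary primes
  have hMq : ∀ p : ℕ, p.Prime → p ∉ T0 → ∀ A : ValuationSubring Qbar, A.LiesOverPrime p →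
      ∀ φ : GQ, A.IsFrobeniusAt φ p →
        ∀ P : Tors W (lam ^ n), φ • φ • P - (W.apOfModel p) • (φ • P) + (p : ℤ) • P = 0 := by
    intro p hp hpT0 A' hA' φ hφ P
    have hgood : ¬ (p : ℤ) ∣ W.Δ := fun hbad => hpT0 (hbadT0 p hp hbad)
    have hpn : ¬ p ∣ lam ^ n := fun hpd => hpT0 (hmT0 p hp hpd)
    exact hEC.hw p hp hgood (lam ^ n) hodd hpn A' hA' φ hφ P
  have hfin := hEC.finiteLevel (lam ^ n) hpos
  have htrans := Fermat.Agent.EC.H90.transfer ρ (M := Tors W (lam ^ n)) hfin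
    (fun p => W.apOfModel p) T0 hatt hMq σ k (lam ^ n) hpos hmT0
  have htrans' := htrans
  refine htrans'.elim fun t h1 => h1.elim fun d h2 => ?_
  have ht := h2.1
  have hd := h2.2.1
  have hquad := h2.2.2.1
  rw [hk, htr] at ht
  rw [hk, hdet] at hd
  -- `lam ^ n ∣ l - d`
  have hld : (lam : ℤ) ^ n ∣ ((l : ℤ) - (d : ℤ)) := by
    apply Fermat.Agent.EC.H36.pow_dvd_of_mem_span_pow hlam hlamO n
    have : (((l : ℤ) - (d : ℤ) : ℤ) : O) = ((l : ℕ) : O) - (d : O) := by push_cast; ring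
    rw [this]; exact hd
  -- the Hasse–Weil identity at `l` itself
  have hln : ¬ l ∣ lam ^ n := fun hpd => hllam (hdvdlam l hl hpd)
  have hwl := hEC.hw l hl hlΔ (lam ^ n) hodd hln A hA σ hσ
  -- `(l - d)` kills `W[lam ^ n]`
  have hkill : ∀ P : Tors W (lam ^ n), ((l : ℤ) - (d : ℤ)) • P = 0 := by
    intro P
    obtain ⟨c, hc⟩ := hld
    have h0 : (((lam ^ n : ℕ) : ℤ)) • P = 0 := Submodule.smul_torsionBy _ P
    have : ((l : ℤ) - (d : ℤ)) = c * ((lam ^ n : ℕ) : ℤ) := by rw [hc]; push_cast; ring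
    rw [this, mul_smul, h0, smul_zero]
  -- `(a_l - t) • σ • P = 0`
  have hsub : ∀ P : Tors W (lam ^ n), (W.apOfModel l - t) • (σ • P) = 0 := by
    intro P
    have e1 := hquad P
    have e2 := hwl P
    have e3 := hkill P
    have : (W.apOfModel l - t) • (σ • P) =
        (σ • σ • P - t • (σ • P) + (d : ℤ) • P) -
          (σ • σ • P - W.apOfModel l • σ • P + (l : ℤ) • P) + ((l : ℤ) - (d : ℤ)) • P := by
      rw [sub_smul, sub_smul]; abel
    rw [this, e1, e2, e3]; simp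
  have hall : ∀ Q : Tors W (lam ^ n), (W.apOfModel l - t) • Q = 0 := by
    intro Q
    have := hsub (σ⁻¹ • Q)
    rwa [smul_inv_smul] at this
  have hfaith := hEC.faithful lam hlam n (W.apOfModel l - t) hall
  have hmem : (((W.apOfModel l - t : ℤ)) : O) ∈ Ideal.span {(lam : O) ^ n} :=
    intCast_mem_span_pow_of_dvd hfaith
  have : α - ((W.apOfModel l : ℤ) : O) = (α - (t : O)) - ((W.apOfModel l - t : ℤ) : O) := by
    push_cast; ring
  rw [this]
  exact Ideal.sub_mem _ ht hmem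

end Fermat.Agent.EC.H55
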