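import Mathlib
import Fermat.Prelude.Def_EllipticCurve_FrobeniusTrace
import Fermat.Prelude.Def_FLTPrelim_Ramification

/-!
# S58 side project, brick (R-frob) (helper55, for helper64's (EC-red))

Residue-field form of the prelude's `IsFrobeniusAt` / `inertiaSubgroupIn`, for an arbitrary
valuation subring `A` of a field `L` over `K` (Mathlib + Prelude only):

* `mem_of_mem_decomposition` : the decomposition group preserves `A`;
* `residue_frob` : `residue (φ x) = (residue x) ^ q` for a Frobenius element `φ` at `A`;
* `residue_inertia` : `residue (σ x) = residue x` for `σ` in the inertia group;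
* `residue_decomposition` : `residue (σ x) = σ • residue x` for `σ` in the decomposition group;
* `charP_residueField` : if `(l : L) ∈ A.nonunits` with `l` prime, the residue field has
  characteristic `l`; `zmodAlgebraResidueField` the resulting `ZMod l`-algebra structure
  (a `def`, not an instance).
-/

set_option autoImplicit false

namespace Fermat.Agent.EC.H55

open scoped Pointwise

variable {K L : Type*} [Field K] [Field L] [Algebra K L] (A : ValuationSubring L)

/-- An element of the decomposition group maps `A` into itself. -/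
theorem mem_of_mem_decomposition {σ : L ≃ₐ[K] L} (hσ : σ ∈ A.decompositionSubgroup K) {x : L}
    (hx : x ∈ A) : σ x ∈ A :=
  (A.subMulAction K).smul_mem' ⟨σ, hσ⟩ hx

/-- An element of the decomposition group maps the maximal ideal of `A` into itself. -/
theorem mem_nonunits_of_mem_decomposition {σ : L ≃ₐ[K] L} (hσ : σ ∈ A.decompositionSubgroup K)
    {x : L} (hx : x ∈ A.nonunits) : σ x ∈ A.nonunits := by
  rw [ValuationSubring.mem_nonunits_iff_or] at hx ⊢
  rcases hx with hx | hx
  · left; rw [hx, map_zero]
  · right
    intro h
    apply hx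
    rw [← map_inv₀] at h
    have hinv : σ⁻¹ ∈ A.decompositionSubgroup K := inv_mem hσ
    have := mem_of_mem_decomposition A hinv h
    simpa using this

/-- The action of the decomposition group on the residue field, on representatives. -/
theorem residue_decomposition {σ : L ≃ₐ[K] L} (hσ : σ ∈ A.decompositionSubgroup K) (x : A) :
    IsLocalRing.residue A ⟨σ x, mem_of_mem_decomposition A hσ x.2⟩ =
      (⟨σ, hσ⟩ : A.decompositionSubgroup K) • IsLocalRing.residue A x := by
  rw [← IsLocalRing.ResidueField.residue_smul]
  rfl

/-- **Frobenius on residues**: a Frobenius element at `A` raises residues to the `q`-th power. -/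
theorem residue_frob {φ : L ≃ₐ[K] L} {q : ℕ} (h : A.IsFrobeniusAt φ q) (x : A) :
    IsLocalRing.residue A ⟨φ x, mem_of_mem_decomposition A h.mem_decompositionSubgroup x.2⟩ =
      (IsLocalRing.residue A x) ^ q := by
  rw [residue_decomposition A h.mem_decompositionSubgroup x]
  exact h.smul_residue_eq (IsLocalRing.residue A x)

/-- Membership in the prelude's inertia group implies membership in the decomposition group. -/
theorem mem_decomposition_of_mem_inertia {σ : L ≃ₐ[K] L} (hσ : σ ∈ A.inertiaSubgroupIn K) :
    σ ∈ A.decompositionSubgroup K := by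
  obtain ⟨τ, -, rfl⟩ := hσ
  exact τ.2

/-- **Inertia on residues**: inertia acts trivially on residues. -/
theorem residue_inertia {σ : L ≃ₐ[K] L} (h : σ ∈ A.inertiaSubgroupIn K) (x : A) :
    ∃ hx : σ (x : L) ∈ A, IsLocalRing.residue A ⟨σ x, hx⟩ = IsLocalRing.residue A x := by
  refine ⟨mem_of_mem_decomposition A (mem_decomposition_of_mem_inertia A h) x.2, ?_⟩
  obtain ⟨τ, hτ, rfl⟩ := h
  have hker : MulSemiringAction.toRingAut (A.decompositionSubgroup K)
      (IsLocalRing.ResidueField A) τ = 1 := hτ
  have h1 : τ • (IsLocalRing.residue A x) = IsLocalRing.residue A x := by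
    have := congrArg (fun f : RingAut (IsLocalRing.ResidueField A) =>
      f (IsLocalRing.residue A x)) hker
    simpa using this
  rw [← IsLocalRing.ResidueField.residue_smul] at h1
  exact h1

/-- Inertia form with the difference in the maximal ideal. -/
theorem sub_mem_nonunits_of_mem_inertia {σ : L ≃ₐ[K] L} (h : σ ∈ A.inertiaSubgroupIn K)
    {x : L} (hx : x ∈ A) : σ x - x ∈ A.nonunits := by
  obtain ⟨hx', e⟩ := residue_inertia A h ⟨x, hx⟩
  have h2 : IsLocalRing.residue A ((⟨σ x, hx'⟩ : A) - ⟨x, hx⟩) = 0 := by
    rw [map_sub, e, sub_self]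
  rw [IsLocalRing.residue_eq_zero_iff] at h2
  exact (ValuationSubring.coe_mem_nonunits_iff (A := A)).2 h2

/-- Frobenius form with the difference in the maximal ideal. -/
theorem sub_pow_mem_nonunits_of_frob {φ : L ≃ₐ[K] L} {q : ℕ} (h : A.IsFrobeniusAt φ q)
    {x : L} (hx : x ∈ A) : φ x - x ^ q ∈ A.nonunits := by
  have e := residue_frob A h ⟨x, hx⟩
  have h2 : IsLocalRing.residue A
      ((⟨φ x, mem_of_mem_decomposition A h.mem_decompositionSubgroup hx⟩ : A) - ⟨x, hx⟩ ^ q) = 0 := by
    rw [map_sub, map_pow, e, sub_self]
  rw [IsLocalRing.residue_eq_zero_iff] at h2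
  exact (ValuationSubring.coe_mem_nonunits_iff (A := A)).2 h2

/-- If the prime `l` is a nonunit of `A`, the residue field of `A` has characteristic `l`. -/
theorem charP_residueField {l : ℕ} (hl : l.Prime) (hA : (l : L) ∈ A.nonunits) :
    CharP (IsLocalRing.ResidueField A) l := by
  have h0 : ((l : ℕ) : IsLocalRing.ResidueField A) = 0 := by
    have hmem : ((l : ℕ) : A) ∈ IsLocalRing.maximalIdeal A := by
      rw [← ValuationSubring.coe_mem_nonunits_iff]
      simpa using hA
    have := (IsLocalRing.residue_eq_zero_iff ((l : ℕ) : A)).2 hmem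
    simpa using this
  have hr : ringChar (IsLocalRing.ResidueField A) = l := CharP.ringChar_of_prime_eq_zero hl h0
  rw [← hr]
  exact ringChar.charP _

/-- The prelude form: `A.LiesOverPrime l`. -/
theorem charP_residueField_of_liesOverPrime {l : ℕ} (hl : l.Prime) (hA : A.LiesOverPrime l) :
    CharP (IsLocalRing.ResidueField A) l :=
  charP_residueField A hl hA

/-- The `ZMod l`-algebra structure on the residue field of a valuation subring above `l`
(a `def`, to be installed with `letI`). -/
@[reducible] noncomputable def zmodAlgebraResidueField {l : ℕ} (hl : l.Prime)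
    (hA : (l : L) ∈ A.nonunits) : Algebra (ZMod l) (IsLocalRing.ResidueField A) :=
  @ZMod.algebra (IsLocalRing.ResidueField A) _ l (charP_residueField A hl hA)

end Fermat.Agent.EC.H55
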