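import Mathlib
import Fermat.Agent.S13.H89_GF1

/-!
# S58 side project, brick (R-int) (helper55, for helper64's (EC-red))

Torsion points of order a unit of a valuation ring `A` on a Weierstrass curve with coefficients
in `A` have both coordinates in `A`.

* `mem_of_nsmul_eq_zero_gen` : any `m` which is a unit of `A` (no parity hypothesis);
* `mem_of_nsmul_eq_zero` : helper64's pinned shape (with `Odd m`, unused).

Proof: the `x`-coordinate is integral by helper89's general F1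
(`S13.H89.xCoord_mem_of_nsmul_eq_zero`, kernel of reduction has no unit torsion); the
`y`-coordinate is a root of the monic Weierstrass quadratic with coefficients in `A`.
-/

set_option autoImplicit false

namespace Fermat.Agent.EC.H55

open WeierstrassCurve

section

variable {K : Type*} [Field K] [DecidableEq K] (A : ValuationSubring K) (WA : WeierstrassCurve A)

omit [DecidableEq K] in
/-- If `(m : A)` is a unit then `(m : K)⁻¹ ∈ A` and `(m : K) ≠ 0`. -/
theorem natCast_inv_mem_of_isUnit {m : ℕ} (hmA : IsUnit ((m : ℕ) : A)) :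
    ((m : ℕ) : K)⁻¹ ∈ A ∧ ((m : ℕ) : K) ≠ 0 := by
  obtain ⟨u, hu⟩ := hmA
  have h1 : ((u⁻¹ : Aˣ) : A) * ((m : ℕ) : A) = 1 := by rw [← hu]; exact u.inv_mul
  have h2 : (((u⁻¹ : Aˣ) : A) : K) * ((m : ℕ) : K) = 1 := by
    have := congrArg (fun a : A => (a : K)) h1
    simpa using this
  have hm0 : ((m : ℕ) : K) ≠ 0 := by
    intro h0
    rw [h0, mul_zero] at h2
    exact zero_ne_one h2
  refine ⟨?_, hm0⟩
  have : ((m : ℕ) : K)⁻¹ = (((u⁻¹ : Aˣ) : A) : K) := by
    rw [inv_eq_iff_eq_inv]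
    exact (eq_inv_of_mul_eq_one_right h2)
  rw [this]
  exact ((u⁻¹ : Aˣ) : A).2

/-- **Torsion points of unit order are integral** (general `m`). -/
theorem mem_of_nsmul_eq_zero_gen {m : ℕ} (hmA : IsUnit ((m : ℕ) : A)) {x y : K}
    (h : (WA.map A.subtype).toAffine.Nonsingular x y)
    (hP : m • (Affine.Point.some x y h : (WA.map A.subtype).toAffine.Point) = 0) :
    x ∈ A ∧ y ∈ A := by
  obtain ⟨hinv, hm0⟩ := natCast_inv_mem_of_isUnit A hmA
  have hb₂ : (WA.map A.subtype).b₂ ∈ A := by rw [map_b₂]; exact (WA.b₂).2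
  have hb₄ : (WA.map A.subtype).b₄ ∈ A := by rw [map_b₄]; exact (WA.b₄).2
  have hb₆ : (WA.map A.subtype).b₆ ∈ A := by rw [map_b₆]; exact (WA.b₆).2
  have hb₈ : (WA.map A.subtype).b₈ ∈ A := by rw [map_b₈]; exact (WA.b₈).2
  have hx : x ∈ A := by
    have := Fermat.Agent.S13.H89.xCoord_mem_of_nsmul_eq_zero (WA.map A.subtype) A hb₂ hb₄ hb₆ hb₈
      hinv hm0 hP
    rwa [Fermat.Agent.S05.H67.xCoord_some] at this
  refine ⟨hx, ?_⟩
  have heq := (Affine.equation_iff _ _).1 h.1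
  have ha₁ : (WA.map A.subtype).toAffine.a₁ ∈ A := by
    show (WA.map A.subtype).a₁ ∈ A
    rw [map_a₁]; exact (WA.a₁).2
  have ha₂ : (WA.map A.subtype).toAffine.a₂ ∈ A := by
    show (WA.map A.subtype).a₂ ∈ A
    rw [map_a₂]; exact (WA.a₂).2
  have ha₃ : (WA.map A.subtype).toAffine.a₃ ∈ A := by
    show (WA.map A.subtype).a₃ ∈ A
    rw [map_a₃]; exact (WA.a₃).2
  have ha₄ : (WA.map A.subtype).toAffine.a₄ ∈ A := by
    show (WA.map A.subtype).a₄ ∈ A
    rw [map_a₄]; exact (WA.a₄).2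
  have ha₆ : (WA.map A.subtype).toAffine.a₆ ∈ A := by
    show (WA.map A.subtype).a₆ ∈ A
    rw [map_a₆]; exact (WA.a₆).2
  refine Fermat.Agent.S05.H89.mem_of_quadratic A
    (σ := -((WA.map A.subtype).toAffine.a₁ * x + (WA.map A.subtype).toAffine.a₃))
    (π := -(x ^ 3 + (WA.map A.subtype).toAffine.a₂ * x ^ 2 + (WA.map A.subtype).toAffine.a₄ * x
      + (WA.map A.subtype).toAffine.a₆)) ?_ ?_ ?_
  · exact A.neg_mem _ (A.add_mem _ _ (A.mul_mem _ _ ha₁ hx) ha₃)
  · exact A.neg_mem _ (A.add_mem _ _ (A.add_mem _ _ (A.add_mem _ _ (pow_mem hx 3)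
      (A.mul_mem _ _ ha₂ (pow_mem hx 2))) (A.mul_mem _ _ ha₄ hx)) ha₆)
  · linear_combination heq

/-- helper64's pinned shape (`Odd m` is not used). -/
theorem mem_of_nsmul_eq_zero {m : ℕ} (_hm : Odd m) (hmA : IsUnit ((m : ℕ) : A)) {x y : K}
    (h : (WA.map A.subtype).toAffine.Nonsingular x y)
    (hP : m • (WeierstrassCurve.Affine.Point.some x y h :
      (WA.map A.subtype).toAffine.Point) = 0) : x ∈ A ∧ y ∈ A :=
  mem_of_nsmul_eq_zero_gen A WA hmA h hP

end

end Fermat.Agent.EC.H55
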