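/-
helper72 — S58 row (A) of `S58 CHAIN v1` (helper28's registry): **minimal level**.

`specA : H28.SpecA` : a normalised eigenform `f` of level `N ≠ 0` has a newform `g` (prelude
sense `CuspForm.IsNewform`) of some level `N0 ∣ N` with `a_l(g) = a_l(f)` at every prime `l ∤ N`.

Proof: take `N0` minimal among the divisors `M` of `N` with `GoodEigensystemOccursAt f M`
(nonempty: `N` itself).  Its witness `g` is a newform: a proper divisor `M'` of `N0` carrying the
good eigensystem of `g` (away from `N0`) also carries that of `f` (away from `N`, because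
`N0 ∣ N`), contradicting minimality.
-/
import Fermat.Agent.EC.H28_T3Interface

set_option autoImplicit false

namespace Fermat.Agent.EC.H72

open CuspForm ModularFormClass

/-- A good eigensystem occurring at level `N0 ∣ N` for `f` and at level `M'` for its witness
occurs at level `M'` for `f`. -/
theorem goodEigensystemOccursAt_trans {N N0 M' : ℕ}
    {f : CuspForm (CongruenceSubgroup.Gamma0 N) 2}
    {g : CuspForm (CongruenceSubgroup.Gamma0 N0) 2} (hN0 : N0 ∣ N)
    (hgf : ∀ ℓ : ℕ, ℓ.Prime → ¬ ℓ ∣ N → qCoeff g ℓ = qCoeff f ℓ)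
    (h : GoodEigensystemOccursAt g M') : GoodEigensystemOccursAt f M' := by
  obtain ⟨g', hg', hg'g⟩ := h
  exact ⟨g', hg', fun ℓ hℓ hℓN =>
    (hg'g ℓ hℓ fun hℓN0 => hℓN (hℓN0.trans hN0)).trans (hgf ℓ hℓ hℓN)⟩

/-- The minimal-level statement, unbundled: there is a divisor `N0` of `N` and a newform of
level `N0` with the eigenvalues of `f` at all primes not dividing `N`. -/
theorem exists_isNewform_of_isNormalizedEigenform {N : ℕ} (hN : N ≠ 0)
    {f : CuspForm (CongruenceSubgroup.Gamma0 N) 2} (hf : f.IsNormalizedEigenform) :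
    ∃ (N0 : ℕ) (_ : N0 ∣ N) (g : CuspForm (CongruenceSubgroup.Gamma0 N0) 2), g.IsNewform ∧
      ∀ l : ℕ, l.Prime → ¬ l ∣ N → qCoeff g l = qCoeff f l := by
  classical
  have hex : ∃ M : ℕ, M ∣ N ∧ GoodEigensystemOccursAt f M :=
    ⟨N, dvd_rfl, GoodEigensystemOccursAt.refl hf⟩
  obtain ⟨hN0, g, hg, hgf⟩ := Nat.find_spec hex
  refine ⟨Nat.find hex, hN0, g, ⟨hg, fun M' hM' hne hocc => ?_⟩, hgf⟩
  have hN0ne : Nat.find hex ≠ 0 := fun h0 => hN (by rw [h0] at hN0; exact zero_dvd_iff.1 hN0)
  have hlt : M' < Nat.find hex :=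
    lt_of_le_of_ne (Nat.le_of_dvd (Nat.pos_of_ne_zero hN0ne) hM') hne
  exact Nat.find_min hex hlt ⟨hM'.trans hN0, goodEigensystemOccursAt_trans hN0 hgf hocc⟩

/-- **Row (A)** of `S58 CHAIN v1`. -/
theorem specA : Fermat.Agent.EC.H28.SpecA :=
  fun _ hN _ hf => exists_isNewform_of_isNormalizedEigenform hN hf

end Fermat.Agent.EC.H72
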