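import Mathlib
import Fermat.Agent.EC.H28_T3Interface
import Fermat.Agent.EC.H90_Transfer

/-!
# S58 (T3): the shared first step of rows (C3a), (C3b), (C3c)

`transfer_W` : the transfer lemma `H90.transfer` at `M := H28.Tors W (λⁿ)` with the inputs of
`H28.ECInputs W` and `H28.IsAttachedAway W ρ T0`, the congruences stated modulo
`Ideal.span {(λ : O) ^ n}`.

Also: `charpoly_eq_trace_det` (the characteristic polynomial of `ρ σ` for a `GaloisRepAdic`),
`eq_of_forall_sub_mem_span_pow` (Krull intersection), `exists_maximalIdeal_pow_eq_span_pow`.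
-/

set_option autoImplicit false

namespace Fermat.Agent.EC.H90

open IsLocalRing Polynomial
open Fermat.Agent.S31.H81

local notation "Qbar" => AlgebraicClosure ℚ
local notation "GQ" => (AlgebraicClosure ℚ ≃ₐ[ℚ] AlgebraicClosure ℚ)

section DVR

variable {O : Type*} [CommRing O] [IsDomain O] [IsDiscreteValuationRing O]

/-- In a DVR the ideal generated by a power of a nonzero element is a power of the maximal
ideal. -/
theorem exists_maximalIdeal_pow_eq_span_pow {x : O} (hx : x ≠ 0) (n : ℕ) :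
    ∃ k : ℕ, maximalIdeal O ^ k = Ideal.span {x ^ n} := by
  obtain ⟨ϖ, hϖ⟩ := IsDiscreteValuationRing.exists_irreducible O
  obtain ⟨e, u, hu⟩ := IsDiscreteValuationRing.eq_unit_mul_pow_irreducible hx hϖ
  refine ⟨e * n, ?_⟩
  rw [hϖ.maximalIdeal_eq, Ideal.span_singleton_pow, hu, mul_pow, ← pow_mul]
  exact (Ideal.span_singleton_mul_left_unit (u.isUnit.pow n) _).symm

/-- **Krull intersection**, in the form used by the rows (C3): two elements of a DVR congruent
modulo every power of a non-unit are equal. -/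
theorem eq_of_forall_sub_mem_span_pow {lam : O} (hlam : lam ∈ maximalIdeal O) {x y : O}
    (h : ∀ n : ℕ, x - y ∈ Ideal.span {lam ^ n}) : x = y := by
  have h1 : ∀ n : ℕ, x - y ∈ maximalIdeal O ^ n := by
    intro n
    have h2 : Ideal.span {lam ^ n} ≤ maximalIdeal O ^ n := by
      rw [Ideal.span_singleton_le_iff_mem]
      exact Ideal.pow_mem_pow hlam n
    exact h2 (h n)
  have h3 : x - y ∈ (⨅ i, maximalIdeal O ^ i : Ideal O) := by
    rw [Ideal.mem_iInf]; exact h1
  rw [Ideal.iInf_pow_eq_bot_of_isLocalRing _ (Ideal.IsMaximal.ne_top inferInstance)] at h3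
  exact sub_eq_zero.mp h3

end DVR

section Charpoly

variable {O : Type} [CommRing O] [IsLocalRing O]

/-- The characteristic polynomial of `ρ σ` is `X² - tr · X + det`. -/
theorem charpoly_eq_trace_det (ρ : GaloisRepAdic O) (σ : GQ) :
    LinearMap.charpoly (ρ.ρ σ) =
      X ^ 2 - C (LinearMap.trace O ρ.V (ρ.ρ σ)) * X + C (LinearMap.det (ρ.ρ σ)) := by
  classical
  let b : Module.Basis (Fin 2) O ρ.V := Module.finBasisOfFinrankEq O ρ.V ρ.finrank_eq
  rw [← LinearMap.charpoly_toMatrix (ρ.ρ σ) b, Matrix.charpoly_fin_two,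
    LinearMap.trace_eq_matrix_trace O b (ρ.ρ σ), LinearMap.det_toMatrix b (ρ.ρ σ)]

/-- If trace and determinant are `t`, `d` then the characteristic polynomial is
`X² - t X + d`. -/
theorem charpoly_eq_of_trace_det (ρ : GaloisRepAdic O) (σ : GQ) {t d : O}
    (ht : LinearMap.trace O ρ.V (ρ.ρ σ) = t) (hd : LinearMap.det (ρ.ρ σ) = d) :
    LinearMap.charpoly (ρ.ρ σ) = X ^ 2 - C t * X + C d := by
  rw [charpoly_eq_trace_det, ht, hd]

/-- Trace and determinant from the characteristic polynomial. -/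
theorem trace_det_of_charpoly_eq (ρ : GaloisRepAdic O) (σ : GQ) {t d : O}
    (h : LinearMap.charpoly (ρ.ρ σ) = X ^ 2 - C t * X + C d) :
    LinearMap.trace O ρ.V (ρ.ρ σ) = t ∧ LinearMap.det (ρ.ρ σ) = d := by
  classical
  let b : Module.Basis (Fin 2) O ρ.V := Module.finBasisOfFinrankEq O ρ.V ρ.finrank_eq
  obtain ⟨h1, h2⟩ := trace_det_of_charpoly ρ b σ t d h
  rw [matRep_apply] at h1 h2
  exact ⟨(LinearMap.trace_eq_matrix_trace O b (ρ.ρ σ)).trans h1,
    (LinearMap.det_toMatrix b (ρ.ρ σ)).symm.trans h2⟩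

end Charpoly

section TransferW

open Fermat.Agent.EC

variable (W : WeierstrassCurve ℤ) (hEC : H28.ECInputs W)
  {O : Type} [CommRing O] [IsDomain O] [IsDiscreteValuationRing O] [CharZero O]

include hEC in
/-- **The shared first step of (C3a), (C3b), (C3c).** -/
theorem transfer_W {lam : ℕ} (hlam : lam.Prime) (hlam2 : lam ≠ 2)
    (ρ : GaloisRepAdic O) (T0 : Finset ℕ) (hlamT0 : lam ∈ T0)
    (hbad : ∀ l : ℕ, l.Prime → (l : ℤ) ∣ W.Δ → l ∈ T0) (hatt : H28.IsAttachedAway W ρ T0)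
    (σ : GQ) (n : ℕ) :
    ∃ (t : ℤ) (d : ℕ),
      LinearMap.trace O ρ.V (ρ.ρ σ) - (t : O) ∈ Ideal.span {(lam : O) ^ n} ∧
      LinearMap.det (ρ.ρ σ) - (d : O) ∈ Ideal.span {(lam : O) ^ n} ∧
      (∀ P : H28.Tors W (lam ^ n), σ • σ • P - t • (σ • P) + (d : ℤ) • P = 0) ∧
      (∀ ζ : Qbar, ζ ^ (lam ^ n) = 1 → σ ζ = ζ ^ d) := by
  have hlam0 : (lam : O) ≠ 0 := Nat.cast_ne_zero.mpr hlam.ne_zero
  obtain ⟨k, hk⟩ := exists_maximalIdeal_pow_eq_span_pow hlam0 n
  have hodd : Odd (lam ^ n) := (hlam.eq_two_or_odd'.resolve_left hlam2).pow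
  have hndvd : ∀ l : ℕ, l.Prime → l ∉ T0 → ¬ l ∣ lam ^ n := by
    intro l hl hlT0 hdvd
    have h1 : l ∣ lam := hl.dvd_of_dvd_pow hdvd
    have h2 : l = lam := (Nat.prime_dvd_prime_iff_eq hl hlam).mp h1
    exact hlT0 (h2 ▸ hlamT0)
  obtain ⟨t, d, h1, h2, h3, h4⟩ := transfer ρ (M := H28.Tors W (lam ^ n))
    (hEC.finiteLevel (lam ^ n) (pow_pos hlam.pos n)) (fun l => W.apOfModel l) T0
    (fun l hl hlT0 A hA φ hφ => hatt l hl hlT0 A hA φ hφ)
    (fun l hl hlT0 A hA φ hφ P =>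
      hEC.hw l hl (fun h => hlT0 (hbad l hl h)) (lam ^ n) hodd (hndvd l hl hlT0) A hA φ hφ P)
    σ k (lam ^ n) (pow_pos hlam.pos n)
    (fun q hq hqd => by
      have h1 : q ∣ lam := hq.dvd_of_dvd_pow hqd
      have h2 : q = lam := (Nat.prime_dvd_prime_iff_eq hq hlam).mp h1
      exact h2 ▸ hlamT0)
  rw [hk] at h1 h2
  exact ⟨t, d, h1, h2, h3, h4⟩

end TransferW

end Fermat.Agent.EC.H90
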