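/-
EC library (topic S58), HEDGE for row (C3b) of `S58 CHAIN v1` (helper74; owner = helper36, whose
`EC/H36_C3b` is the file of record when it lands): `specC3b : H28.SpecC3b`.

At a good prime `q ≠ λ` of `W` and a Frobenius `σ` at `q`, suppose
`charpoly ρ(σ) = X² − e(q+1) X + q`, `e = ±1`.  For every `n`, `H90.transfer_W` gives integers
`t`, `d` with `tr − t, det − d ∈ (λⁿ)` and `σ² − tσ + d = 0` on `W[λⁿ]`; the Hasse–Weil relation
`σ² − a_q σ + q = 0` (field `hw`) and `λⁿ ∣ q − d` give `(a_q − t) σ = 0`, hence `λⁿ ∣ a_q − t`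
(field `faithful`), hence `λⁿ ∣ e(q+1) − a_q` for all `n`: so `a_q = ±(q+1)`, which contradicts
`H36.apOfModel_ne`.

New file, nothing imports it.
-/
import Mathlib
import Fermat.Agent.EC.H28_T3Interface
import Fermat.Agent.EC.H90_TransferW
import Fermat.Agent.EC.H36_SmallFacts
import Fermat.Agent.EC.H74_C3Common

set_option autoImplicit false
set_option linter.style.haveILetI false

namespace Fermat.Agent.EC.H74

open Polynomial IsLocalRing Fermat.Agent.EC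

local notation "Qbar" => AlgebraicClosure ℚ
local notation "GQ" => (AlgebraicClosure ℚ ≃ₐ[ℚ] AlgebraicClosure ℚ)

/-- An integer divisible by every power of a prime is zero. -/
theorem int_eq_zero_of_forall_pow_dvd {lam : ℕ} (hlam : lam.Prime) {z : ℤ}
    (h : ∀ n : ℕ, (lam : ℤ) ^ n ∣ z) : z = 0 := by
  have h1 : z.natAbs < lam ^ z.natAbs := Nat.lt_pow_self hlam.one_lt
  apply Int.eq_zero_of_abs_lt_dvd (h z.natAbs)
  rw [Int.abs_eq_natAbs]
  exact_mod_cast h1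

/-- The core of (C3b): for every `n`, `λⁿ ∣ x − a_q(W)` whenever `tr ρ(σ) = x ∈ ℤ`,
`det ρ(σ) = q`. -/
theorem pow_dvd_trace_sub_apOfModel (W : WeierstrassCurve ℤ) (hEC : H28.ECInputs W)
    {O : Type} [CommRing O] [IsDomain O] [IsDiscreteValuationRing O] [CharZero O]
    {lam : ℕ} (hlam : lam.Prime) (hlam2 : lam ≠ 2) (hlamO : (lam : O) ∈ maximalIdeal O)
    (ρ : GaloisRepAdic O) (T0 : Finset ℕ) (hlamT0 : lam ∈ T0)
    (hbad : ∀ l : ℕ, l.Prime → (l : ℤ) ∣ W.Δ → l ∈ T0) (hatt : H28.IsAttachedAway W ρ T0)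
    {q : ℕ} (hq : q.Prime) (hqlam : q ≠ lam) (hqΔ : ¬ (q : ℤ) ∣ W.Δ)
    (A : ValuationSubring Qbar) (hA : A.LiesOverPrime q) (σ : GQ) (hσ : A.IsFrobeniusAt σ q)
    (x : ℤ) (htr : LinearMap.trace O ρ.V (ρ.ρ σ) = (x : O))
    (hdet : LinearMap.det (ρ.ρ σ) = ((q : ℤ) : O)) (n : ℕ) :
    (lam : ℤ) ^ n ∣ x - W.apOfModel q := by
  obtain ⟨t, d, h1, h2, h3, -⟩ :=
    H90.transfer_W W hEC hlam hlam2 ρ T0 hlamT0 hbad hatt σ n
  -- integer congruences
  have hxt : (lam : ℤ) ^ n ∣ x - t := by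
    apply H36.pow_dvd_of_mem_span_pow hlam hlamO n
    rw [htr] at h1
    push_cast
    exact h1
  have hqd : (lam : ℤ) ^ n ∣ (q : ℤ) - (d : ℤ) := by
    apply H36.pow_dvd_of_mem_span_pow hlam hlamO n
    rw [hdet] at h2
    push_cast at h2 ⊢
    exact h2
  -- the two quadratic relations on `W[λⁿ]`
  have hodd : Odd (lam ^ n) := (hlam.eq_two_or_odd'.resolve_left hlam2).pow
  have hqn : ¬ q ∣ lam ^ n := fun hdvd =>
    hqlam ((Nat.prime_dvd_prime_iff_eq hq hlam).1 (hq.dvd_of_dvd_pow hdvd))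
  have hw := hEC.hw q hq hqΔ (lam ^ n) hodd hqn A hA σ hσ
  -- `(d - q) • P = 0` on `W[λⁿ]`
  have htors : ∀ (z : ℤ), (lam : ℤ) ^ n ∣ z → ∀ P : H28.Tors W (lam ^ n), z • P = 0 := by
    intro z ⟨c, hc⟩ P
    have hP : ((lam ^ n : ℕ) : ℤ) • P = 0 := Submodule.smul_torsionBy _ P
    have hz : z = c * ((lam ^ n : ℕ) : ℤ) := by rw [hc]; push_cast; ring
    rw [hz, mul_smul, hP, smul_zero]
  -- `(a_q - t) • σ • P = 0`
  have hkill : ∀ P : H28.Tors W (lam ^ n), (W.apOfModel q - t) • (σ • P) = 0 := by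
    intro P
    have e1 := h3 P
    have e2 := hw P
    have e3 := htors ((q : ℤ) - (d : ℤ)) hqd P
    have e4 : ∀ (u v w : H28.Tors W (lam ^ n)) (a t' d' q' : ℤ), (a - t') • v =
        (u - t' • v + d' • w) - (u - a • v + q' • w) + (q' - d') • w := by
      intro u v w a t' d' q'
      module
    rw [e4 (σ • σ • P) (σ • P) P (W.apOfModel q) t (d : ℤ) (q : ℤ), e1, e2, e3]
    simp
  have hkill' : ∀ P : H28.Tors W (lam ^ n), (W.apOfModel q - t) • P = 0 := by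
    intro P
    have := hkill (σ⁻¹ • P)
    rwa [smul_inv_smul] at this
  have hat : ((lam ^ n : ℕ) : ℤ) ∣ W.apOfModel q - t := hEC.faithful lam hlam n _ hkill'
  have hat' : (lam : ℤ) ^ n ∣ W.apOfModel q - t := by
    have : ((lam ^ n : ℕ) : ℤ) = (lam : ℤ) ^ n := by push_cast; rfl
    rwa [this] at hat
  have : x - W.apOfModel q = (x - t) - (W.apOfModel q - t) := by ring
  rw [this]
  exact dvd_sub hxt hat'

/-- **Row (C3b)**. -/
theorem specC3b : H28.SpecC3b := by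
  intro W _ hEC O _ _ _ _ lam hlam hlam2 hlamO ρ T0 hlamT0 hbad hatt q hq hqlam hqΔ A hA σ hσ hcp
  haveI : Fact q.Prime := ⟨hq⟩
  have hne := H36.apOfModel_ne W q
  rcases hcp with hcp | hcp
  · -- trace `q + 1`
    have hcp' : LinearMap.charpoly (ρ.ρ σ) =
        X ^ 2 - C ((((q : ℤ) + 1 : ℤ) : O)) * X + C (((q : ℤ) : O)) := by
      rw [hcp]; push_cast; rfl
    obtain ⟨htr, hdet⟩ := trace_det_of_charpoly ρ σ _ _ hcp'
    have hz := int_eq_zero_of_forall_pow_dvd hlam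
      (pow_dvd_trace_sub_apOfModel W hEC hlam hlam2 hlamO ρ T0 hlamT0 hbad hatt hq hqlam hqΔ
        A hA σ hσ ((q : ℤ) + 1) htr hdet)
    exact hne.1 (by linarith)
  · -- trace `-(q + 1)`
    have hcp' : LinearMap.charpoly (ρ.ρ σ) =
        X ^ 2 - C (((-((q : ℤ) + 1) : ℤ) : O)) * X + C (((q : ℤ) : O)) := by
      rw [hcp]; push_cast
      simp only [map_neg, neg_mul, sub_neg_eq_add]
    obtain ⟨htr, hdet⟩ := trace_det_of_charpoly ρ σ _ _ hcp'
    have hz := int_eq_zero_of_forall_pow_dvd hlam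
      (pow_dvd_trace_sub_apOfModel W hEC hlam hlam2 hlamO ρ T0 hlamT0 hbad hatt hq hqlam hqΔ
        A hA σ hσ (-((q : ℤ) + 1)) htr hdet)
    exact hne.2 (by linarith)

end Fermat.Agent.EC.H74
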