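/-
EC library (topic S58), brick (D4) for row (T3-D) of `S58 CHAIN v1` (helper74; second seat):
`H28.SpecD` (stabilisation at a finite set of primes) from the one-prime statement
`StabPrime` (= (D3) of helper13's plan), by `Finset.induction` + transport along the equality of
levels `(M * ∏ s) * q = M * ∏ (insert q s)`.

Mathlib + `EC/H28_T3Interface` only.  New file, nothing imports it.
-/
import Mathlib
import Fermat.Agent.EC.H28_T3Interface

set_option autoImplicit false

namespace Fermat.Agent.EC.H74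

open ModularFormClass

/-- (D3): stabilisation at ONE prime not dividing the level. -/
def StabPrime : Prop :=
  ∀ (M : ℕ) (_ : M ≠ 0) (g : CuspForm (CongruenceSubgroup.Gamma0 M) 2),
    g.IsNormalizedEigenform → ∀ q : ℕ, q.Prime → ¬ q ∣ M →
    ∃ f' : CuspForm (CongruenceSubgroup.Gamma0 (M * q)) 2, f'.IsNormalizedEigenform ∧
      ∀ l : ℕ, l.Prime → l ≠ q → qCoeff f' l = qCoeff g l

/-- Transport of a normalised eigenform along an equality of levels. -/
theorem exists_eigenform_of_level_eq {N1 N2 : ℕ} (h : N1 = N2)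
    (f : CuspForm (CongruenceSubgroup.Gamma0 N1) 2) (hf : f.IsNormalizedEigenform) :
    ∃ f' : CuspForm (CongruenceSubgroup.Gamma0 N2) 2, f'.IsNormalizedEigenform ∧
      ∀ n : ℕ, qCoeff f' n = qCoeff f n := by
  subst h
  exact ⟨f, hf, fun _ => rfl⟩

/-- **(D4)**: `SpecD` from the one-prime statement. -/
theorem specD_of_stabPrime (h1 : StabPrime) : Fermat.Agent.EC.H28.SpecD := by
  classical
  intro M hM g hg s
  induction s using Finset.induction_on with
  | empty =>
    intro _
    obtain ⟨f', hf', hq⟩ := exists_eigenform_of_level_eq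
      (show M = M * ∏ q ∈ (∅ : Finset ℕ), q by simp) g hg
    exact ⟨f', hf', fun l _ _ => hq l⟩
  | insert q s hqs ih =>
    intro hs
    have hs' : ∀ r ∈ s, r.Prime ∧ ¬ r ∣ M := fun r hr => hs r (Finset.mem_insert_of_mem hr)
    obtain ⟨hq, hqM⟩ := hs q (Finset.mem_insert_self q s)
    obtain ⟨f₁, hf₁, hc₁⟩ := ih hs'
    have hM1 : M * ∏ r ∈ s, r ≠ 0 :=
      mul_ne_zero hM (Finset.prod_ne_zero_iff.2 fun r hr => (hs' r hr).1.ne_zero)
    have hqM1 : ¬ q ∣ M * ∏ r ∈ s, r := by
      intro hdvd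
      rcases hq.dvd_mul.1 hdvd with h | h
      · exact hqM h
      · obtain ⟨r, hr, hqr⟩ := (Prime.dvd_finsetProd_iff hq.prime _).1 h
        have : q = r := (Nat.prime_dvd_prime_iff_eq hq (hs' r hr).1).1 hqr
        exact hqs (this ▸ hr)
    obtain ⟨f₂, hf₂, hc₂⟩ := h1 _ hM1 f₁ hf₁ q hq hqM1
    have hlevel : (M * ∏ r ∈ s, r) * q = M * ∏ r ∈ insert q s, r := by
      rw [Finset.prod_insert hqs]; ring
    obtain ⟨f', hf', hc'⟩ := exists_eigenform_of_level_eq hlevel f₂ hf₂
    refine ⟨f', hf', fun l hl hls => ?_⟩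
    rw [Finset.mem_insert, not_or] at hls
    rw [hc' l, hc₂ l hl hls.1, hc₁ l hl hls.2]

end Fermat.Agent.EC.H74
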