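/-
EC library (optional, topic S58), brick (D3-alg) for (T3-D) (helper74).

The coefficient axioms of the prelude's `CuspForm.IsNormalizedEigenform` only involve the sequence
`n ↦ qCoeff f n`.  For such a sequence `a` of level `M`, a prime `q ∤ M` and a root `β` of
`X² − a_q X + q`, the `q`-stabilised sequence `b n = a n − β · [q ∣ n] a (n / q)` satisfies the
axioms at level `M * q` (`b (q^k) = α^k`, `α = a_q − β`), and `b l = a l` at all primes `l ≠ q`.

Mathlib + the prelude definition only.  New file, nothing imports it.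
-/
import Mathlib
import Fermat.Prelude.Def_FLTPrelim_Modularity

set_option autoImplicit false

namespace Fermat.Agent.EC.H74

open ModularFormClass

/-- The four coefficient axioms of `CuspForm.IsNormalizedEigenform`, for a bare sequence. -/
structure IsEigenSeq (N : ℕ) (a : ℕ → ℂ) : Prop where
  one : a 1 = 1
  mul_of_coprime : ∀ m n : ℕ, m.Coprime n → a (m * n) = a m * a n
  prime_pow_of_not_dvd : ∀ p r : ℕ, p.Prime → ¬ p ∣ N →
    a (p ^ (r + 2)) = a p * a (p ^ (r + 1)) - p * a (p ^ r)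
  prime_pow_of_dvd : ∀ p r : ℕ, p.Prime → p ∣ N →
    a (p ^ (r + 2)) = a p * a (p ^ (r + 1))

theorem isNormalizedEigenform_iff_isEigenSeq {N : ℕ}
    (f : CuspForm (CongruenceSubgroup.Gamma0 N) 2) :
    f.IsNormalizedEigenform ↔ IsEigenSeq N (fun n => qCoeff f n) :=
  ⟨fun h => ⟨h.qCoeff_one, h.qCoeff_mul_of_coprime, h.qCoeff_prime_pow_of_not_dvd,
    h.qCoeff_prime_pow_of_dvd⟩,
   fun h => ⟨h.one, h.mul_of_coprime, h.prime_pow_of_not_dvd, h.prime_pow_of_dvd⟩⟩

/-- the `q`-stabilised sequence -/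
noncomputable def stabSeq (a : ℕ → ℂ) (q : ℕ) (β : ℂ) : ℕ → ℂ :=
  fun n => a n - β * (if q ∣ n then a (n / q) else 0)

theorem stabSeq_of_not_dvd (a : ℕ → ℂ) {q : ℕ} (β : ℂ) {n : ℕ} (h : ¬ q ∣ n) :
    stabSeq a q β n = a n := by
  simp [stabSeq, h]

theorem stabSeq_of_dvd (a : ℕ → ℂ) {q : ℕ} (β : ℂ) {n : ℕ} (h : q ∣ n) :
    stabSeq a q β n = a n - β * a (n / q) := by
  simp [stabSeq, h]

theorem exists_root_hecke (x : ℂ) (q : ℕ) : ∃ β : ℂ, β ^ 2 - x * β + q = 0 := by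
  obtain ⟨s, hs⟩ := IsAlgClosed.exists_pow_nat_eq (x ^ 2 - 4 * (q : ℂ)) (n := 2) (by norm_num)
  refine ⟨(x + s) / 2, ?_⟩
  have : ((x + s) / 2) ^ 2 - x * ((x + s) / 2) + q = (s ^ 2 - (x ^ 2 - 4 * (q : ℂ))) / 4 := by ring
  rw [this, hs, sub_self, zero_div]

section stab

variable {M : ℕ} {a : ℕ → ℂ} {q : ℕ} {β : ℂ}

/-- `b (q^(k+1)) = α * b (q^k)` with `α = a_q − β`. -/
theorem stabSeq_prime_pow_succ (ha : IsEigenSeq M a) (hq : q.Prime) (hqM : ¬ q ∣ M)
    (hβ : β ^ 2 - a q * β + q = 0) (k : ℕ) :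
    stabSeq a q β (q ^ (k + 1)) = (a q - β) * stabSeq a q β (q ^ k) := by
  have hdiv : ∀ j : ℕ, q ^ (j + 1) / q = q ^ j := fun j => by
    rw [pow_succ, Nat.mul_div_cancel _ hq.pos]
  rcases k with _ | k
  · -- `b q = α * b 1`
    have h1 : ¬ q ∣ q ^ 0 := by
      rw [pow_zero]; exact hq.one_lt.ne' ∘ Nat.dvd_one.1
    rw [stabSeq_of_dvd a β (dvd_pow_self q (Nat.succ_ne_zero 0)), stabSeq_of_not_dvd a β h1,
      hdiv 0, pow_zero, ha.one]
    have h2 : q ^ Nat.succ 0 = q := pow_one q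
    rw [h2]
    ring
  · rw [stabSeq_of_dvd a β (dvd_pow_self q (Nat.succ_ne_zero (k + 1))),
      stabSeq_of_dvd a β (dvd_pow_self q (Nat.succ_ne_zero k)), hdiv (k + 1), hdiv k,
      ha.prime_pow_of_not_dvd q k hq hqM]
    have hq' : (q : ℂ) = a q * β - β ^ 2 := by linear_combination hβ
    rw [hq']
    ring

theorem IsEigenSeq.stabilise (ha : IsEigenSeq M a) (hq : q.Prime) (hqM : ¬ q ∣ M)
    (hβ : β ^ 2 - a q * β + q = 0) : IsEigenSeq (M * q) (stabSeq a q β) where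
  one := by
    have h1 : ¬ q ∣ 1 := hq.one_lt.ne' ∘ Nat.dvd_one.1
    rw [stabSeq_of_not_dvd a β h1, ha.one]
  mul_of_coprime m n hmn := by
    by_cases hm : q ∣ m
    · have hn : ¬ q ∣ n := fun hn => hq.one_lt.ne' (Nat.dvd_one.1 (hmn ▸ Nat.dvd_gcd hm hn))
      obtain ⟨m', rfl⟩ := hm
      have hcop : m'.Coprime n := Nat.Coprime.coprime_mul_left hmn
      rw [stabSeq_of_dvd a β (Dvd.intro _ rfl : q ∣ q * m'),
        stabSeq_of_dvd a β (Dvd.dvd.mul_right (Dvd.intro _ rfl : q ∣ q * m') n),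
        stabSeq_of_not_dvd a β hn, ha.mul_of_coprime _ _ hmn, Nat.mul_div_cancel_left _ hq.pos,
        mul_assoc, Nat.mul_div_cancel_left _ hq.pos, ha.mul_of_coprime _ _ hcop]
      ring
    · by_cases hn : q ∣ n
      · obtain ⟨n', rfl⟩ := hn
        have hcop : m.Coprime n' := Nat.Coprime.coprime_mul_left_right hmn
        have e : m * (q * n') = q * (m * n') := by ring
        rw [stabSeq_of_dvd a β (Dvd.intro _ rfl : q ∣ q * n'), stabSeq_of_not_dvd a β hm,
          stabSeq_of_dvd a β (e ▸ (Dvd.intro _ rfl : q ∣ q * (m * n'))),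
          ha.mul_of_coprime _ _ hmn, Nat.mul_div_cancel_left _ hq.pos, e,
          Nat.mul_div_cancel_left _ hq.pos, ha.mul_of_coprime _ _ hcop]
        ring
      · have hmn' : ¬ q ∣ m * n := fun h => (hq.dvd_mul.1 h).elim hm hn
        rw [stabSeq_of_not_dvd a β hmn', stabSeq_of_not_dvd a β hm, stabSeq_of_not_dvd a β hn,
          ha.mul_of_coprime _ _ hmn]
  prime_pow_of_not_dvd p r hp hpMq := by
    have hpM : ¬ p ∣ M := fun h => hpMq (Dvd.dvd.mul_right h q)
    have hpq : p ≠ q := fun h => hpMq (h ▸ Dvd.intro_left M rfl)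
    have hnd : ∀ j : ℕ, ¬ q ∣ p ^ j := fun j h =>
      hpq ((Nat.prime_dvd_prime_iff_eq hq hp).1 (hq.dvd_of_dvd_pow h)).symm
    have h1 : ¬ q ∣ p := fun h => hpq ((Nat.prime_dvd_prime_iff_eq hq hp).1 h).symm
    rw [stabSeq_of_not_dvd a β (hnd _), stabSeq_of_not_dvd a β (hnd _),
      stabSeq_of_not_dvd a β (hnd _), stabSeq_of_not_dvd a β h1,
      ha.prime_pow_of_not_dvd p r hp hpM]
  prime_pow_of_dvd p r hp hpMq := by
    by_cases hpq : p = q
    · subst hpq
      rw [stabSeq_prime_pow_succ ha hp hqM hβ (r + 1)]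
      have h1 := stabSeq_prime_pow_succ ha hp hqM hβ 0
      rw [zero_add, pow_one, pow_zero] at h1
      have h2 : stabSeq a p β 1 = 1 := by
        have h3 : ¬ p ∣ 1 := hp.one_lt.ne' ∘ Nat.dvd_one.1
        rw [stabSeq_of_not_dvd a β h3, ha.one]
      rw [h1, h2, mul_one]
    · have hpM : p ∣ M := by
        rcases hp.dvd_mul.1 hpMq with h | h
        · exact h
        · exact absurd ((Nat.prime_dvd_prime_iff_eq hp hq).1 h) hpq
      have hnd : ∀ j : ℕ, ¬ q ∣ p ^ j := fun j h =>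
        hpq ((Nat.prime_dvd_prime_iff_eq hq hp).1 (hq.dvd_of_dvd_pow h)).symm
      have h1 : ¬ q ∣ p := fun h => hpq ((Nat.prime_dvd_prime_iff_eq hq hp).1 h).symm
      rw [stabSeq_of_not_dvd a β (hnd _), stabSeq_of_not_dvd a β (hnd _),
        stabSeq_of_not_dvd a β h1, ha.prime_pow_of_dvd p r hp hpM]

theorem stabSeq_prime_of_ne (a : ℕ → ℂ) (hq : q.Prime) (β : ℂ) {l : ℕ} (hl : l.Prime)
    (hlq : l ≠ q) : stabSeq a q β l = a l :=
  stabSeq_of_not_dvd a β fun h => hlq ((Nat.prime_dvd_prime_iff_eq hq hl).1 h).symm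

end stab

/-- **END PACKAGE for (T3-D)**: a cusp form of level `M * q` whose coefficients are the
`q`-stabilisation of those of a normalised eigenform `g` of level `M` (`q ∤ M`) is a normalised
eigenform with the same prime-index coefficients away from `q`. -/
theorem stabilise_of_qCoeff {M q : ℕ} {g : CuspForm (CongruenceSubgroup.Gamma0 M) 2}
    (hg : g.IsNormalizedEigenform) (hq : q.Prime) (hqM : ¬ q ∣ M)
    (f' : CuspForm (CongruenceSubgroup.Gamma0 (M * q)) 2) {β : ℂ}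
    (hβ : β ^ 2 - qCoeff g q * β + q = 0)
    (hf' : ∀ n : ℕ, qCoeff f' n = qCoeff g n - β * (if q ∣ n then qCoeff g (n / q) else 0)) :
    f'.IsNormalizedEigenform ∧ ∀ l : ℕ, l.Prime → l ≠ q → qCoeff f' l = qCoeff g l := by
  have ha := (isNormalizedEigenform_iff_isEigenSeq g).1 hg
  have hb := ha.stabilise hq hqM hβ
  have hfun : (fun n => qCoeff f' n) = stabSeq (fun n => qCoeff g n) q β := funext hf'
  refine ⟨(isNormalizedEigenform_iff_isEigenSeq f').2 (hfun ▸ hb), fun l hl hlq => ?_⟩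
  rw [hf' l]
  exact stabSeq_prime_of_ne (fun n => qCoeff g n) hq β hl hlq

end Fermat.Agent.EC.H74
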