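/-
EC library (topic S58), brick (D3) for row (T3-D) of `S58 CHAIN v1` (helper74; second seat):
the one-prime stabilisation `StabPrime` (hence `H28.SpecD`, by `EC/H74_StabFinset`) from the
bare EXISTENCE of the two degeneracy maps at the level of `q`-expansions (`DegenExists`):
for `g` of level `M` and a prime `q` there are cusp forms `i`, `v` of level `M * q` with
`a_n(i) = a_n(g)` and `a_n(v) = [q ∣ n] a_{n/q}(g)`.

New file, nothing imports it.
-/
import Mathlib
import Fermat.Agent.S49.H70_ModThree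
import Fermat.Agent.EC.H74_StabSeq
import Fermat.Agent.EC.H74_StabFinset

set_option autoImplicit false

namespace Fermat.Agent.EC.H74

open ModularFormClass

/-- (D1) + (D2) in existence form. -/
def DegenExists : Prop :=
  ∀ (M : ℕ) (_ : M ≠ 0) (g : CuspForm (CongruenceSubgroup.Gamma0 M) 2) (q : ℕ), q.Prime →
    (∃ i : CuspForm (CongruenceSubgroup.Gamma0 (M * q)) 2, ∀ n : ℕ, qCoeff i n = qCoeff g n) ∧
    (∃ v : CuspForm (CongruenceSubgroup.Gamma0 (M * q)) 2,
      ∀ n : ℕ, qCoeff v n = if q ∣ n then qCoeff g (n / q) else 0)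

/-- **(D3)** from (D1) + (D2). -/
theorem stabPrime_of_degenExists (h : DegenExists) : StabPrime := by
  intro M hM g hg q hq hqM
  obtain ⟨⟨i, hi⟩, ⟨v, hv⟩⟩ := h M hM g q hq
  obtain ⟨β, hβ⟩ := exists_root_hecke (qCoeff g q) q
  refine ⟨i + (-β) • v, stabilise_of_qCoeff hg hq hqM (i + (-β) • v) hβ fun n => ?_⟩
  rw [Fermat.Agent.S49.H70.qCoeff_add, Fermat.Agent.S49.H70.qCoeff_smul, hi n, hv n]
  ring

/-- **(T3-D)** from (D1) + (D2). -/
theorem specD_of_degenExists (h : DegenExists) : Fermat.Agent.EC.H28.SpecD :=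
  specD_of_stabPrime (stabPrime_of_degenExists h)

end Fermat.Agent.EC.H74
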