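/-
EC library (topic S58), HEDGE for (D1) + (D2) of row (T3-D) of `S58 CHAIN v1` (helper74):
the two degeneracy maps `CuspForm Γ₀(M) 2 → CuspForm Γ₀(M q) 2` at the level of `q`-expansions,

* `inclLevel q g` : the same function, `a_n(inclLevel q g) = a_n(g)`;
* `vq q g` : `z ↦ g (q z)`, `a_n(vq q g) = [q ∣ n] a_{n/q}(g)`

(the `S23.H85.deltaN` pattern at weight 2 and level `M`), hence `degenExists : DegenExists` and
`specD : H28.SpecD` by `EC/H74_StabPrime`.

New file, nothing imports it.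
-/
import Mathlib
import Fermat.Prelude.Def_ModularForm_HeckeOperator
import Fermat.Prelude.Def_FLTPrelim_Modularity
import Fermat.Prelude.Thm_UpperHalfPlane_qCoeff_heckeT
import Fermat.Prelude.Thm_CongruenceSubgroup_one_mem_strictPeriods_Gamma0
import Fermat.Agent.S23.H85_DeltaN
import Fermat.Agent.EC.H74_StabPrime

set_option autoImplicit false
set_option linter.style.haveILetI false

open UpperHalfPlane CongruenceSubgroup ModularForm Matrix Filter
open scoped MatrixGroups ModularForm Manifold Pointwise Real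

namespace Fermat.Agent.EC.H74

noncomputable section

section Incl

variable (M q : ℕ)

theorem gamma0_mul_le' : Gamma0 (M * q) ≤ Gamma0 M := by
  intro γ hγ
  rw [Gamma0_mem] at hγ ⊢
  have h1 : ((M * q : ℕ) : ℤ) ∣ γ 1 0 := (ZMod.intCast_zmod_eq_zero_iff_dvd _ _).1 hγ
  have h2 : (M : ℤ) ∣ γ 1 0 := dvd_trans ⟨(q : ℤ), by push_cast; ring⟩ h1
  exact (ZMod.intCast_zmod_eq_zero_iff_dvd _ _).2 h2

theorem gamma0_map_mul_le :
    (Gamma0 (M * q)).map (SpecialLinearGroup.mapGL ℝ) ≤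
      (Gamma0 M).map (SpecialLinearGroup.mapGL ℝ) :=
  Subgroup.map_mono (gamma0_mul_le' M q)

variable {M}

/-- (D1) the inclusion of levels `Γ₀(M) → Γ₀(M q)`: the same function. -/
def inclLevel (g : CuspForm (Gamma0 M) 2) : CuspForm (Gamma0 (M * q)) 2 where
  toFun := g
  slash_action_eq' γ hγ := g.slash_action_eq' γ (gamma0_map_mul_le M q hγ)
  holo' := g.holo'
  zero_at_cusps' hc := g.zero_at_cusps' (hc.mono (gamma0_map_mul_le M q))

theorem qCoeff_inclLevel (g : CuspForm (Gamma0 M) 2) (n : ℕ) :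
    ModularFormClass.qCoeff (inclLevel q g) n = ModularFormClass.qCoeff g n := rfl

end Incl

section Vq

variable (M q : ℕ) [NeZero q]

theorem gamma0_mul_le_conj :
    (Gamma0 (M * q)).map (SpecialLinearGroup.mapGL ℝ) ≤
      ConjAct.toConjAct (heckeDiagMatrix q)⁻¹ •
        ((Gamma0 M).map (SpecialLinearGroup.mapGL ℝ)) := by
  rintro _ ⟨γ, hγ, rfl⟩
  rw [Subgroup.mem_pointwise_smul_iff_inv_smul_mem, ConjAct.toConjAct_inv, inv_inv,
    ConjAct.smul_def, ConjAct.ofConjAct_toConjAct]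
  have hγ' : ((γ 1 0 : ℤ) : ZMod (M * q)) = 0 := Gamma0_mem.mp hγ
  obtain ⟨c'', hc''⟩ : ((M * q : ℕ) : ℤ) ∣ γ 1 0 :=
    (ZMod.intCast_zmod_eq_zero_iff_dvd _ _).mp hγ'
  have hc : γ 1 0 = (q : ℤ) * ((M : ℤ) * c'') := by rw [hc'']; push_cast; ring
  refine ⟨Fermat.Agent.S23.H85.conjMat q γ ((M : ℤ) * c'') hc, ?_, ?_⟩
  · rw [SetLike.mem_coe, Gamma0_mem]
    have h10 : (Fermat.Agent.S23.H85.conjMat q γ ((M : ℤ) * c'') hc) 1 0 = (M : ℤ) * c'' := by
      show ((Fermat.Agent.S23.H85.conjMat q γ ((M : ℤ) * c'') hc : SL(2, ℤ)) :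
        Matrix (Fin 2) (Fin 2) ℤ) 1 0 = _
      rw [Fermat.Agent.S23.H85.conjMat_coe]
      simp
    rw [h10]
    push_cast
    simp
  · rw [eq_mul_inv_iff_mul_eq]
    exact Fermat.Agent.S23.H85.conjMat_mul q γ ((M : ℤ) * c'') hc

variable {M}

/-- `q * g(q z)` as a cusp form of level `Γ₀(M q)`: the translate of `g` by `diag(q,1)`. -/
def vqAux (g : CuspForm (Gamma0 M) 2) : CuspForm (Gamma0 (M * q)) 2 where
  toFun := (g : ℍ → ℂ) ∣[(2 : ℤ)] heckeDiagMatrix q
  slash_action_eq' γ hγ :=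
    (CuspForm.translate g (heckeDiagMatrix q)).slash_action_eq' γ
      (gamma0_mul_le_conj M q hγ)
  holo' := (CuspForm.translate g (heckeDiagMatrix q)).holo'
  zero_at_cusps' hc :=
    (CuspForm.translate g (heckeDiagMatrix q)).zero_at_cusps'
      (hc.mono (gamma0_mul_le_conj M q))

theorem vqAux_apply (g : CuspForm (Gamma0 M) 2) (z : ℍ) :
    vqAux q g z = (q : ℂ) * g (heckeDiagMatrix q • z) := by
  change ((g : ℍ → ℂ) ∣[(2 : ℤ)] heckeDiagMatrix q) z = _
  rw [slash_heckeDiagMatrix_apply 2 (NeZero.ne q)]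
  norm_num

/-- (D2) `z ↦ g (q z)` as a cusp form of level `Γ₀(M q)`. -/
def vq (g : CuspForm (Gamma0 M) 2) : CuspForm (Gamma0 (M * q)) 2 :=
  ((q : ℂ))⁻¹ • vqAux q g

theorem vq_apply (g : CuspForm (Gamma0 M) 2) (z : ℍ) :
    vq q g z = g (heckeDiagMatrix q • z) := by
  have hq : ((q : ℂ)) ≠ 0 := Nat.cast_ne_zero.mpr (NeZero.ne q)
  change ((q : ℂ))⁻¹ • vqAux q g z = _
  rw [vqAux_apply, smul_eq_mul, inv_mul_cancel_left₀ hq]

open P2MW.S_UpperHalfPlane_qCoeff_heckeT.M4cP1W2 in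
/-- The `q`-expansion of `g (q z)`. -/
theorem qCoeff_vq (g : CuspForm (Gamma0 M) 2) (n : ℕ) :
    ModularFormClass.qCoeff (vq q g) n =
      if q ∣ n then ModularFormClass.qCoeff g (n / q) else 0 := by
  have hq : q ≠ 0 := NeZero.ne q
  have hΓM := CongruenceSubgroup.one_mem_strictPeriods_Gamma0 M
  have hΓ := CongruenceSubgroup.one_mem_strictPeriods_Gamma0 (M * q)
  have hper : Function.Periodic ((g : ℍ → ℂ) ∘ ofComplex) 1 := by
    simpa using SlashInvariantFormClass.periodic_comp_ofComplex g hΓM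
  have hhol : MDiff (g : ℍ → ℂ) := ModularFormClass.holo _
  haveI : Fact (IsCusp OnePoint.infty ((Gamma0 M).map (SpecialLinearGroup.mapGL ℝ))) :=
    ⟨((Gamma0 M).map (SpecialLinearGroup.mapGL ℝ)).isCusp_of_mem_strictPeriods one_pos hΓM⟩
  have hbdd : IsBoundedAtImInfty (g : ℍ → ℂ) := ModularFormClass.bdd_at_infty g
  have hsum : ∀ τ : ℍ, HasSum (fun m : ℕ =>
      (if q ∣ m then ModularFormClass.qCoeff g (m / q) else 0) •
        Function.Periodic.qParam 1 τ ^ m) (vq q g τ) := by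
    intro τ
    have := hasSum_diag hq hper hhol hbdd 1 τ
    rw [vq_apply]
    simp only [sub_self, zpow_zero, one_mul] at this
    convert this using 2 with m
    split_ifs <;> simp
  exact (qExpansion_coeff_unique' (ModularFormClass.holo (vq q g)).continuous
    (ModularFormClass.analyticAt_cuspFunction_zero (vq q g) one_pos hΓ) hsum n).symm

end Vq

/-- (D1) + (D2) in existence form. -/
theorem degenExists : DegenExists := by
  intro M _ g q hq
  haveI : NeZero q := ⟨hq.ne_zero⟩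
  exact ⟨⟨inclLevel q g, qCoeff_inclLevel q g⟩, ⟨vq q g, qCoeff_vq q g⟩⟩

/-- **Row (T3-D)**. -/
theorem specD : Fermat.Agent.EC.H28.SpecD := specD_of_degenExists degenExists

end

end Fermat.Agent.EC.H74
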