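/-
EC library (topic S58), HEDGE for row (T3-F) of `S58 CHAIN v1` (helper74): level bookkeeping,
`specF : H28.SpecF`.  With `D := |Δ|`, `s := primeFactors D \ primeFactors N0`:
`N0 * ∏ s = ∏ primeFactors N0 * ∏ s = ∏ primeFactors D = rad D = W.conductorLevel`.

Mathlib + `EC/H28_T3Interface` only.  New file, nothing imports it.
-/
import Mathlib
import Fermat.Agent.EC.H28_T3Interface

set_option autoImplicit false

namespace Fermat.Agent.EC.H74

theorem specF : Fermat.Agent.EC.H28.SpecF := by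
  classical
  intro W hΔ N0 hsq hN0
  have hD : W.Δ.natAbs ≠ 0 := Int.natAbs_ne_zero.2 hΔ
  have hsub : N0.primeFactors ⊆ W.Δ.natAbs.primeFactors := fun q hq => by
    rw [Nat.mem_primeFactors] at hq ⊢
    exact ⟨hq.1, Int.natCast_dvd.1 (hN0 q hq.1 hq.2.1), hD⟩
  refine ⟨W.Δ.natAbs.primeFactors \ N0.primeFactors, ?_, ?_⟩
  · intro q hq
    rw [Finset.mem_sdiff, Nat.mem_primeFactors] at hq
    refine ⟨hq.1.1, fun hqN0 => hq.2 ?_, Int.natCast_dvd.2 hq.1.2.1⟩
    exact Nat.mem_primeFactors.2 ⟨hq.1.1, hqN0, hsq.ne_zero⟩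
  · calc N0 * ∏ q ∈ W.Δ.natAbs.primeFactors \ N0.primeFactors, q
        = (∏ q ∈ N0.primeFactors, q) * ∏ q ∈ W.Δ.natAbs.primeFactors \ N0.primeFactors, q := by
          rw [Nat.prod_primeFactors_of_squarefree hsq]
      _ = ∏ q ∈ W.Δ.natAbs.primeFactors, q := by
          rw [mul_comm]; exact Finset.prod_sdiff hsub
      _ = W.conductorLevel := by
          rw [WeierstrassCurve.conductorLevel, Nat.radical_eq_prod_primeFactors]

end Fermat.Agent.EC.H74
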