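/-
EC library (topic S58), row (S35-seam) of `S58 CHAIN v1` (helper74):
`specS35 : Fermat.Agent.EC.H28.SpecS35`, i.e. the frozen S35 (`Fermat.Agent.S35.result`) at
`O' = ℤ_[lam]`, `chig = eigenChar`, `iota` = (B1) of `EC/H74_T3Iota`, in the exact shape of the
interface file `EC/H28_T3Interface`.  It is `s35_padic_of_int` of `EC/H74_T3S35Seam` with the
unused bundle fields dropped.

New file, nothing imports it (but the assembly `EC/H28_T3Assembly`).
-/
import Mathlib
import Fermat.Agent.EC.H28_T3Interface
import Fermat.Agent.EC.H74_T3S35Seam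

set_option autoImplicit false
set_option linter.style.haveILetI false

namespace Fermat.Agent.EC.H74

theorem specS35 : Fermat.Agent.EC.H28.SpecS35 := by
  intro M _ g hg lam _ S hlamS hMS a ha
  obtain ⟨O'', i1, i2, i3, -, -, i6, -, -, -, -, hlam, ρ, hρ, hq⟩ :=
    s35_padic_of_int hg lam S hlamS hMS a ha
  exact ⟨O'', i1, i2, i3, i6, hlam, ρ, hρ, hq⟩

end Fermat.Agent.EC.H74
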