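/-
EC library (optional, topic S58), second seam for brick (T3-B) (helper74).

`Fermat.Agent.S35.result` (the frozen S35) at `O' = ℤ_[lam]`, `chig = S41.H85.eigenChar`, with the
coefficient map `iota` of `EC/H74_T3Iota` (B1) plugged in: for a newform `g` of level `M` whose
eigenvalues `a_ℓ(g)`, `ℓ ∉ S`, are the integers `a ℓ`, there is `ρ : GaloisRepAdic O''` over a
finite extension `O''` of `ℤ_[lam]` with `charpoly ρ(Frob_ℓ) = X² − a ℓ X + ℓ` (integers cast to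
`O''`) and `charpoly ρ(Frob_q) = X² ∓ (q+1) X + q` at every `q ≠ lam` with `q ∥ M`.

New file, nothing imports it.
-/
import Mathlib
import Fermat.Agent.S35
import Fermat.Agent.S41.H85_EigenDict
import Fermat.Agent.EC.H74_T3Iota

set_option autoImplicit false
set_option linter.style.haveILetI false

namespace Fermat.Agent.EC.H74

open Polynomial

/-- The frozen S35 at `O' = ℤ_[lam]` for a newform with integer eigenvalues outside `S`. -/
theorem s35_padic_of_int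
    {M : ℕ} [NeZero M] {g : CuspForm (CongruenceSubgroup.Gamma0 M) 2} (hg : g.IsNewform)
    (lam : ℕ) [Fact lam.Prime]
    (S : Finset ℕ) (hlamS : lam ∈ S) (hMS : ∀ q : ℕ, q.Prime → q ∣ M → q ∈ S)
    (a : ℕ → ℤ)
    (ha : ∀ ℓ : ℕ, ℓ.Prime → ¬ ℓ ∣ M → ℓ ∉ S → ModularFormClass.qCoeff g ℓ = (a ℓ : ℂ)) :
    ∃ (O'' : Type) (_ : CommRing O'') (_ : IsDomain O'') (_ : IsDiscreteValuationRing O'')
      (_ : IsAdicComplete (IsLocalRing.maximalIdeal O'') O'')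
      (_ : Finite (IsLocalRing.ResidueField O''))
      (_ : CharZero O'') (_ : Algebra ℤ_[lam] O'') (_ : Module.Finite ℤ_[lam] O'')
      (_ : IsLocalHom (algebraMap ℤ_[lam] O'')),
      Function.Injective (algebraMap ℤ_[lam] O'') ∧
      (lam : O'') ∈ IsLocalRing.maximalIdeal O'' ∧
      ∃ ρ : GaloisRepAdic O'',
        (∀ ℓ : ℕ, ℓ.Prime → ¬ ℓ ∣ M → ℓ ∉ S →
          ∀ A : ValuationSubring (AlgebraicClosure ℚ), A.LiesOverPrime ℓ →
            ∀ σ : AlgebraicClosure ℚ ≃ₐ[ℚ] AlgebraicClosure ℚ, A.IsFrobeniusAt σ ℓ →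
              LinearMap.charpoly (ρ.ρ σ) =
                X ^ 2 - C ((a ℓ : ℤ) : O'') * X + C ((ℓ : O''))) ∧
        (∀ q : ℕ, q.Prime → q ≠ lam → q ∣ M → ¬ q ^ 2 ∣ M →
          ∀ A : ValuationSubring (AlgebraicClosure ℚ), A.LiesOverPrime q →
            ∀ σ : AlgebraicClosure ℚ ≃ₐ[ℚ] AlgebraicClosure ℚ, A.IsFrobeniusAt σ q →
              LinearMap.charpoly (ρ.ρ σ) = X ^ 2 - C ((q : O'') + 1) * X + C ((q : O'')) ∨
              LinearMap.charpoly (ρ.ρ σ) = X ^ 2 + C ((q : O'') + 1) * X + C ((q : O''))) := by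
  have hchig : ∀ (ℓ : ℕ) (hℓ : ℓ.Prime) (hℓM : ¬ ℓ ∣ M) (hℓS : ℓ ∉ (↑S : Set ℕ)),
      Fermat.Agent.S41.H85.eigenChar hg.1 (↑S : Set ℕ) (CuspForm.heckeAlgebra.T hℓ hℓM hℓS)
        = ModularFormClass.qCoeff g ℓ :=
    fun ℓ hℓ hℓM hℓS => Fermat.Agent.S41.H85.eigenChar_T hg.1 hℓ hℓM hℓS
  obtain ⟨iota, -, hiota, -⟩ := exists_iota_of_int
    (Fermat.Agent.S41.H85.eigenChar hg.1 (↑S : Set ℕ))
    (fun q hq hqM => Finset.mem_coe.2 (hMS q hq hqM)) a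
    (fun ℓ hℓ hℓM hℓS => by
      rw [hchig ℓ hℓ hℓM hℓS]; exact ha ℓ hℓ hℓM (fun h => hℓS (Finset.mem_coe.2 h))) ℤ_[lam]
  have key := Fermat.Agent.S35.result hg lam S ℤ_[lam]
    (natCast_mem_maximalIdeal_padicInt lam)
    (Fermat.Agent.S41.H85.eigenChar hg.1 (↑S : Set ℕ)) hchig iota hlamS hMS
  obtain ⟨O'', i1, i2, i3, i4, i5, i6, i7, i8, i9, hinj, ρ, hρ, hq⟩ := key
  refine ⟨O'', i1, i2, i3, i4, i5, i6, i7, i8, i9, hinj, ?_, ρ, ?_, hq⟩
  · have h1 : (lam : O'') = algebraMap ℤ_[lam] O'' (lam : ℤ_[lam]) := by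
      rw [map_natCast]
    rw [h1, IsLocalRing.mem_maximalIdeal, mem_nonunits_iff]
    intro hu
    have h2 : IsUnit (lam : ℤ_[lam]) := isUnit_of_map_unit (algebraMap ℤ_[lam] O'') _ hu
    exact (IsLocalRing.mem_maximalIdeal _).1 (natCast_mem_maximalIdeal_padicInt lam) h2
  · intro ℓ hℓ hℓM hℓS A hA σ hσ
    have hℓS' : ℓ ∉ (↑S : Set ℕ) := fun h => hℓS (Finset.mem_coe.1 h)
    rw [hρ ℓ hℓ hℓM hℓS' A hA σ hσ, hiota ℓ hℓ hℓM hℓS', map_intCast]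

end Fermat.Agent.EC.H74
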