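import Mathlib

/-!
# Primitive polynomial tuples and heights (project EC, Hasse–Weil core, helper75)

Mathlib-only polynomial algebra used to compute degrees of rational functions.

* `exists_unit_of_prop` : two tuples generating the unit ideal that are proportional
  differ by a unit.
* `HasHeight A N` : all entries of the tuple `A` have `natDegree ≤ N` and some coefficient at
  level `N` is nonzero.
* `span_eq_top_of_no_common_root` : over an algebraically closed field, a tuple of polynomials
  without common root generates the unit ideal.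
* `height_eq_of_prop` : proportional primitive tuples have the same height.
-/

set_option autoImplicit false

namespace Fermat.Agent.EC.H75

open Polynomial

section Ring

variable {R : Type*} [CommRing R] {ι : Type*} [Fintype ι]

/-- two tuples generating the unit ideal which are proportional differ by a unit -/
theorem exists_unit_of_prop {A B : ι → R} (hA : Ideal.span (Set.range A) = ⊤)
    (hB : Ideal.span (Set.range B) = ⊤) (h : ∀ i j, A i * B j = A j * B i) :
    ∃ c : Rˣ, ∀ i, A i = c * B i := by
  have h1A : (1 : R) ∈ Ideal.span (Set.range A) := hA ▸ Submodule.mem_top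
  have h1B : (1 : R) ∈ Ideal.span (Set.range B) := hB ▸ Submodule.mem_top
  obtain ⟨μ, hμ⟩ := Ideal.mem_span_range_iff_exists_fun.mp h1A
  obtain ⟨lam, hlam⟩ := Ideal.mem_span_range_iff_exists_fun.mp h1B
  set c : R := ∑ j, lam j * A j with hc
  set c' : R := ∑ j, μ j * B j with hc'
  have e1 : ∀ i, c * B i = A i := by
    intro i
    calc c * B i = ∑ j, lam j * (A j * B i) := by
          rw [hc, Finset.sum_mul]; exact Finset.sum_congr rfl fun j _ => by ring
      _ = ∑ j, lam j * (A i * B j) := Finset.sum_congr rfl fun j _ => by rw [h i j]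
      _ = A i * ∑ j, lam j * B j := by
          rw [Finset.mul_sum]; exact Finset.sum_congr rfl fun j _ => by ring
      _ = A i := by rw [hlam, mul_one]
  have e2 : ∀ i, c' * A i = B i := by
    intro i
    calc c' * A i = ∑ j, μ j * (A i * B j) := by
          rw [hc', Finset.sum_mul]; exact Finset.sum_congr rfl fun j _ => by ring
      _ = ∑ j, μ j * (A j * B i) := Finset.sum_congr rfl fun j _ => by rw [h i j]
      _ = B i * ∑ j, μ j * A j := by
          rw [Finset.mul_sum]; exact Finset.sum_congr rfl fun j _ => by ring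
      _ = B i := by rw [hμ, mul_one]
  have hcc : c * c' = 1 := by
    have : ∀ i, (c * c') * A i = A i := fun i => by rw [mul_assoc, e2, e1]
    calc c * c' = (c * c') * ∑ j, μ j * A j := by rw [hμ, mul_one]
      _ = ∑ j, μ j * ((c * c') * A j) := by
          rw [Finset.mul_sum]; exact Finset.sum_congr rfl fun j _ => by ring
      _ = ∑ j, μ j * A j := Finset.sum_congr rfl fun j _ => by rw [this]
      _ = 1 := hμ
  exact ⟨⟨c, c', hcc, by rw [mul_comm]; exact hcc⟩, fun i => (e1 i).symm⟩

end Ring

section Field

variable {F : Type*} [Field F] {ι : Type*}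

/-- `A` has height `N`: every entry has degree at most `N`, and some entry has a nonzero
coefficient at level `N`. -/
def HasHeight (A : ι → F[X]) (N : ℕ) : Prop :=
  (∀ i, (A i).natDegree ≤ N) ∧ ∃ i, (A i).coeff N ≠ 0

theorem HasHeight.unique {A : ι → F[X]} {M N : ℕ} (hM : HasHeight A M) (hN : HasHeight A N) :
    M = N := by
  obtain ⟨i, hi⟩ := hM.2
  obtain ⟨j, hj⟩ := hN.2
  have h1 : M ≤ N := by
    by_contra hlt
    exact hi (coeff_eq_zero_of_natDegree_lt (lt_of_le_of_lt (hN.1 i) (not_le.mp hlt)))
  have h2 : N ≤ M := by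
    by_contra hlt
    exact hj (coeff_eq_zero_of_natDegree_lt (lt_of_le_of_lt (hM.1 j) (not_le.mp hlt)))
  exact le_antisymm h1 h2

theorem HasHeight.of_unit_mul {A B : ι → F[X]} {N : ℕ} (c : (F[X])ˣ) (h : ∀ i, A i = c * B i)
    (hA : HasHeight A N) : HasHeight B N := by
  obtain ⟨r, hr, hrc⟩ := Polynomial.isUnit_iff.mp c.isUnit
  have hr0 : r ≠ 0 := hr.ne_zero
  have hB : ∀ i, B i = C r⁻¹ * A i := by
    intro i
    rw [h i, ← hrc, ← mul_assoc, ← C_mul, inv_mul_cancel₀ hr0, C_1, one_mul]
  refine ⟨fun i => ?_, ?_⟩
  · rw [hB i]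
    exact (natDegree_C_mul_le _ _).trans (hA.1 i)
  · obtain ⟨i, hi⟩ := hA.2
    refine ⟨i, ?_⟩
    rw [hB i, coeff_C_mul]
    exact mul_ne_zero (inv_ne_zero hr0) hi

/-- proportional primitive tuples have the same height -/
theorem height_eq_of_prop [Fintype ι] {A B : ι → F[X]} {M N : ℕ}
    (hA : Ideal.span (Set.range A) = ⊤) (hB : Ideal.span (Set.range B) = ⊤)
    (h : ∀ i j, A i * B j = A j * B i) (hAM : HasHeight A M) (hBN : HasHeight B N) : M = N := by
  obtain ⟨c, hc⟩ := exists_unit_of_prop hA hB h
  exact (HasHeight.of_unit_mul c hc hAM).unique hBN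

variable [IsAlgClosed F]

/-- over an algebraically closed field a tuple of polynomials without a common root generates the
unit ideal -/
theorem span_eq_top_of_no_common_root {A : ι → F[X]}
    (h : ∀ x : F, ∃ i, (A i).eval x ≠ 0) : Ideal.span (Set.range A) = ⊤ := by
  set I := Ideal.span (Set.range A) with hI
  have hprin : I = Ideal.span {Submodule.IsPrincipal.generator I} :=
    (Ideal.span_singleton_generator I).symm
  set g := Submodule.IsPrincipal.generator I with hg
  have hdvd : ∀ i, g ∣ A i := by
    intro i
    have : A i ∈ I := Ideal.subset_span ⟨i, rfl⟩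
    rw [hprin] at this
    exact Ideal.mem_span_singleton.mp this
  by_contra hne
  have hgu : ¬ IsUnit g := by
    intro hu
    apply hne
    rw [hprin]
    exact Ideal.span_singleton_eq_top.mpr hu
  have hdeg : g.degree ≠ 0 := by
    intro h0
    have hC := eq_C_of_degree_eq_zero h0
    have hc0 : g.coeff 0 ≠ 0 := by
      intro hz
      rw [hz, C_0] at hC
      rw [hC] at h0
      simp at h0
    apply hgu
    rw [hC]
    exact isUnit_C.mpr (isUnit_iff_ne_zero.mpr hc0)
  obtain ⟨x, hx⟩ := IsAlgClosed.exists_root g hdeg
  obtain ⟨i, hi⟩ := h x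
  obtain ⟨q, hq⟩ := hdvd i
  apply hi
  rw [hq, eval_mul, hx, zero_mul]

end Field

end Fermat.Agent.EC.H75
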