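import Mathlib
import Fermat.Agent.EC.H75_PolyPrim

/-!
# The degree lemma for the `x`-only addition formulas (project EC, Hasse–Weil core, helper75)

`rdeg r = max (deg num) (deg denom)` for a rational function `r`.  If `s + t` and `s * t` are given
in terms of `u₁ ≠ u₂` by the `x`-coordinate sum and product formulas of a Weierstrass curve
(`b`-invariants `β₂ β₄ β₆ β₈`) whose duplication numerator and denominator have no common root,
then `rdeg s + rdeg t = 2 * rdeg u₁ + 2 * rdeg u₂`.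
-/

set_option autoImplicit false

noncomputable section

namespace Fermat.Agent.EC.H75

open Polynomial

variable {F : Type*} [Field F]

/-! ## scalar forms -/

/-- `(x₁ - x₂)^2`, bihomogenised -/
def G0 (α β γ δ : F) : F := (α * δ - β * γ) * (α * δ - β * γ)

/-- the sum numerator, bihomogenised -/
def G1 (β₂ β₄ β₆ α β γ δ : F) : F :=
  2 * ((α * γ) * (α * δ + β * γ)) + β₂ * ((α * γ) * (β * δ)) + β₄ * ((α * δ + β * γ) * (β * δ)) +
    β₆ * ((β * δ) * (β * δ))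

/-- the product numerator, bihomogenised -/
def G2 (β₄ β₆ β₈ α β γ δ : F) : F :=
  (α * γ) * (α * γ) - β₄ * ((α * γ) * (β * δ)) - β₆ * ((α * δ + β * γ) * (β * δ)) -
    β₈ * ((β * δ) * (β * δ))

/-- duplication denominator `4t^3 + b₂ t^2 + 2 b₄ t + b₆` -/
def dDen (β₂ β₄ β₆ t : F) : F := 4 * t ^ 3 + β₂ * t ^ 2 + 2 * β₄ * t + β₆

/-- duplication numerator `t^4 - b₄ t^2 - 2 b₆ t - b₈` -/
def dNum (β₄ β₆ β₈ t : F) : F := t ^ 4 - β₄ * t ^ 2 - 2 * β₆ * t - β₈

/-- no common zero of the three forms on `P¹ × P¹` -/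
theorem ncz_G {β₂ β₄ β₆ β₈ : F} (hncz : ∀ t : F, ¬ (dDen β₂ β₄ β₆ t = 0 ∧ dNum β₄ β₆ β₈ t = 0))
    {α β γ δ : F} (h1 : α ≠ 0 ∨ β ≠ 0) (h2 : γ ≠ 0 ∨ δ ≠ 0) :
    G0 α β γ δ ≠ 0 ∨ G1 β₂ β₄ β₆ α β γ δ ≠ 0 ∨ G2 β₄ β₆ β₈ α β γ δ ≠ 0 := by
  by_contra hcon
  push Not at hcon
  obtain ⟨h0, hG1, hG2⟩ := hcon
  have hαδ : α * δ = β * γ := by
    have : (α * δ - β * γ) = 0 := by
      have := h0; unfold G0 at this; exact mul_self_eq_zero.mp this
    linear_combination this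
  by_cases hβ : β = 0
  · have hα : α ≠ 0 := h1.resolve_right (not_not.mpr hβ)
    have hδ : δ = 0 := by
      have : α * δ = 0 := by rw [hαδ, hβ, zero_mul]
      exact (mul_eq_zero.mp this).resolve_left hα
    have hγ : γ ≠ 0 := h2.resolve_right (not_not.mpr hδ)
    unfold G2 at hG2
    rw [hβ, hδ] at hG2
    have : (α * γ) * (α * γ) = 0 := by linear_combination hG2
    exact mul_ne_zero hα hγ (mul_self_eq_zero.mp this)
  · have hδ : δ ≠ 0 := by
      intro hδ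
      have : β * γ = 0 := by rw [← hαδ, hδ, mul_zero]
      have hγ : γ = 0 := (mul_eq_zero.mp this).resolve_left hβ
      exact h2.elim (fun h => h hγ) (fun h => h hδ)
    set t := α / β with ht
    have hα : α = t * β := by rw [ht]; field_simp
    have hγ : γ = t * δ := by
      have : γ = α * δ / β := by rw [hαδ]; field_simp
      rw [this, ht]; ring
    have hbd : β * δ ≠ 0 := mul_ne_zero hβ hδ
    apply hncz t
    constructor
    · have : (β * δ) ^ 2 * dDen β₂ β₄ β₆ t = G1 β₂ β₄ β₆ α β γ δ := by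
        unfold dDen G1; rw [hα, hγ]; ring
      rw [hG1] at this
      exact (mul_eq_zero.mp this).resolve_left (pow_ne_zero 2 hbd)
    · have : (β * δ) ^ 2 * dNum β₄ β₆ β₈ t = G2 β₄ β₆ β₈ α β γ δ := by
        unfold dNum G2; rw [hα, hγ]; ring
      rw [hG2] at this
      exact (mul_eq_zero.mp this).resolve_left (pow_ne_zero 2 hbd)

/-- the symmetric-function forms have no common zero -/
theorem ncz_sym {σ₁ σ₂ τ₁ τ₂ : F} (h1 : σ₁ ≠ 0 ∨ σ₂ ≠ 0) (h2 : τ₁ ≠ 0 ∨ τ₂ ≠ 0) :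
    σ₂ * τ₂ ≠ 0 ∨ σ₁ * τ₂ + σ₂ * τ₁ ≠ 0 ∨ σ₁ * τ₁ ≠ 0 := by
  by_contra hcon
  push Not at hcon
  obtain ⟨h0, hs, hp⟩ := hcon
  rcases mul_eq_zero.mp h0 with h | h
  · have hσ₁ : σ₁ ≠ 0 := h1.resolve_right (not_not.mpr h)
    have hτ₁ : τ₁ = 0 := (mul_eq_zero.mp hp).resolve_left hσ₁
    have hτ₂ : τ₂ ≠ 0 := h2.resolve_left (not_not.mpr hτ₁)
    rw [h, hτ₁] at hs
    simp at hs
    exact hs.elim hσ₁ hτ₂
  · have hτ₁ : τ₁ ≠ 0 := h2.resolve_right (not_not.mpr h)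
    have hσ₁ : σ₁ = 0 := (mul_eq_zero.mp hp).resolve_right hτ₁
    have hσ₂ : σ₂ ≠ 0 := h1.resolve_left (not_not.mpr hσ₁)
    rw [h, hσ₁] at hs
    simp at hs
    exact hs.elim hσ₂ hτ₁

/-! ## polynomial forms -/

/-- polynomial version of `G0` -/
def PG0 (a b c e : F[X]) : F[X] := (a * e - b * c) * (a * e - b * c)

/-- polynomial version of `G1` -/
def PG1 (β₂ β₄ β₆ : F) (a b c e : F[X]) : F[X] :=
  C 2 * ((a * c) * (a * e + b * c)) + C β₂ * ((a * c) * (b * e)) +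
    C β₄ * ((a * e + b * c) * (b * e)) + C β₆ * ((b * e) * (b * e))

/-- polynomial version of `G2` -/
def PG2 (β₄ β₆ β₈ : F) (a b c e : F[X]) : F[X] :=
  (a * c) * (a * c) - C β₄ * ((a * c) * (b * e)) - C β₆ * ((a * e + b * c) * (b * e)) -
    C β₈ * ((b * e) * (b * e))

lemma eval_PG0 (x : F) (a b c e : F[X]) :
    (PG0 a b c e).eval x = G0 (a.eval x) (b.eval x) (c.eval x) (e.eval x) := by
  simp [PG0, G0]

lemma eval_PG1 (β₂ β₄ β₆ x : F) (a b c e : F[X]) :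
    (PG1 β₂ β₄ β₆ a b c e).eval x = G1 β₂ β₄ β₆ (a.eval x) (b.eval x) (c.eval x) (e.eval x) := by
  simp [PG1, G1]

lemma eval_PG2 (β₄ β₆ β₈ x : F) (a b c e : F[X]) :
    (PG2 β₄ β₆ β₈ a b c e).eval x = G2 β₄ β₆ β₈ (a.eval x) (b.eval x) (c.eval x) (e.eval x) := by
  simp [PG2, G2]

section Top

variable {a b c e : F[X]} {m n : ℕ}

private lemma nd_mul (ha : a.natDegree ≤ m) (hc : c.natDegree ≤ n) : (a * c).natDegree ≤ m + n :=
  natDegree_mul_le_of_le ha hc

private lemma cf_mul (ha : a.natDegree ≤ m) (hc : c.natDegree ≤ n) :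
    (a * c).coeff (m + n) = a.coeff m * c.coeff n :=
  coeff_mul_add_eq_of_natDegree_le ha hc

lemma natDegree_PG0_le (ha : a.natDegree ≤ m) (hb : b.natDegree ≤ m) (hc : c.natDegree ≤ n)
    (he : e.natDegree ≤ n) : (PG0 a b c e).natDegree ≤ (m + n) + (m + n) := by
  unfold PG0
  have h : (a * e - b * c).natDegree ≤ m + n :=
    (natDegree_sub_le_of_le (nd_mul ha he) (nd_mul hb hc)).trans (by simp)
  exact natDegree_mul_le_of_le h h

lemma coeff_PG0 (ha : a.natDegree ≤ m) (hb : b.natDegree ≤ m) (hc : c.natDegree ≤ n)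
    (he : e.natDegree ≤ n) :
    (PG0 a b c e).coeff ((m + n) + (m + n)) = G0 (a.coeff m) (b.coeff m) (c.coeff n) (e.coeff n) := by
  unfold PG0 G0
  have h : (a * e - b * c).natDegree ≤ m + n :=
    (natDegree_sub_le_of_le (nd_mul ha he) (nd_mul hb hc)).trans (by simp)
  rw [coeff_mul_add_eq_of_natDegree_le h h, coeff_sub, cf_mul ha he, cf_mul hb hc]

lemma natDegree_PG1_le (β₂ β₄ β₆ : F) (ha : a.natDegree ≤ m) (hb : b.natDegree ≤ m)
    (hc : c.natDegree ≤ n) (he : e.natDegree ≤ n) :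
    (PG1 β₂ β₄ β₆ a b c e).natDegree ≤ (m + n) + (m + n) := by
  unfold PG1
  have hs : (a * e + b * c).natDegree ≤ m + n :=
    natDegree_add_le_of_degree_le (nd_mul ha he) (nd_mul hb hc)
  have hC : ∀ (κ : F) (p : F[X]), p.natDegree ≤ (m + n) + (m + n) →
      (C κ * p).natDegree ≤ (m + n) + (m + n) := fun κ p hp => (natDegree_C_mul_le _ _).trans hp
  refine natDegree_add_le_of_degree_le (natDegree_add_le_of_degree_le
    (natDegree_add_le_of_degree_le ?_ ?_) ?_) ?_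
  · exact hC _ _ (natDegree_mul_le_of_le (nd_mul ha hc) hs)
  · exact hC _ _ (natDegree_mul_le_of_le (nd_mul ha hc) (nd_mul hb he))
  · exact hC _ _ (natDegree_mul_le_of_le hs (nd_mul hb he))
  · exact hC _ _ (natDegree_mul_le_of_le (nd_mul hb he) (nd_mul hb he))

lemma coeff_PG1 (β₂ β₄ β₆ : F) (ha : a.natDegree ≤ m) (hb : b.natDegree ≤ m)
    (hc : c.natDegree ≤ n) (he : e.natDegree ≤ n) :
    (PG1 β₂ β₄ β₆ a b c e).coeff ((m + n) + (m + n)) =
      G1 β₂ β₄ β₆ (a.coeff m) (b.coeff m) (c.coeff n) (e.coeff n) := by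
  unfold PG1 G1
  have hs : (a * e + b * c).natDegree ≤ m + n :=
    natDegree_add_le_of_degree_le (nd_mul ha he) (nd_mul hb hc)
  have hsc : (a * e + b * c).coeff (m + n) = a.coeff m * e.coeff n + b.coeff m * c.coeff n := by
    rw [coeff_add, cf_mul ha he, cf_mul hb hc]
  simp only [coeff_add, coeff_C_mul]
  rw [coeff_mul_add_eq_of_natDegree_le (nd_mul ha hc) hs,
    coeff_mul_add_eq_of_natDegree_le (nd_mul ha hc) (nd_mul hb he),
    coeff_mul_add_eq_of_natDegree_le hs (nd_mul hb he),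
    coeff_mul_add_eq_of_natDegree_le (nd_mul hb he) (nd_mul hb he),
    hsc, cf_mul ha hc, cf_mul hb he]

lemma natDegree_PG2_le (β₄ β₆ β₈ : F) (ha : a.natDegree ≤ m) (hb : b.natDegree ≤ m)
    (hc : c.natDegree ≤ n) (he : e.natDegree ≤ n) :
    (PG2 β₄ β₆ β₈ a b c e).natDegree ≤ (m + n) + (m + n) := by
  unfold PG2
  have hs : (a * e + b * c).natDegree ≤ m + n :=
    natDegree_add_le_of_degree_le (nd_mul ha he) (nd_mul hb hc)
  have hC : ∀ (κ : F) (p : F[X]), p.natDegree ≤ (m + n) + (m + n) →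
      (C κ * p).natDegree ≤ (m + n) + (m + n) := fun κ p hp => (natDegree_C_mul_le _ _).trans hp
  have hsub : ∀ p q : F[X], p.natDegree ≤ (m + n) + (m + n) → q.natDegree ≤ (m + n) + (m + n) →
      (p - q).natDegree ≤ (m + n) + (m + n) := fun p q hp hq =>
    (natDegree_sub_le_of_le hp hq).trans (by simp)
  have t1 : ((a * c) * (a * c)).natDegree ≤ (m + n) + (m + n) :=
    natDegree_mul_le_of_le (nd_mul ha hc) (nd_mul ha hc)
  have t2 := hC β₄ _ (natDegree_mul_le_of_le (nd_mul ha hc) (nd_mul hb he))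
  have t3 := hC β₆ _ (natDegree_mul_le_of_le hs (nd_mul hb he))
  have t4 := hC β₈ _ (natDegree_mul_le_of_le (nd_mul hb he) (nd_mul hb he))
  exact hsub _ _ (hsub _ _ (hsub _ _ t1 t2) t3) t4

lemma coeff_PG2 (β₄ β₆ β₈ : F) (ha : a.natDegree ≤ m) (hb : b.natDegree ≤ m)
    (hc : c.natDegree ≤ n) (he : e.natDegree ≤ n) :
    (PG2 β₄ β₆ β₈ a b c e).coeff ((m + n) + (m + n)) =
      G2 β₄ β₆ β₈ (a.coeff m) (b.coeff m) (c.coeff n) (e.coeff n) := by
  unfold PG2 G2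
  have hs : (a * e + b * c).natDegree ≤ m + n :=
    natDegree_add_le_of_degree_le (nd_mul ha he) (nd_mul hb hc)
  have hsc : (a * e + b * c).coeff (m + n) = a.coeff m * e.coeff n + b.coeff m * c.coeff n := by
    rw [coeff_add, cf_mul ha he, cf_mul hb hc]
  simp only [coeff_sub, coeff_C_mul]
  rw [coeff_mul_add_eq_of_natDegree_le (nd_mul ha hc) (nd_mul ha hc),
    coeff_mul_add_eq_of_natDegree_le (nd_mul ha hc) (nd_mul hb he),
    coeff_mul_add_eq_of_natDegree_le hs (nd_mul hb he),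
    coeff_mul_add_eq_of_natDegree_le (nd_mul hb he) (nd_mul hb he),
    hsc, cf_mul ha hc, cf_mul hb he]

end Top

end Fermat.Agent.EC.H75

end
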