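import Mathlib
import Fermat.Agent.EC.H75_DegLemma

/-!
# Degrees of rational functions and the parallelogram identity (project EC, helper75)

`rdeg r = max (natDegree num) (natDegree denom)`.  Main result `rdeg_add_rdeg`:
if `s + t` and `s * t` are given by the `x`-only sum/product formulas in `u₁ ≠ u₂`, then
`rdeg s + rdeg t = 2 * rdeg u₁ + 2 * rdeg u₂`.
-/

set_option autoImplicit false

noncomputable section

namespace Fermat.Agent.EC.H75

open Polynomial

variable {F : Type*} [Field F]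

/-- degree of a rational function as a map `P¹ → P¹` -/
def rdeg (r : RatFunc F) : ℕ := max r.num.natDegree r.denom.natDegree

lemma num_natDegree_le_rdeg (r : RatFunc F) : r.num.natDegree ≤ rdeg r := le_max_left _ _

lemma denom_natDegree_le_rdeg (r : RatFunc F) : r.denom.natDegree ≤ rdeg r := le_max_right _ _

lemma coeff_rdeg_ne_zero (r : RatFunc F) :
    r.num.coeff (rdeg r) ≠ 0 ∨ r.denom.coeff (rdeg r) ≠ 0 := by
  unfold rdeg
  rcases le_total r.num.natDegree r.denom.natDegree with h | h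
  · right
    rw [max_eq_right h, coeff_natDegree]
    exact leadingCoeff_ne_zero.mpr r.denom_ne_zero
  · rcases eq_or_lt_of_le h with h' | h'
    · right
      rw [max_eq_left h, ← h', coeff_natDegree]
      exact leadingCoeff_ne_zero.mpr r.denom_ne_zero
    · left
      rw [max_eq_left h, coeff_natDegree]
      apply leadingCoeff_ne_zero.mpr
      intro h0
      rw [h0, natDegree_zero] at h'
      exact absurd h' (Nat.not_lt_zero _)

lemma eval_num_or_denom_ne_zero (r : RatFunc F) (x : F) :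
    r.num.eval x ≠ 0 ∨ r.denom.eval x ≠ 0 := by
  obtain ⟨p, q, hpq⟩ := r.isCoprime_num_denom
  by_contra hcon
  push Not at hcon
  have := congrArg (eval x) hpq
  simp [hcon.1, hcon.2] at this

/-- in a domain, proportionality against a nonzero entry gives full proportionality -/
lemma prop_of_prop_zero {R : Type*} [CommRing R] [IsDomain R] {ι : Type*} {A B : ι → R} (i₀ : ι)
    (hA : A i₀ ≠ 0) (h : ∀ j, A i₀ * B j = A j * B i₀) : ∀ i j, A i * B j = A j * B i := by
  intro i j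
  apply mul_left_cancel₀ hA
  calc A i₀ * (A i * B j) = A i * (A i₀ * B j) := by ring
    _ = A i * (A j * B i₀) := by rw [h j]
    _ = A j * (A i * B i₀) := by ring
    _ = A j * (A i₀ * B i) := by rw [h i]
    _ = A i₀ * (A j * B i) := by ring

variable [IsAlgClosed F]

/-- **Degree lemma.** -/
theorem rdeg_add_rdeg {β₂ β₄ β₆ β₈ : F}
    (hncz : ∀ t : F, ¬ (dDen β₂ β₄ β₆ t = 0 ∧ dNum β₄ β₆ β₈ t = 0))
    {u₁ u₂ s t : RatFunc F} (hne : u₁ ≠ u₂)
    (hsum : (s + t) * (u₁ - u₂) ^ 2 =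
      2 * ((u₁ * u₂) * (u₁ + u₂)) + RatFunc.C β₂ * (u₁ * u₂) + RatFunc.C β₄ * (u₁ + u₂) +
        RatFunc.C β₆)
    (hprod : s * t * (u₁ - u₂) ^ 2 =
      (u₁ * u₂) ^ 2 - RatFunc.C β₄ * (u₁ * u₂) - RatFunc.C β₆ * (u₁ + u₂) - RatFunc.C β₈) :
    rdeg s + rdeg t = 2 * rdeg u₁ + 2 * rdeg u₂ := by
  set a := u₁.num with ha
  set b := u₁.denom with hb
  set c := u₂.num with hc
  set e := u₂.denom with he
  set s₁ := s.num with hs₁
  set s₂ := s.denom with hs₂
  set t₁ := t.num with ht₁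
  set t₂ := t.denom with ht₂
  set m := rdeg u₁ with hm
  set n := rdeg u₂ with hn
  set d₁ := rdeg s with hd₁
  set d₂ := rdeg t with hd₂
  let φ := algebraMap F[X] (RatFunc F)
  have hφb : φ b ≠ 0 := RatFunc.algebraMap_ne_zero u₁.denom_ne_zero
  have hφe : φ e ≠ 0 := RatFunc.algebraMap_ne_zero u₂.denom_ne_zero
  have hφs₂ : φ s₂ ≠ 0 := RatFunc.algebraMap_ne_zero s.denom_ne_zero
  have hφt₂ : φ t₂ ≠ 0 := RatFunc.algebraMap_ne_zero t.denom_ne_zero
  have hu₁ : φ a = u₁ * φ b := by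
    have := u₁.num_div_denom
    rw [div_eq_iff hφb] at this
    exact this
  have hu₂ : φ c = u₂ * φ e := by
    have := u₂.num_div_denom
    rw [div_eq_iff hφe] at this
    exact this
  have hs : φ s₁ = s * φ s₂ := by
    have := s.num_div_denom
    rw [div_eq_iff hφs₂] at this
    exact this
  have ht : φ t₁ = t * φ t₂ := by
    have := t.num_div_denom
    rw [div_eq_iff hφt₂] at this
    exact this
  -- the two tuples
  let A : Fin 3 → F[X] := ![PG0 a b c e, PG1 β₂ β₄ β₆ a b c e, PG2 β₄ β₆ β₈ a b c e]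
  let B : Fin 3 → F[X] := ![s₂ * t₂, s₁ * t₂ + s₂ * t₁, s₁ * t₁]
  have hφC : ∀ κ : F, φ (C κ) = RatFunc.C κ := fun κ => RatFunc.algebraMap_C κ
  -- proportionality
  have hA0 : A 0 ≠ 0 := by
    show PG0 a b c e ≠ 0
    unfold PG0
    intro h0
    have h1 : a * e - b * c = 0 := mul_self_eq_zero.mp h0
    have h2 : φ a * φ e = φ b * φ c := by
      rw [← map_mul, ← map_mul]; congr 1; linear_combination h1
    apply hne
    have : u₁ * (φ b * φ e) = u₂ * (φ b * φ e) := by
      rw [hu₁, hu₂] at h2; linear_combination h2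
    exact mul_right_cancel₀ (mul_ne_zero hφb hφe) this
  have hprop0 : ∀ j, A 0 * B j = A j * B 0 := by
    intro j
    apply RatFunc.algebraMap_injective F
    fin_cases j
    · show φ (PG0 a b c e * (s₂ * t₂)) = φ (PG0 a b c e * (s₂ * t₂))
      rfl
    · show φ (PG0 a b c e * (s₁ * t₂ + s₂ * t₁)) = φ (PG1 β₂ β₄ β₆ a b c e * (s₂ * t₂))
      have h2 : (RatFunc.C (2 : F) : RatFunc F) = 2 := map_ofNat _ 2
      simp only [PG0, PG1, map_mul, map_add, map_sub, hφC, hu₁, hu₂, hs, ht, h2]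
      linear_combination (φ b) ^ 2 * (φ e) ^ 2 * φ s₂ * φ t₂ * hsum
    · show φ (PG0 a b c e * (s₁ * t₁)) = φ (PG2 β₄ β₆ β₈ a b c e * (s₂ * t₂))
      simp only [PG0, PG2, map_mul, map_add, map_sub, hφC, hu₁, hu₂, hs, ht]
      linear_combination (φ b) ^ 2 * (φ e) ^ 2 * φ s₂ * φ t₂ * hprod
  have hprop := prop_of_prop_zero (A := A) (B := B) 0 hA0 hprop0
  -- degree data
  have ham : a.natDegree ≤ m := num_natDegree_le_rdeg u₁
  have hbm : b.natDegree ≤ m := denom_natDegree_le_rdeg u₁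
  have hcn : c.natDegree ≤ n := num_natDegree_le_rdeg u₂
  have hen : e.natDegree ≤ n := denom_natDegree_le_rdeg u₂
  -- primitivity of A
  have hAtop : Ideal.span (Set.range A) = ⊤ := by
    apply span_eq_top_of_no_common_root
    intro x
    rcases ncz_G hncz (eval_num_or_denom_ne_zero u₁ x) (eval_num_or_denom_ne_zero u₂ x) with h | h | h
    · exact ⟨0, by show (PG0 a b c e).eval x ≠ 0; rw [eval_PG0]; exact h⟩
    · exact ⟨1, by show (PG1 β₂ β₄ β₆ a b c e).eval x ≠ 0; rw [eval_PG1]; exact h⟩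
    · exact ⟨2, by show (PG2 β₄ β₆ β₈ a b c e).eval x ≠ 0; rw [eval_PG2]; exact h⟩
  have hAh : HasHeight A ((m + n) + (m + n)) := by
    refine ⟨fun i => ?_, ?_⟩
    · fin_cases i
      · exact natDegree_PG0_le ham hbm hcn hen
      · exact natDegree_PG1_le β₂ β₄ β₆ ham hbm hcn hen
      · exact natDegree_PG2_le β₄ β₆ β₈ ham hbm hcn hen
    · rcases ncz_G hncz (coeff_rdeg_ne_zero u₁) (coeff_rdeg_ne_zero u₂) with h | h | h
      · exact ⟨0, by show (PG0 a b c e).coeff _ ≠ 0; rw [coeff_PG0 ham hbm hcn hen]; exact h⟩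
      · exact ⟨1, by
          show (PG1 β₂ β₄ β₆ a b c e).coeff _ ≠ 0
          rw [coeff_PG1 β₂ β₄ β₆ ham hbm hcn hen]; exact h⟩
      · exact ⟨2, by
          show (PG2 β₄ β₆ β₈ a b c e).coeff _ ≠ 0
          rw [coeff_PG2 β₄ β₆ β₈ ham hbm hcn hen]; exact h⟩
  -- primitivity of B
  have hs₁d : s₁.natDegree ≤ d₁ := num_natDegree_le_rdeg s
  have hs₂d : s₂.natDegree ≤ d₁ := denom_natDegree_le_rdeg s
  have ht₁d : t₁.natDegree ≤ d₂ := num_natDegree_le_rdeg t
  have ht₂d : t₂.natDegree ≤ d₂ := denom_natDegree_le_rdeg t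
  have hBtop : Ideal.span (Set.range B) = ⊤ := by
    apply span_eq_top_of_no_common_root
    intro x
    rcases ncz_sym (eval_num_or_denom_ne_zero s x) (eval_num_or_denom_ne_zero t x) with h | h | h
    · exact ⟨0, by show (s₂ * t₂).eval x ≠ 0; rw [eval_mul]; exact h⟩
    · exact ⟨1, by
        show (s₁ * t₂ + s₂ * t₁).eval x ≠ 0
        rw [eval_add, eval_mul, eval_mul]; exact h⟩
    · exact ⟨2, by show (s₁ * t₁).eval x ≠ 0; rw [eval_mul]; exact h⟩
  have hBh : HasHeight B (d₁ + d₂) := by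
    refine ⟨fun i => ?_, ?_⟩
    · fin_cases i
      · exact natDegree_mul_le_of_le hs₂d ht₂d
      · exact natDegree_add_le_of_degree_le (natDegree_mul_le_of_le hs₁d ht₂d)
          (natDegree_mul_le_of_le hs₂d ht₁d)
      · exact natDegree_mul_le_of_le hs₁d ht₁d
    · rcases ncz_sym (coeff_rdeg_ne_zero s) (coeff_rdeg_ne_zero t) with h | h | h
      · exact ⟨0, by
          show (s₂ * t₂).coeff _ ≠ 0
          rw [coeff_mul_add_eq_of_natDegree_le hs₂d ht₂d]; exact h⟩
      · exact ⟨1, by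
          show (s₁ * t₂ + s₂ * t₁).coeff _ ≠ 0
          rw [coeff_add, coeff_mul_add_eq_of_natDegree_le hs₁d ht₂d,
            coeff_mul_add_eq_of_natDegree_le hs₂d ht₁d]; exact h⟩
      · exact ⟨2, by
          show (s₁ * t₁).coeff _ ≠ 0
          rw [coeff_mul_add_eq_of_natDegree_le hs₁d ht₁d]; exact h⟩
  have := height_eq_of_prop hAtop hBtop hprop hAh hBh
  omega

end Fermat.Agent.EC.H75

end
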