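import Mathlib
import Fermat.Agent.EC.H75_RDeg

/-!
# Degree of a composite rational function (project EC, helper75)

`rdeg_comp`: if `nn, mm` are polynomials without common root, `D` is their height, and
`v * mm(u) = nn(u)` with `mm(u) ≠ 0`, then `rdeg v = D * rdeg u`.
-/

set_option autoImplicit false

noncomputable section

namespace Fermat.Agent.EC.H75

open Polynomial

variable {F : Type*} [Field F]

/-- homogenisation of `p` at level `D`, evaluated at scalars -/
def hForm (D : ℕ) (p : F[X]) (α β : F) : F :=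
  ∑ i ∈ Finset.range (D + 1), p.coeff i * (α ^ i * β ^ (D - i))

/-- homogenisation of `p` at level `D`, evaluated at polynomials -/
def hPoly (D : ℕ) (p a b : F[X]) : F[X] :=
  ∑ i ∈ Finset.range (D + 1), C (p.coeff i) * (a ^ i * b ^ (D - i))

lemma eval_hPoly (D : ℕ) (p a b : F[X]) (x : F) :
    (hPoly D p a b).eval x = hForm D p (a.eval x) (b.eval x) := by
  simp [hPoly, hForm, eval_finsetSum]

lemma hForm_of_ne_zero {D : ℕ} {p : F[X]} (hp : p.natDegree ≤ D) (α : F) {β : F} (hβ : β ≠ 0) :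
    hForm D p α β = β ^ D * p.eval (α / β) := by
  unfold hForm
  rw [eval_eq_sum_range' (Nat.lt_succ_of_le hp), Finset.mul_sum]
  apply Finset.sum_congr rfl
  intro i hi
  have hiD : i ≤ D := Nat.lt_succ_iff.mp (Finset.mem_range.mp hi)
  have : β ^ D = β ^ i * β ^ (D - i) := by rw [← pow_add, Nat.add_sub_cancel' hiD]
  rw [this, div_pow]
  field_simp

lemma hForm_zero_right (D : ℕ) (p : F[X]) (α : F) : hForm D p α 0 = p.coeff D * α ^ D := by
  unfold hForm
  rw [Finset.sum_eq_single D]
  · simp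
  · intro i hi hne
    have hiD : i ≤ D := Nat.lt_succ_iff.mp (Finset.mem_range.mp hi)
    have : D - i ≠ 0 := Nat.sub_ne_zero_of_lt (lt_of_le_of_ne hiD hne)
    simp [zero_pow this]
  · intro h
    exact absurd (Finset.mem_range.mpr (Nat.lt_succ_self D)) h

/-- no common zero of the homogenised pair -/
theorem ncz_hForm {D : ℕ} {nn mm : F[X]} (hn : nn.natDegree ≤ D) (hm : mm.natDegree ≤ D)
    (hroot : ∀ x : F, nn.eval x ≠ 0 ∨ mm.eval x ≠ 0)
    (htop : nn.coeff D ≠ 0 ∨ mm.coeff D ≠ 0) {α β : F} (h : α ≠ 0 ∨ β ≠ 0) :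
    hForm D nn α β ≠ 0 ∨ hForm D mm α β ≠ 0 := by
  by_cases hβ : β = 0
  · have hα : α ≠ 0 := h.resolve_right (not_not.mpr hβ)
    rw [hβ, hForm_zero_right, hForm_zero_right]
    rcases htop with h1 | h1
    · exact Or.inl (mul_ne_zero h1 (pow_ne_zero _ hα))
    · exact Or.inr (mul_ne_zero h1 (pow_ne_zero _ hα))
  · rw [hForm_of_ne_zero hn α hβ, hForm_of_ne_zero hm α hβ]
    rcases hroot (α / β) with h1 | h1
    · exact Or.inl (mul_ne_zero (pow_ne_zero _ hβ) h1)
    · exact Or.inr (mul_ne_zero (pow_ne_zero _ hβ) h1)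

lemma natDegree_hPoly_le {D e : ℕ} (p : F[X]) {a b : F[X]} (ha : a.natDegree ≤ e)
    (hb : b.natDegree ≤ e) : (hPoly D p a b).natDegree ≤ D * e := by
  unfold hPoly
  apply natDegree_sum_le_of_forall_le
  intro i hi
  have hiD : i ≤ D := Nat.lt_succ_iff.mp (Finset.mem_range.mp hi)
  refine (natDegree_C_mul_le _ _).trans ?_
  have h1 : (a ^ i).natDegree ≤ i * e := natDegree_pow_le_of_le i ha
  have h2 : (b ^ (D - i)).natDegree ≤ (D - i) * e := natDegree_pow_le_of_le (D - i) hb
  have := natDegree_mul_le_of_le h1 h2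
  have harith : i * e + (D - i) * e = D * e := by
    rw [← Nat.add_mul, Nat.add_sub_cancel' hiD]
  rw [harith] at this
  exact this

lemma coeff_hPoly {D e : ℕ} (p : F[X]) {a b : F[X]} (ha : a.natDegree ≤ e)
    (hb : b.natDegree ≤ e) :
    (hPoly D p a b).coeff (D * e) = hForm D p (a.coeff e) (b.coeff e) := by
  unfold hPoly hForm
  rw [finsetSum_coeff]
  apply Finset.sum_congr rfl
  intro i hi
  have hiD : i ≤ D := Nat.lt_succ_iff.mp (Finset.mem_range.mp hi)
  have h1 : (a ^ i).natDegree ≤ i * e := natDegree_pow_le_of_le i ha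
  have h2 : (b ^ (D - i)).natDegree ≤ (D - i) * e := natDegree_pow_le_of_le (D - i) hb
  have harith : i * e + (D - i) * e = D * e := by
    rw [← Nat.add_mul, Nat.add_sub_cancel' hiD]
  rw [coeff_C_mul, ← harith, coeff_mul_add_eq_of_natDegree_le h1 h2,
    coeff_pow_of_natDegree_le ha, coeff_pow_of_natDegree_le hb]

/-- `hPoly` computes `p(a/b) * b^D` in the field of rational functions -/
lemma algebraMap_hPoly {D : ℕ} {p : F[X]} (hp : p.natDegree ≤ D) (u : RatFunc F) :
    algebraMap F[X] (RatFunc F) (hPoly D p u.num u.denom) =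
      aeval u p * (algebraMap F[X] (RatFunc F) u.denom) ^ D := by
  set φ := algebraMap F[X] (RatFunc F) with hφ
  have hφb : φ u.denom ≠ 0 := RatFunc.algebraMap_ne_zero u.denom_ne_zero
  have hu : φ u.num = u * φ u.denom := by
    have := u.num_div_denom
    rw [div_eq_iff hφb] at this
    exact this
  unfold hPoly
  rw [map_sum, aeval_eq_sum_range' (Nat.lt_succ_of_le hp), Finset.sum_mul]
  apply Finset.sum_congr rfl
  intro i hi
  have hiD : i ≤ D := Nat.lt_succ_iff.mp (Finset.mem_range.mp hi)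
  have hpow : (φ u.denom) ^ D = (φ u.denom) ^ i * (φ u.denom) ^ (D - i) := by
    rw [← pow_add, Nat.add_sub_cancel' hiD]
  rw [map_mul, map_mul, map_pow, map_pow, hu, hpow, RatFunc.algebraMap_C, Algebra.smul_def,
    RatFunc.algebraMap_eq_C, mul_pow]
  ring

variable [IsAlgClosed F]

/-- **Degree of a composite.** -/
theorem rdeg_comp {D : ℕ} {nn mm : F[X]} (hn : nn.natDegree ≤ D) (hm : mm.natDegree ≤ D)
    (hroot : ∀ x : F, nn.eval x ≠ 0 ∨ mm.eval x ≠ 0)
    (htop : nn.coeff D ≠ 0 ∨ mm.coeff D ≠ 0)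
    {u v : RatFunc F} (hne : aeval u mm ≠ 0) (hv : v * aeval u mm = aeval u nn) :
    rdeg v = D * rdeg u := by
  set a := u.num with ha
  set b := u.denom with hb
  set e := rdeg u with he
  set φ := algebraMap F[X] (RatFunc F) with hφ
  have hφb : φ b ≠ 0 := RatFunc.algebraMap_ne_zero u.denom_ne_zero
  have hφv₂ : φ v.denom ≠ 0 := RatFunc.algebraMap_ne_zero v.denom_ne_zero
  have hvv : φ v.num = v * φ v.denom := by
    have := v.num_div_denom
    rw [div_eq_iff hφv₂] at this
    exact this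
  have hae : a.natDegree ≤ e := num_natDegree_le_rdeg u
  have hbe : b.natDegree ≤ e := denom_natDegree_le_rdeg u
  let A : Fin 2 → F[X] := ![hPoly D mm a b, hPoly D nn a b]
  let B : Fin 2 → F[X] := ![v.denom, v.num]
  have hA0 : A 0 ≠ 0 := by
    show hPoly D mm a b ≠ 0
    intro h0
    have := algebraMap_hPoly hm u
    rw [← ha, ← hb, h0, map_zero] at this
    exact (mul_ne_zero hne (pow_ne_zero _ hφb)) this.symm
  have hprop0 : ∀ j, A 0 * B j = A j * B 0 := by
    intro j
    fin_cases j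
    · rfl
    · show hPoly D mm a b * v.num = hPoly D nn a b * v.denom
      apply RatFunc.algebraMap_injective F
      rw [map_mul, map_mul, algebraMap_hPoly hm u, algebraMap_hPoly hn u, ← hφ, hvv, ← hv]
      ring
  have hprop := prop_of_prop_zero (A := A) (B := B) 0 hA0 hprop0
  have hAtop : Ideal.span (Set.range A) = ⊤ := by
    apply span_eq_top_of_no_common_root
    intro x
    rcases ncz_hForm hn hm hroot htop (eval_num_or_denom_ne_zero u x) with h | h
    · exact ⟨1, by show (hPoly D nn a b).eval x ≠ 0; rw [eval_hPoly]; exact h⟩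
    · exact ⟨0, by show (hPoly D mm a b).eval x ≠ 0; rw [eval_hPoly]; exact h⟩
  have hAh : HasHeight A (D * e) := by
    refine ⟨fun i => ?_, ?_⟩
    · fin_cases i
      · exact natDegree_hPoly_le mm hae hbe
      · exact natDegree_hPoly_le nn hae hbe
    · rcases ncz_hForm hn hm hroot htop (coeff_rdeg_ne_zero u) with h | h
      · exact ⟨1, by show (hPoly D nn a b).coeff _ ≠ 0; rw [coeff_hPoly nn hae hbe]; exact h⟩
      · exact ⟨0, by show (hPoly D mm a b).coeff _ ≠ 0; rw [coeff_hPoly mm hae hbe]; exact h⟩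
  have hBtop : Ideal.span (Set.range B) = ⊤ := by
    apply span_eq_top_of_no_common_root
    intro x
    rcases eval_num_or_denom_ne_zero v x with h | h
    · exact ⟨1, h⟩
    · exact ⟨0, h⟩
  have hBh : HasHeight B (rdeg v) := by
    refine ⟨fun i => ?_, ?_⟩
    · fin_cases i
      · exact denom_natDegree_le_rdeg v
      · exact num_natDegree_le_rdeg v
    · rcases coeff_rdeg_ne_zero v with h | h
      · exact ⟨1, h⟩
      · exact ⟨0, h⟩
  exact (height_eq_of_prop hAtop hBtop hprop hAh hBh).symm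

end Fermat.Agent.EC.H75

end
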