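import Mathlib

/-!
# The generic field of a Weierstrass curve as a quadratic extension of `RatFunc F`
(project EC, Hasse–Weil core, helper75)

`GenField F W = RatFunc F [y] / (y² + h y - f)` with `h = a₁ x + a₃`, `f = x³ + a₂ x² + a₄ x + a₆`.
Every element is uniquely `α + β y` with `α β : RatFunc F` (`gc0`, `gc1`).
-/

set_option autoImplicit false

noncomputable section

namespace Fermat.Agent.EC.H75

open Polynomial WeierstrassCurve

open scoped WeierstrassCurve.Affine

variable {k : Type*} [Field k] (F : Type*) [Field F] [Algebra k F] (W : WeierstrassCurve k)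

/-- `h = a₁ X + a₃` over `F` -/
def hPol : F[X] := C ((W⁄F).a₁) * X + C ((W⁄F).a₃)

/-- `f = X³ + a₂ X² + a₄ X + a₆` over `F` -/
def fPol : F[X] := X ^ 3 + C ((W⁄F).a₂) * X ^ 2 + C ((W⁄F).a₄) * X + C ((W⁄F).a₆)

/-- the Weierstrass quadratic in `y` over `RatFunc F` -/
def pY : (RatFunc F)[X] :=
  X ^ 2 + C (algebraMap F[X] (RatFunc F) (hPol F W)) * X -
    C (algebraMap F[X] (RatFunc F) (fPol F W))

lemma pY_eq_map :
    pY F W = ((W⁄F).toAffine.polynomial).map (algebraMap F[X] (RatFunc F)) := by
  unfold pY hPol fPol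
  simp only [Affine.polynomial, Polynomial.map_sub, Polynomial.map_add, Polynomial.map_mul,
    Polynomial.map_pow, Polynomial.map_X, Polynomial.map_C]

lemma pY_monic : (pY F W).Monic := by
  rw [pY_eq_map]
  exact Affine.monic_polynomial.map _

lemma pY_natDegree : (pY F W).natDegree = 2 := by
  rw [pY_eq_map, (Affine.monic_polynomial).natDegree_map]
  exact Affine.natDegree_polynomial

lemma pY_irreducible : Irreducible (pY F W) := by
  rw [pY_eq_map]
  exact (Polynomial.Monic.irreducible_iff_irreducible_map_fraction_map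
    Affine.monic_polynomial).mp Affine.irreducible_polynomial

instance : Fact (Irreducible (pY F W)) := ⟨pY_irreducible F W⟩

/-- the generic field -/
abbrev GenField : Type _ := AdjoinRoot (pY F W)

/-- embedding of rational functions -/
def gOf : RatFunc F →+* GenField F W := AdjoinRoot.of (pY F W)

/-- the generic `y` -/
def gY : GenField F W := AdjoinRoot.root (pY F W)

/-- the generic `x` -/
def gX : GenField F W := gOf F W RatFunc.X

/-- coordinates in the basis `1, y` -/
def gc0 (z : GenField F W) : RatFunc F := (AdjoinRoot.modByMonicHom (pY_monic F W) z).coeff 0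

/-- coordinates in the basis `1, y` -/
def gc1 (z : GenField F W) : RatFunc F := (AdjoinRoot.modByMonicHom (pY_monic F W) z).coeff 1

lemma modByMonicHom_eq (z : GenField F W) :
    AdjoinRoot.modByMonicHom (pY_monic F W) z = C (gc0 F W z) + C (gc1 F W z) * X := by
  obtain ⟨g, rfl⟩ := AdjoinRoot.mk_surjective z
  have hdeg : (g %ₘ pY F W).degree < 2 := by
    have := degree_modByMonic_lt g (pY_monic F W)
    rwa [degree_eq_natDegree (pY_monic F W).ne_zero, pY_natDegree] at this
  have hnd : (g %ₘ pY F W).natDegree ≤ 1 := by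
    by_cases h0 : g %ₘ pY F W = 0
    · simp [h0]
    · have h2 : (g %ₘ pY F W).natDegree < 2 :=
        (natDegree_lt_iff_degree_lt h0).mpr (by exact_mod_cast hdeg)
      omega
  unfold gc0 gc1
  rw [AdjoinRoot.modByMonicHom_mk]
  conv_lhs => rw [Polynomial.eq_X_add_C_of_natDegree_le_one hnd]
  ring

theorem decomp (z : GenField F W) :
    z = gOf F W (gc0 F W z) + gOf F W (gc1 F W z) * gY F W := by
  have h := AdjoinRoot.mk_leftInverse (pY_monic F W) z
  rw [modByMonicHom_eq] at h
  conv_lhs => rw [← h]
  simp [gOf, gY, AdjoinRoot.mk_C, AdjoinRoot.mk_X]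

theorem gc_unique {α β : RatFunc F} :
    gc0 F W (gOf F W α + gOf F W β * gY F W) = α ∧ gc1 F W (gOf F W α + gOf F W β * gY F W) = β := by
  have hz : gOf F W α + gOf F W β * gY F W = AdjoinRoot.mk (pY F W) (C α + C β * X) := by
    simp [gOf, gY, AdjoinRoot.mk_C, AdjoinRoot.mk_X]
  have hdeg : (C α + C β * X : (RatFunc F)[X]).degree < (pY F W).degree := by
    rw [degree_eq_natDegree (pY_monic F W).ne_zero, pY_natDegree]
    refine lt_of_le_of_lt (degree_add_le _ _) ?_
    refine max_lt (lt_of_le_of_lt degree_C_le (by norm_num)) ?_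
    refine lt_of_le_of_lt (degree_C_mul_X_le β) (by norm_num)
  have hmod : (C α + C β * X : (RatFunc F)[X]) %ₘ pY F W = C α + C β * X :=
    (modByMonic_eq_self_iff (pY_monic F W)).mpr hdeg
  unfold gc0 gc1
  rw [hz, AdjoinRoot.modByMonicHom_mk, hmod]
  simp

lemma gc0_gOf (α : RatFunc F) : gc0 F W (gOf F W α) = α := by
  have := (gc_unique F W (α := α) (β := 0)).1
  simpa using this

lemma gc1_gOf (α : RatFunc F) : gc1 F W (gOf F W α) = 0 := by
  have := (gc_unique F W (α := α) (β := 0)).2
  simpa using this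

lemma gOf_injective : Function.Injective (gOf F W) := (gOf F W).injective

/-- the defining relation `y² = f - h y` -/
theorem gY_sq : gY F W ^ 2 =
    gOf F W (algebraMap F[X] (RatFunc F) (fPol F W)) -
      gOf F W (algebraMap F[X] (RatFunc F) (hPol F W)) * gY F W := by
  have h : eval₂ (AdjoinRoot.of (pY F W)) (AdjoinRoot.root (pY F W))
      (X ^ 2 + C (algebraMap F[X] (RatFunc F) (hPol F W)) * X -
        C (algebraMap F[X] (RatFunc F) (fPol F W))) = 0 := AdjoinRoot.eval₂_root (pY F W)
  simp only [eval₂_sub, eval₂_add, eval₂_mul, eval₂_pow, eval₂_X, eval₂_C] at h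
  unfold gY gOf
  linear_combination h

end Fermat.Agent.EC.H75

end
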