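import Mathlib
import Fermat.Agent.EC.H75_GenField
import Fermat.Agent.S05.H67_XF

/-!
# The generic point of a Weierstrass curve (project EC, Hasse–Weil core, helper75)

`genPt : E(GenField F W)`, the coordinate-ring pairs `pq A B = A(x) + B(x) y`, powers of `y`.
-/

set_option autoImplicit false

noncomputable section

namespace Fermat.Agent.EC.H75

open Polynomial WeierstrassCurve

open scoped WeierstrassCurve.Affine

variable {k : Type*} [Field k] (F : Type*) [Field F] [Algebra k F] (W : WeierstrassCurve k)

lemma algebraMap_F_gen (c : F) : algebraMap F (GenField F W) c = gOf F W (RatFunc.C c) := by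
  rw [IsScalarTower.algebraMap_apply F (RatFunc F) (GenField F W), AdjoinRoot.algebraMap_eq]
  rfl

lemma algebraMap_k_gen (a : k) :
    algebraMap k (GenField F W) a = gOf F W (RatFunc.C (algebraMap k F a)) := by
  rw [IsScalarTower.algebraMap_apply k F (GenField F W), algebraMap_F_gen]

/-- polynomials in `x` inside the generic field -/
def gP (A : F[X]) : GenField F W := gOf F W (algebraMap F[X] (RatFunc F) A)

lemma gP_eq_aeval (A : F[X]) : gP F W A = aeval (gX F W) A := by
  unfold gP gX
  induction A using Polynomial.induction_on' with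
  | add p q hp hq => simp only [map_add, hp, hq]
  | monomial n a =>
    rw [← C_mul_X_pow_eq_monomial]
    simp only [map_mul, map_pow, aeval_C, aeval_X, RatFunc.algebraMap_C, RatFunc.algebraMap_X,
      algebraMap_F_gen]

lemma gP_injective : Function.Injective (gP F W) := fun _ _ h =>
  RatFunc.algebraMap_injective F (gOf_injective F W h)

@[simp] lemma gP_add (A B : F[X]) : gP F W (A + B) = gP F W A + gP F W B := by simp [gP]
@[simp] lemma gP_mul (A B : F[X]) : gP F W (A * B) = gP F W A * gP F W B := by simp [gP]
@[simp] lemma gP_sub (A B : F[X]) : gP F W (A - B) = gP F W A - gP F W B := by simp [gP]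
@[simp] lemma gP_neg (A : F[X]) : gP F W (-A) = -gP F W A := by simp [gP]
@[simp] lemma gP_pow (A : F[X]) (n : ℕ) : gP F W (A ^ n) = gP F W A ^ n := by simp [gP]
@[simp] lemma gP_zero : gP F W 0 = 0 := by simp [gP]
@[simp] lemma gP_one : gP F W 1 = 1 := by simp [gP]
@[simp] lemma gP_X : gP F W X = gX F W := by simp [gP, gX]
@[simp] lemma gP_C (c : F) : gP F W (C c) = algebraMap F (GenField F W) c := by
  simp [gP, algebraMap_F_gen]

/-- the defining relation in polynomial form -/
theorem gY_sq' : gY F W ^ 2 = gP F W (fPol F W) - gP F W (hPol F W) * gY F W := gY_sq F W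

/-- Weierstrass equation of the generic point -/
theorem genPt_equation : (W⁄(GenField F W)).toAffine.Equation (gX F W) (gY F W) := by
  rw [Affine.equation_iff]
  have h := gY_sq' F W
  simp only [hPol, fPol, gP_add, gP_mul, gP_pow, gP_X, gP_C] at h
  simp only [WeierstrassCurve.baseChange, WeierstrassCurve.map_a₁, WeierstrassCurve.map_a₂,
    WeierstrassCurve.map_a₃, WeierstrassCurve.map_a₄, WeierstrassCurve.map_a₆] at h ⊢
  simp only [← IsScalarTower.algebraMap_apply k F (GenField F W)] at h
  linear_combination h

end Fermat.Agent.EC.H75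

end
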