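import Mathlib
import Fermat.Agent.EC.H75_GenPoint

/-!
# Field endomorphisms of the generic field and the generic point (project EC, helper75)

* `sigma hx hxy : GenField F W →ₐ[F] GenField F W` sends the generic point to the point `(x, y)`
  (`x` transcendental over `F`).
* `frobPt W K` Frobenius on points, commuting with every `Point.map`.
* `genPt`, `iota` (the hyperelliptic involution), `evenPts` (points `Q` with `ι Q = -Q`).
-/

set_option autoImplicit false

noncomputable section

namespace Fermat.Agent.EC.H75

open Polynomial WeierstrassCurve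

open scoped WeierstrassCurve.Affine

section general

variable {k : Type*} [Field k] [Fintype k] (W : WeierstrassCurve k)

omit [Fintype k] in
lemma some_congr {K : Type*} [Field K] {V : WeierstrassCurve K} {x y x' y' : K}
    (h : V.toAffine.Nonsingular x y) (h' : V.toAffine.Nonsingular x' y') (hx : x = x')
    (hy : y = y') : Affine.Point.some x y h = Affine.Point.some x' y' h' := by
  subst hx hy; rfl

/-- Frobenius on points -/
def frobPt (K : Type*) [Field K] [Algebra k K] [DecidableEq K] : (W⁄K).Point →+ (W⁄K).Point :=
  Affine.Point.map (W' := W) (FiniteField.frobeniusAlgHom k K)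

lemma frobPt_some {K : Type*} [Field K] [Algebra k K] [DecidableEq K] {x y : K}
    (h : (W⁄K).Nonsingular x y) :
    ∃ h', frobPt W K (Affine.Point.some x y h) =
      Affine.Point.some (x ^ Fintype.card k) (y ^ Fintype.card k) h' :=
  ⟨_, rfl⟩

lemma map_frobPt {S K₁ K₂ : Type*} [Field K₁] [Field K₂] [CommRing S] [Algebra k S] [Algebra k K₁]
    [Algebra S K₁] [IsScalarTower k S K₁] [Algebra k K₂] [Algebra S K₂] [IsScalarTower k S K₂]
    [DecidableEq K₁] [DecidableEq K₂] (f : K₁ →ₐ[S] K₂) (P : (W⁄K₁).Point) :
    Affine.Point.map (W' := W) f (frobPt W K₁ P) =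
      frobPt W K₂ (Affine.Point.map (W' := W) f P) := by
  rcases P with _ | ⟨x, y, h⟩
  · rfl
  · obtain ⟨h1, e1⟩ := frobPt_some W h
    rw [e1, Affine.Point.map_some, Affine.Point.map_some]
    obtain ⟨h2, e2⟩ :=
      frobPt_some W ((Affine.baseChange_nonsingular (W := W) f.injective x y).mpr h)
    rw [e2]
    exact some_congr _ _ (map_pow f x _) (map_pow f y _)

omit [Fintype k] in
lemma baseChange_Δ_ne_zero (hΔ : W.Δ ≠ 0) (K : Type*) [Field K] [Algebra k K] : (W⁄K).Δ ≠ 0 := by
  show (W.map (algebraMap k K)).Δ ≠ 0
  rw [WeierstrassCurve.map_Δ]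
  exact (map_ne_zero (algebraMap k K)).mpr hΔ

end general

variable {k : Type*} [Field k] {F : Type*} [Field F] [Algebra k F] {W : WeierstrassCurve k}

/-- the embedding of `RatFunc F` determined by a transcendental element -/
def rLift {x : GenField F W} (hx : Transcendental F x) : RatFunc F →ₐ[F] GenField F W :=
  RatFunc.liftAlgHom (aeval x)
    (nonZeroDivisors_le_comap_nonZeroDivisors_of_injective _
      (transcendental_iff_injective.mp hx))

lemma rLift_apply {x : GenField F W} (hx : Transcendental F x) (r : RatFunc F) :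
    rLift hx r = aeval x r.num / aeval x r.denom :=
  RatFunc.liftAlgHom_apply _ _ r

lemma aeval_ne_zero_of_transcendental {x : GenField F W} (hx : Transcendental F x) {p : F[X]}
    (hp : p ≠ 0) : aeval x p ≠ 0 := fun h => hx ⟨p, hp, h⟩

lemma rLift_algebraMap {x : GenField F W} (hx : Transcendental F x) (p : F[X]) :
    rLift hx (algebraMap F[X] (RatFunc F) p) = aeval x p := by
  have := RatFunc.liftAlgHom_apply_div (aeval x)
    (nonZeroDivisors_le_comap_nonZeroDivisors_of_injective _
      (transcendental_iff_injective.mp hx)) p 1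
  simpa [rLift] using this

lemma equation_iff_gen (x y : GenField F W) :
    (W⁄(GenField F W)).toAffine.Equation x y ↔
      y ^ 2 + aeval x (hPol F W) * y - aeval x (fPol F W) = 0 := by
  rw [Affine.equation_iff]
  simp only [hPol, fPol, map_add, map_mul, map_pow, aeval_X, aeval_C]
  simp only [WeierstrassCurve.baseChange, WeierstrassCurve.map_a₁, WeierstrassCurve.map_a₂,
    WeierstrassCurve.map_a₃, WeierstrassCurve.map_a₄, WeierstrassCurve.map_a₆]
  simp only [← IsScalarTower.algebraMap_apply k F (GenField F W)]
  constructor <;> intro h <;> linear_combination h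

lemma eval₂_pY {T : Type*} [CommRing T] (i : RatFunc F →+* T) (y : T) :
    (pY F W).eval₂ i y = y ^ 2 + i (algebraMap F[X] (RatFunc F) (hPol F W)) * y -
      i (algebraMap F[X] (RatFunc F) (fPol F W)) := by
  simp only [pY, eval₂_sub, eval₂_add, eval₂_mul, eval₂_pow, eval₂_X, eval₂_C]

/-- the `F`-algebra endomorphism of the generic field sending the generic point to `(x, y)` -/
def sigma {x y : GenField F W} (hx : Transcendental F x)
    (hxy : (W⁄(GenField F W)).toAffine.Equation x y) : GenField F W →ₐ[F] GenField F W :=
  AdjoinRoot.liftAlgHom (pY F W) (rLift hx) y (by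
    have h := (equation_iff_gen x y).mp hxy
    rw [eval₂_pY]
    rw [show ((rLift hx : RatFunc F →ₐ[F] GenField F W) : RatFunc F →+* GenField F W)
        (algebraMap F[X] (RatFunc F) (hPol F W)) = aeval x (hPol F W) from rLift_algebraMap hx _,
      show ((rLift hx : RatFunc F →ₐ[F] GenField F W) : RatFunc F →+* GenField F W)
        (algebraMap F[X] (RatFunc F) (fPol F W)) = aeval x (fPol F W) from rLift_algebraMap hx _]
    exact h)

section sigmaLemmas

variable {x y : GenField F W} (hx : Transcendental F x)
    (hxy : (W⁄(GenField F W)).toAffine.Equation x y)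

@[simp] lemma sigma_gY : sigma hx hxy (gY F W) = y := by
  unfold sigma gY
  exact AdjoinRoot.liftAlgHom_root _ _ _ _

lemma sigma_gOf (r : RatFunc F) : sigma hx hxy (gOf F W r) = rLift hx r := by
  unfold sigma gOf
  exact AdjoinRoot.liftAlgHom_of _ _ _ _ _

@[simp] lemma sigma_gP (p : F[X]) : sigma hx hxy (gP F W p) = aeval x p := by
  unfold gP
  rw [sigma_gOf, rLift_algebraMap]

@[simp] lemma sigma_gX : sigma hx hxy (gX F W) = x := by
  rw [← gP_X, sigma_gP, aeval_X]

/-- the image of `gOf r` under `sigma`, in cross-multiplied form -/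
lemma sigma_gOf_mul (r : RatFunc F) :
    sigma hx hxy (gOf F W r) * aeval x r.denom = aeval x r.num := by
  rw [sigma_gOf, rLift_apply]
  exact div_mul_cancel₀ _ (aeval_ne_zero_of_transcendental hx r.denom_ne_zero)

end sigmaLemmas

variable (F W)

instance instDecEqGenField : DecidableEq (GenField F W) := Classical.decEq _

/-- the generic point -/
def genPt (hΔ : W.Δ ≠ 0) : (W⁄(GenField F W)).Point :=
  Affine.Point.some (gX F W) (gY F W)
    ((Affine.equation_iff_nonsingular_of_Δ_ne_zero (baseChange_Δ_ne_zero W hΔ _)).mp
      (genPt_equation F W))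

lemma gX_transcendental : Transcendental F (gX F W) := by
  rw [transcendental_iff_injective]
  intro p q h
  rw [← gP_eq_aeval, ← gP_eq_aeval] at h
  exact gP_injective F W h

variable {F W}

/-- `sigma` moves the generic point to `(x, y)` -/
lemma map_sigma_genPt (hΔ : W.Δ ≠ 0) {x y : GenField F W} (hx : Transcendental F x)
    (h : (W⁄(GenField F W)).toAffine.Nonsingular x y) :
    Affine.Point.map (W' := W) (sigma hx h.1) (genPt F W hΔ) = Affine.Point.some x y h := by
  unfold genPt
  rw [Affine.Point.map_some]
  exact some_congr _ _ (sigma_gX hx h.1) (sigma_gY hx h.1)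

end Fermat.Agent.EC.H75

end
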