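import Mathlib
import Fermat.Agent.EC.H75_Sigma
import Fermat.Agent.EC.H75_RDeg

/-!
# Even points of the generic fibre and their degree (project EC, helper75)

`iota` is the hyperelliptic involution of `GenField F W`; `evenPts` is the subgroup of points `Q`
with `ι Q = -Q`; such points have `x`-coordinate in `RatFunc F` and `dg Q` is its degree.
-/

set_option autoImplicit false

noncomputable section

namespace Fermat.Agent.EC.H75

open Polynomial WeierstrassCurve

open scoped WeierstrassCurve.Affine

variable {k : Type*} [Field k] {F : Type*} [Field F] [Algebra k F] {W : WeierstrassCurve k}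

lemma negY_gen (x y : GenField F W) :
    (W⁄(GenField F W)).toAffine.negY x y = -y - aeval x (hPol F W) := by
  simp only [Affine.negY, hPol, map_add, map_mul, aeval_X, aeval_C]
  simp only [WeierstrassCurve.baseChange, WeierstrassCurve.map_a₁, WeierstrassCurve.map_a₃]
  simp only [← IsScalarTower.algebraMap_apply k F (GenField F W)]
  ring

variable (F W)

/-- the hyperelliptic involution `y ↦ -y - h` -/
def iota : GenField F W →ₐ[F] GenField F W :=
  sigma (gX_transcendental F W)
    ((Affine.equation_neg (W' := (W⁄(GenField F W)).toAffine) (gX F W) (gY F W)).mpr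
      (genPt_equation F W))

@[simp] lemma iota_gX : iota F W (gX F W) = gX F W := sigma_gX _ _

lemma iota_gY : iota F W (gY F W) = -gY F W - gP F W (hPol F W) := by
  unfold iota
  rw [sigma_gY, negY_gen, gP_eq_aeval]

@[simp] lemma iota_gP (p : F[X]) : iota F W (gP F W p) = gP F W p := by
  unfold iota
  rw [sigma_gP, gP_eq_aeval]

@[simp] lemma iota_gOf (r : RatFunc F) : iota F W (gOf F W r) = gOf F W r := by
  have hd : gP F W r.denom ≠ 0 := fun h =>
    r.denom_ne_zero (gP_injective F W (by rw [h, gP_zero]))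
  have h1 : iota F W (gOf F W r) * gP F W r.denom = gP F W r.num := by
    have := sigma_gOf_mul (gX_transcendental F W)
      ((Affine.equation_neg (W' := (W⁄(GenField F W)).toAffine) (gX F W) (gY F W)).mpr
        (genPt_equation F W)) r
    rw [← gP_eq_aeval, ← gP_eq_aeval] at this
    exact this
  have h2 : gOf F W r * gP F W r.denom = gP F W r.num := by
    unfold gP
    rw [← map_mul]
    congr 1
    have := r.num_div_denom
    rw [div_eq_iff (RatFunc.algebraMap_ne_zero r.denom_ne_zero)] at this
    exact this.symm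
  exact mul_right_cancel₀ hd (h1.trans h2.symm)

lemma iota_apply (z : GenField F W) :
    iota F W z = gOf F W (gc0 F W z - gc1 F W z * algebraMap F[X] (RatFunc F) (hPol F W)) +
      gOf F W (-gc1 F W z) * gY F W := by
  conv_lhs => rw [decomp F W z]
  rw [map_add, map_mul, iota_gOf, iota_gOf, iota_gY]
  simp only [gP, map_sub, map_mul, map_neg]
  ring

/-- `2 ≠ 0` or `h ≠ 0` when the discriminant is nonzero -/
lemma two_ne_zero_or_hPol_ne_zero (hΔ : W.Δ ≠ 0) : (2 : F) ≠ 0 ∨ hPol F W ≠ 0 := by
  by_contra hcon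
  push Not at hcon
  obtain ⟨h2, hh⟩ := hcon
  have ha1 : (W⁄F).a₁ = 0 := by
    have := congrArg (fun p => p.coeff 1) hh
    simpa [hPol] using this
  have ha3 : (W⁄F).a₃ = 0 := by
    have := congrArg (fun p => p.coeff 0) hh
    simpa [hPol] using this
  have h4 : (4 : F) = 0 := by
    have : (4 : F) = 2 * 2 := by norm_num
    rw [this, h2, mul_zero]
  apply baseChange_Δ_ne_zero W hΔ F
  have h8 : (8 : F) = 0 := by
    have : (8 : F) = 2 * 4 := by norm_num
    rw [this, h2, zero_mul]
  have h27 : (27 : F) = 1 := by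
    have : (27 : F) = 2 * 13 + 1 := by norm_num
    rw [this, h2, zero_mul, zero_add]
  have h9 : (9 : F) = 1 := by
    have : (9 : F) = 2 * 4 + 1 := by norm_num
    rw [this, h2, zero_mul, zero_add]
  simp only [WeierstrassCurve.Δ, WeierstrassCurve.b₂, WeierstrassCurve.b₄, WeierstrassCurve.b₆,
    WeierstrassCurve.b₈, ha1, ha3, h4, h8, h2, h27, h9]
  ring

/-- elements fixed by the involution lie in `RatFunc F` -/
lemma eq_gOf_of_iota_eq (hΔ : W.Δ ≠ 0) {z : GenField F W} (hz : iota F W z = z) :
    z = gOf F W (gc0 F W z) := by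
  have h := iota_apply F W z
  rw [hz] at h
  have h0 := congrArg (gc0 F W) h
  have h1 := congrArg (gc1 F W) h
  rw [(gc_unique F W).1] at h0
  rw [(gc_unique F W).2] at h1
  set β := gc1 F W z with hβ
  have hβ0 : β = 0 := by
    rcases two_ne_zero_or_hPol_ne_zero F W hΔ with h2 | hh
    · have h2' : (2 : RatFunc F) ≠ 0 := by
        have : (2 : RatFunc F) = RatFunc.C (2 : F) := (map_ofNat _ 2).symm
        rw [this]
        exact (_root_.map_ne_zero _).mpr h2
      have : 2 * β = 0 := by linear_combination h1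
      exact (mul_eq_zero.mp this).resolve_left h2'
    · have hh' : algebraMap F[X] (RatFunc F) (hPol F W) ≠ 0 := RatFunc.algebraMap_ne_zero hh
      have : β * algebraMap F[X] (RatFunc F) (hPol F W) = 0 := by linear_combination h0
      exact (mul_eq_zero.mp this).resolve_right hh'
  conv_lhs => rw [decomp F W z]
  rw [← hβ, hβ0, map_zero, zero_mul, add_zero]

/-! ## even points -/

variable {F W}

lemma gc0_zero : gc0 F W 0 = 0 := by
  have := gc0_gOf F W (0 : RatFunc F)
  rwa [map_zero] at this

variable (hΔ : W.Δ ≠ 0)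

include hΔ in
lemma map_iota_genPt :
    Affine.Point.map (W' := W) (iota F W) (genPt F W hΔ) = -genPt F W hΔ := by
  unfold iota
  rw [map_sigma_genPt hΔ (gX_transcendental F W)
    ((Affine.nonsingular_neg (W' := (W⁄(GenField F W)).toAffine) (gX F W) (gY F W)).mpr
      ((Affine.equation_iff_nonsingular_of_Δ_ne_zero (baseChange_Δ_ne_zero W hΔ _)).mp
        (genPt_equation F W)))]
  rfl

variable (F W) in
/-- the subgroup of even points: `ι Q = -Q` -/
def evenPts : AddSubgroup (W⁄(GenField F W)).Point :=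
  (Affine.Point.map (W' := W) (iota F W)).eqLocus negAddMonoidHom

lemma mem_evenPts {Q : (W⁄(GenField F W)).Point} :
    Q ∈ evenPts F W ↔ Affine.Point.map (W' := W) (iota F W) Q = -Q := Iff.rfl

include hΔ in
lemma genPt_mem_evenPts : genPt F W hΔ ∈ evenPts F W := map_iota_genPt hΔ

lemma frobPt_mem_evenPts [Fintype k] {Q : (W⁄(GenField F W)).Point} (hQ : Q ∈ evenPts F W) :
    frobPt W (GenField F W) Q ∈ evenPts F W := by
  rw [mem_evenPts] at hQ ⊢
  rw [map_frobPt, hQ, map_neg]

/-- the `x`-coordinate of a point, as a rational function (junk unless the point is even) -/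
def xr (Q : (W⁄(GenField F W)).Point) : RatFunc F :=
  gc0 F W (Fermat.Agent.S05.H67.xCoord (W⁄(GenField F W)) Q)

include hΔ in
lemma xCoord_eq_gOf_xr {Q : (W⁄(GenField F W)).Point} (hQ : Q ∈ evenPts F W) :
    Fermat.Agent.S05.H67.xCoord (W⁄(GenField F W)) Q = gOf F W (xr Q) := by
  rcases Q with _ | ⟨x, y, h⟩
  · show (0 : GenField F W) = gOf F W (gc0 F W 0)
    rw [gc0_zero, map_zero]
  · rw [mem_evenPts, Affine.Point.map_some, Affine.Point.neg_some] at hQ
    have hx : iota F W x = x := (Affine.Point.some.inj hQ).1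
    exact eq_gOf_of_iota_eq F W hΔ hx

/-- the degree of an even point -/
def dg (Q : (W⁄(GenField F W)).Point) : ℕ :=
  open Classical in if Q = 0 then 0 else rdeg (xr Q)

@[simp] lemma dg_zero : dg (0 : (W⁄(GenField F W)).Point) = 0 := by simp [dg]

lemma dg_of_ne_zero {Q : (W⁄(GenField F W)).Point} (hQ : Q ≠ 0) : dg Q = rdeg (xr Q) := by
  simp [dg, hQ]

lemma xr_neg (Q : (W⁄(GenField F W)).Point) : xr (-Q) = xr Q := by
  unfold xr
  rw [Fermat.Agent.S05.H67.xCoord_neg]

@[simp] lemma dg_neg (Q : (W⁄(GenField F W)).Point) : dg (-Q) = dg Q := by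
  unfold dg
  simp only [neg_eq_zero, xr_neg]

lemma dg_sub_comm (Q R : (W⁄(GenField F W)).Point) : dg (Q - R) = dg (R - Q) := by
  rw [← neg_sub, dg_neg]

include hΔ in
lemma xr_genPt : xr (genPt F W hΔ) = RatFunc.X := by
  show gc0 F W (gX F W) = RatFunc.X
  exact gc0_gOf F W RatFunc.X

lemma rdeg_X : rdeg (RatFunc.X : RatFunc F) = 1 := by
  simp [rdeg]

include hΔ in
lemma genPt_ne_zero : genPt F W hΔ ≠ 0 := Affine.Point.some_ne_zero _

include hΔ in
lemma dg_genPt : dg (genPt F W hΔ) = 1 := by
  rw [dg_of_ne_zero (genPt_ne_zero hΔ), xr_genPt hΔ, rdeg_X]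

end Fermat.Agent.EC.H75

end
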