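import Mathlib
import Fermat.Agent.EC.H75_Even

/-!
# Constant points, transcendence, and the no-common-zero condition (project EC, helper75)
-/

set_option autoImplicit false

noncomputable section

namespace Fermat.Agent.EC.H75

open Polynomial WeierstrassCurve

open scoped WeierstrassCurve.Affine

variable {k : Type*} [Field k] {F : Type*} [Field F] [Algebra k F] {W : WeierstrassCurve k}

/-! ## rational functions of degree zero -/

lemma rdeg_C (c : F) : rdeg (RatFunc.C c : RatFunc F) = 0 := by
  simp [rdeg]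

lemma exists_eq_C_of_rdeg_eq_zero {r : RatFunc F} (h : rdeg r = 0) : ∃ c : F, r = RatFunc.C c := by
  have h1 : r.num.natDegree = 0 := Nat.le_zero.mp (h ▸ num_natDegree_le_rdeg r)
  have h2 : r.denom.natDegree = 0 := Nat.le_zero.mp (h ▸ denom_natDegree_le_rdeg r)
  obtain ⟨a, ha⟩ : ∃ a, r.num = C a := ⟨_, eq_C_of_natDegree_eq_zero h1⟩
  obtain ⟨b, hb⟩ : ∃ b, r.denom = C b := ⟨_, eq_C_of_natDegree_eq_zero h2⟩
  refine ⟨a / b, ?_⟩
  rw [← r.num_div_denom, ha, hb, RatFunc.algebraMap_C, RatFunc.algebraMap_C, map_div₀]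

lemma exists_eq_C_of_isAlgebraic {r : RatFunc F} (h : IsAlgebraic F r) :
    ∃ c : F, r = RatFunc.C c := by
  by_contra hcon
  exact (RatFunc.transcendental_of_ne_C r hcon) h

/-! ## transcendence over an algebraically closed field -/

lemma transcendental_of_notMem_range [IsAlgClosed F] {K : Type*} [Field K] [Algebra F K] {x : K}
    (hx : x ∉ (algebraMap F K).range) : Transcendental F x := by
  intro halg
  have hint : IsIntegral F x := halg.isIntegral
  have hdeg := IsAlgClosed.degree_eq_one_of_irreducible F (minpoly.irreducible hint)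
  exact hx (minpoly.mem_range_of_degree_eq_one F x hdeg)

/-! ## points above a given `x` -/

lemma equation_iff_F (x y : F) :
    (W⁄F).toAffine.Equation x y ↔
      y ^ 2 + (hPol F W).eval x * y - (fPol F W).eval x = 0 := by
  rw [Affine.equation_iff]
  simp only [hPol, fPol, eval_add, eval_mul, eval_pow, eval_X, eval_C]
  constructor <;> intro h <;> linear_combination h

lemma exists_y [IsAlgClosed F] (t : F) : ∃ y : F, (W⁄F).toAffine.Equation t y := by
  let p : F[X] := X ^ 2 + C ((hPol F W).eval t) * X - C ((fPol F W).eval t)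
  have hdeg : p.degree ≠ 0 := by
    have : p.degree = 2 := by
      have h1 : (C ((hPol F W).eval t) * X - C ((fPol F W).eval t) : F[X]).degree < 2 := by
        refine lt_of_le_of_lt (degree_sub_le _ _) ?_
        refine max_lt (lt_of_le_of_lt (degree_C_mul_X_le _) (by norm_num))
          (lt_of_le_of_lt degree_C_le (by norm_num))
      have : p = X ^ 2 + (C ((hPol F W).eval t) * X - C ((fPol F W).eval t)) := by
        simp only [p]; ring
      rw [this, degree_add_eq_left_of_degree_lt (by rwa [degree_X_pow]), degree_X_pow]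
      rfl
    rw [this]; norm_num
  obtain ⟨y, hy⟩ := IsAlgClosed.exists_root p hdeg
  refine ⟨y, (equation_iff_F t y).mpr ?_⟩
  have := hy
  simp only [p, IsRoot.def, eval_sub, eval_add, eval_mul, eval_pow, eval_X, eval_C] at this
  exact this

/-- duplication numerator and denominator have no common zero -/
theorem ncz_of_Δ [IsAlgClosed F] (hΔ : W.Δ ≠ 0) (t : F) :
    ¬ (dDen (W⁄F).b₂ (W⁄F).b₄ (W⁄F).b₆ t = 0 ∧ dNum (W⁄F).b₄ (W⁄F).b₆ (W⁄F).b₈ t = 0) := by
  rintro ⟨h1, h2⟩
  obtain ⟨y, hy⟩ := exists_y (W := W) t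
  have hns := (Affine.equation_iff_nonsingular_of_Δ_ne_zero (baseChange_Δ_ne_zero W hΔ F)).mp hy
  have hden := Fermat.Agent.S05.H67.dblDen_eq (W⁄F) hy
  have hkey := Fermat.Agent.S05.H67.dbl_key (W⁄F) hy
  have h1' : Fermat.Agent.S05.H67.dblDen (W⁄F) t = 0 := by
    simpa [Fermat.Agent.S05.H67.dblDen, dDen] using h1
  have h2' : Fermat.Agent.S05.H67.dblNum (W⁄F) t = 0 := by
    simpa [Fermat.Agent.S05.H67.dblNum, dNum] using h2
  rw [h1'] at hden
  have hy0 : y - (W⁄F).toAffine.negY t y = 0 := by
    have := hden.symm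
    exact pow_eq_zero_iff (two_ne_zero) |>.mp this
  rw [h2', hy0] at hkey
  have hx0 : 3 * t ^ 2 + 2 * (W⁄F).a₂ * t + (W⁄F).a₄ - (W⁄F).a₁ * y = 0 := by
    have : (3 * t ^ 2 + 2 * (W⁄F).a₂ * t + (W⁄F).a₄ - (W⁄F).a₁ * y) ^ 2 = 0 := by
      linear_combination hkey
    exact pow_eq_zero_iff (two_ne_zero) |>.mp this
  rw [Affine.nonsingular_iff] at hns
  rcases hns.2 with h | h
  · apply h; linear_combination -hx0
  · apply h
    have : (W⁄F).toAffine.negY t y = -y - (W⁄F).a₁ * t - (W⁄F).a₃ := rfl
    rw [this] at hy0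
    linear_combination hy0

/-! ## constant points -/

section const

variable [DecidableEq F]

variable (F W) in
/-- the subgroup of constant points (defined over `F`) of the generic fibre -/
def constPts : AddSubgroup (W⁄(GenField F W)).Point :=
  (Affine.Point.map (W' := W) (Algebra.ofId F (GenField F W))).range

lemma mem_constPts {Q : (W⁄(GenField F W)).Point} :
    Q ∈ constPts F W ↔ ∃ P : (W⁄F).Point,
      Affine.Point.map (W' := W) (Algebra.ofId F (GenField F W)) P = Q := Iff.rfl

lemma map_eq_of_mem_constPts (f : GenField F W →ₐ[F] GenField F W)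
    {Q : (W⁄(GenField F W)).Point} (hQ : Q ∈ constPts F W) :
    Affine.Point.map (W' := W) f Q = Q := by
  obtain ⟨P, rfl⟩ := hQ
  exact Affine.Point.map_baseChange (W' := W) f P

lemma frobPt_mem_constPts [Fintype k] {Q : (W⁄(GenField F W)).Point} (hQ : Q ∈ constPts F W) :
    frobPt W (GenField F W) Q ∈ constPts F W := by
  obtain ⟨P, rfl⟩ := hQ
  exact ⟨frobPt W F P, map_frobPt W _ P⟩

lemma some_mem_constPts [IsAlgClosed F] {x y : GenField F W}
    (h : (W⁄(GenField F W)).toAffine.Nonsingular x y)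
    (hx : x ∈ (algebraMap F (GenField F W)).range) :
    Affine.Point.some x y h ∈ constPts F W := by
  obtain ⟨c, rfl⟩ := hx
  obtain ⟨η, hη⟩ := exists_y (W := W) c
  have hη' := (equation_iff_F c η).mp hη
  have hy := (equation_iff_gen _ y).mp h.1
  rw [aeval_algebraMap_apply, aeval_algebraMap_apply] at hy
  simp only [coe_aeval_eq_eval] at hy
  set A := algebraMap F (GenField F W) with hA
  have hprod : (y - A η) * (y - A (-η - (hPol F W).eval c)) = 0 := by
    have e := congrArg A hη'
    simp only [map_sub, map_add, map_mul, map_pow, map_zero, map_neg] at e ⊢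
    linear_combination hy - e
  have key : ∀ η₀ : F, y = A η₀ → Affine.Point.some (A c) y h ∈ constPts F W := by
    intro η₀ hy0
    subst hy0
    have hns : (W⁄F).toAffine.Nonsingular c η₀ :=
      (Affine.baseChange_nonsingular (W := W) (Algebra.ofId F (GenField F W)).injective c η₀).mp h
    exact ⟨Affine.Point.some c η₀ hns, rfl⟩
  rcases mul_eq_zero.mp hprod with h1 | h1
  · exact key η (sub_eq_zero.mp h1)
  · exact key _ (sub_eq_zero.mp h1)

lemma genPt_notMem_constPts (hΔ : W.Δ ≠ 0) : genPt F W hΔ ∉ constPts F W := by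
  rintro ⟨P, hP⟩
  rcases P with _ | ⟨c, η, h⟩
  · exact genPt_ne_zero hΔ hP.symm
  · unfold genPt at hP
    rw [Affine.Point.map_some] at hP
    have hx : (Algebra.ofId F (GenField F W)) c = gX F W := (Affine.Point.some.inj hP).1
    exact gX_transcendental F W (hx ▸ isAlgebraic_algebraMap c)

lemma x_transcendental_of_notMem_constPts [IsAlgClosed F] {x y : GenField F W}
    {h : (W⁄(GenField F W)).toAffine.Nonsingular x y}
    (hQ : Affine.Point.some x y h ∉ constPts F W) : Transcendental F x :=
  transcendental_of_notMem_range fun hx => hQ (some_mem_constPts h hx)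

lemma dg_eq_zero_of_mem_constPts {Q : (W⁄(GenField F W)).Point} (hQ : Q ∈ constPts F W) :
    dg Q = 0 := by
  obtain ⟨P, rfl⟩ := hQ
  rcases P with _ | ⟨c, η, h⟩
  · exact dg_zero
  · rw [Affine.Point.map_some, dg_of_ne_zero (Affine.Point.some_ne_zero _)]
    show rdeg (gc0 F W ((Algebra.ofId F (GenField F W)) c)) = 0
    have : (Algebra.ofId F (GenField F W)) c = gOf F W (RatFunc.C c) := algebraMap_F_gen F W c
    rw [this, gc0_gOf, rdeg_C]

lemma mem_constPts_of_dg_eq_zero [IsAlgClosed F] (hΔ : W.Δ ≠ 0) {Q : (W⁄(GenField F W)).Point}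
    (hQ : Q ∈ evenPts F W) (h0 : dg Q = 0) : Q ∈ constPts F W := by
  have hx := xCoord_eq_gOf_xr hΔ hQ
  rcases Q with _ | ⟨x, y, h⟩
  · exact zero_mem _
  · rw [dg_of_ne_zero (Affine.Point.some_ne_zero _)] at h0
    obtain ⟨c, hc⟩ := exists_eq_C_of_rdeg_eq_zero h0
    refine some_mem_constPts h ⟨c, ?_⟩
    rw [algebraMap_F_gen, ← hc]
    exact hx.symm

end const

end Fermat.Agent.EC.H75

end
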