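import Mathlib
import Fermat.Agent.EC.H75_Const
import Fermat.Agent.EC.H75_CompDeg

/-!
# The parallelogram law for the degree of even points (project EC, helper75)
-/

set_option autoImplicit false

noncomputable section

namespace Fermat.Agent.EC.H75

open Polynomial WeierstrassCurve

open scoped WeierstrassCurve.Affine

variable {k : Type*} [Field k] {F : Type*} [Field F] [Algebra k F] {W : WeierstrassCurve k}

lemma b₂_gen : (W⁄(GenField F W)).b₂ = gOf F W (RatFunc.C (W⁄F).b₂) := by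
  show (W.map (algebraMap k (GenField F W))).b₂ = gOf F W (RatFunc.C (W.map (algebraMap k F)).b₂)
  rw [WeierstrassCurve.map_b₂, WeierstrassCurve.map_b₂, algebraMap_k_gen]

lemma b₄_gen : (W⁄(GenField F W)).b₄ = gOf F W (RatFunc.C (W⁄F).b₄) := by
  show (W.map (algebraMap k (GenField F W))).b₄ = gOf F W (RatFunc.C (W.map (algebraMap k F)).b₄)
  rw [WeierstrassCurve.map_b₄, WeierstrassCurve.map_b₄, algebraMap_k_gen]

lemma b₆_gen : (W⁄(GenField F W)).b₆ = gOf F W (RatFunc.C (W⁄F).b₆) := by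
  show (W.map (algebraMap k (GenField F W))).b₆ = gOf F W (RatFunc.C (W.map (algebraMap k F)).b₆)
  rw [WeierstrassCurve.map_b₆, WeierstrassCurve.map_b₆, algebraMap_k_gen]

lemma b₈_gen : (W⁄(GenField F W)).b₈ = gOf F W (RatFunc.C (W⁄F).b₈) := by
  show (W.map (algebraMap k (GenField F W))).b₈ = gOf F W (RatFunc.C (W.map (algebraMap k F)).b₈)
  rw [WeierstrassCurve.map_b₈, WeierstrassCurve.map_b₈, algebraMap_k_gen]

/-- the duplication denominator as a polynomial -/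
def dDenPoly (β₂ β₄ β₆ : F) : F[X] := 4 * X ^ 3 + C β₂ * X ^ 2 + 2 * C β₄ * X + C β₆

/-- the duplication numerator as a polynomial -/
def dNumPoly (β₄ β₆ β₈ : F) : F[X] := X ^ 4 - C β₄ * X ^ 2 - 2 * C β₆ * X - C β₈

lemma eval_dDenPoly (β₂ β₄ β₆ t : F) : (dDenPoly β₂ β₄ β₆).eval t = dDen β₂ β₄ β₆ t := by
  simp [dDenPoly, dDen]

lemma eval_dNumPoly (β₄ β₆ β₈ t : F) : (dNumPoly β₄ β₆ β₈).eval t = dNum β₄ β₆ β₈ t := by
  simp [dNumPoly, dNum]

lemma natDegree_dDenPoly_le (β₂ β₄ β₆ : F) : (dDenPoly β₂ β₄ β₆).natDegree ≤ 4 := by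
  unfold dDenPoly
  compute_degree!

lemma natDegree_dNumPoly_le (β₄ β₆ β₈ : F) : (dNumPoly β₄ β₆ β₈).natDegree ≤ 4 := by
  unfold dNumPoly
  compute_degree

lemma coeff_dNumPoly (β₄ β₆ β₈ : F) : (dNumPoly β₄ β₆ β₈).coeff 4 = 1 := by
  unfold dNumPoly
  simp [coeff_X_pow]

lemma dNumPoly_degree (β₄ β₆ β₈ : F) : (dNumPoly β₄ β₆ β₈).degree ≠ 0 := by
  intro h
  have h4 := coeff_dNumPoly β₄ β₆ β₈
  have : (dNumPoly β₄ β₆ β₈).coeff 4 = 0 := by
    apply coeff_eq_zero_of_degree_lt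
    rw [h]
    norm_num
  rw [this] at h4
  exact zero_ne_one h4

lemma dDenPoly_ne_zero [IsAlgClosed F] {β₂ β₄ β₆ β₈ : F}
    (hncz : ∀ t : F, ¬ (dDen β₂ β₄ β₆ t = 0 ∧ dNum β₄ β₆ β₈ t = 0)) : dDenPoly β₂ β₄ β₆ ≠ 0 := by
  intro h0
  obtain ⟨t, ht⟩ := IsAlgClosed.exists_root _ (dNumPoly_degree β₄ β₆ β₈)
  apply hncz t
  refine ⟨?_, ?_⟩
  · rw [← eval_dDenPoly, h0, eval_zero]
  · rw [← eval_dNumPoly]; exact ht

section para

variable [IsAlgClosed F] (hΔ : W.Δ ≠ 0)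

include hΔ

lemma dg_add_add_dg_sub_of_ne {Q R : (W⁄(GenField F W)).Point} (hQ : Q ∈ evenPts F W)
    (hR : R ∈ evenPts F W) (hQ0 : Q ≠ 0) (hR0 : R ≠ 0)
    (hx : Fermat.Agent.S05.H67.xCoord (W⁄(GenField F W)) Q ≠
      Fermat.Agent.S05.H67.xCoord (W⁄(GenField F W)) R) :
    dg (Q + R) + dg (Q - R) = 2 * dg Q + 2 * dg R := by
  obtain ⟨hS0, hT0⟩ := Fermat.Agent.S05.H67.add_ne_zero_and_sub_ne_zero _ hQ0 hR0 hx
  rw [dg_of_ne_zero hS0, dg_of_ne_zero hT0, dg_of_ne_zero hQ0, dg_of_ne_zero hR0]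
  have hxQ := xCoord_eq_gOf_xr hΔ hQ
  have hxR := xCoord_eq_gOf_xr hΔ hR
  have hxS := xCoord_eq_gOf_xr hΔ (add_mem hQ hR)
  have hxT := xCoord_eq_gOf_xr hΔ (sub_mem hQ hR)
  have hne : xr Q ≠ xr R := by
    intro h
    apply hx
    rw [hxQ, hxR, h]
  have hsum := Fermat.Agent.S05.H67.xCoord_add_add_xCoord_sub _ hQ0 hR0 hx
  have hprod := Fermat.Agent.S05.H67.xCoord_add_mul_xCoord_sub _ hQ0 hR0 hx
  rw [hxQ, hxR, hxS, hxT] at hsum hprod
  simp only [Fermat.Agent.S05.H67.sumNum, Fermat.Agent.S05.H67.prodNum, b₂_gen, b₄_gen, b₆_gen,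
    b₈_gen] at hsum hprod
  refine rdeg_add_rdeg (ncz_of_Δ (F := F) hΔ) hne ?_ ?_
  · apply gOf_injective F W
    simp only [map_add, map_mul, map_pow, map_sub, map_ofNat]
    linear_combination hsum
  · apply gOf_injective F W
    simp only [map_add, map_mul, map_pow, map_sub]
    linear_combination hprod

lemma dg_two_nsmul {Q : (W⁄(GenField F W)).Point} (hQ : Q ∈ evenPts F W) :
    dg (2 • Q) = 4 * dg Q := by
  by_cases hQ0 : Q = 0
  · subst hQ0; simp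
  have hxQ := xCoord_eq_gOf_xr hΔ hQ
  have hncz := ncz_of_Δ (F := F) hΔ
  have hden : Fermat.Agent.S05.H67.dblDen (W⁄(GenField F W))
      (Fermat.Agent.S05.H67.xCoord (W⁄(GenField F W)) Q) =
      gOf F W (aeval (xr Q) (dDenPoly (W⁄F).b₂ (W⁄F).b₄ (W⁄F).b₆)) := by
    rw [hxQ]
    simp only [Fermat.Agent.S05.H67.dblDen, b₂_gen, b₄_gen, b₆_gen, dDenPoly, map_add, map_mul,
      map_pow, aeval_X, aeval_C, map_ofNat, RatFunc.algebraMap_eq_C]
  have hnum : Fermat.Agent.S05.H67.dblNum (W⁄(GenField F W))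
      (Fermat.Agent.S05.H67.xCoord (W⁄(GenField F W)) Q) =
      gOf F W (aeval (xr Q) (dNumPoly (W⁄F).b₄ (W⁄F).b₆ (W⁄F).b₈)) := by
    rw [hxQ]
    simp only [Fermat.Agent.S05.H67.dblNum, b₄_gen, b₆_gen, b₈_gen, dNumPoly, map_sub, map_mul,
      map_pow, aeval_X, aeval_C, map_ofNat, RatFunc.algebraMap_eq_C]
  by_cases h2 : 2 • Q = 0
  · -- `x(Q)` is a root of the duplication denominator, hence constant
    have h0 := (Fermat.Agent.S05.H67.two_nsmul_eq_zero_iff _ hQ0).mp h2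
    rw [hden] at h0
    have h0' : aeval (xr Q) (dDenPoly (W⁄F).b₂ (W⁄F).b₄ (W⁄F).b₆) = 0 :=
      gOf_injective F W (by rw [h0, map_zero])
    obtain ⟨c, hc⟩ := exists_eq_C_of_isAlgebraic ⟨_, dDenPoly_ne_zero hncz, h0'⟩
    rw [h2, dg_zero, dg_of_ne_zero hQ0, hc, rdeg_C]
  · have hdbl := Fermat.Agent.S05.H67.xCoord_two_nsmul _ hQ0 h2
    have hxS := xCoord_eq_gOf_xr hΔ ((evenPts F W).nsmul_mem hQ 2)
    rw [hden, hnum, hxS] at hdbl
    have hne : aeval (xr Q) (dDenPoly (W⁄F).b₂ (W⁄F).b₄ (W⁄F).b₆) ≠ 0 := by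
      intro h0
      apply h2
      rw [Fermat.Agent.S05.H67.two_nsmul_eq_zero_iff _ hQ0, hden, h0, map_zero]
    rw [dg_of_ne_zero h2, dg_of_ne_zero hQ0]
    refine rdeg_comp (nn := dNumPoly (W⁄F).b₄ (W⁄F).b₆ (W⁄F).b₈)
      (mm := dDenPoly (W⁄F).b₂ (W⁄F).b₄ (W⁄F).b₆) (natDegree_dNumPoly_le _ _ _)
      (natDegree_dDenPoly_le _ _ _) ?_
      (Or.inl (by rw [coeff_dNumPoly]; exact one_ne_zero)) hne ?_
    · intro x
      by_contra hcon
      push Not at hcon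
      exact hncz x ⟨by rw [← eval_dDenPoly]; exact hcon.2, by rw [← eval_dNumPoly]; exact hcon.1⟩
    · apply gOf_injective F W
      rw [map_mul]
      exact hdbl

/-- **the parallelogram law** -/
theorem dg_parallelogram {Q R : (W⁄(GenField F W)).Point} (hQ : Q ∈ evenPts F W)
    (hR : R ∈ evenPts F W) : dg (Q + R) + dg (Q - R) = 2 * dg Q + 2 * dg R := by
  by_cases hQ0 : Q = 0
  · subst hQ0; simp; ring
  by_cases hR0 : R = 0
  · subst hR0; simp; ring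
  by_cases hx : Fermat.Agent.S05.H67.xCoord (W⁄(GenField F W)) Q =
      Fermat.Agent.S05.H67.xCoord (W⁄(GenField F W)) R
  · rcases (Fermat.Agent.S05.H67.xCoord_eq_iff _ hQ0 hR0).mp hx with h | h
    · subst h
      rw [sub_self, dg_zero, ← two_nsmul, dg_two_nsmul hΔ hQ]; ring
    · subst h
      rw [neg_add_cancel, dg_zero, ← neg_add', dg_neg, ← two_nsmul, dg_two_nsmul hΔ hR, dg_neg]
      ring
  · exact dg_add_add_dg_sub_of_ne hΔ hQ hR hQ0 hR0 hx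

end para

end Fermat.Agent.EC.H75

end
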