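import Mathlib

/-!
# Integer-valued functions satisfying the parallelogram law are quadratic (project EC, helper75)
-/

set_option autoImplicit false

namespace Fermat.Agent.EC.H75

section

variable {A : Type*} [AddCommGroup A] (D : A → ℤ)

/-- the polar form -/
def polarZ (x y : A) : ℤ := D (x + y) - D x - D y

variable {D}
variable (hpar : ∀ x y : A, D (x + y) + D (x - y) = 2 * D x + 2 * D y)

include hpar

lemma par_zero : D 0 = 0 := by
  have := hpar 0 0
  simp only [add_zero, sub_zero] at this
  linarith

lemma par_neg (y : A) : D (-y) = D y := by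
  have h0 := par_zero hpar
  have := hpar 0 y
  simp only [zero_add, zero_sub, h0] at this
  linarith

lemma par_three (x y z : A) :
    D (x + y + z) = D (x + y) + D (x + z) + D (y + z) - D x - D y - D z := by
  have h1 := hpar (x + y) z
  have h2 := hpar (x + z) y
  have h3 := hpar x (y - z)
  have h4 := hpar y z
  have e1 : x + z + y = x + y + z := by abel
  have e2 : x + (y - z) = x + y - z := by abel
  have e3 : x - (y - z) = x + z - y := by abel
  rw [e1] at h2
  rw [e2, e3] at h3
  linarith

lemma polarZ_add_left (x z y : A) : polarZ D (x + z) y = polarZ D x y + polarZ D z y := by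
  unfold polarZ
  have h := par_three hpar x z y
  have e : x + y + z = x + z + y := by abel
  have h' := par_three hpar x y z
  rw [e] at h'
  linarith

omit hpar in
lemma polarZ_comm (x y : A) : polarZ D x y = polarZ D y x := by
  unfold polarZ
  rw [add_comm]
  ring

lemma polarZ_add_right (y x z : A) : polarZ D y (x + z) = polarZ D y x + polarZ D y z := by
  rw [polarZ_comm, polarZ_add_left hpar, polarZ_comm x y, polarZ_comm z y]

lemma polarZ_self (x : A) : polarZ D x x = 2 * D x := by
  unfold polarZ
  have := hpar x x
  rw [sub_self, par_zero hpar] at this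
  linarith

lemma polarZ_zsmul_left (n : ℤ) (x y : A) : polarZ D (n • x) y = n * polarZ D x y := by
  let f : A →+ ℤ := AddMonoidHom.mk' (fun x => polarZ D x y) (fun a b => polarZ_add_left hpar a b y)
  have := map_zsmul f n x
  simpa [f] using this

lemma polarZ_zsmul_right (n : ℤ) (x y : A) : polarZ D x (n • y) = n * polarZ D x y := by
  rw [polarZ_comm, polarZ_zsmul_left hpar, polarZ_comm]

/-- evaluation of `D` on an integer combination of three elements -/
theorem par_eval (e₀ e₁ e₂ : A) (a b c : ℤ) :
    2 * D (a • e₀ + b • e₁ + c • e₂) =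
      2 * a ^ 2 * D e₀ + 2 * b ^ 2 * D e₁ + 2 * c ^ 2 * D e₂ + 2 * a * b * polarZ D e₀ e₁ +
        2 * a * c * polarZ D e₀ e₂ + 2 * b * c * polarZ D e₁ e₂ := by
  rw [← polarZ_self hpar]
  simp only [polarZ_add_left hpar, polarZ_add_right hpar, polarZ_zsmul_left hpar,
    polarZ_zsmul_right hpar, polarZ_self hpar]
  rw [polarZ_comm e₁ e₀, polarZ_comm e₂ e₀, polarZ_comm e₂ e₁]
  ring

end

end Fermat.Agent.EC.H75
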