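import Mathlib
import Fermat.Agent.EC.H76_InertiaFixed

/-!
# Consequence of (EC-c') for the level-lowering step of S58 (helper76)

If `σ` lies in the inertia group at a prime `q` of multiplicative reduction of `W` and satisfies a
quadratic relation `σ² - tσ + d = 0` on `W[m](Qbar)` (`m` odd, prime to `q`), then
`m ∣ 1 - t + d`: apply the relation to the inertia-fixed point of exact order `m`.
-/

set_option autoImplicit false

namespace Fermat.Agent.EC.H76

open WeierstrassCurve WeierstrassCurve.Affine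

local notation "Qbar" => AlgebraicClosure ℚ

attribute [local instance 10000] AlgebraicClosure.instAlgebra

variable (W : WeierstrassCurve ℤ)

/-- points form: the relation is assumed on the points of the `m`-torsion submodule -/
theorem dvd_of_inertia_quadratic {q : ℕ} (hq : q.Prime) (hqΔ : (q : ℤ) ∣ W.Δ)
    (hqc : ¬ (q : ℤ) ∣ W.c₄) (hΔ : W.Δ ≠ 0) {m : ℕ} (hm : Odd m) (hqm : ¬ q ∣ m)
    (A : ValuationSubring Qbar) (hA : A.LiesOverPrime q) {σ : Qbar ≃ₐ[ℚ] Qbar}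
    (hσ : σ ∈ A.inertiaSubgroupIn ℚ) (t d : ℤ)
    (h : ∀ P ∈ Submodule.torsionBy ℤ ((W.map (Int.castRingHom ℚ))⁄Qbar).Point (m : ℤ),
      σ • σ • P - t • (σ • P) + d • P = 0) :
    (m : ℤ) ∣ 1 - t + d := by
  obtain ⟨P, hPm, hord, hfix⟩ := exists_inertia_fixed_mem_torsionBy W hq hqΔ hqc hΔ hm hqm A hA
  have h1 := h P hPm
  rw [hfix σ hσ, hfix σ hσ] at h1
  have h2 : (1 - t + d) • P = 0 := by
    rw [add_zsmul, sub_zsmul, one_zsmul]; exact h1
  rw [← hord]
  exact (addOrderOf_dvd_iff_zsmul_eq_zero).mpr h2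

/-- subtype form (the module `W[m]` with the frozen action) -/
theorem dvd_of_inertia_quadratic' {q : ℕ} (hq : q.Prime) (hqΔ : (q : ℤ) ∣ W.Δ)
    (hqc : ¬ (q : ℤ) ∣ W.c₄) (hΔ : W.Δ ≠ 0) {m : ℕ} (hm : Odd m) (hqm : ¬ q ∣ m)
    (A : ValuationSubring Qbar) (hA : A.LiesOverPrime q) {σ : Qbar ≃ₐ[ℚ] Qbar}
    (hσ : σ ∈ A.inertiaSubgroupIn ℚ) (t d : ℤ)
    (h : ∀ P : Submodule.torsionBy ℤ ((W.map (Int.castRingHom ℚ))⁄Qbar).Point m,
      σ • σ • P - t • (σ • P) + d • P = 0) :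
    (m : ℤ) ∣ 1 - t + d := by
  refine dvd_of_inertia_quadratic W hq hqΔ hqc hΔ hm hqm A hA hσ t d ?_
  intro P hP
  have h1 := congrArg (Subtype.val) (h ⟨P, hP⟩)
  exact h1

end Fermat.Agent.EC.H76
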