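/-
helper97 — S58 row (T3-F): **level bookkeeping**, `theorem specF : H28.SpecF`.

A squarefree `N0` all of whose prime factors divide `Δ`, times the product of the remaining prime
factors of `Δ`, is the conductor level `rad Δ = W.conductorLevel`.
-/
import Mathlib
import Fermat.Prelude.Def_WeierstrassCurve_ConductorLevel
import Fermat.Agent.EC.H28_T3Interface

set_option autoImplicit false

namespace Fermat.Agent.EC.H97

open WeierstrassCurve

/-- Pure arithmetic core: `N0` squarefree, `R` squarefree, every prime factor of `N0` divides `R`;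
then `N0 * ∏ (primes of R not dividing N0) = R`. -/
theorem mul_prod_sdiff_primeFactors {N0 R : ℕ} (hN0 : Squarefree N0) (hR : Squarefree R)
    (hsub : ∀ q : ℕ, q.Prime → q ∣ N0 → q ∣ R) :
    N0 * ∏ q ∈ R.primeFactors \ N0.primeFactors, q = R := by
  have hR0 : R ≠ 0 := hR.ne_zero
  have hss : N0.primeFactors ⊆ R.primeFactors := by
    intro q hq
    have hqp : q.Prime := Nat.prime_of_mem_primeFactors hq
    exact Nat.mem_primeFactors.2 ⟨hqp, hsub q hqp (Nat.dvd_of_mem_primeFactors hq), hR0⟩
  calc N0 * ∏ q ∈ R.primeFactors \ N0.primeFactors, q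
      = (∏ q ∈ N0.primeFactors, q) * ∏ q ∈ R.primeFactors \ N0.primeFactors, q := by
        rw [Nat.prod_primeFactors_of_squarefree hN0]
    _ = (∏ q ∈ R.primeFactors \ N0.primeFactors, q) * ∏ q ∈ N0.primeFactors, q := mul_comm _ _
    _ = ∏ q ∈ R.primeFactors, q := Finset.prod_sdiff hss
    _ = R := Nat.prod_primeFactors_of_squarefree hR

/-- **Row (T3-F).** -/
theorem specF : Fermat.Agent.EC.H28.SpecF := by
  intro W hΔ N0 hN0 hbad
  have hN00 : N0 ≠ 0 := hN0.ne_zero
  refine ⟨W.conductorLevel.primeFactors \ N0.primeFactors, ?_, ?_⟩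
  · intro q hq
    obtain ⟨hqR, hqN⟩ := Finset.mem_sdiff.1 hq
    have hqp : q.Prime := Nat.prime_of_mem_primeFactors hqR
    refine ⟨hqp, fun hdvd => hqN (Nat.mem_primeFactors.2 ⟨hqp, hdvd, hN00⟩), ?_⟩
    exact (W.prime_dvd_conductorLevel_iff hΔ hqp).1 (Nat.dvd_of_mem_primeFactors hqR)
  · exact mul_prod_sdiff_primeFactors hN0 W.squarefree_conductorLevel
      (fun q hqp hq => (W.prime_dvd_conductorLevel_iff hΔ hqp).2 (hbad q hqp hq))

end Fermat.Agent.EC.H97
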